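import Mathlib
import Fermat.Prelude.Def_ModularCurve_GenusNumerics

/-!
# S20 — the index of `Γ₀(N)` in `SL(2, ℤ)` is `dedekindPsi N`

Route: induction on the prime factorisation of `N`.  For a prime `p` the relative index of
`Γ₀(N p)` in `Γ₀(N)` is `p` if `p ∣ N` and `p + 1` otherwise; this is computed through the
classifying map `g = [a b; N c₁ d] ↦ (a : c₁) ∈ ℙ¹(𝔽_p)` (realised as `Option (ZMod p)`).
-/

set_option autoImplicit false

open scoped MatrixGroups
open CongruenceSubgroup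

namespace Fermat.Agent.S20.Count.Index

/-- The index of a subgroup is the cardinality of the range of any map classifying its
left cosets. -/
theorem index_eq_card_range {G : Type*} [Group G] (H : Subgroup G) {α : Type*} (t : G → α)
    (ht : ∀ g g' : G, t g = t g' ↔ g⁻¹ * g' ∈ H) : H.index = Nat.card (Set.range t) := by
  rw [Subgroup.index]
  let F : G ⧸ H → Set.range t := fun q =>
    Quotient.liftOn' q (fun g => (⟨t g, g, rfl⟩ : Set.range t)) (by
      intro a b hab
      rw [QuotientGroup.leftRel_apply] at hab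
      exact Subtype.ext ((ht a b).mpr hab))
  refine Nat.card_congr (Equiv.ofBijective F ⟨?_, ?_⟩)
  · intro q q'
    induction q using QuotientGroup.induction_on with
    | H a =>
      induction q' using QuotientGroup.induction_on with
      | H b =>
        intro h
        have h' : t a = t b := congrArg Subtype.val h
        exact QuotientGroup.eq.mpr ((ht a b).mp h')
  · rintro ⟨_, g, rfl⟩
    exact ⟨(g : G ⧸ H), rfl⟩


/-! ### The Dedekind psi function under multiplication by a prime -/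



theorem dedekindPsi_mul_of_dvd {p N : ℕ} (hp : p.Prime) (hN : N ≠ 0) (h : p ∣ N) :
    ModularCurve.dedekindPsi (p * N) = p * ModularCurve.dedekindPsi N := by
  unfold ModularCurve.dedekindPsi
  have hset : (p * N).divisors.filter Squarefree = N.divisors.filter Squarefree := by
    ext d
    simp only [Finset.mem_filter, Nat.mem_divisors]
    constructor
    · rintro ⟨⟨hd, -⟩, hsq⟩
      refine ⟨⟨?_, hN⟩, hsq⟩
      by_cases hpd : p ∣ d
      · obtain ⟨e, rfl⟩ := hpd
        have hcop : Nat.Coprime p e := (Nat.squarefree_mul_iff.mp hsq).1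
        have he : e ∣ N := Nat.dvd_of_mul_dvd_mul_left hp.pos hd
        exact Nat.Coprime.mul_dvd_of_dvd_of_dvd hcop h he
      · have hcop : Nat.Coprime d p := (Nat.Prime.coprime_iff_not_dvd hp).mpr hpd |>.symm
        exact hcop.dvd_of_dvd_mul_left hd
    · rintro ⟨⟨hd, -⟩, hsq⟩
      exact ⟨⟨hd.mul_left p, mul_ne_zero hp.ne_zero hN⟩, hsq⟩
  rw [hset, Finset.mul_sum]
  refine Finset.sum_congr rfl fun d hd => ?_
  have hdN : d ∣ N := (Nat.mem_divisors.mp (Finset.mem_filter.mp hd).1).1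
  exact Nat.mul_div_assoc p hdN

theorem dedekindPsi_mul_of_not_dvd {p N : ℕ} (hp : p.Prime) (hN : N ≠ 0) (h : ¬ p ∣ N) :
    ModularCurve.dedekindPsi (p * N) = (p + 1) * ModularCurve.dedekindPsi N := by
  unfold ModularCurve.dedekindPsi
  have hcopN : Nat.Coprime p N := (Nat.Prime.coprime_iff_not_dvd hp).mpr h
  -- split the squarefree divisors of `p * N` according to divisibility by `p`
  have hsplit : (p * N).divisors.filter Squarefree =
      (N.divisors.filter Squarefree) ∪ (N.divisors.filter Squarefree).image (fun e => p * e) := by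
    ext d
    simp only [Finset.mem_filter, Nat.mem_divisors, Finset.mem_union, Finset.mem_image]
    constructor
    · rintro ⟨⟨hd, -⟩, hsq⟩
      by_cases hpd : p ∣ d
      · right
        obtain ⟨e, rfl⟩ := hpd
        refine ⟨e, ⟨⟨Nat.dvd_of_mul_dvd_mul_left hp.pos hd, hN⟩, ?_⟩, rfl⟩
        exact (Nat.squarefree_mul_iff.mp hsq).2.2
      · left
        have hcop : Nat.Coprime d p := (Nat.Prime.coprime_iff_not_dvd hp).mpr hpd |>.symm
        exact ⟨⟨hcop.dvd_of_dvd_mul_left hd, hN⟩, hsq⟩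
    · rintro (⟨⟨hd, -⟩, hsq⟩ | ⟨e, ⟨⟨he, -⟩, hsq⟩, rfl⟩)
      · exact ⟨⟨hd.mul_left p, mul_ne_zero hp.ne_zero hN⟩, hsq⟩
      · refine ⟨⟨Nat.mul_dvd_mul_left p he, mul_ne_zero hp.ne_zero hN⟩, ?_⟩
        have hcop : Nat.Coprime p e := Nat.Coprime.coprime_dvd_right he hcopN
        exact Nat.squarefree_mul_iff.mpr ⟨hcop, hp.squarefree, hsq⟩
  have hdisj : Disjoint (N.divisors.filter Squarefree)
      ((N.divisors.filter Squarefree).image (fun e => p * e)) := by
    rw [Finset.disjoint_left]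
    intro d hd hd'
    simp only [Finset.mem_filter, Nat.mem_divisors, Finset.mem_image] at hd hd'
    obtain ⟨e, -, rfl⟩ := hd'
    exact h ((dvd_mul_right p e).trans hd.1.1)
  rw [hsplit, Finset.sum_union hdisj, Finset.sum_image (fun a _ b _ hab =>
    Nat.eq_of_mul_eq_mul_left hp.pos hab), add_mul, one_mul, Finset.mul_sum]
  congr 1
  · refine Finset.sum_congr rfl fun d hd => ?_
    have hdN : d ∣ N := (Nat.mem_divisors.mp (Finset.mem_filter.mp hd).1).1
    exact Nat.mul_div_assoc p hdN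
  · refine Finset.sum_congr rfl fun d hd => ?_
    exact Nat.mul_div_mul_left N d hp.pos


/-! ### The classifying map -/


/-- The classifying map `g = [a b; N c₁ d] ↦ (a : c₁) ∈ ℙ¹(𝔽_p)`, with values in
`Option (ZMod p)`: `none` is the point `(0 : 1)` and `some x` the point `(1 : x)`. -/
noncomputable def cls (N p : ℕ) (g : SL(2, ℤ)) : Option (ZMod p) :=
  if ((g 0 0 : ℤ) : ZMod p) = 0 then none
  else some ((((g 1 0) / (N : ℤ) : ℤ) : ZMod p) * ((g 0 0 : ℤ) : ZMod p)⁻¹)

theorem dvd_of_mem_Gamma0 {N : ℕ} {g : SL(2, ℤ)} (hg : g ∈ Gamma0 N) : (N : ℤ) ∣ g 1 0 := by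
  rw [Gamma0_mem] at hg
  exact (ZMod.intCast_zmod_eq_zero_iff_dvd _ N).mp hg

theorem det_eq (g : SL(2, ℤ)) : g 0 0 * g 1 1 - g 0 1 * g 1 0 = 1 := by
  have h := g.det_coe
  rw [Matrix.det_fin_two] at h
  exact h

theorem inv_mul_apply_one_zero (g g' : SL(2, ℤ)) :
    (g⁻¹ * g') 1 0 = g 0 0 * g' 1 0 - g 1 0 * g' 0 0 := by
  simp only [Matrix.SpecialLinearGroup.coe_mul, Matrix.SpecialLinearGroup.coe_inv,
    Matrix.adjugate_fin_two, Matrix.mul_apply, Fin.sum_univ_two, Matrix.of_apply,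
    Matrix.cons_val_zero, Matrix.cons_val_one]
  ring

theorem cls_eq_iff {N p : ℕ} [hp : Fact p.Prime] (hN : N ≠ 0) {g g' : SL(2, ℤ)}
    (hg : g ∈ Gamma0 N) (hg' : g' ∈ Gamma0 N) :
    cls N p g = cls N p g' ↔ g⁻¹ * g' ∈ Gamma0 (N * p) := by
  obtain ⟨c1, hc1⟩ := dvd_of_mem_Gamma0 hg
  obtain ⟨c1', hc1'⟩ := dvd_of_mem_Gamma0 hg'
  have hN' : (N : ℤ) ≠ 0 := by exact_mod_cast hN
  have hdiv : g 1 0 / (N : ℤ) = c1 := by rw [hc1, Int.mul_ediv_cancel_left _ hN']
  have hdiv' : g' 1 0 / (N : ℤ) = c1' := by rw [hc1', Int.mul_ediv_cancel_left _ hN']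
  -- membership in `Γ₀(N p)` as a congruence mod `p`
  have hmem : g⁻¹ * g' ∈ Gamma0 (N * p) ↔
      (((g 0 0 * c1' - c1 * g' 0 0 : ℤ)) : ZMod p) = 0 := by
    rw [Gamma0_mem, inv_mul_apply_one_zero, hc1, hc1',
      ZMod.intCast_zmod_eq_zero_iff_dvd, ZMod.intCast_zmod_eq_zero_iff_dvd]
    have : g 0 0 * ((N : ℤ) * c1') - (N : ℤ) * c1 * g' 0 0 =
        (N : ℤ) * (g 0 0 * c1' - c1 * g' 0 0) := by ring
    rw [this]
    push_cast
    exact mul_dvd_mul_iff_left hN'
  -- the pairs `(a, c₁)` are nonzero mod `p`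
  have hne : ¬ (((g 0 0 : ℤ) : ZMod p) = 0 ∧ ((c1 : ℤ) : ZMod p) = 0) := by
    rintro ⟨h1, h2⟩
    have h := congrArg (Int.cast : ℤ → ZMod p) (det_eq g)
    rw [hc1] at h
    push_cast at h
    rw [h1, h2] at h
    simp at h
  have hne' : ¬ (((g' 0 0 : ℤ) : ZMod p) = 0 ∧ ((c1' : ℤ) : ZMod p) = 0) := by
    rintro ⟨h1, h2⟩
    have h := congrArg (Int.cast : ℤ → ZMod p) (det_eq g')
    rw [hc1'] at h
    push_cast at h
    rw [h1, h2] at h
    simp at h
  rw [hmem, cls, cls, hdiv, hdiv']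
  push_cast
  by_cases ha : ((g 0 0 : ℤ) : ZMod p) = 0
  · by_cases ha' : ((g' 0 0 : ℤ) : ZMod p) = 0
    · simp [ha, ha']
    · have hc : ((c1 : ℤ) : ZMod p) ≠ 0 := fun h => hne ⟨ha, h⟩
      simp [ha, ha', hc]
  · by_cases ha' : ((g' 0 0 : ℤ) : ZMod p) = 0
    · have hc : ((c1' : ℤ) : ZMod p) ≠ 0 := fun h => hne' ⟨ha', h⟩
      simp [ha, ha', hc]
    · simp only [ha, ha', if_false, Option.some.injEq]
      rw [sub_eq_zero]
      constructor
      · intro h
        field_simp at h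
        linear_combination -h
      · intro h
        field_simp
        linear_combination -h


/-- An element of `SL(2, ℤ)` from its four entries. -/
def mkSL (a b c d : ℤ) (h : a * d - b * c = 1) : SL(2, ℤ) :=
  ⟨!![a, b; c, d], by rw [Matrix.det_fin_two_of]; exact h⟩

theorem mkSL_zero_zero (a b c d : ℤ) (h : a * d - b * c = 1) : (mkSL a b c d h) 0 0 = a := rfl

theorem mkSL_one_zero (a b c d : ℤ) (h : a * d - b * c = 1) : (mkSL a b c d h) 1 0 = c := rfl

theorem some_mem_range {N p : ℕ} [hp : Fact p.Prime] (hN : N ≠ 0) (x : ZMod p) :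
    ∃ g ∈ Gamma0 N, cls N p g = some x := by
  have hN' : (N : ℤ) ≠ 0 := by exact_mod_cast hN
  refine ⟨mkSL 1 0 ((N : ℤ) * (x.val : ℤ)) 1 (by ring), ?_, ?_⟩
  · rw [Gamma0_mem, mkSL_one_zero]
    simp
  · have h1 : ((1 : ℤ) : ZMod p) ≠ 0 := by
      simp
    rw [cls, mkSL_zero_zero, mkSL_one_zero, if_neg h1, Int.mul_ediv_cancel_left _ hN']
    simp

theorem none_mem_range {N p : ℕ} [hp : Fact p.Prime] (hpN : ¬ p ∣ N) :
    ∃ g ∈ Gamma0 N, cls N p g = none := by
  have hcop : IsCoprime (p : ℤ) (N : ℤ) :=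
    Nat.isCoprime_iff_coprime.mpr ((Nat.Prime.coprime_iff_not_dvd hp.out).mpr hpN)
  obtain ⟨x, y, hxy⟩ := hcop
  refine ⟨mkSL (p : ℤ) (-y) (N : ℤ) x (by linarith), ?_, ?_⟩
  · rw [Gamma0_mem, mkSL_one_zero]
    simp
  · rw [cls, mkSL_zero_zero]
    simp

theorem cls_ne_none {N p : ℕ} [hp : Fact p.Prime] (hpN : p ∣ N) {g : SL(2, ℤ)}
    (hg : g ∈ Gamma0 N) : cls N p g ≠ none := by
  have ha : ((g 0 0 : ℤ) : ZMod p) ≠ 0 := by
    intro h
    have hc : ((g 1 0 : ℤ) : ZMod p) = 0 := by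
      rw [ZMod.intCast_zmod_eq_zero_iff_dvd]
      exact (Int.natCast_dvd_natCast.mpr hpN).trans (dvd_of_mem_Gamma0 hg)
    have hd := congrArg (Int.cast : ℤ → ZMod p) (det_eq g)
    push_cast at hd
    rw [h, hc] at hd
    simp at hd
  simp [cls, ha]

theorem relIndex_Gamma0_mul (N p : ℕ) [hp : Fact p.Prime] (hN : N ≠ 0) :
    (Gamma0 (N * p)).relIndex (Gamma0 N) = if p ∣ N then p else p + 1 := by
  rw [Subgroup.relIndex,
    index_eq_card_range ((Gamma0 (N * p)).subgroupOf (Gamma0 N))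
      (fun g : Gamma0 N => cls N p (g : SL(2, ℤ)))
      (fun g g' => by
        rw [Subgroup.mem_subgroupOf, Subgroup.coe_mul, Subgroup.coe_inv]
        exact cls_eq_iff hN g.2 g'.2)]
  split_ifs with hpN
  · have hrange : Set.range (fun g : Gamma0 N => cls N p (g : SL(2, ℤ))) =
        Set.range (some : ZMod p → Option (ZMod p)) := by
      ext y
      constructor
      · rintro ⟨g, rfl⟩
        cases h : cls N p (g : SL(2, ℤ)) with
        | none => exact absurd h (cls_ne_none hpN g.2)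
        | some x => exact ⟨x, h.symm⟩
      · rintro ⟨x, rfl⟩
        obtain ⟨g, hg, hgx⟩ := some_mem_range (p := p) hN x
        exact ⟨⟨g, hg⟩, hgx⟩
    rw [hrange, Nat.card_range_of_injective (Option.some_injective _), Nat.card_zmod]
  · have hrange : Set.range (fun g : Gamma0 N => cls N p (g : SL(2, ℤ))) = Set.univ := by
      ext y
      simp only [Set.mem_range, Set.mem_univ, iff_true]
      cases y with
      | none =>
        obtain ⟨g, hg, hgx⟩ := none_mem_range (N := N) (p := p) hpN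
        exact ⟨⟨g, hg⟩, hgx⟩
      | some x =>
        obtain ⟨g, hg, hgx⟩ := some_mem_range (p := p) hN x
        exact ⟨⟨g, hg⟩, hgx⟩
    have : NeZero p := ⟨hp.out.ne_zero⟩
    rw [hrange, Nat.card_congr (Equiv.Set.univ _), Nat.card_eq_fintype_card, Fintype.card_option,
      ZMod.card]

theorem Gamma0_mul_le (N p : ℕ) (h : N * p ≠ 0) : Gamma0 (N * p) ≤ Gamma0 N := by
  intro g hg
  rw [Gamma0_mem] at hg ⊢
  have : NeZero (N * p) := ⟨h⟩
  rw [ZMod.intCast_zmod_eq_zero_iff_dvd] at hg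
  rw [ZMod.intCast_zmod_eq_zero_iff_dvd]
  exact (Int.natCast_dvd_natCast.mpr (dvd_mul_right N p)).trans hg

end Fermat.Agent.S20.Count.Index

namespace Fermat.Agent.S20.Count

/-- **Index of `Γ₀(N)`**: `[SL(2, ℤ) : Γ₀(N)] = ψ(N)`, the Dedekind psi function. -/
theorem index_Gamma0 (N : ℕ) [NeZero N] :
    (CongruenceSubgroup.Gamma0 N).index = ModularCurve.dedekindPsi N := by
  have key : ∀ n : ℕ, n ≠ 0 → (Gamma0 n).index = ModularCurve.dedekindPsi n := by
    intro n
    induction n using induction_on_primes with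
    | zero => intro h; exact absurd rfl h
    | one =>
      intro _
      have : Gamma0 1 = ⊤ := by
        ext g
        simp only [Gamma0_mem, Subgroup.mem_top, iff_true]
        exact Subsingleton.elim _ _
      rw [this, Subgroup.index_top, ModularCurve.dedekindPsi_one]
    | prime_mul p a hp ih =>
      intro hpa
      have ha : a ≠ 0 := fun h => hpa (by rw [h, mul_zero])
      have : Fact p.Prime := ⟨hp⟩
      have h1 := Subgroup.relIndex_mul_index (Index.Gamma0_mul_le a p (mul_ne_zero ha hp.ne_zero))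
      rw [Index.relIndex_Gamma0_mul a p ha, ih ha] at h1
      rw [mul_comm p a, ← h1, mul_comm a p]
      split_ifs with hpa'
      · rw [Index.dedekindPsi_mul_of_dvd hp ha hpa']
      · rw [Index.dedekindPsi_mul_of_not_dvd hp ha hpa']
  exact key N (NeZero.ne N)

end Fermat.Agent.S20.Count
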