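import Mathlib

/-!
# The `j`-invariant is injective on `SL(2, ℤ) \ ℍ`

We show: if `E₄ z = l ^ 4 * E₄ z'` and `E₆ z = l ^ 6 * E₆ z'` for some `l ≠ 0`, then `z` and `z'`
are in the same `SL(2, ℤ)`-orbit.  The proof goes through the Weierstrass `℘`-function: a lattice
is determined by its invariants `g₂`, `g₃`.
-/

namespace Fermat.Agent.S20

open Complex Filter Topology UpperHalfPlane EisensteinSeries ModularForm
open scoped PeriodPair

namespace JInj

/-- `℘[L] z = ℘[L - 0] z + 1 / z ^ 2` (true for all `z` thanks to junk values). -/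
lemma weierstrassP_eq_except (L : PeriodPair) (z : ℂ) :
    ℘[L] z = ℘[L - (0 : ℂ)] z + 1 / z ^ 2 := by
  have := L.weierstrassPExcept_def (0 : L.lattice) z
  simp only [ZeroMemClass.coe_zero, sub_zero] at this
  rw [this]
  simp

/-- `℘'[L] z = ℘'[L - 0] z - 2 / z ^ 3` (true for all `z` thanks to junk values). -/
lemma derivWeierstrassP_eq_except (L : PeriodPair) (z : ℂ) :
    ℘'[L] z = ℘'[L - (0 : ℂ)] z - 2 / z ^ 3 := by
  have := L.derivWeierstrassPExcept_def (0 : L.lattice) z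
  simp only [ZeroMemClass.coe_zero, sub_zero] at this
  rw [this]
  ring

/-- The scaled difference of the two Weierstrass ODEs near `0`. -/
lemma ode_diff (L L' : PeriodPair) (h2 : L.g₂ = L'.g₂) (h3 : L.g₃ = L'.g₃) (z : ℂ) (hz : z ≠ 0)
    (hzL : z ∉ L.lattice) (hzL' : z ∉ L'.lattice) :
    z * (℘'[L - (0 : ℂ)] z - ℘'[L' - (0 : ℂ)] z) *
        (z ^ 3 * (℘'[L - (0 : ℂ)] z + ℘'[L' - (0 : ℂ)] z) - 4) =
      (℘[L - (0 : ℂ)] z - ℘[L' - (0 : ℂ)] z) *
        (4 * ((z ^ 2 * ℘[L - (0 : ℂ)] z + 1) ^ 2 +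
          (z ^ 2 * ℘[L - (0 : ℂ)] z + 1) * (z ^ 2 * ℘[L' - (0 : ℂ)] z + 1) +
          (z ^ 2 * ℘[L' - (0 : ℂ)] z + 1) ^ 2) - L.g₂ * z ^ 4) := by
  have e1 := L.derivWeierstrassP_sq z hzL
  have e2 := L'.derivWeierstrassP_sq z hzL'
  rw [weierstrassP_eq_except, derivWeierstrassP_eq_except] at e1 e2
  rw [← h2, ← h3] at e2
  set a := ℘[L - (0 : ℂ)] z
  set b := ℘[L' - (0 : ℂ)] z
  set a' := ℘'[L - (0 : ℂ)] z
  set b' := ℘'[L' - (0 : ℂ)] z
  have f1 : (z ^ 3 * a' - 2) ^ 2 = 4 * (z ^ 2 * a + 1) ^ 3 - L.g₂ * z ^ 4 * (z ^ 2 * a + 1)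
      - L.g₃ * z ^ 6 := by
    have : (z ^ 3 * a' - 2) = z ^ 3 * (a' - 2 / z ^ 3) := by field_simp
    rw [this, mul_pow, e1]
    field_simp
  have f2 : (z ^ 3 * b' - 2) ^ 2 = 4 * (z ^ 2 * b + 1) ^ 3 - L.g₂ * z ^ 4 * (z ^ 2 * b + 1)
      - L.g₃ * z ^ 6 := by
    have : (z ^ 3 * b' - 2) = z ^ 3 * (b' - 2 / z ^ 3) := by field_simp
    rw [this, mul_pow, e2]
    field_simp
  have hz2 : z ^ 2 ≠ 0 := pow_ne_zero _ hz
  apply mul_left_cancel₀ hz2
  linear_combination f1 - f2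

/-- Points near `0` other than `0` are not in the lattice. -/
lemma eventually_notMem_lattice (L : PeriodPair) :
    ∀ᶠ z in 𝓝 (0 : ℂ), z ≠ 0 → z ∉ L.lattice := by
  filter_upwards [L.compl_lattice_sdiff_singleton_mem_nhds 0] with z hz hz0 hzL
  exact hz ⟨hzL, hz0⟩

/-- Two lattices with the same `g₂`, `g₃` have the same `℘` near `0`. -/
lemma eventually_weierstrassP_eq (L L' : PeriodPair) (h2 : L.g₂ = L'.g₂) (h3 : L.g₃ = L'.g₃) :
    ∀ᶠ z in 𝓝[≠] (0 : ℂ), ℘[L] z = ℘[L'] z := by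
  have haA : AnalyticAt ℂ ℘[L - (0 : ℂ)] 0 := L.analyticAt_weierstrassPExcept 0
  have hbA : AnalyticAt ℂ ℘[L' - (0 : ℂ)] 0 := L'.analyticAt_weierstrassPExcept 0
  have ha'A : AnalyticAt ℂ ℘'[L - (0 : ℂ)] 0 := L.analyticAt_derivWeierstrassPExcept 0
  have hb'A : AnalyticAt ℂ ℘'[L' - (0 : ℂ)] 0 := L'.analyticAt_derivWeierstrassPExcept 0
  have hhA : AnalyticAt ℂ (fun z => ℘[L - (0 : ℂ)] z - ℘[L' - (0 : ℂ)] z) 0 := haA.sub hbA
  suffices H : ∀ᶠ z in 𝓝 (0 : ℂ), ℘[L - (0 : ℂ)] z - ℘[L' - (0 : ℂ)] z = 0 by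
    filter_upwards [mem_nhdsWithin_of_mem_nhds H] with z hz
    rw [weierstrassP_eq_except L z, weierstrassP_eq_except L' z]
    linear_combination hz
  by_contra H
  obtain ⟨m, φ, hφA, hφ0, hφ⟩ := hhA.exists_eventuallyEq_pow_smul_nonzero_iff.mpr H
  simp only [sub_zero, smul_eq_mul] at hφ
  -- derivative of `h` near `0`
  have hderiv1 : ∀ᶠ z in 𝓝 (0 : ℂ), HasDerivAt (fun z => ℘[L - (0 : ℂ)] z - ℘[L' - (0 : ℂ)] z)
      (℘'[L - (0 : ℂ)] z - ℘'[L' - (0 : ℂ)] z) z := by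
    filter_upwards [L.compl_lattice_sdiff_singleton_mem_nhds 0,
      L'.compl_lattice_sdiff_singleton_mem_nhds 0] with z hz hz'
    have d1 : HasDerivAt ℘[L - (0 : ℂ)] (℘'[L - (0 : ℂ)] z) z := by
      rw [← L.eqOn_deriv_weierstrassPExcept_derivWeierstrassPExcept 0 hz]
      exact (L.analyticOnNhd_weierstrassPExcept 0 z hz).differentiableAt.hasDerivAt
    have d2 : HasDerivAt ℘[L' - (0 : ℂ)] (℘'[L' - (0 : ℂ)] z) z := by
      rw [← L'.eqOn_deriv_weierstrassPExcept_derivWeierstrassPExcept 0 hz']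
      exact (L'.analyticOnNhd_weierstrassPExcept 0 z hz').differentiableAt.hasDerivAt
    exact d1.sub d2
  have hderiv2 : ∀ᶠ z in 𝓝 (0 : ℂ), HasDerivAt (fun z => z ^ m * φ z)
      ((m : ℂ) * z ^ (m - 1) * φ z + z ^ m * deriv φ z) z := by
    filter_upwards [hφA.eventually_analyticAt] with z hz
    exact (hasDerivAt_pow m z).mul hz.differentiableAt.hasDerivAt
  have hderiv : ∀ᶠ z in 𝓝 (0 : ℂ), ℘'[L - (0 : ℂ)] z - ℘'[L' - (0 : ℂ)] z =
      (m : ℂ) * z ^ (m - 1) * φ z + z ^ m * deriv φ z := by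
    filter_upwards [hderiv1, hderiv2, hφ.eventually_nhds] with z h1 h2 h3
    have h3' : (fun z => ℘[L - (0 : ℂ)] z - ℘[L' - (0 : ℂ)] z) =ᶠ[𝓝 z]
        (fun z => z ^ m * φ z) := h3
    exact (h1.congr_of_eventuallyEq h3'.symm).unique h2
  -- the key relation away from `0`
  have hkey : ∀ᶠ z in 𝓝[≠] (0 : ℂ),
      ((m : ℂ) * φ z + z * deriv φ z) *
        (z ^ 3 * (℘'[L - (0 : ℂ)] z + ℘'[L' - (0 : ℂ)] z) - 4) -
      φ z * (4 * ((z ^ 2 * ℘[L - (0 : ℂ)] z + 1) ^ 2 +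
          (z ^ 2 * ℘[L - (0 : ℂ)] z + 1) * (z ^ 2 * ℘[L' - (0 : ℂ)] z + 1) +
          (z ^ 2 * ℘[L' - (0 : ℂ)] z + 1) ^ 2) - L.g₂ * z ^ 4) = 0 := by
    rw [eventually_nhdsWithin_iff]
    filter_upwards [hderiv, hφ, eventually_notMem_lattice L, eventually_notMem_lattice L']
      with z h1 h2' h3' h4 hz
    have hz : z ≠ 0 := hz
    have key := ode_diff L L' h2 h3 z hz (h3' hz) (h4 hz)
    rw [h1, h2'] at key
    have hzm : z ^ m ≠ 0 := pow_ne_zero _ hz
    have hzz : z * ((m : ℂ) * z ^ (m - 1) * φ z + z ^ m * deriv φ z) =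
        z ^ m * ((m : ℂ) * φ z + z * deriv φ z) := by
      rcases Nat.eq_zero_or_pos m with rfl | hm
      · simp
      · obtain ⟨k, rfl⟩ : ∃ k, m = k + 1 := ⟨m - 1, by omega⟩
        simp only [Nat.add_sub_cancel]
        ring
    rw [hzz] at key
    apply mul_left_cancel₀ hzm
    linear_combination key
  -- pass to the limit `z → 0`
  have hFc : ContinuousAt (fun z : ℂ => ((m : ℂ) * φ z + z * deriv φ z) *
        (z ^ 3 * (℘'[L - (0 : ℂ)] z + ℘'[L' - (0 : ℂ)] z) - 4) -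
      φ z * (4 * ((z ^ 2 * ℘[L - (0 : ℂ)] z + 1) ^ 2 +
          (z ^ 2 * ℘[L - (0 : ℂ)] z + 1) * (z ^ 2 * ℘[L' - (0 : ℂ)] z + 1) +
          (z ^ 2 * ℘[L' - (0 : ℂ)] z + 1) ^ 2) - L.g₂ * z ^ 4)) 0 := by
    have c1 := hφA.continuousAt
    have c2 := hφA.deriv.continuousAt
    have c3 := haA.continuousAt
    have c4 := hbA.continuousAt
    have c5 := ha'A.continuousAt
    have c6 := hb'A.continuousAt
    fun_prop
  have hF0 := tendsto_nhds_unique (hFc.tendsto.mono_left nhdsWithin_le_nhds)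
    (tendsto_const_nhds.congr' (hkey.mono fun z hz => hz.symm))
  simp only [ne_eq, OfNat.ofNat_ne_zero, not_false_eq_true, zero_pow, zero_mul, mul_zero,
    add_zero, zero_sub, zero_add, one_pow, mul_one, sub_zero] at hF0
  have hm3 : ((m + 3 : ℕ) : ℂ) = 0 := by
    push_cast
    have : φ 0 * ((m : ℂ) + 3) = 0 := by linear_combination (-1 / 4 : ℂ) * hF0
    rcases mul_eq_zero.mp this with h | h
    · exact absurd h hφ0
    · exact h
  exact absurd (Nat.cast_eq_zero.mp hm3) (by omega)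

lemma countable_lattice (L : PeriodPair) : (L.lattice : Set ℂ).Countable := by
  have : Countable L.lattice := L.latticeEquivProd.toEquiv.countable_iff.mpr inferInstance
  exact Set.countable_coe_iff.mp this

/-- Two lattices with the same `g₂`, `g₃` have the same `℘` off the lattices. -/
lemma weierstrassP_eqOn (L L' : PeriodPair) (h2 : L.g₂ = L'.g₂) (h3 : L.g₃ = L'.g₃) :
    Set.EqOn ℘[L] ℘[L'] ((L.lattice : Set ℂ) ∪ (L'.lattice : Set ℂ))ᶜ := by
  have hU : IsPreconnected ((L.lattice : Set ℂ) ∪ (L'.lattice : Set ℂ))ᶜ :=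
    (((countable_lattice L).union (countable_lattice L')).isConnected_compl_of_one_lt_rank
      (rank_real_complex ▸ Nat.one_lt_ofNat)).isPreconnected
  have hf : AnalyticOnNhd ℂ ℘[L] ((L.lattice : Set ℂ) ∪ (L'.lattice : Set ℂ))ᶜ :=
    L.analyticOnNhd_weierstrassP.mono (by
      intro z hz hzL; exact hz (Or.inl hzL))
  have hg : AnalyticOnNhd ℂ ℘[L'] ((L.lattice : Set ℂ) ∪ (L'.lattice : Set ℂ))ᶜ :=
    L'.analyticOnNhd_weierstrassP.mono (by
      intro z hz hzL; exact hz (Or.inr hzL))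
  -- find a base point
  have hev := eventually_weierstrassP_eq L L' h2 h3
  rw [eventually_nhdsWithin_iff] at hev
  have hev2 : ∀ᶠ y in 𝓝[≠] (0 : ℂ), (∀ᶠ x in 𝓝 y, ℘[L] x = ℘[L'] x) ∧ y ∉ L.lattice ∧
      y ∉ L'.lattice := by
    rw [eventually_nhdsWithin_iff]
    filter_upwards [eventually_eventually_nhds.mpr hev, eventually_notMem_lattice L,
      eventually_notMem_lattice L'] with y h1 h2 h3 hy
    have hy : y ≠ 0 := hy
    refine ⟨?_, h2 hy, h3 hy⟩
    filter_upwards [h1, isOpen_ne.mem_nhds hy] with x hx hx0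
    exact hx hx0
  obtain ⟨y, hy1, hy2, hy3⟩ := hev2.exists
  exact hf.eqOn_of_preconnected_of_eventuallyEq hg hU (z₀ := y)
    (by intro h; rcases h with h | h; exacts [hy2 h, hy3 h]) hy1

/-- A lattice is determined by its invariants `g₂`, `g₃` (one inclusion). -/
lemma lattice_le_of_g_eq (L L' : PeriodPair) (h2 : L.g₂ = L'.g₂) (h3 : L.g₃ = L'.g₃) :
    L.lattice ≤ L'.lattice := by
  intro x hx
  by_contra hx'
  have h1 : meromorphicOrderAt ℘[L] x = -2 := L.order_weierstrassP x hx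
  have h2' : 0 ≤ meromorphicOrderAt ℘[L'] x :=
    (L'.analyticOnNhd_weierstrassP x hx').meromorphicOrderAt_nonneg
  have h3' : ℘[L] =ᶠ[𝓝[≠] x] ℘[L'] := by
    rw [Filter.EventuallyEq, eventually_nhdsWithin_iff]
    filter_upwards [L.compl_lattice_sdiff_singleton_mem_nhds x,
      L'.compl_lattice_sdiff_singleton_mem_nhds x] with z hz hz' hzx
    have hzx : z ≠ x := hzx
    apply weierstrassP_eqOn L L' h2 h3
    intro h
    rcases h with h | h
    · exact hz ⟨h, hzx⟩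
    · exact hz' ⟨h, hzx⟩
  rw [meromorphicOrderAt_congr h3'] at h1
  rw [h1] at h2'
  exact absurd h2' (by decide)

/-- A lattice is determined by its invariants `g₂`, `g₃`. -/
theorem lattice_eq_of_g_eq (L L' : PeriodPair) (h2 : L.g₂ = L'.g₂) (h3 : L.g₃ = L'.g₃) :
    L.lattice = L'.lattice :=
  le_antisymm (lattice_le_of_g_eq L L' h2 h3) (lattice_le_of_g_eq L' L h2.symm h3.symm)

/-- The period pair `(c * τ, c)` for `τ ∈ ℍ` and `c ≠ 0`. -/
noncomputable def ppOf (c : ℂ) (hc : c ≠ 0) (τ : ℍ) : PeriodPair where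
  ω₁ := c * τ
  ω₂ := c
  indep := by
    rw [LinearIndependent.pair_iff]
    intro s t h
    have h1 : c * ((s : ℂ) * τ + t) = 0 := by
      simp only [Complex.real_smul] at h
      linear_combination h
    have h' : (s : ℂ) * τ + t = 0 := (mul_eq_zero.mp h1).resolve_left hc
    have him := congrArg Complex.im h'
    simp only [add_im, mul_im, ofReal_re, ofReal_im, zero_mul, add_zero, zero_im,
      UpperHalfPlane.coe_im] at him
    have hs : s = 0 := by
      rcases mul_eq_zero.mp him with h | h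
      · exact h
      · exact absurd h τ.im_pos.ne'
    subst hs
    have hre := congrArg Complex.re h'
    simp at hre
    exact ⟨rfl, hre⟩

@[simp] lemma ppOf_ω₁ (c : ℂ) (hc : c ≠ 0) (τ : ℍ) : (ppOf c hc τ).ω₁ = c * τ := rfl
@[simp] lemma ppOf_ω₂ (c : ℂ) (hc : c ≠ 0) (τ : ℍ) : (ppOf c hc τ).ω₂ = c := rfl

lemma G_ppOf (c : ℂ) (hc : c ≠ 0) (τ : ℍ) {k : ℕ} (hk : 3 ≤ k) :
    (ppOf c hc τ).G k = (c ^ k)⁻¹ * (2 * riemannZeta k * E hk τ) := by
  have h1 := tsum_eisSummand_eq_riemannZeta_mul_eisensteinSeries hk τ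
  have h2 : (2 : ℂ) * riemannZeta k * E hk τ = riemannZeta k * eisensteinSeries (N := 1) 0 k τ := by
    rw [show E hk τ = (1 / 2 : ℂ) • eisensteinSeriesSIF (N := 1) 0 k τ from rfl,
      eisensteinSeriesSIF_apply 0 k τ]
    simp only [smul_eq_mul]
    ring
  rw [h2, ← h1, PeriodPair.G, ← (ppOf c hc τ).latticeEquivProd.symm.toEquiv.tsum_eq,
    ← (finTwoArrowEquiv ℤ).symm.tsum_eq, ← tsum_mul_left]
  refine tsum_congr fun x => ?_
  simp only [LinearEquiv.coe_toEquiv, PeriodPair.latticeEquiv_symm_apply, ppOf_ω₁, ppOf_ω₂,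
    eisSummand, finTwoArrowEquiv_symm_apply, Matrix.cons_val_zero, Matrix.cons_val_one,
    zpow_neg, zpow_natCast]
  rw [← mul_inv, ← mul_pow]
  congr 2
  ring

/-- If `ℤ z + ℤ = c (ℤ z' + ℤ)` then `z'` is in the `SL(2, ℤ)`-orbit of `z`. -/
lemma exists_smul_eq_of_lattice_eq (z z' : ℍ) (c : ℂ) (hc : c ≠ 0)
    (h : (ppOf 1 one_ne_zero z).lattice = (ppOf c hc z').lattice) :
    ∃ γ : Matrix.SpecialLinearGroup (Fin 2) ℤ, γ • z = z' := by
  obtain ⟨a, b, hab⟩ : ∃ a b : ℤ, (a : ℂ) * z + b = c * z' := by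
    have : c * (z' : ℂ) ∈ (ppOf 1 one_ne_zero z).lattice := h ▸ (ppOf c hc z').ω₁_mem_lattice
    obtain ⟨m, n, hmn⟩ := PeriodPair.mem_lattice.mp this
    exact ⟨m, n, by simpa using hmn⟩
  obtain ⟨c₁, d, hcd⟩ : ∃ c₁ d : ℤ, (c₁ : ℂ) * z + d = c := by
    have : c ∈ (ppOf 1 one_ne_zero z).lattice := h ▸ (ppOf c hc z').ω₂_mem_lattice
    obtain ⟨m, n, hmn⟩ := PeriodPair.mem_lattice.mp this
    exact ⟨m, n, by simpa using hmn⟩
  obtain ⟨a', b', hab'⟩ : ∃ a' b' : ℤ, (a' : ℂ) * (c * z') + b' * c = z := by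
    have : (z : ℂ) ∈ (ppOf c hc z').lattice := by
      rw [← h]; simpa using (ppOf 1 one_ne_zero z).ω₁_mem_lattice
    obtain ⟨m, n, hmn⟩ := PeriodPair.mem_lattice.mp this
    exact ⟨m, n, by simpa using hmn⟩
  obtain ⟨c', d', hcd'⟩ : ∃ c' d' : ℤ, (c' : ℂ) * (c * z') + d' * c = 1 := by
    have : (1 : ℂ) ∈ (ppOf c hc z').lattice := by
      rw [← h]; simpa using (ppOf 1 one_ne_zero z).ω₂_mem_lattice
    obtain ⟨m, n, hmn⟩ := PeriodPair.mem_lattice.mp this
    exact ⟨m, n, by simpa using hmn⟩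
  have hind : ∀ p q : ℤ, (p : ℂ) * z + q = 0 → p = 0 ∧ q = 0 := by
    intro p q hpq
    have him := congrArg Complex.im hpq
    simp only [add_im, mul_im, intCast_re, intCast_im, zero_mul, add_zero, zero_im,
      UpperHalfPlane.coe_im] at him
    have hp : p = 0 := by
      rcases mul_eq_zero.mp him with h | h
      · exact_mod_cast h
      · exact absurd h z.im_pos.ne'
    subst hp
    have hre := congrArg Complex.re hpq
    simp at hre
    exact ⟨rfl, by exact_mod_cast hre⟩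
  have e1 : a' * a + b' * c₁ = 1 ∧ a' * b + b' * d = 0 := by
    have := hind (a' * a + b' * c₁ - 1) (a' * b + b' * d) (by
      push_cast
      rw [← hab, ← hcd] at hab'
      linear_combination hab')
    omega
  have e2 : c' * a + d' * c₁ = 0 ∧ c' * b + d' * d = 1 := by
    have := hind (c' * a + d' * c₁) (c' * b + d' * d - 1) (by
      push_cast
      rw [← hab, ← hcd] at hcd'
      linear_combination hcd')
    omega
  have hdet : (a * d - b * c₁) * (a' * d' - b' * c') = 1 := by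
    obtain ⟨e11, e12⟩ := e1
    obtain ⟨e21, e22⟩ := e2
    linear_combination (c' * b + d' * d) * e11 + e22 - (c' * a + d' * c₁) * e12
  have hpos : 0 < a * d - b * c₁ := by
    have h1 : (c * z' * (starRingEnd ℂ) c).im = z'.im * Complex.normSq c := by
      rw [mul_right_comm, Complex.mul_conj]
      simp [mul_comm]
    have h2 : (c * z' * (starRingEnd ℂ) c).im = ((a * d - b * c₁ : ℤ) : ℝ) * z.im := by
      rw [← hab, ← hcd]
      simp
      ring
    have h3 : 0 < z'.im * Complex.normSq c := mul_pos z'.im_pos (Complex.normSq_pos.mpr hc)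
    rw [← h1, h2] at h3
    have h4 : (0 : ℝ) < ((a * d - b * c₁ : ℤ) : ℝ) := (pos_iff_pos_of_mul_pos h3).mpr z.im_pos
    exact_mod_cast h4
  have hdet1 : a * d - b * c₁ = 1 := by
    rcases Int.isUnit_iff.mp (IsUnit.of_mul_eq_one _ hdet) with h | h
    · exact h
    · omega
  let γ : Matrix.SpecialLinearGroup (Fin 2) ℤ :=
    ⟨!![a, b; c₁, d], by rw [Matrix.det_fin_two_of]; exact hdet1⟩
  refine ⟨γ, ?_⟩
  apply UpperHalfPlane.ext
  rw [UpperHalfPlane.coe_specialLinearGroup_apply]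
  have hγ : (γ : Matrix (Fin 2) (Fin 2) ℤ) = !![a, b; c₁, d] := rfl
  simp only [hγ]
  simp only [Matrix.of_apply, Matrix.cons_val', Matrix.cons_val_zero,
    Matrix.cons_val_one, Matrix.cons_val_fin_one, algebraMap_int_eq, eq_intCast,
    ofReal_intCast]
  rw [hab, hcd]
  field_simp

end JInj

open JInj

/-- **`j`-injectivity, homogeneous form.** If `E₄ z = l ^ 4 * E₄ z'` and `E₆ z = l ^ 6 * E₆ z'`
with `l ≠ 0`, then `z` and `z'` lie in the same `SL(2, ℤ)`-orbit. -/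
theorem exists_smul_eq_of_E_eq (z z' : ℍ) (l : ℂ) (hl : l ≠ 0)
    (h4 : E₄ z = l ^ 4 * E₄ z') (h6 : E₆ z = l ^ 6 * E₆ z') :
    ∃ γ : Matrix.SpecialLinearGroup (Fin 2) ℤ, γ • z' = z := by
  have hl' : l⁻¹ ≠ 0 := inv_ne_zero hl
  have hG4 : (ppOf 1 one_ne_zero z).G 4 = (ppOf l⁻¹ hl' z').G 4 := by
    rw [G_ppOf _ _ _ (by norm_num : 3 ≤ 4), G_ppOf _ _ _ (by norm_num : 3 ≤ 4)]
    change (1 ^ 4)⁻¹ * (2 * riemannZeta (4 : ℕ) * E₄ z) =
      ((l⁻¹) ^ 4)⁻¹ * (2 * riemannZeta (4 : ℕ) * E₄ z')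
    rw [h4]
    simp only [one_pow, inv_one, one_mul, inv_pow, inv_inv]
    ring
  have hG6 : (ppOf 1 one_ne_zero z).G 6 = (ppOf l⁻¹ hl' z').G 6 := by
    rw [G_ppOf _ _ _ (by norm_num : 3 ≤ 6), G_ppOf _ _ _ (by norm_num : 3 ≤ 6)]
    change (1 ^ 6)⁻¹ * (2 * riemannZeta (6 : ℕ) * E₆ z) =
      ((l⁻¹) ^ 6)⁻¹ * (2 * riemannZeta (6 : ℕ) * E₆ z')
    rw [h6]
    simp only [one_pow, inv_one, one_mul, inv_pow, inv_inv]
    ring
  have hlat := lattice_eq_of_g_eq (ppOf 1 one_ne_zero z) (ppOf l⁻¹ hl' z')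
    (by rw [PeriodPair.g₂, PeriodPair.g₂, hG4]) (by rw [PeriodPair.g₃, PeriodPair.g₃, hG6])
  obtain ⟨γ, hγ⟩ := exists_smul_eq_of_lattice_eq z z' l⁻¹ hl' hlat
  exact ⟨γ⁻¹, by rw [← hγ, inv_smul_smul]⟩

/-- **`j`-injectivity.** If `j z = j z'` (written without division, `j = E₄ ^ 3 / Δ`), then `z`
and `z'` lie in the same `SL(2, ℤ)`-orbit. -/
theorem exists_smul_eq_of_j_eq (z z' : ℍ)
    (h : E₄ z ^ 3 * ModularForm.discriminant z' = E₄ z' ^ 3 * ModularForm.discriminant z) :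
    ∃ γ : Matrix.SpecialLinearGroup (Fin 2) ℤ, γ • z' = z := by
  have hD := ModularForm.discriminant_ne_zero z
  have hD' := ModularForm.discriminant_ne_zero z'
  have eD := ModularForm.discriminant_eq_E₄_cube_sub_E₆_sq z
  have eD' := ModularForm.discriminant_eq_E₄_cube_sub_E₆_sq z'
  rw [eD] at hD
  rw [eD'] at hD'
  rw [eD, eD'] at h
  set A := E₄ z
  set B := E₆ z
  set A' := E₄ z'
  set B' := E₆ z'
  have hrel : A ^ 3 * B' ^ 2 = A' ^ 3 * B ^ 2 := by
    field_simp at h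
    linear_combination -h
  have hne : A ^ 3 - B ^ 2 ≠ 0 := fun h0 => hD (by rw [h0]; simp)
  have hne' : A' ^ 3 - B' ^ 2 ≠ 0 := fun h0 => hD' (by rw [h0]; simp)
  by_cases hA' : A' = 0
  · -- then `A = 0`
    have hA : A = 0 := by
      have : A ^ 3 * B' ^ 2 = 0 := by rw [hrel, hA']; ring
      rcases mul_eq_zero.mp this with h1 | h1
      · exact pow_eq_zero_iff (by norm_num) |>.mp h1
      · exfalso; apply hne'; rw [hA', h1]; ring
    have hB : B ≠ 0 := fun h0 => hne (by rw [hA, h0]; ring)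
    have hB' : B' ≠ 0 := fun h0 => hne' (by rw [hA', h0]; ring)
    obtain ⟨l, hl6⟩ := IsAlgClosed.exists_pow_nat_eq (B / B') (n := 6) (by norm_num)
    have hl : l ≠ 0 := by
      rintro rfl
      have : B / B' = 0 := by rw [← hl6]; ring
      exact div_ne_zero hB hB' this
    refine exists_smul_eq_of_E_eq z z' l hl ?_ ?_
    · change A = l ^ 4 * A'
      rw [hA, hA']; ring
    · change B = l ^ 6 * B'
      rw [hl6]; field_simp
  · have hA : A ≠ 0 := by
      intro h0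
      have : A' ^ 3 * B ^ 2 = 0 := by rw [← hrel, h0]; ring
      rcases mul_eq_zero.mp this with h1 | h1
      · exact hA' (pow_eq_zero_iff (by norm_num) |>.mp h1)
      · apply hne; rw [h0, h1]; ring
    obtain ⟨l, hl4⟩ := IsAlgClosed.exists_pow_nat_eq (A / A') (n := 4) (by norm_num)
    have hl : l ≠ 0 := by
      rintro rfl
      have : A / A' = 0 := by rw [← hl4]; ring
      exact div_ne_zero hA hA' this
    have hA4 : A = l ^ 4 * A' := by rw [hl4]; field_simp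
    have hsq : (B - l ^ 6 * B') * (B + l ^ 6 * B') = 0 := by
      have h3 : A' ^ 3 ≠ 0 := pow_ne_zero _ hA'
      apply mul_left_cancel₀ h3
      rw [hA4] at hrel
      linear_combination -hrel
    rcases mul_eq_zero.mp hsq with h1 | h1
    · exact exists_smul_eq_of_E_eq z z' l hl hA4 (by linear_combination h1)
    · refine exists_smul_eq_of_E_eq z z' (Complex.I * l) (mul_ne_zero Complex.I_ne_zero hl) ?_ ?_
      · change A = (Complex.I * l) ^ 4 * A'
        rw [mul_pow, Complex.I_pow_four, one_mul]; exact hA4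
      · change B = (Complex.I * l) ^ 6 * B'
        have : Complex.I ^ 6 = -1 := by
          rw [show (6 : ℕ) = 4 + 2 by norm_num, pow_add, Complex.I_pow_four, Complex.I_sq]; ring
        rw [mul_pow, this]
        linear_combination h1

/-- The zeros of `E₄` form a single `SL(2, ℤ)`-orbit. -/
theorem exists_smul_eq_of_E₄_eq_zero (z z' : ℍ) (h : E₄ z = 0) (h' : E₄ z' = 0) :
    ∃ γ : Matrix.SpecialLinearGroup (Fin 2) ℤ, γ • z' = z :=
  exists_smul_eq_of_j_eq z z' (by rw [h, h']; ring)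

/-- The zeros of `E₆` form a single `SL(2, ℤ)`-orbit. -/
theorem exists_smul_eq_of_E₆_eq_zero (z z' : ℍ) (h : E₆ z = 0) (h' : E₆ z' = 0) :
    ∃ γ : Matrix.SpecialLinearGroup (Fin 2) ℤ, γ • z' = z :=
  exists_smul_eq_of_j_eq z z' (by
    rw [ModularForm.discriminant_eq_E₄_cube_sub_E₆_sq z,
      ModularForm.discriminant_eq_E₄_cube_sub_E₆_sq z', h, h']; ring)

end Fermat.Agent.S20
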