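import Fermat.Agent.S20.Glue

/-!
# S20 — `E₄, E₆` is a regular sequence on `⨁ₖ M_k(Γ)`

Instantiation of the hypotheses of the abstract graded-freeness theorem for actual modular
forms (function level, `IsMF` / `MFsub` of `Defs.lean`).
-/

set_option autoImplicit false

open UpperHalfPlane ModularForm Matrix.SpecialLinearGroup
open scoped MatrixGroups Manifold ModularForm Topology

namespace Fermat.Agent.S20

noncomputable section

/-- A level-one form times a form of level `Γ` is a form of level `Γ`. -/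
theorem IsMF.levelOne_mul {Γ : Subgroup SL(2, ℤ)} {j k : ℤ} {r f : ℍ → ℂ} (hr : IsMF ⊤ j r)
    (hf : IsMF Γ k f) : IsMF Γ (j + k) (r * f) := by
  refine ⟨hr.1.mul hf.1, fun γ hγ => ?_, fun γ => ?_⟩
  · rw [ModularForm.mul_slash_SL2, hr.2.1 γ trivial, hf.2.1 γ hγ]
  · rw [ModularForm.mul_slash_SL2]
    exact (hr.2.2 γ).mul (hf.2.2 γ)

/-- A bundled level-one modular form satisfies `IsMF ⊤`. -/
theorem isMF_levelOne {k : ℤ} (F : ModularForm 𝒮ℒ k) : IsMF ⊤ k ⇑F := by
  have hinv : ∀ γ : SL(2, ℤ), (⇑F) ∣[k] γ = ⇑F := fun γ =>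
    SlashInvariantFormClass.slash_action_eq F (mapGL ℝ γ) ⟨γ, rfl⟩
  refine ⟨F.holo', fun γ _ => hinv γ, fun γ => ?_⟩
  rw [hinv γ]
  exact ModularFormClass.bdd_at_infty F

theorem isMF_E4f : IsMF ⊤ 4 E4f := isMF_levelOne ModularForm.E₄

theorem isMF_E6f : IsMF ⊤ 6 E6f := isMF_levelOne ModularForm.E₆

theorem E4f_mul_mem {Γ : Subgroup SL(2, ℤ)} {k : ℤ} {f : ℍ → ℂ} (hf : f ∈ MFsub Γ k) :
    E4f * f ∈ MFsub Γ (k + 4) := by
  have := isMF_E4f.levelOne_mul (mem_MFsub.mp hf)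
  rw [add_comm] at this
  exact this

theorem E6f_mul_mem {Γ : Subgroup SL(2, ℤ)} {k : ℤ} {f : ℍ → ℂ} (hf : f ∈ MFsub Γ k) :
    E6f * f ∈ MFsub Γ (k + 6) := by
  have := isMF_E6f.levelOne_mul (mem_MFsub.mp hf)
  rw [add_comm] at this
  exact this

/-- `E₄` tends to `1` at `i∞`. -/
theorem tendsto_E4f : Filter.Tendsto E4f atImInfty (𝓝 1) := by
  have hfanalytic := ModularFormClass.analyticAt_cuspFunction_zero ModularForm.E₄ one_pos
    one_mem_strictPeriods_SL
  have hcomp : (cuspFunction 1 ModularForm.E₄ ∘ fun τ : ℍ ↦ Function.Periodic.qParam 1 τ : ℍ → ℂ)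
      = E4f := by
    funext τ
    simpa [E4f] using (SlashInvariantFormClass.eq_cuspFunction ModularForm.E₄ τ
      one_mem_strictPeriods_SL one_ne_zero)
  have h0 : cuspFunction 1 ModularForm.E₄ 0 = 1 := by
    have h1 := EisensteinSeries.E_qExpansion_coeff_zero (k := 4) (by norm_num) ⟨2, rfl⟩
    rw [qExpansion_coeff] at h1
    simpa using h1
  have := hfanalytic.continuousAt.tendsto.comp (qParam_tendsto_atImInfty one_pos)
  rw [h0] at this
  rw [← hcomp]
  exact this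

theorem E4f_ne_zero : E4f ≠ 0 := by
  intro h
  have h1 := tendsto_E4f
  rw [h] at h1
  have h2 : Filter.Tendsto (0 : ℍ → ℂ) atImInfty (𝓝 0) := tendsto_const_nhds
  exact zero_ne_one (tendsto_nhds_unique h2 h1)

/-- `E₄` is a non-zero-divisor on holomorphic functions. -/
theorem eq_zero_of_E4f_mul_eq_zero {F : ℍ → ℂ} (hF : MDifferentiable 𝓘(ℂ) 𝓘(ℂ) F)
    (h : E4f * F = 0) : F = 0 := by
  rcases (UpperHalfPlane.mul_eq_zero_iff isMF_E4f.1 hF).mp h with h | h
  · exact absurd h E4f_ne_zero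
  · exact h

/-- `E₄` and `E₆` have no common zero. -/
theorem E6f_ne_zero_of_E4f_eq_zero {z : ℍ} (h : E4f z = 0) : E6f z ≠ 0 := by
  intro h6
  have hd := ModularForm.discriminant_eq_E₄_cube_sub_E₆_sq z
  have h4' : ModularForm.E₄ z = 0 := h
  have h6' : ModularForm.E₆ z = 0 := h6
  rw [h4', h6'] at hd
  exact ModularForm.discriminant_ne_zero z (by simpa using hd)

/-- Division lemma: if `E₆ f = E₄ g` then `f` is divisible by `E₄` inside `M(Γ)`. -/
theorem exists_eq_E4f_mul {Γ : Subgroup SL(2, ℤ)} {k : ℤ} {f g : ℍ → ℂ} (hf : f ∈ MFsub Γ k)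
    (hg : g ∈ MFsub Γ (k + 2)) (h : E6f * f = E4f * g) :
    ∃ h ∈ MFsub Γ (k - 4), f = E4f * h := by
  classical
  rw [mem_MFsub] at hf hg
  let H : ℍ → ℂ := fun z => if E4f z = 0 then g z / E6f z else f z / E4f z
  have hz : ∀ z, E6f z * f z = E4f z * g z := fun z => congrFun h z
  have hfH : f = E4f * H := by
    funext z
    by_cases h4 : E4f z = 0
    · have h6 := E6f_ne_zero_of_E4f_eq_zero h4
      have h1 := hz z
      rw [h4, zero_mul] at h1
      have hfz : f z = 0 := by simpa [h6] using h1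
      simp [h4, hfz]
    · simp only [Pi.mul_apply, H, if_neg h4]
      field_simp
  have hHol : MDifferentiable 𝓘(ℂ) 𝓘(ℂ) H := by
    intro z
    by_cases h4 : E4f z = 0
    · have h6 := E6f_ne_zero_of_E4f_eq_zero h4
      have hev : H =ᶠ[𝓝 z] g / E6f := by
        have hopen : ∀ᶠ w in 𝓝 z, E6f w ≠ 0 :=
          isMF_E6f.1.continuous.continuousAt.eventually_ne h6
        filter_upwards [hopen] with w hw
        by_cases hw4 : E4f w = 0
        · simp [H, hw4]
        · simp only [H, if_neg hw4, Pi.div_apply]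
          have h1 := hz w
          field_simp
          linear_combination h1
      exact ((hg.1 z).div (isMF_E6f.1 z) h6).congr_of_eventuallyEq hev
    · have hev : H =ᶠ[𝓝 z] f / E4f := by
        have hopen : ∀ᶠ w in 𝓝 z, E4f w ≠ 0 :=
          isMF_E4f.1.continuous.continuousAt.eventually_ne h4
        filter_upwards [hopen] with w hw
        simp [H, hw]
      exact ((hf.1 z).div (isMF_E4f.1 z) h4).congr_of_eventuallyEq hev
  have hslash : ∀ γ : SL(2, ℤ), E4f * (H ∣[k - 4] γ) = f ∣[k] γ := by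
    intro γ
    have h1 : (E4f * H) ∣[(4 : ℤ) + (k - 4)] γ = E4f ∣[(4 : ℤ)] γ * H ∣[k - 4] γ :=
      ModularForm.mul_slash_SL2 4 (k - 4) γ E4f H
    rw [isMF_E4f.2.1 γ trivial, ← hfH] at h1
    rw [← h1]
    congr 1
    ring
  refine ⟨H, ⟨hHol, fun γ hγ => ?_, fun γ => ?_⟩, hfH⟩
  · have h1 := hslash γ
    rw [hf.2.1 γ hγ] at h1
    have h2 : E4f * (H ∣[k - 4] γ - H) = 0 := by
      rw [mul_sub, h1, ← hfH, sub_self]
    have hHs : MDifferentiable 𝓘(ℂ) 𝓘(ℂ) (H ∣[k - 4] γ) := by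
      rw [ModularForm.SL_slash]
      exact hHol.slash (k - 4) _
    exact sub_eq_zero.mp (eq_zero_of_E4f_mul_eq_zero (hHs.sub hHol) h2)
  · have h1 := hslash γ
    have hE : Filter.Tendsto (fun z => (E4f z)⁻¹) atImInfty (𝓝 1) := by
      simpa using tendsto_E4f.inv₀ one_ne_zero
    have hEb : IsBoundedAtImInfty (fun z => (E4f z)⁻¹) := hE.isBigO_one ℝ
    have hne : ∀ᶠ z in atImInfty, E4f z ≠ 0 := tendsto_E4f.eventually_ne one_ne_zero
    have hprod : IsBoundedAtImInfty ((f ∣[k] γ) * fun z => (E4f z)⁻¹) := (hf.2.2 γ).mul hEb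
    refine Asymptotics.IsBigO.congr' hprod ?_ Filter.EventuallyEq.rfl
    filter_upwards [hne] with z hz
    have h2 := congrFun h1 z
    simp only [Pi.mul_apply] at h2 ⊢
    rw [← h2]
    field_simp

/-- Forms of negative weight vanish. -/
theorem MFsub_eq_bot_of_neg (Γ : Subgroup SL(2, ℤ)) [Γ.FiniteIndex] {k : ℤ} (hk : k < 0) :
    MFsub Γ k = ⊥ := by
  rw [eq_bot_iff]
  intro f hf
  have h0 := ModularForm.isZero_of_neg_weight hk (IsMF.toModularForm (mem_MFsub.mp hf))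
  have h1 : f = ⇑(IsMF.toModularForm (mem_MFsub.mp hf)) := rfl
  rw [Submodule.mem_bot, h1, h0]
  rfl

/-- Forms of odd weight vanish if `-1 ∈ Γ`. -/
theorem MFsub_eq_bot_of_odd {Γ : Subgroup SL(2, ℤ)} (hΓ : -1 ∈ Γ) {k : ℤ} (hk : Odd k) :
    MFsub Γ k = ⊥ := by
  rw [eq_bot_iff]
  intro f hf
  rw [mem_MFsub] at hf
  rw [Submodule.mem_bot]
  funext z
  have h1 := congrFun (hf.2.1 (-1) hΓ) z
  rw [ModularForm.SL_slash_apply] at h1
  have h2 : ((-1 : SL(2, ℤ)) • z) = z := by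
    simp
  have h3 : denom ((-1 : SL(2, ℤ)) : GL (Fin 2) ℝ) z = -1 := by
    simp [denom]
  rw [h2, h3, hk.neg.neg_one_zpow] at h1
  have h4 : (2 : ℂ) * f z = 0 := by linear_combination -h1
  simpa using h4

end

end Fermat.Agent.S20
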