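import Fermat.Agent.S20.Glue

/-!
# S20 — coset translates `tr k f q` and division glue

`tr k f q = f ∣[k] (q.out)⁻¹` for a coset `q : SL(2, ℤ) ⧸ Γ`.  For a `Γ`-invariant `f` this is
independent of the representative (`tr_mk`), `SL(2, ℤ)` permutes the translates (`tr_slash`),
level-one factors pull out (`tr_mul_levelOne`), and we provide the two division lemmas
`IsMF.of_mul_eq` (division by a level-one form with nonzero value at `i∞`) and `IsMF.of_mul_Δ`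
(division by the discriminant).
-/

set_option autoImplicit false

open UpperHalfPlane ModularForm Matrix.SpecialLinearGroup Filter
open scoped MatrixGroups Manifold ModularForm Topology

namespace Fermat.Agent.S20

noncomputable section

variable {Γ : Subgroup SL(2, ℤ)}

/-! ### Basic algebra of translates -/

theorem tr_def (k : ℤ) (f : ℍ → ℂ) (q : SL(2, ℤ) ⧸ Γ) : tr k f q = f ∣[k] (q.out)⁻¹ := rfl

theorem tr_mk {k : ℤ} {f : ℍ → ℂ} (hf : ∀ γ ∈ Γ, f ∣[k] γ = f) (g : SL(2, ℤ)) :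
    tr k f ((g : SL(2, ℤ)) : SL(2, ℤ) ⧸ Γ) = f ∣[k] g⁻¹ := by
  obtain ⟨γ, hγ⟩ := QuotientGroup.mk_out_eq_mul Γ g
  rw [tr_def, hγ, mul_inv_rev, SlashAction.slash_mul, hf _ (Γ.inv_mem γ.2)]

theorem tr_slash {k : ℤ} {f : ℍ → ℂ} (hf : ∀ γ ∈ Γ, f ∣[k] γ = f) (q : SL(2, ℤ) ⧸ Γ)
    (h : SL(2, ℤ)) : tr k f q ∣[k] h = tr k f (h⁻¹ • q) := by
  obtain ⟨g, rfl⟩ := QuotientGroup.mk_surjective q
  rw [MulAction.Quotient.smul_mk, tr_mk hf, tr_mk hf, ← SlashAction.slash_mul, smul_eq_mul,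
    mul_inv_rev, inv_inv]

theorem tr_mul_levelOne {k m : ℤ} (f r : ℍ → ℂ) (hr : IsMF ⊤ m r) (q : SL(2, ℤ) ⧸ Γ) :
    tr (m + k) (r * f) q = r * tr k f q := by
  rw [tr_def, tr_def, mul_slash_SL2, hr.2.1 _ (Subgroup.mem_top _)]

/-- The translate attached to the trivial coset is `f` itself. -/
theorem tr_one {k : ℤ} {f : ℍ → ℂ} (hf : ∀ γ ∈ Γ, f ∣[k] γ = f) :
    tr k f (((1 : SL(2, ℤ)) : SL(2, ℤ)) : SL(2, ℤ) ⧸ Γ) = f := by
  rw [tr_mk hf, inv_one, SlashAction.slash_one]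

/-- Every slash translate of a `Γ`-invariant function is one of the `tr k f q`. -/
theorem slash_eq_tr {k : ℤ} {f : ℍ → ℂ} (hf : ∀ γ ∈ Γ, f ∣[k] γ = f) (γ : SL(2, ℤ)) :
    f ∣[k] γ = tr k f ((γ⁻¹ : SL(2, ℤ)) : SL(2, ℤ) ⧸ Γ) := by
  rw [tr_mk hf, inv_inv]

@[simp] theorem tr_zero (k : ℤ) (q : SL(2, ℤ) ⧸ Γ) : tr k (0 : ℍ → ℂ) q = 0 := by
  rw [tr_def, SlashAction.zero_slash]

theorem tr_add (k : ℤ) (f g : ℍ → ℂ) (q : SL(2, ℤ) ⧸ Γ) :
    tr k (f + g) q = tr k f q + tr k g q := by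
  rw [tr_def, tr_def, tr_def, SlashAction.add_slash]

theorem tr_neg (k : ℤ) (f : ℍ → ℂ) (q : SL(2, ℤ) ⧸ Γ) : tr k (-f) q = -tr k f q := by
  rw [tr_def, tr_def, SlashAction.neg_slash]

theorem tr_sub (k : ℤ) (f g : ℍ → ℂ) (q : SL(2, ℤ) ⧸ Γ) :
    tr k (f - g) q = tr k f q - tr k g q := by
  rw [sub_eq_add_neg, tr_add, tr_neg, sub_eq_add_neg]

theorem tr_smul (k : ℤ) (c : ℂ) (f : ℍ → ℂ) (q : SL(2, ℤ) ⧸ Γ) :
    tr k (c • f) q = c • tr k f q := by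
  rw [tr_def, tr_def, SL_smul_slash]

theorem tr_sum {ι : Type*} (k : ℤ) (s : Finset ι) (f : ι → ℍ → ℂ) (q : SL(2, ℤ) ⧸ Γ) :
    tr k (∑ i ∈ s, f i) q = ∑ i ∈ s, tr k (f i) q := by
  classical
  induction s using Finset.induction_on with
  | empty => simp
  | insert i t hi IH => rw [Finset.sum_insert hi, Finset.sum_insert hi, tr_add, IH]

theorem tr_mul (k₁ k₂ : ℤ) (f g : ℍ → ℂ) (q : SL(2, ℤ) ⧸ Γ) :
    tr (k₁ + k₂) (f * g) q = tr k₁ f q * tr k₂ g q := by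
  rw [tr_def, tr_def, tr_def, mul_slash_SL2]

theorem tr_one_fun (q : SL(2, ℤ) ⧸ Γ) : tr 0 (1 : ℍ → ℂ) q = 1 := by
  rw [tr_def, is_invariant_one]

theorem tr_pow (k : ℤ) (f : ℍ → ℂ) (n : ℕ) (q : SL(2, ℤ) ⧸ Γ) :
    tr (k * n) (f ^ n) q = (tr k f q) ^ n := by
  induction n with
  | zero => simp [tr_one_fun]
  | succ n IH =>
    have h : k * ((n + 1 : ℕ) : ℤ) = k * n + k := by push_cast; ring
    rw [h, pow_succ, tr_mul, IH, pow_succ]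

theorem tr_apply (k : ℤ) (f : ℍ → ℂ) (q : SL(2, ℤ) ⧸ Γ) (z : ℍ) :
    tr k f q z = f ((q.out)⁻¹ • z) * denom ((q.out)⁻¹ : SL(2, ℤ)) z ^ (-k) := by
  rw [tr_def, SL_slash_apply]

/-- All translates vanish at `z` iff `f` vanishes on the whole `SL(2, ℤ)`-orbit of `z`. -/
theorem tr_eq_zero_iff {k : ℤ} {f : ℍ → ℂ} (hf : ∀ γ ∈ Γ, f ∣[k] γ = f) (z : ℍ) :
    (∀ q : SL(2, ℤ) ⧸ Γ, tr k f q z = 0) ↔ ∀ γ : SL(2, ℤ), f (γ • z) = 0 := by
  constructor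
  · intro h γ
    have h1 := h ((γ⁻¹ : SL(2, ℤ)) : SL(2, ℤ) ⧸ Γ)
    rw [← slash_eq_tr hf, SL_slash_apply] at h1
    exact (mul_eq_zero.mp h1).resolve_right (zpow_ne_zero _ (denom_ne_zero _ z))
  · intro h q
    rw [tr_apply, h, zero_mul]

/-! ### Holomorphy and boundedness of translates -/

theorem IsMF.tr_mdiff {k : ℤ} {f : ℍ → ℂ} (hf : IsMF Γ k f) (q : SL(2, ℤ) ⧸ Γ) :
    MDifferentiable 𝓘(ℂ) 𝓘(ℂ) (tr k f q) := by
  rw [tr_def, SL_slash]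
  exact hf.1.slash k _

theorem IsMF.tr_bdd {k : ℤ} {f : ℍ → ℂ} (hf : IsMF Γ k f) (q : SL(2, ℤ) ⧸ Γ) :
    IsBoundedAtImInfty (tr k f q) :=
  hf.2.2 _

theorem IsCF.tr_zero_at {k : ℤ} {f : ℍ → ℂ} (hf : IsCF Γ k f) (q : SL(2, ℤ) ⧸ Γ) :
    IsZeroAtImInfty (tr k f q) :=
  hf.2.2 _

/-- Every translate of a modular form of level `Γ` is again slash-bounded: all its own
`SL(2, ℤ)`-translates are bounded at `i∞`. -/
theorem IsMF.tr_slash_bdd {k : ℤ} {f : ℍ → ℂ} (hf : IsMF Γ k f) (q : SL(2, ℤ) ⧸ Γ)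
    (h : SL(2, ℤ)) : IsBoundedAtImInfty (tr k f q ∣[k] h) := by
  rw [tr_slash hf.2.1]
  exact hf.tr_bdd _

/-! ### Division glue -/

theorem IsMF.of_mul_eq {K m : ℤ} {f u g : ℍ → ℂ} (hf : IsMF Γ K f) (hu : IsMF ⊤ m u)
    (hu0 : ∃ c : ℂ, c ≠ 0 ∧ Tendsto u atImInfty (𝓝 c))
    (hg : MDifferentiable 𝓘(ℂ) 𝓘(ℂ) g) (h : f = u * g) : IsMF Γ (K - m) g := by
  obtain ⟨c, hc, hlim⟩ := hu0
  have hune : u ≠ 0 := by
    rintro rfl
    have h0 : Tendsto (0 : ℍ → ℂ) atImInfty (𝓝 0) := tendsto_const_nhds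
    exact hc (tendsto_nhds_unique hlim h0)
  have hsl : ∀ γ : SL(2, ℤ), f ∣[K] γ = u * g ∣[K - m] γ := by
    intro γ
    have h1 := mul_slash_SL2 m (K - m) γ u g
    rw [show m + (K - m) = K by ring, hu.2.1 γ (Subgroup.mem_top γ), ← h] at h1
    exact h1
  refine ⟨hg, fun γ hγ => ?_, fun γ => ?_⟩
  · have h1 : u * (g ∣[K - m] γ - g) = 0 := by
      rw [mul_sub, ← hsl γ, hf.2.1 γ hγ, h, sub_self]
    have hd : MDifferentiable 𝓘(ℂ) 𝓘(ℂ) (g ∣[K - m] γ - g) := by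
      refine MDifferentiable.sub ?_ hg
      rw [SL_slash]
      exact hg.slash _ _
    rcases (UpperHalfPlane.mul_eq_zero_iff hu.1 hd).mp h1 with h2 | h2
    · exact absurd h2 hune
    · exact sub_eq_zero.mp h2
  · have hb : (f ∣[K] γ) =O[atImInfty] (1 : ℍ → ℝ) := hf.2.2 γ
    have hinv : (fun z => (u z)⁻¹) =O[atImInfty] (1 : ℍ → ℝ) :=
      (hlim.inv₀ hc).isBigO_one ℝ
    have hprod : (fun z => (f ∣[K] γ) z * (u z)⁻¹) =O[atImInfty] (1 : ℍ → ℝ) := by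
      have h5 := hb.mul hinv
      refine h5.congr_right (fun x => ?_)
      simp
    have hev : ∀ᶠ z in atImInfty, u z ≠ 0 := hlim.eventually_ne hc
    refine Asymptotics.IsBigO.congr' hprod ?_ (Filter.EventuallyEq.refl _ _)
    filter_upwards [hev] with z hz
    rw [hsl γ, Pi.mul_apply, mul_comm (u z), mul_assoc, mul_inv_cancel₀ hz, mul_one]

theorem Δf_ne_zero (z : ℍ) : Δf z ≠ 0 := ModularForm.discriminant_ne_zero z

theorem Δf_mdiff : MDifferentiable 𝓘(ℂ) 𝓘(ℂ) Δf := CuspForm.discriminant.holo'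

theorem Δf_slash (γ : SL(2, ℤ)) : Δf ∣[(12 : ℤ)] γ = Δf :=
  SlashInvariantFormClass.slash_action_eq CuspForm.discriminant (mapGL ℝ γ) ⟨γ, rfl⟩

theorem IsMF.of_mul_Δ {K : ℤ} {f g : ℍ → ℂ} (hf : IsMF Γ K f)
    (hdecay : ∀ q : SL(2, ℤ) ⧸ Γ,
      (tr K f q) =O[atImInfty] (fun z : ℍ => Real.exp (-2 * Real.pi * z.im)))
    (h : f = Δf * g) : IsMF Γ (K - 12) g := by
  have hgeq : g = fun z => f z / Δf z := by
    funext z
    rw [h, Pi.mul_apply, mul_div_cancel_left₀ _ (Δf_ne_zero z)]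
  have hg : MDifferentiable 𝓘(ℂ) 𝓘(ℂ) g := by
    rw [hgeq, UpperHalfPlane.mdifferentiable_iff]
    have h1 := UpperHalfPlane.mdifferentiable_iff.mp hf.1
    have h2 := UpperHalfPlane.mdifferentiable_iff.mp Δf_mdiff
    exact h1.div h2 (fun z _ => Δf_ne_zero _)
  have hsl : ∀ γ : SL(2, ℤ), f ∣[K] γ = Δf * g ∣[K - 12] γ := by
    intro γ
    have h1 := mul_slash_SL2 12 (K - 12) γ Δf g
    rw [show (12 : ℤ) + (K - 12) = K by ring, Δf_slash γ, ← h] at h1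
    exact h1
  refine ⟨hg, fun γ hγ => ?_, fun γ => ?_⟩
  · have h1 : Δf * g ∣[K - 12] γ = Δf * g := by rw [← hsl γ, hf.2.1 γ hγ, h]
    funext z
    have h2 := congrFun h1 z
    rw [Pi.mul_apply, Pi.mul_apply] at h2
    exact mul_left_cancel₀ (Δf_ne_zero z) h2
  · have h1 : (f ∣[K] γ) =O[atImInfty] Δf := by
      rw [slash_eq_tr hf.2.1 γ]
      exact (hdecay _).trans ModularForm.exp_isBigO_discriminant
    obtain ⟨C, hC⟩ := h1.bound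
    refine Asymptotics.IsBigO.of_bound C ?_
    filter_upwards [hC] with z hz
    rw [hsl γ, Pi.mul_apply, norm_mul] at hz
    have hpos : 0 < ‖Δf z‖ := norm_pos_iff.mpr (Δf_ne_zero z)
    have h3 : ‖(g ∣[K - 12] γ) z‖ ≤ C := by
      by_contra hlt
      have hlt' := not_le.mp hlt
      have := mul_lt_mul_of_pos_left hlt' hpos
      linarith
    simpa using h3

end

end Fermat.Agent.S20
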