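import Fermat.Agent.S20.Glue
import Fermat.Agent.S20.RegSeq
import Fermat.Agent.S20.Translates
import Fermat.Agent.Lib.LevelOneE4E6

/-!
# S20 — level-one basics and small glue lemmas (task S20-A1)

The statements `isMF_E4f`, `isMF_E6f`, `tendsto_E4f` of the plan are provided by `RegSeq.lean`
and `Δf_ne_zero` by `Translates.lean` (both imported here, so importing this file gives the
whole A1 list).
-/

set_option autoImplicit false

open UpperHalfPlane ModularForm Matrix.SpecialLinearGroup Filter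
open scoped MatrixGroups Manifold ModularForm Topology

namespace Fermat.Agent.S20

noncomputable section

/-! ### Level one: function-level predicates vs. Mathlib's bundled forms for `𝒮ℒ` -/

theorem isMF_top_iff (k : ℤ) (f : ℍ → ℂ) :
    IsMF ⊤ k f ↔ ∃ F : ModularForm 𝒮ℒ k, ⇑F = f := by
  constructor
  · intro hf
    refine ⟨{ toFun := f
              slash_action_eq' := ?_
              holo' := hf.1
              bdd_at_cusps' := ?_ }, rfl⟩
    · rintro _ ⟨γ, rfl⟩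
      exact hf.2.1 γ (Subgroup.mem_top γ)
    · intro c hc
      rw [Subgroup.IsArithmetic.isCusp_iff_isCusp_SL2Z] at hc
      rw [OnePoint.isBoundedAt_iff_forall_SL2Z hc]
      intro γ _
      exact hf.2.2 γ
  · rintro ⟨F, rfl⟩
    refine ⟨F.holo', fun γ _ => ?_, fun γ => ?_⟩
    · exact SlashInvariantFormClass.slash_action_eq F (mapGL ℝ γ) ⟨γ, rfl⟩
    · have hc : IsCusp (mapGL ℝ γ • OnePoint.infty) 𝒮ℒ := by
        rw [Subgroup.IsArithmetic.isCusp_iff_isCusp_SL2Z, isCusp_SL2Z_iff']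
        exact ⟨γ, rfl⟩
      exact F.bdd_at_cusps' hc (mapGL ℝ γ) rfl

theorem isCF_top_iff (k : ℤ) (f : ℍ → ℂ) :
    IsCF ⊤ k f ↔ ∃ F : CuspForm 𝒮ℒ k, ⇑F = f := by
  constructor
  · intro hf
    refine ⟨{ toFun := f
              slash_action_eq' := ?_
              holo' := hf.1
              zero_at_cusps' := ?_ }, rfl⟩
    · rintro _ ⟨γ, rfl⟩
      exact hf.2.1 γ (Subgroup.mem_top γ)
    · intro c hc
      rw [Subgroup.IsArithmetic.isCusp_iff_isCusp_SL2Z] at hc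
      rw [OnePoint.isZeroAt_iff_forall_SL2Z hc]
      intro γ _
      exact hf.2.2 γ
  · rintro ⟨F, rfl⟩
    refine ⟨F.holo', fun γ _ => ?_, fun γ => ?_⟩
    · exact SlashInvariantFormClass.slash_action_eq F (mapGL ℝ γ) ⟨γ, rfl⟩
    · have hc : IsCusp (mapGL ℝ γ • OnePoint.infty) 𝒮ℒ := by
        rw [Subgroup.IsArithmetic.isCusp_iff_isCusp_SL2Z, isCusp_SL2Z_iff']
        exact ⟨γ, rfl⟩
      exact F.zero_at_cusps' hc (mapGL ℝ γ) rfl

theorem isCF_Δf : IsCF ⊤ 12 Δf := (isCF_top_iff 12 Δf).2 ⟨CuspForm.discriminant, rfl⟩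

theorem Δf_eq (z : ℍ) : 1728 * Δf z = E4f z ^ 3 - E6f z ^ 2 := by
  have h := ModularForm.discriminant_eq_E₄_cube_sub_E₆_sq z
  change 1728 * ModularForm.discriminant z = E₄ z ^ 3 - E₆ z ^ 2
  rw [h]
  ring

/-- A level-one modular form tends to the constant term of its `q`-expansion at `i∞`. -/
theorem tendsto_levelOne_atImInfty {k : ℤ} (F : ModularForm 𝒮ℒ k) :
    Tendsto (⇑F) atImInfty (𝓝 ((qExpansion 1 F).coeff 0)) := by
  have hanal := ModularFormClass.analyticAt_cuspFunction_zero F one_pos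
    one_mem_strictPeriods_SL
  have h1 : Tendsto (⇑F) atImInfty (𝓝 (cuspFunction 1 F 0)) :=
    (hanal.continuousAt.tendsto.comp (qParam_tendsto_atImInfty one_pos)).congr
      (fun τ => SlashInvariantFormClass.eq_cuspFunction F τ
        one_mem_strictPeriods_SL one_ne_zero)
  have h2 : (qExpansion 1 F).coeff 0 = cuspFunction 1 F 0 := by
    simp [qExpansion_coeff]
  rw [h2]
  exact h1

theorem tendsto_E6f : Tendsto E6f atImInfty (𝓝 1) := by
  have h := tendsto_levelOne_atImInfty E₆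
  have h6 : (qExpansion 1 E₆).coeff 0 = 1 :=
    EisensteinSeries.E_qExpansion_coeff_zero (by norm_num : 3 ≤ 6) ⟨3, rfl⟩
  rw [h6] at h
  exact h

/-! ### Level-one forms are polynomials in `E₄`, `E₆` -/

theorem levelOne_mem_monoSpan (m : ℤ) (r : ℍ → ℂ) (hr : IsMF ⊤ m r) :
    r ∈ monoSpan E4f E6f m := by
  obtain ⟨F, rfl⟩ := (isMF_top_iff m r).1 hr
  refine Submodule.span_induction (p := fun (c : ModularForm 𝒮ℒ m) _ => (⇑c : ℍ → ℂ) ∈ monoSpan E4f E6f m)
    ?_ ?_ ?_ ?_ (Fermat.Agent.Lib.LevelOneE4E6.mem_span_monoSet F)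
  · rintro g ⟨a, b, hab, hg⟩
    refine Submodule.subset_span ⟨a, b, hab, ?_⟩
    funext z
    rw [hg z]
    rfl
  · change (0 : ℍ → ℂ) ∈ monoSpan E4f E6f m
    exact Submodule.zero_mem _
  · intro x y _ _ hx hy
    change (⇑x + ⇑y : ℍ → ℂ) ∈ monoSpan E4f E6f m
    exact Submodule.add_mem _ hx hy
  · intro a x _ hx
    change (a • ⇑x : ℍ → ℂ) ∈ monoSpan E4f E6f m
    exact Submodule.smul_mem _ a hx

theorem monoSpan_le_MFsub (m : ℤ) : monoSpan E4f E6f m ≤ MFsub ⊤ m := by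
  refine Submodule.span_le.2 ?_
  rintro g ⟨a, b, hab, rfl⟩
  exact (isMF_top_iff m _).2
    ⟨Fermat.Agent.Lib.LevelOneE4E6.monoForm m a b hab,
      Fermat.Agent.Lib.LevelOneE4E6.coe_monoForm m a b hab⟩

/-! ### General closure properties -/

theorem IsMF.mul {Γ : Subgroup SL(2, ℤ)} {k l : ℤ} {f g : ℍ → ℂ} (hf : IsMF Γ k f)
    (hg : IsMF Γ l g) : IsMF Γ (k + l) (f * g) := by
  refine ⟨hf.1.mul hg.1, fun γ hγ => ?_, fun γ => ?_⟩
  · rw [mul_slash_SL2, hf.2.1 γ hγ, hg.2.1 γ hγ]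
  · rw [mul_slash_SL2]
    exact (hf.2.2 γ).mul (hg.2.2 γ)

theorem IsMF.mono {Γ Γ' : Subgroup SL(2, ℤ)} (h : Γ ≤ Γ') {k : ℤ} {f : ℍ → ℂ}
    (hf : IsMF Γ' k f) : IsMF Γ k f :=
  ⟨hf.1, fun γ hγ => hf.2.1 γ (h hγ), hf.2.2⟩

theorem IsMF.eq_zero_of_neg {Γ : Subgroup SL(2, ℤ)} [Γ.FiniteIndex] {k : ℤ} {f : ℍ → ℂ}
    (hf : IsMF Γ k f) (hk : k < 0) : f = 0 := by
  have h := ModularForm.isZero_of_neg_weight hk hf.toModularForm
  have h2 : (⇑hf.toModularForm : ℍ → ℂ) = 0 := by rw [h]; rfl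
  exact h2

theorem IsMF.eq_const_of_weight_zero {Γ : Subgroup SL(2, ℤ)} [Γ.FiniteIndex] {f : ℍ → ℂ}
    (hf : IsMF Γ 0 f) : ∃ c : ℂ, f = fun _ => c := by
  obtain ⟨c, hc⟩ := ModularForm.eq_const_of_weight_zero hf.toModularForm
  exact ⟨c, hc⟩

theorem IsCF.eq_zero_of_nonpos {Γ : Subgroup SL(2, ℤ)} [Γ.FiniteIndex] {k : ℤ} {f : ℍ → ℂ}
    (hf : IsCF Γ k f) (hk : k ≤ 0) : f = 0 := by
  rcases hk.lt_or_eq with h | rfl
  · exact hf.isMF.eq_zero_of_neg h
  · obtain ⟨c, rfl⟩ := hf.isMF.eq_const_of_weight_zero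
    have h1 := hf.2.2 1
    rw [SlashAction.slash_one] at h1
    have h2 : Tendsto (fun _ : ℍ => c) atImInfty (𝓝 0) := h1
    have h3 : c = 0 := tendsto_nhds_unique tendsto_const_nhds h2
    funext z
    simp [h3]

theorem IsMF.eq_zero_of_odd {Γ : Subgroup SL(2, ℤ)} (hneg : (-1 : SL(2, ℤ)) ∈ Γ) {k : ℤ}
    {f : ℍ → ℂ} (hf : IsMF Γ k f) (hk : Odd k) : f = 0 := by
  funext z
  have h := congrFun (hf.2.1 (-1) hneg) z
  rw [slash_action_eq'_iff] at h
  have h1 : (-1 : SL(2, ℤ)) • z = z := by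
    have h0 := ModularGroup.SL_neg_smul (1 : SL(2, ℤ)) z
    rw [one_smul] at h0
    exact h0
  rw [h1] at h
  have h2 : ((((-1 : SL(2, ℤ)) 1 0 : ℤ) : ℂ) * (z : ℂ) + (((-1 : SL(2, ℤ)) 1 1 : ℤ) : ℂ)) = -1 := by
    simp
  rw [h2, hk.neg_one_zpow] at h
  have h3 : (2 : ℂ) * f z = 0 := by linear_combination h
  simpa using h3

/-- Identity theorem: a product of holomorphic functions on `ℍ` vanishes iff a factor does. -/
theorem mdiff_mul_eq_zero {f g : ℍ → ℂ} (hf : MDifferentiable 𝓘(ℂ) 𝓘(ℂ) f)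
    (hg : MDifferentiable 𝓘(ℂ) 𝓘(ℂ) g) (h : f * g = 0) : f = 0 ∨ g = 0 := by
  rw [UpperHalfPlane.mdifferentiable_iff] at hf hg
  have hf' := hf.analyticOnNhd isOpen_upperHalfPlaneSet
  have hg' := hg.analyticOnNhd isOpen_upperHalfPlaneSet
  have hU : IsPreconnected {z : ℂ | 0 < z.im} :=
    (Complex.isConnected_of_upperHalfPlane subset_rfl (by grind)).isPreconnected
  have hfg : ∀ z ∈ {z : ℂ | 0 < z.im}, (f ∘ ofComplex) z * (g ∘ ofComplex) z = 0 :=
    fun z _ => congrFun h (ofComplex z)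
  rcases AnalyticOnNhd.eq_zero_or_eq_zero_of_mul_eq_zero hf' hg' hfg hU with h1 | h1
  · left
    funext w
    have := h1 w w.im_pos
    simpa [Function.comp_apply, ofComplex_apply] using this
  · right
    funext w
    have := h1 w w.im_pos
    simpa [Function.comp_apply, ofComplex_apply] using this

end

end Fermat.Agent.S20
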