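import Fermat.Agent.S20.Glue

/-!
# S20 — simple zeros of `E₄`, `E₆` and of `Δ(z₀) E₄³ - E₄(z₀)³ Δ`

Ramanujan's identities `D E₄ = (E₂ E₄ - E₆) / 3`, `D E₆ = (E₂ E₆ - E₄²) / 2`, `D Δ = E₂ Δ`
via the Serre derivative, and the resulting simplicity of zeros.
-/

set_option autoImplicit false

open UpperHalfPlane ModularForm Filter Topology Derivative
open scoped MatrixGroups Manifold ModularForm Real

namespace Fermat.Agent.S20

namespace SerreFacts

noncomputable section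

local notation "𝕢" => Function.Periodic.qParam

/-! ### Limits at `i∞` -/

/-- A function with a convergent `q`-expansion in `𝕢 1` is `1`-periodic. -/
theorem periodic_of_hasSum {f : ℍ → ℂ} {c : ℕ → ℂ}
    (hf : ∀ τ : ℍ, HasSum (fun m ↦ c m • 𝕢 1 τ ^ m) (f τ)) :
    Function.Periodic (f ∘ ofComplex) (1 : ℝ) := by
  intro w
  by_cases hw : 0 < w.im
  · have hw1 : 0 < (w + (1 : ℝ)).im := by simpa using hw
    have hq : 𝕢 1 (w + 1) = 𝕢 1 w := by
      simp only [Function.Periodic.qParam, Complex.ofReal_one, div_one]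
      rw [mul_add, mul_one, Complex.exp_add, Complex.exp_two_pi_mul_I, mul_one]
    simp only [Function.comp_apply]
    rw [ofComplex_apply_of_im_pos hw, ofComplex_apply_of_im_pos hw1]
    refine (hf ⟨w + (1 : ℝ), hw1⟩).unique ?_
    have := hf ⟨w, hw⟩
    simpa [hq] using this
  · have h1 : w.im ≤ 0 := not_lt.mp hw
    have h2 : (w + (1 : ℝ)).im ≤ 0 := by simpa using h1
    simp only [Function.comp_apply]
    rw [ofComplex_apply_eq_of_im_nonpos h2 h1]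

/-- A holomorphic function with a convergent `q`-expansion tends to its constant coefficient. -/
theorem tendsto_of_hasSum {f : ℍ → ℂ} {c : ℕ → ℂ} (hhol : MDifferentiable 𝓘(ℂ) 𝓘(ℂ) f)
    (hf : ∀ τ : ℍ, HasSum (fun m ↦ c m • 𝕢 1 τ ^ m) (f τ)) :
    Tendsto f atImInfty (𝓝 (c 0)) := by
  have hper := periodic_of_hasSum hf
  have hbdd : IsBoundedAtImInfty f := isBoundedAtImInfty_of_hasSum_qExpansion one_pos hf
  have han : AnalyticAt ℂ (cuspFunction 1 f) 0 :=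
    UpperHalfPlane.analyticAt_cuspFunction_zero one_pos hper hhol hbdd
  have h0 : c 0 = cuspFunction 1 f 0 := by
    have hfp := hasFPowerSeriesOnBall_cuspFunction one_pos han hf
    have h1 := hfp.coeff_zero (fun _ ↦ 0)
    simpa using h1
  rw [h0]
  have hcomp : (cuspFunction 1 f ∘ fun τ : ℍ ↦ 𝕢 1 τ : ℍ → ℂ) = f := by
    funext τ
    simpa using eq_cuspFunction τ one_ne_zero hper
  have := han.continuousAt.tendsto.comp (qParam_tendsto_atImInfty one_pos)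
  rwa [hcomp] at this

theorem tendsto_mf {k : ℤ} (f : ModularForm 𝒮ℒ k) :
    Tendsto (f : ℍ → ℂ) atImInfty (𝓝 ((qExpansion 1 f).coeff 0)) :=
  tendsto_of_hasSum f.holo' (ModularForm.hasSum_qExpansion (h := 1) f one_pos one_mem_strictPeriods_SL)

theorem tendsto_E₄ : Tendsto (E₄ : ℍ → ℂ) atImInfty (𝓝 1) := by
  have h := tendsto_mf E₄
  rwa [EisensteinSeries.E_qExpansion_coeff_zero _ ⟨2, rfl⟩] at h

theorem tendsto_E₆ : Tendsto (E₆ : ℍ → ℂ) atImInfty (𝓝 1) := by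
  have h := tendsto_mf E₆
  rwa [EisensteinSeries.E_qExpansion_coeff_zero _ ⟨3, rfl⟩] at h

theorem tendsto_E2 : Tendsto EisensteinSeries.E2 atImInfty (𝓝 1) := by
  have h := tendsto_of_hasSum (c := fun m : ℕ ↦ (if m = 0 then 1 else -24 * ArithmeticFunction.sigma 1 m : ℂ))
    E2_mdifferentiable (fun τ ↦ by
      simpa only [Function.Periodic.qParam, Complex.ofReal_one, div_one] using
        EisensteinSeries.hasSum_qExpansion_E2 (z := τ))
  simpa using h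

/-! ### The normalised derivative of a modular form at `i∞` -/

theorem D_eq_qParam_mul_deriv {k : ℤ} (f : ModularForm 𝒮ℒ k) (z : ℍ) :
    D f z = 𝕢 1 z * deriv (cuspFunction 1 f) (𝕢 1 z) := by
  have hper := SlashInvariantFormClass.periodic_comp_ofComplex f one_mem_strictPeriods_SL
  have hq : ‖𝕢 1 (z : ℂ)‖ < 1 := Function.Periodic.norm_qParam_lt_one one_pos z.im_pos
  have hdiff : DifferentiableAt ℂ (cuspFunction 1 f) (𝕢 1 z) :=
    ModularFormClass.differentiableAt_cuspFunction f one_pos one_mem_strictPeriods_SL hq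
  have hqd : HasDerivAt (𝕢 1) (2 * π * Complex.I * 𝕢 1 (z : ℂ)) (z : ℂ) := by
    unfold Function.Periodic.qParam
    have h1 : HasDerivAt (fun w : ℂ ↦ 2 * π * Complex.I * w / ((1 : ℝ) : ℂ)) (2 * π * Complex.I)
        (z : ℂ) := by
      simpa using ((hasDerivAt_id (z : ℂ)).const_mul (2 * π * Complex.I)).div_const ((1 : ℝ) : ℂ)
    exact h1.cexp.congr_deriv (mul_comm _ _)
  have hcomp : (f ∘ ofComplex) =ᶠ[𝓝 (z : ℂ)] (cuspFunction 1 f) ∘ (𝕢 1) := by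
    filter_upwards [isOpen_upperHalfPlaneSet.mem_nhds z.im_pos] with w hw
    simp only [Function.comp_apply]
    rw [ofComplex_apply_of_im_pos hw]
    exact (eq_cuspFunction ⟨w, hw⟩ one_ne_zero hper).symm
  have hd : HasDerivAt (f ∘ ofComplex)
      (deriv (cuspFunction 1 f) (𝕢 1 z) * (2 * π * Complex.I * 𝕢 1 (z : ℂ))) (z : ℂ) :=
    (hdiff.hasDerivAt.comp (z : ℂ) hqd).congr_of_eventuallyEq hcomp
  rw [normalizedDerivOfComplex, hd.deriv]
  have : (2 * π * Complex.I : ℂ) ≠ 0 := Complex.two_pi_I_ne_zero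
  field_simp

theorem tendsto_D {k : ℤ} (f : ModularForm 𝒮ℒ k) : Tendsto (D f) atImInfty (𝓝 0) := by
  have han := ModularFormClass.analyticAt_cuspFunction_zero f one_pos one_mem_strictPeriods_SL
  have hq : Tendsto (fun τ : ℍ ↦ 𝕢 1 τ) atImInfty (𝓝 0) := qParam_tendsto_atImInfty one_pos
  have hder : Tendsto (fun τ : ℍ ↦ deriv (cuspFunction 1 f) (𝕢 1 τ)) atImInfty
      (𝓝 (deriv (cuspFunction 1 f) 0)) :=
    han.deriv.continuousAt.tendsto.comp hq
  have h := hq.mul hder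
  rw [zero_mul] at h
  exact h.congr (fun τ ↦ (D_eq_qParam_mul_deriv f τ).symm)

theorem tendsto_serre {k : ℤ} (f : ModularForm 𝒮ℒ k) :
    Tendsto (serreDerivative k f) atImInfty
      (𝓝 (-((k : ℂ) * 12⁻¹ * (qExpansion 1 f).coeff 0))) := by
  have h1 := tendsto_D f
  have h2 := (tendsto_E2.const_mul ((k : ℂ) * 12⁻¹)).mul (tendsto_mf f)
  have h := h1.sub h2
  simp only [zero_sub, mul_one] at h
  exact h.congr (fun τ ↦ by simp [serreDerivative])

/-- The Serre derivative of a level-one modular form, as a modular form. -/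
def serreMF {k : ℤ} (f : ModularForm 𝒮ℒ k) (k' : ℤ) (hk : k' = k + 2) : ModularForm 𝒮ℒ k' where
  toFun := serreDerivative k f
  slash_action_eq' := by
    subst hk
    rintro _ ⟨γ, rfl⟩
    exact serreDerivative_slash_invariant f.holo'
      (SlashInvariantForm.slash_action_eqn f _ ⟨γ, rfl⟩)
  holo' := serreDerivative_mdifferentiable _ f.holo'
  bdd_at_cusps' := by
    subst hk
    intro c hc
    rw [OnePoint.isBoundedAt_iff_forall_SL2Z hc]
    intro γ _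
    have hinv : serreDerivative k f ∣[k + 2] γ = serreDerivative k f :=
      serreDerivative_slash_invariant f.holo'
        (SlashInvariantForm.slash_action_eqn f _ ⟨γ, rfl⟩)
    rw [hinv]
    exact (tendsto_serre f).isBigO_one ℝ

theorem coe_serreMF {k : ℤ} (f : ModularForm 𝒮ℒ k) (k' : ℤ) (hk : k' = k + 2) :
    (serreMF f k' hk : ℍ → ℂ) = serreDerivative k f := rfl

/-! ### Ramanujan's identities -/

theorem serre_E₄ (z : ℍ) : serreDerivative 4 E₄ z = -(1 / 3 : ℂ) * E₆ z := by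
  have hrank : Module.finrank ℂ (ModularForm 𝒮ℒ 6) = 1 :=
    Module.rank_eq_one_iff_finrank_eq_one.mp levelOne_weight_six_rank_one
  have hE6 : (E₆ : ModularForm 𝒮ℒ 6) ≠ 0 := EisensteinSeries.E_ne_zero _ ⟨3, rfl⟩
  obtain ⟨c, hc⟩ := (finrank_eq_one_iff_of_nonzero' E₆ hE6).mp hrank (serreMF E₄ 6 (by norm_num))
  have hfun : ∀ w : ℍ, c * E₆ w = serreDerivative 4 E₄ w := fun w ↦ by
    have h := congrArg (fun F : ModularForm 𝒮ℒ 6 ↦ F w) hc
    simpa [coe_serreMF] using h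
  have h1 : Tendsto (fun w : ℍ ↦ c * E₆ w) atImInfty (𝓝 (c * 1)) := tendsto_E₆.const_mul c
  have h2 := tendsto_serre E₄
  rw [EisensteinSeries.E_qExpansion_coeff_zero _ ⟨2, rfl⟩] at h2
  have h3 : Tendsto (fun w : ℍ ↦ c * E₆ w) atImInfty (𝓝 (-(((4 : ℤ) : ℂ) * 12⁻¹ * 1))) :=
    h2.congr (fun w ↦ by rw [hfun w]; simp)
  have hc' : c = -(1 / 3 : ℂ) := by
    have h4 := tendsto_nhds_unique h1 h3
    rw [mul_one] at h4
    rw [h4]
    norm_num
  rw [← hfun z, hc']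

/-- `E₄²` as a modular form of weight `8`. -/
def E₄sq : ModularForm 𝒮ℒ ((8 : ℕ) : ℤ) := ModularForm.mcast (by norm_num) (E₄.mul E₄)

theorem E₄sq_apply (z : ℍ) : E₄sq z = E₄ z ^ 2 := by
  rw [E₄sq, ModularForm.mcast_apply, sq]
  rfl

theorem serre_E₆ (z : ℍ) : serreDerivative 6 E₆ z = -(1 / 2 : ℂ) * E₄ z ^ 2 := by
  have hrank : Module.finrank ℂ (ModularForm 𝒮ℒ ((8 : ℕ) : ℤ)) = 1 := by
    apply Module.rank_eq_one_iff_finrank_eq_one.mp
    have h := dimension_level_one 8 ⟨4, rfl⟩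
    simpa [Nat.ModEq] using h
  have hlim : Tendsto (E₄sq : ℍ → ℂ) atImInfty (𝓝 1) := by
    have h := tendsto_E₄.mul tendsto_E₄
    rw [one_mul] at h
    exact h.congr (fun w ↦ by rw [E₄sq_apply, sq])
  have hE8 : E₄sq ≠ 0 := by
    intro h
    rw [h] at hlim
    have h0 : Tendsto (fun _ : ℍ ↦ (0 : ℂ)) atImInfty (𝓝 0) := tendsto_const_nhds
    exact one_ne_zero (tendsto_nhds_unique hlim h0)
  obtain ⟨c, hc⟩ := (finrank_eq_one_iff_of_nonzero' E₄sq hE8).mp hrank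
    (serreMF E₆ ((8 : ℕ) : ℤ) (by norm_num))
  have hfun : ∀ w : ℍ, c * E₄sq w = serreDerivative 6 E₆ w := fun w ↦ by
    have h := congrArg (fun F : ModularForm 𝒮ℒ ((8 : ℕ) : ℤ) ↦ F w) hc
    simpa [coe_serreMF] using h
  have h1 : Tendsto (fun w : ℍ ↦ c * E₄sq w) atImInfty (𝓝 (c * 1)) := hlim.const_mul c
  have h2 := tendsto_serre E₆
  rw [EisensteinSeries.E_qExpansion_coeff_zero _ ⟨3, rfl⟩] at h2
  have h3 : Tendsto (fun w : ℍ ↦ c * E₄sq w) atImInfty (𝓝 (-(((6 : ℤ) : ℂ) * 12⁻¹ * 1))) :=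
    h2.congr (fun w ↦ by rw [hfun w]; simp)
  have hc' : c = -(1 / 2 : ℂ) := by
    have h4 := tendsto_nhds_unique h1 h3
    rw [mul_one] at h4
    rw [h4]
    norm_num
  rw [← hfun z, hc', E₄sq_apply]

theorem D_E₄ (z : ℍ) :
    D E₄ z = (1 / 3 : ℂ) * (EisensteinSeries.E2 z * E₄ z - E₆ z) := by
  have h := serre_E₄ z
  rw [serreDerivative_apply] at h
  linear_combination h

theorem D_E₆ (z : ℍ) :
    D E₆ z = (1 / 2 : ℂ) * (EisensteinSeries.E2 z * E₆ z - E₄ z ^ 2) := by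
  have h := serre_E₆ z
  rw [serreDerivative_apply] at h
  linear_combination h

theorem D_E₄_cube (z : ℍ) :
    D ((E₄ : ℍ → ℂ) ^ 3) z = E₄ z ^ 2 * (EisensteinSeries.E2 z * E₄ z - E₆ z) := by
  have hE4 : MDifferentiable 𝓘(ℂ) 𝓘(ℂ) (E₄ : ℍ → ℂ) := E₄.holo'
  rw [normalizedDerivOfComplex_pow _ 3 hE4]
  simp only [Pi.mul_apply, Pi.pow_apply, Pi.natCast_apply]
  rw [D_E₄]
  norm_num
  ring

theorem D_E₆_sq (z : ℍ) :
    D ((E₆ : ℍ → ℂ) ^ 2) z = E₆ z * (EisensteinSeries.E2 z * E₆ z - E₄ z ^ 2) := by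
  have hE6 : MDifferentiable 𝓘(ℂ) 𝓘(ℂ) (E₆ : ℍ → ℂ) := E₆.holo'
  rw [normalizedDerivOfComplex_pow _ 2 hE6]
  simp only [Pi.mul_apply, Pi.pow_apply, Pi.natCast_apply]
  rw [D_E₆]
  norm_num
  ring

theorem discriminant_fun_eq :
    (discriminant : ℍ → ℂ) = (1 / 1728 : ℂ) • ((E₄ : ℍ → ℂ) ^ 3 - (E₆ : ℍ → ℂ) ^ 2) := by
  funext z
  rw [discriminant_eq_E₄_cube_sub_E₆_sq z]
  simp only [Pi.smul_apply, Pi.sub_apply, Pi.pow_apply, smul_eq_mul]
  ring

/-- Ramanujan: `D Δ = E₂ Δ`. -/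
theorem D_discriminant (z : ℍ) :
    D (discriminant : ℍ → ℂ) z = EisensteinSeries.E2 z * discriminant z := by
  have hE4 : MDifferentiable 𝓘(ℂ) 𝓘(ℂ) (E₄ : ℍ → ℂ) := E₄.holo'
  have hE6 : MDifferentiable 𝓘(ℂ) 𝓘(ℂ) (E₆ : ℍ → ℂ) := E₆.holo'
  have hE43 : MDifferentiable 𝓘(ℂ) 𝓘(ℂ) ((E₄ : ℍ → ℂ) ^ 3) := hE4.pow 3
  have hE62 : MDifferentiable 𝓘(ℂ) 𝓘(ℂ) ((E₆ : ℍ → ℂ) ^ 2) := hE6.pow 2
  rw [discriminant_eq_E₄_cube_sub_E₆_sq z]
  rw [discriminant_fun_eq, normalizedDerivOfComplex_smul _ _ (hE43.sub hE62),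
    normalizedDerivOfComplex_sub _ _ hE43 hE62]
  simp only [Pi.smul_apply, Pi.sub_apply, smul_eq_mul]
  rw [D_E₄_cube, D_E₆_sq]
  ring

theorem D_generic (a b : ℂ) (z : ℍ) :
    D (a • (E₄ : ℍ → ℂ) ^ 3 - b • (discriminant : ℍ → ℂ)) z =
      EisensteinSeries.E2 z * (a * E₄ z ^ 3 - b * discriminant z) - a * E₄ z ^ 2 * E₆ z := by
  have hE4 : MDifferentiable 𝓘(ℂ) 𝓘(ℂ) (E₄ : ℍ → ℂ) := E₄.holo'
  have hΔ : MDifferentiable 𝓘(ℂ) 𝓘(ℂ) (discriminant : ℍ → ℂ) :=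
    CuspForm.discriminant.holo'
  have hE43 : MDifferentiable 𝓘(ℂ) 𝓘(ℂ) ((E₄ : ℍ → ℂ) ^ 3) := hE4.pow 3
  rw [normalizedDerivOfComplex_sub _ _ (hE43.const_smul a) (hΔ.const_smul b),
    normalizedDerivOfComplex_smul _ _ hE43, normalizedDerivOfComplex_smul _ _ hΔ]
  simp only [Pi.sub_apply, Pi.smul_apply, smul_eq_mul]
  rw [D_E₄_cube, D_discriminant]
  ring

theorem deriv_eq_D (F : ℍ → ℂ) (z : ℍ) :
    deriv (F ∘ ofComplex) (z : ℂ) = 2 * π * Complex.I * D F z := by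
  rw [normalizedDerivOfComplex, mul_inv_cancel_left₀ Complex.two_pi_I_ne_zero]

end

end SerreFacts

open SerreFacts in
/-- Zeros of `E₄` are simple. -/
theorem deriv_E4f_ne_zero (z : ℍ) (hz : E4f z = 0) :
    deriv (E4f ∘ UpperHalfPlane.ofComplex) (z : ℂ) ≠ 0 := by
  simp only [E4f] at hz ⊢
  have hΔ := discriminant_eq_E₄_cube_sub_E₆_sq z
  have hne := discriminant_ne_zero z
  have hE6 : E₆ z ≠ 0 := by
    intro h6
    apply hne
    rw [hΔ, hz, h6]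
    norm_num
  rw [deriv_eq_D, D_E₄, hz, mul_zero, zero_sub]
  exact mul_ne_zero Complex.two_pi_I_ne_zero
    (mul_ne_zero (by norm_num) (neg_ne_zero.mpr hE6))

open SerreFacts in
/-- Zeros of `E₆` are simple. -/
theorem deriv_E6f_ne_zero (z : ℍ) (hz : E6f z = 0) :
    deriv (E6f ∘ UpperHalfPlane.ofComplex) (z : ℂ) ≠ 0 := by
  simp only [E6f] at hz ⊢
  have hΔ := discriminant_eq_E₄_cube_sub_E₆_sq z
  have hne := discriminant_ne_zero z
  have hE4 : E₄ z ≠ 0 := by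
    intro h4
    apply hne
    rw [hΔ, hz, h4]
    norm_num
  rw [deriv_eq_D, D_E₆, hz, mul_zero, zero_sub]
  exact mul_ne_zero Complex.two_pi_I_ne_zero
    (mul_ne_zero (by norm_num) (neg_ne_zero.mpr (pow_ne_zero 2 hE4)))

open SerreFacts in
/-- Zeros of `Δ(z₀) E₄³ - E₄(z₀)³ Δ` are simple when `E₄(z₀) ≠ 0 ≠ E₆(z₀)`. -/
theorem deriv_generic_ne_zero (z0 : ℍ) (h4 : E4f z0 ≠ 0) (h6 : E6f z0 ≠ 0) (z : ℍ)
    (hz : (Δf z0 • E4f ^ 3 - E4f z0 ^ 3 • Δf) z = 0) :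
    deriv ((Δf z0 • E4f ^ 3 - E4f z0 ^ 3 • Δf) ∘ UpperHalfPlane.ofComplex) (z : ℂ) ≠ 0 := by
  simp only [E4f, E6f, Δf] at h4 h6 hz ⊢
  have hz' : discriminant z0 * E₄ z ^ 3 - E₄ z0 ^ 3 * discriminant z = 0 := hz
  have hΔ0 : discriminant z0 ≠ 0 := discriminant_ne_zero z0
  have hΔz : discriminant z ≠ 0 := discriminant_ne_zero z
  have e0 := discriminant_eq_E₄_cube_sub_E₆_sq z0
  have ez := discriminant_eq_E₄_cube_sub_E₆_sq z
  have hE4z : E₄ z ≠ 0 := by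
    intro h
    rw [h] at hz'
    have h0 : E₄ z0 ^ 3 * discriminant z = 0 := by linear_combination -hz'
    exact mul_ne_zero (pow_ne_zero 3 h4) hΔz h0
  have hE6z : E₆ z ≠ 0 := by
    intro h
    have key : E₆ z ^ 2 * discriminant z0 = discriminant z * E₆ z0 ^ 2 := by
      linear_combination hz' + (1728 * discriminant z0) * ez - (1728 * discriminant z) * e0
    rw [h] at key
    have h0 : discriminant z * E₆ z0 ^ 2 = 0 := by rw [← key]; ring
    exact mul_ne_zero hΔz (pow_ne_zero 2 h6) h0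
  rw [deriv_eq_D, D_generic, hz', mul_zero, zero_sub]
  exact mul_ne_zero Complex.two_pi_I_ne_zero
    (neg_ne_zero.mpr (mul_ne_zero (mul_ne_zero hΔ0 (pow_ne_zero 2 hE4z)) hE6z))

end Fermat.Agent.S20
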