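import Fermat.Agent.S20.DivisionCore
import Fermat.Agent.S20.L1Basic
import Fermat.Agent.S20.JInj
import Fermat.Agent.S20.SerreFacts

/-!
# S20 — division lemmas (task A4b)

A holomorphic function on `ℍ` vanishing on the `SL(2, ℤ)`-orbit of `z0` is divisible (with
holomorphic quotient) by the level-one form `u_{z0}` whose zero set is exactly that orbit, with
simple zeros:

* `u = E₆` for `z0 = i` (`div_E6f`),
* `u = E₄` for `z0 = ρ` (`div_E4f`),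
* `u = Δ(z0) E₄³ - E₄(z0)³ Δ` for generic `z0` (`div_generic`).
-/

set_option autoImplicit false

open UpperHalfPlane ModularForm Matrix.SpecialLinearGroup Filter CongruenceSubgroup
open scoped MatrixGroups Manifold ModularForm Topology

namespace Fermat.Agent.S20

noncomputable section

/-- A level-one form vanishing at `z` vanishes on the whole orbit of `z`. -/
theorem Division.levelOne_smul_eq_zero {k : ℤ} (F : ModularForm 𝒮ℒ k) (γ : SL(2, ℤ)) (z : ℍ)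
    (h : F z = 0) : F (γ • z) = 0 := by
  have : SlashInvariantFormClass (ModularForm 𝒮ℒ k) Γ(1) k := Gamma_one_coe_eq_SL ▸ inferInstance
  rw [SlashInvariantForm.slash_action_eqn_SL'' F (mem_Gamma_one γ) z, h, mul_zero]

theorem E4f_eq_zero_iff (z : ℍ) : E4f z = 0 ↔ ∃ γ : SL(2, ℤ), z = γ • rhoPt := by
  constructor
  · intro h
    obtain ⟨γ, hγ⟩ := exists_smul_eq_of_E₄_eq_zero z rhoPt h E4f_rho
    exact ⟨γ, hγ.symm⟩
  · rintro ⟨γ, rfl⟩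
    exact Division.levelOne_smul_eq_zero E₄ γ rhoPt E4f_rho

theorem E6f_eq_zero_iff (z : ℍ) : E6f z = 0 ↔ ∃ γ : SL(2, ℤ), z = γ • UpperHalfPlane.I := by
  constructor
  · intro h
    obtain ⟨γ, hγ⟩ := exists_smul_eq_of_E₆_eq_zero z UpperHalfPlane.I h E6f_I
    exact ⟨γ, hγ.symm⟩
  · rintro ⟨γ, rfl⟩
    exact Division.levelOne_smul_eq_zero E₆ γ UpperHalfPlane.I E6f_I

theorem div_E6f (f : ℍ → ℂ) (hf : MDifferentiable 𝓘(ℂ) 𝓘(ℂ) f)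
    (h0 : ∀ γ : SL(2, ℤ), f (γ • UpperHalfPlane.I) = 0) :
    ∃ g : ℍ → ℂ, MDifferentiable 𝓘(ℂ) 𝓘(ℂ) g ∧ f = E6f * g := by
  refine exists_mdiff_factor f E6f hf isMF_E6f.1 fun z hz => ⟨?_, deriv_E6f_ne_zero z hz⟩
  obtain ⟨γ, rfl⟩ := (E6f_eq_zero_iff z).mp hz
  exact h0 γ

theorem div_E4f (f : ℍ → ℂ) (hf : MDifferentiable 𝓘(ℂ) 𝓘(ℂ) f)
    (h0 : ∀ γ : SL(2, ℤ), f (γ • rhoPt) = 0) :
    ∃ g : ℍ → ℂ, MDifferentiable 𝓘(ℂ) 𝓘(ℂ) g ∧ f = E4f * g := by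
  refine exists_mdiff_factor f E4f hf isMF_E4f.1 fun z hz => ⟨?_, deriv_E4f_ne_zero z hz⟩
  obtain ⟨γ, rfl⟩ := (E4f_eq_zero_iff z).mp hz
  exact h0 γ

/-- The zero set of `Δ(z0) E₄³ - E₄(z0)³ Δ` is the orbit of `z0`. -/
theorem Division.generic_eq_zero_iff (z0 z : ℍ) :
    (Δf z0 • E4f ^ 3 - E4f z0 ^ 3 • Δf) z = 0 ↔ ∃ γ : SL(2, ℤ), z = γ • z0 := by
  have hval : (Δf z0 • E4f ^ 3 - E4f z0 ^ 3 • Δf) z
      = Δf z0 * E4f z ^ 3 - E4f z0 ^ 3 * Δf z := by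
    simp [Pi.sub_apply, Pi.smul_apply, Pi.pow_apply, smul_eq_mul]
  rw [hval]
  constructor
  · intro h
    obtain ⟨γ, hγ⟩ := exists_smul_eq_of_j_eq z z0 (by
      show E4f z ^ 3 * Δf z0 = E4f z0 ^ 3 * Δf z
      linear_combination h)
    exact ⟨γ, hγ.symm⟩
  · rintro ⟨γ, rfl⟩
    have : SlashInvariantFormClass (ModularForm 𝒮ℒ 4) Γ(1) 4 := Gamma_one_coe_eq_SL ▸ inferInstance
    have : SlashInvariantFormClass (CuspForm 𝒮ℒ 12) Γ(1) 12 := Gamma_one_coe_eq_SL ▸ inferInstance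
    have h4 : E4f (γ • z0) = denom γ z0 ^ (4 : ℤ) * E4f z0 :=
      SlashInvariantForm.slash_action_eqn_SL'' (E₄ : ModularForm 𝒮ℒ 4) (mem_Gamma_one γ) z0
    have h12 : Δf (γ • z0) = denom γ z0 ^ (12 : ℤ) * Δf z0 :=
      SlashInvariantForm.slash_action_eqn_SL'' CuspForm.discriminant (mem_Gamma_one γ) z0
    rw [h4, h12]
    have e4 : denom γ z0 ^ (4 : ℤ) = denom γ z0 ^ (4 : ℕ) := by norm_cast
    have e12 : denom γ z0 ^ (12 : ℤ) = denom γ z0 ^ (12 : ℕ) := by norm_cast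
    rw [e4, e12]
    ring

theorem div_generic (z0 : ℍ) (h4 : E4f z0 ≠ 0) (h6 : E6f z0 ≠ 0) (f : ℍ → ℂ)
    (hf : MDifferentiable 𝓘(ℂ) 𝓘(ℂ) f) (h0 : ∀ γ : SL(2, ℤ), f (γ • z0) = 0) :
    ∃ g : ℍ → ℂ, MDifferentiable 𝓘(ℂ) 𝓘(ℂ) g ∧
      f = (Δf z0 • E4f ^ 3 - E4f z0 ^ 3 • Δf) * g := by
  have hu : MDifferentiable 𝓘(ℂ) 𝓘(ℂ) (Δf z0 • E4f ^ 3 - E4f z0 ^ 3 • Δf) :=
    ((isMF_E4f.1.pow 3).const_smul (Δf z0)).sub (isCF_Δf.1.const_smul (E4f z0 ^ 3))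
  refine exists_mdiff_factor f _ hf hu fun z hz =>
    ⟨?_, deriv_generic_ne_zero z0 h4 h6 z hz⟩
  obtain ⟨γ, rfl⟩ := (Division.generic_eq_zero_iff z0 z).mp hz
  exact h0 γ

end

end Fermat.Agent.S20
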