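import Mathlib

/-!
# Eigen-classes of independent vectors under a permutation of order 2 or 3

Pure linear algebra: if `v : ι → X → ℂ` is a basis of `X → ℂ` consisting of eigenvectors of the
permutation operator `f ↦ f ∘ τ`, then the sum of the eigenvalues is the number of fixed points
of `τ` (trace computed in two bases).
-/

namespace Fermat.Agent.S20

open Finset

/-- Trace formula: the eigenvalues of the permutation operator `f ↦ f ∘ τ` on a basis of
eigenvectors sum to the number of fixed points of `τ`. -/
theorem sum_eigenvalues_eq_card_fixed {X ι : Type} [Fintype X] [DecidableEq X] [Fintype ι]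
    (τ : Equiv.Perm X) (v : ι → X → ℂ) (c : ι → ℂ) (hv : ∀ i x, v i (τ x) = c i * v i x)
    (hli : LinearIndependent ℂ v) (hcard : Fintype.card ι = Fintype.card X) :
    ∑ i, c i = ((Finset.univ.filter (fun x => τ x = x)).card : ℂ) := by
  classical
  have hspan : ⊤ ≤ Submodule.span ℂ (Set.range v) := by
    rw [top_le_iff]
    exact hli.span_eq_top_of_card_eq_finrank' (by simp [hcard])
  let b : Module.Basis ι ℂ (X → ℂ) := Module.Basis.mk hli hspan
  have hb : ∀ i, b i = v i := fun i => Module.Basis.mk_apply hli hspan i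
  let P : (X → ℂ) →ₗ[ℂ] (X → ℂ) := LinearMap.funLeft ℂ ℂ τ
  have hP : ∀ i, P (b i) = c i • b i := by
    intro i
    funext x
    rw [hb]
    exact hv i x
  have h1 : LinearMap.trace ℂ (X → ℂ) P = ∑ i, c i := by
    rw [LinearMap.trace_eq_matrix_trace ℂ b P, Matrix.trace]
    refine Finset.sum_congr rfl fun i _ => ?_
    rw [Matrix.diag_apply, LinearMap.toMatrix_apply, hP, map_smul, Finsupp.smul_apply,
      Module.Basis.repr_self, Finsupp.single_eq_same, smul_eq_mul, mul_one]
  have h2 : LinearMap.trace ℂ (X → ℂ) P =
      ((Finset.univ.filter (fun x => τ x = x)).card : ℂ) := by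
    rw [LinearMap.trace_eq_matrix_trace ℂ (Pi.basisFun ℂ X) P, Matrix.trace,
      Finset.card_filter, Nat.cast_sum]
    refine Finset.sum_congr rfl fun x _ => ?_
    rw [Matrix.diag_apply, LinearMap.toMatrix_apply, Pi.basisFun_repr, Pi.basisFun_apply]
    show (Pi.single x (1 : ℂ) : X → ℂ) (τ x) = _
    rw [Pi.single_apply]
    split_ifs <;> simp
  rw [← h1, h2]

set_option linter.unusedVariables false in
/-- Involution case: the number of `-1`-eigenvectors in an eigenbasis is determined by the number
of fixed points. (The hypothesis `hσ` is not needed by the trace argument; it is kept for the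
agreed signature.) -/
theorem card_le_of_involution {X ι : Type} [Fintype X] [DecidableEq X] [Fintype ι]
    (σ : Equiv.Perm X) (hσ : σ * σ = 1) (v : ι → X → ℂ) (sgn : ι → ℂ)
    (hsgn : ∀ i, sgn i = 1 ∨ sgn i = -1)
    (hv : ∀ i x, v i (σ x) = sgn i * v i x) (hli : LinearIndependent ℂ v)
    (hcard : Fintype.card ι = Fintype.card X) :
    2 * (Finset.univ.filter (fun i => sgn i = -1)).card +
      (Finset.univ.filter (fun x => σ x = x)).card = Fintype.card X := by
  classical
  have htr := sum_eigenvalues_eq_card_fixed σ v sgn hv hli hcard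
  have hsum : ∑ i, sgn i =
      (Fintype.card ι : ℂ) - 2 * ((Finset.univ.filter (fun i => sgn i = -1)).card : ℂ) := by
    have hpt : ∀ i, sgn i = 1 - 2 * (if sgn i = -1 then (1 : ℂ) else 0) := by
      intro i
      rcases hsgn i with h | h
      · have hne : ¬ (sgn i = -1) := by rw [h]; norm_num
        rw [if_neg hne, h]; ring
      · rw [if_pos h, h]; ring
    calc ∑ i, sgn i = ∑ i, (1 - 2 * (if sgn i = -1 then (1 : ℂ) else 0)) :=
          Finset.sum_congr rfl fun i _ => hpt i
      _ = (Fintype.card ι : ℂ) - 2 * ((Finset.univ.filter (fun i => sgn i = -1)).card : ℂ) := by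
          rw [Finset.sum_sub_distrib, ← Finset.mul_sum, Finset.sum_boole]
          simp
  rw [hsum, hcard] at htr
  have h3 : ((2 * (Finset.univ.filter (fun i => sgn i = -1)).card +
      (Finset.univ.filter (fun x => σ x = x)).card : ℕ) : ℂ) = (Fintype.card X : ℂ) := by
    push_cast
    rw [← htr]
    ring
  exact_mod_cast h3

/-- Order three case: the numbers of eigenvectors in the three eigen-classes of an eigenbasis are
determined by the number of fixed points. -/
theorem card_le_of_order_three {X ι : Type} [Fintype X] [DecidableEq X] [Fintype ι]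
    (σ : Equiv.Perm X) (hσ : σ * σ * σ = 1) (ω : ℂ) (hω : ω ^ 2 + ω + 1 = 0)
    (v : ι → X → ℂ) (cls : ι → Fin 3) (hv : ∀ i x, v i (σ x) = ω ^ (cls i : ℕ) * v i x)
    (hli : LinearIndependent ℂ v) (hcard : Fintype.card ι = Fintype.card X) :
    3 * (Finset.univ.filter (fun i => cls i = 0)).card =
        Fintype.card X + 2 * (Finset.univ.filter (fun x => σ x = x)).card ∧
      (Finset.univ.filter (fun i => cls i = 1)).card =
        (Finset.univ.filter (fun i => cls i = 2)).card := by
  classical
  set n0 : ℕ := (Finset.univ.filter (fun i => cls i = 0)).card with hn0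
  set n1 : ℕ := (Finset.univ.filter (fun i => cls i = 1)).card with hn1
  set n2 : ℕ := (Finset.univ.filter (fun i => cls i = 2)).card with hn2
  set F : ℕ := (Finset.univ.filter (fun x => σ x = x)).card with hF
  -- general formula for sums over classes
  have hsumcls : ∀ a : Fin 3 → ℂ, ∑ i, a (cls i) = n0 * a 0 + n1 * a 1 + n2 * a 2 := by
    intro a
    have hpt : ∀ i, a (cls i) = (if cls i = 0 then a 0 else 0) + (if cls i = 1 then a 1 else 0) +
        (if cls i = 2 then a 2 else 0) := by
      intro i
      generalize cls i = j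
      fin_cases j <;> simp
    rw [Finset.sum_congr rfl fun i _ => hpt i, Finset.sum_add_distrib, Finset.sum_add_distrib,
      ← Finset.sum_filter, ← Finset.sum_filter, ← Finset.sum_filter, Finset.sum_const,
      Finset.sum_const, Finset.sum_const]
    simp [hn0, hn1, hn2, nsmul_eq_mul]
  -- trace for σ
  have htr1 := sum_eigenvalues_eq_card_fixed σ v (fun i => ω ^ (cls i : ℕ)) hv hli hcard
  rw [hsumcls (fun j => ω ^ (j : ℕ))] at htr1
  -- trace for σ * σ
  have hv2 : ∀ i x, v i ((σ * σ) x) = (ω ^ (cls i : ℕ)) ^ 2 * v i x := by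
    intro i x
    rw [Equiv.Perm.mul_apply, hv, hv]
    ring
  have hfix : (Finset.univ.filter (fun x => (σ * σ) x = x)) =
      (Finset.univ.filter (fun x => σ x = x)) := by
    apply Finset.filter_congr
    intro x _
    rw [Equiv.Perm.mul_apply]
    constructor
    · intro h
      have h3 : σ (σ (σ x)) = x := by
        have := congrArg (fun τ : Equiv.Perm X => τ x) hσ
        simpa [Equiv.Perm.mul_apply] using this
      rw [h] at h3
      exact h3
    · intro h
      rw [h, h]
  have htr2 := sum_eigenvalues_eq_card_fixed (σ * σ) v (fun i => (ω ^ (cls i : ℕ)) ^ 2) hv2 hli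
    hcard
  rw [hsumcls (fun j => (ω ^ (j : ℕ)) ^ 2), hfix] at htr2
  -- total count
  have htot : (n0 : ℂ) + n1 + n2 = Fintype.card X := by
    have := hsumcls (fun _ => 1)
    simp only [Finset.sum_const, Finset.card_univ, nsmul_eq_mul, mul_one] at this
    rw [← hcard, this]
  simp only [Fin.val_zero, pow_zero, Fin.val_one, pow_one, Fin.val_two, mul_one, one_pow] at htr1 htr2
  -- algebra
  have hω3 : ω ^ 3 = 1 := by linear_combination (ω - 1) * hω
  have hω0 : ω ≠ 0 := by
    rintro rfl
    norm_num at hω
  have hω1 : ω ≠ 1 := by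
    rintro rfl
    norm_num at hω
  have h12 : (n1 : ℂ) = n2 := by
    have hsub : ((n1 : ℂ) - n2) * (ω * (1 - ω)) = 0 := by
      have hω4 : ω ^ 4 = ω := by
        calc ω ^ 4 = ω ^ 3 * ω := by ring
          _ = ω := by rw [hω3, one_mul]
      linear_combination htr1 - htr2 + (n2 : ℂ) * hω4
    have hne : ω * (1 - ω) ≠ 0 := mul_ne_zero hω0 (sub_ne_zero.mpr (Ne.symm hω1))
    have := (mul_eq_zero.mp hsub).resolve_right hne
    exact sub_eq_zero.mp this
  have h0 : (3 : ℂ) * n0 = Fintype.card X + 2 * F := by
    have e1 : (n0 : ℂ) - n1 = F := by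
      linear_combination htr1 - (n2 : ℂ) * hω - (1 + ω) * h12
    linear_combination htot + 2 * e1 + h12
  refine ⟨?_, ?_⟩
  · exact_mod_cast h0
  · exact_mod_cast h12

end Fermat.Agent.S20
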