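import Fermat.Agent.S20.DefsW
import Fermat.Agent.S20.L1Basic
import Fermat.Agent.S20.Translates
import Fermat.Agent.S20.Division

/-!
# S20 — rows of the conjugate matrix are linearly independent at every point

For a weak graded basis `B` of `⨁ₖ M_k(Γ)` over `⨁ₖ M_k(SL(2,ℤ))` and any point `z`, the rows
`q ↦ tr (k i) (e i) q z` (indexed by the basis, columns indexed by the cosets) are linearly
independent over `ℂ`.
-/

set_option autoImplicit false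

open UpperHalfPlane ModularForm Matrix.SpecialLinearGroup Filter
open scoped MatrixGroups Manifold ModularForm Topology

namespace Fermat.Agent.S20

noncomputable section

namespace RowsIndep

variable {Γ : Subgroup SL(2, ℤ)}

/-- The constant function one is a level-one form of weight `0`. -/
theorem isMF_one : IsMF ⊤ 0 (1 : ℍ → ℂ) := by
  refine ⟨mdifferentiable_const, fun γ _ => ?_, fun γ => ?_⟩
  · exact ModularForm.is_invariant_const γ 1
  · rw [show ((1 : ℍ → ℂ) ∣[(0 : ℤ)] γ) = Function.const ℍ 1 from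
      ModularForm.is_invariant_const γ 1]
    exact Filter.const_boundedAtFilter _ 1

theorem isMF_pow {k : ℤ} {f : ℍ → ℂ} (hf : IsMF ⊤ k f) (n : ℕ) : IsMF ⊤ (n * k) (f ^ n) := by
  induction n with
  | zero => simpa using isMF_one
  | succ n ih =>
    have h := ih.mul hf
    rw [pow_succ]
    have e : ((n : ℤ) * k + k) = ((n + 1 : ℕ) : ℤ) * k := by push_cast; ring
    rwa [e] at h

/-- A level-one form of weight `4 a + 6 b` with value `1` at `z0`. -/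
theorem exists_r (z0 : ℍ) (a b : ℕ) (h : E4f z0 ^ a * E6f z0 ^ b ≠ 0) :
    ∃ r : ℍ → ℂ, IsMF ⊤ (4 * a + 6 * b) r ∧ r z0 = 1 := by
  refine ⟨(E4f z0 ^ a * E6f z0 ^ b)⁻¹ • (E4f ^ a * E6f ^ b), ?_, ?_⟩
  · have h1 := (isMF_pow isMF_E4f a).mul (isMF_pow isMF_E6f b)
    have h2 : ((a : ℤ) * 4 + (b : ℤ) * 6) = 4 * a + 6 * b := by ring
    rw [h2] at h1
    exact h1.smul _
  · simp only [Pi.smul_apply, Pi.mul_apply, Pi.pow_apply, smul_eq_mul]
    exact inv_mul_cancel₀ h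

theorem exists_r_generic (z0 : ℍ) (h4 : E4f z0 ≠ 0) (h6 : E6f z0 ≠ 0) (w : ℤ) (hw : Even w)
    (hw4 : 4 ≤ w) : ∃ r : ℍ → ℂ, IsMF ⊤ w r ∧ r z0 = 1 := by
  obtain ⟨t, rfl⟩ := hw
  rcases Int.even_or_odd t with ⟨j, rfl⟩ | ⟨j, rfl⟩
  · obtain ⟨a, rfl⟩ := Int.eq_ofNat_of_zero_le (show 0 ≤ j by omega)
    obtain ⟨r, hr, hr1⟩ := exists_r z0 a 0 (by simp [h4])
    refine ⟨r, ?_, hr1⟩
    have e : (4 * (a : ℤ) + 6 * ((0 : ℕ) : ℤ)) = (a : ℤ) + a + (a + a) := by push_cast; ring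
    rwa [e] at hr
  · obtain ⟨a, ha⟩ := Int.eq_ofNat_of_zero_le (show 0 ≤ j - 1 by omega)
    obtain ⟨r, hr, hr1⟩ := exists_r z0 a 1 (by simp [h4, h6])
    refine ⟨r, ?_, hr1⟩
    have e : (4 * (a : ℤ) + 6 * ((1 : ℕ) : ℤ)) = 2 * j + 1 + (2 * j + 1) := by
      push_cast; rw [← ha]; ring
    rwa [e] at hr

theorem exists_r_four (z0 : ℍ) (h4 : E4f z0 ≠ 0) (w : ℤ) (hw0 : 0 ≤ w) (hw : (4 : ℤ) ∣ w) :
    ∃ r : ℍ → ℂ, IsMF ⊤ w r ∧ r z0 = 1 := by
  obtain ⟨j, rfl⟩ := hw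
  obtain ⟨a, rfl⟩ := Int.eq_ofNat_of_zero_le (show 0 ≤ j by omega)
  obtain ⟨r, hr, hr1⟩ := exists_r z0 a 0 (by simp [h4])
  refine ⟨r, ?_, hr1⟩
  have e : (4 * (a : ℤ) + 6 * ((0 : ℕ) : ℤ)) = 4 * (a : ℤ) := by push_cast; ring
  rwa [e] at hr

theorem exists_r_six (z0 : ℍ) (h6 : E6f z0 ≠ 0) (w : ℤ) (hw0 : 0 ≤ w) (hw : (6 : ℤ) ∣ w) :
    ∃ r : ℍ → ℂ, IsMF ⊤ w r ∧ r z0 = 1 := by
  obtain ⟨j, rfl⟩ := hw
  obtain ⟨b, rfl⟩ := Int.eq_ofNat_of_zero_le (show 0 ≤ j by omega)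
  obtain ⟨r, hr, hr1⟩ := exists_r z0 0 b (by simp [h6])
  refine ⟨r, ?_, hr1⟩
  have e : (4 * ((0 : ℕ) : ℤ) + 6 * (b : ℤ)) = 6 * (b : ℤ) := by push_cast; ring
  rwa [e] at hr

/-- The value of a function at `γ • z` in terms of its slash. -/
theorem apply_smul_eq (k : ℤ) (f : ℍ → ℂ) (γ : SL(2, ℤ)) (z : ℍ) :
    f (γ • z) = denom γ z ^ k * (f ∣[k] γ) z := by
  rw [SL_slash_apply, mul_comm, mul_assoc, ← zpow_add₀ (denom_ne_zero _ z), neg_add_cancel,
    zpow_zero, mul_one]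

/-- Rows at `γ • z` versus rows at `z`. -/
theorem tr_smul_apply {k : ℤ} {f : ℍ → ℂ} (hf : ∀ γ ∈ Γ, f ∣[k] γ = f) (q : SL(2, ℤ) ⧸ Γ)
    (γ : SL(2, ℤ)) (z : ℍ) :
    tr k f q (γ • z) = denom γ z ^ k * tr k f (γ⁻¹ • q) z := by
  rw [apply_smul_eq k (tr k f q) γ z, tr_slash hf]

/-- The rows of the conjugate matrix of `B` at `z0` are linearly independent (Finset form). -/
def RowsIndepAt (B : WBasis Γ) (z0 : ℍ) : Prop :=
  ∀ (s : Finset B.ι) (c : B.ι → ℂ),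
    (∀ q : SL(2, ℤ) ⧸ Γ, ∑ i ∈ s, c i * tr (B.k i) (B.e i) q z0 = 0) → ∀ i ∈ s, c i = 0

/-- Core argument: division by a level-one form `u` vanishing (simply) on the orbit of `z0`. -/
theorem core (B : WBasis Γ) (z0 : ℍ) (u : ℍ → ℂ) (m : ℤ) (hu : IsMF ⊤ m u) (hu0 : u z0 = 0)
    (hlim : ∃ c : ℂ, c ≠ 0 ∧ Tendsto u atImInfty (𝓝 c))
    (hdiv : ∀ f : ℍ → ℂ, MDifferentiable 𝓘(ℂ) 𝓘(ℂ) f → (∀ γ : SL(2, ℤ), f (γ • z0) = 0) →
      ∃ g : ℍ → ℂ, MDifferentiable 𝓘(ℂ) 𝓘(ℂ) g ∧ f = u * g)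
    (s : Finset B.ι) (c : B.ι → ℂ) (K : ℤ) (r : B.ι → ℍ → ℂ)
    (hr : ∀ i ∈ s, IsMF ⊤ (K - B.k i) (r i)) (hr1 : ∀ i ∈ s, r i z0 = 1)
    (h : ∀ q : SL(2, ℤ) ⧸ Γ, ∑ i ∈ s, c i * tr (B.k i) (B.e i) q z0 = 0) :
    ∀ i ∈ s, c i = 0 := by
  classical
  set F : ℍ → ℂ := ∑ i ∈ s, c i • (r i * B.e i) with hF
  have hFi : ∀ i ∈ s, IsMF Γ K (r i * B.e i) := by
    intro i hi
    have h1 := ((hr i hi).mono le_top).mul (B.isMF i)
    rwa [sub_add_cancel] at h1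
  have hFmf : IsMF Γ K F := by
    have : F ∈ MFsub Γ K :=
      Submodule.sum_mem _ (fun i hi => Submodule.smul_mem _ _ (hFi i hi))
    exact this
  have hF0 : ∀ γ : SL(2, ℤ), F (γ • z0) = 0 := by
    intro γ
    have key : ∀ i ∈ s, (c i • (r i * B.e i)) (γ • z0) = denom γ z0 ^ K *
        (c i * tr (B.k i) (B.e i) ((γ⁻¹ : SL(2, ℤ)) : SL(2, ℤ) ⧸ Γ) z0) := by
      intro i hi
      have h1 : r i (γ • z0) = denom γ z0 ^ (K - B.k i) * r i z0 := by
        have h1 := apply_smul_eq (K - B.k i) (r i) γ z0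
        rwa [(hr i hi).2.1 γ (Subgroup.mem_top γ)] at h1
      have h2 : B.e i (γ • z0) = denom γ z0 ^ (B.k i : ℤ) *
          tr (B.k i) (B.e i) ((γ⁻¹ : SL(2, ℤ)) : SL(2, ℤ) ⧸ Γ) z0 := by
        rw [tr_mk (B.isMF i).2.1, inv_inv]
        exact apply_smul_eq _ _ γ z0
      have h3 : denom γ z0 ^ (K - B.k i) * denom γ z0 ^ (B.k i : ℤ) = denom γ z0 ^ K := by
        rw [← zpow_add₀ (denom_ne_zero _ z0), sub_add_cancel]
      simp only [Pi.smul_apply, Pi.mul_apply, smul_eq_mul]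
      rw [h1, h2, hr1 i hi, ← h3]
      ring
    rw [hF, Finset.sum_apply, Finset.sum_congr rfl key, ← Finset.mul_sum, h, mul_zero]
  obtain ⟨G, hG, hFG⟩ := hdiv F hFmf.1 hF0
  have hGmf : IsMF Γ (K - m) G := hFmf.of_mul_eq hu hlim hG hFG
  obtain ⟨g, hg, hGg⟩ := B.repr (K - m) G hGmf
  set R : B.ι →₀ (ℍ → ℂ) :=
    (∑ i ∈ s, Finsupp.single i (c i • r i)) - g.mapRange (fun a => u * a) (mul_zero u) with hRdef
  have hRi : ∀ i, R i = (if i ∈ s then c i • r i else 0) - u * g i := by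
    intro i
    simp only [hRdef, Finsupp.coe_sub, Pi.sub_apply, Finsupp.finsetSum_apply,
      Finsupp.single_apply, Finsupp.mapRange_apply]
    rw [Finset.sum_ite_eq' s i]
  have hR : ∀ i, IsMF ⊤ (K - B.k i) (R i) := by
    intro i
    have h2 : IsMF ⊤ (K - B.k i) (u * g i) := by
      have h2 := hu.mul (hg i)
      have e : m + (K - m - B.k i) = K - B.k i := by ring
      rwa [e] at h2
    have h1 : IsMF ⊤ (K - B.k i) (if i ∈ s then c i • r i else 0) := by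
      split_ifs with hi
      · exact (hr i hi).smul _
      · exact IsMF.zero _ _
    rw [hRi]
    exact (MFsub ⊤ (K - B.k i)).sub_mem h1 h2
  have hsum : R.sum (fun i a => a * B.e i) = 0 := by
    rw [hRdef, Finsupp.sum_sub_index (fun a b₁ b₂ => sub_mul b₁ b₂ _),
      ← Finsupp.sum_finsetSum_index (fun a => zero_mul _) (fun a b₁ b₂ => add_mul b₁ b₂ _),
      Finsupp.sum_mapRange_index (fun a => zero_mul _)]
    have e1 : ∑ i ∈ s, (Finsupp.single i (c i • r i)).sum (fun i a => a * B.e i) = F := by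
      rw [hF]
      refine Finset.sum_congr rfl (fun i _ => ?_)
      rw [Finsupp.sum_single_index (zero_mul _), smul_mul_assoc]
    have e2 : (g.sum fun i a => u * a * B.e i) = u * G := by
      rw [hGg, Finsupp.mul_sum]
      simp only [mul_assoc]
    rw [e1, e2, hFG, sub_self]
  have hR0 := B.uniq K R hR hsum
  intro i hi
  have h1 : R i = 0 := by rw [hR0]; rfl
  rw [hRi, if_pos hi, sub_eq_zero] at h1
  have h2 := congrFun h1 z0
  simpa [hr1 i hi, hu0] using h2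

end RowsIndep

/-- All weights of a weak graded basis are even when `-1 ∈ Γ`. -/
theorem WBasis.even {Γ : Subgroup SL(2, ℤ)} [Γ.FiniteIndex] (hneg : (-1 : SL(2, ℤ)) ∈ Γ)
    (B : WBasis Γ) (i : B.ι) : Even (B.k i) := by
  classical
  by_contra hodd
  have hodd' : Odd ((B.k i : ℕ) : ℤ) := by
    rw [Int.odd_coe_nat]
    exact Nat.not_even_iff_odd.mp hodd
  have he : B.e i = 0 := IsMF.eq_zero_of_odd hneg (B.isMF i) hodd'
  have hr : ∀ j, IsMF ⊤ ((B.k i : ℤ) - B.k j) ((Finsupp.single i (1 : ℍ → ℂ)) j) := by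
    intro j
    rw [Finsupp.single_apply]
    split_ifs with hij
    · subst hij
      rw [sub_self]
      exact RowsIndep.isMF_one
    · exact IsMF.zero _ _
  have h0 := B.uniq (B.k i) (Finsupp.single i (1 : ℍ → ℂ)) hr (by
    rw [Finsupp.sum_single_index (zero_mul _), he, mul_zero])
  have h1 := congrArg (fun r : B.ι →₀ (ℍ → ℂ) => r i UpperHalfPlane.I) h0
  simp at h1

namespace RowsIndep

variable {Γ : Subgroup SL(2, ℤ)}

/-- `Δ` tends to `0` at `i∞`. -/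
theorem tendsto_Δf : Tendsto Δf atImInfty (𝓝 0) := by
  have h := isCF_Δf.2.2 1
  rw [SlashAction.slash_one] at h
  exact h

/-! ### The generic case -/

theorem rowsIndepAt_generic [Γ.FiniteIndex] (hneg : (-1 : SL(2, ℤ)) ∈ Γ) (B : WBasis Γ)
    (z0 : ℍ) (h4 : E4f z0 ≠ 0) (h6 : E6f z0 ≠ 0) : RowsIndepAt B z0 := by
  intro s c h
  have hu : IsMF ⊤ 12 (Δf z0 • E4f ^ 3 - E4f z0 ^ 3 • Δf) := by
    have h1 : IsMF ⊤ 12 (E4f ^ 3) := by
      have h1 := isMF_pow isMF_E4f 3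
      have e : (((3 : ℕ) : ℤ) * 4) = 12 := by norm_num
      rwa [e] at h1
    exact (MFsub ⊤ 12).sub_mem ((MFsub ⊤ 12).smul_mem _ h1)
      ((MFsub ⊤ 12).smul_mem _ isCF_Δf.isMF)
  have hu0 : (Δf z0 • E4f ^ 3 - E4f z0 ^ 3 • Δf) z0 = 0 := by
    simp only [Pi.sub_apply, Pi.smul_apply, Pi.pow_apply, smul_eq_mul]
    ring
  have hlim : ∃ c : ℂ, c ≠ 0 ∧
      Tendsto (Δf z0 • E4f ^ 3 - E4f z0 ^ 3 • Δf) atImInfty (𝓝 c) := by
    refine ⟨Δf z0, Δf_ne_zero z0, ?_⟩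
    have h1 := ((tendsto_E4f.pow 3).const_mul (Δf z0)).sub
      (tendsto_Δf.const_mul (E4f z0 ^ 3))
    simp only [one_pow, mul_one, mul_zero, sub_zero] at h1
    exact h1
  have hex : ∀ i ∈ s, ∃ r : ℍ → ℂ,
      IsMF ⊤ ((2 * ((s.sup B.k : ℕ) : ℤ) + 4) - B.k i) r ∧ r z0 = 1 := by
    intro i hi
    have hle : B.k i ≤ s.sup B.k := Finset.le_sup hi
    obtain ⟨t, ht⟩ := B.even hneg i
    refine exists_r_generic z0 h4 h6 _ ⟨((s.sup B.k : ℕ) : ℤ) + 2 - t, ?_⟩ ?_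
    · rw [ht]; push_cast; ring
    · omega
  choose! r hr hr1 using hex
  exact core B z0 _ 12 hu hu0 hlim (div_generic z0 h4 h6) s c _ r hr hr1 h

/-! ### The elliptic point `i` -/

theorem S_smul_I : ModularGroup.S • UpperHalfPlane.I = UpperHalfPlane.I := by
  rw [UpperHalfPlane.ext_iff, UpperHalfPlane.modular_S_smul]
  simp

theorem denom_S_I : denom ModularGroup.S UpperHalfPlane.I = Complex.I := by
  rw [ModularGroup.denom_S]
  rfl

theorem I_zpow_of_mod_four_eq_zero {k : ℕ} (h : k % 4 = 0) : Complex.I ^ (k : ℤ) = 1 := by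
  obtain ⟨j, rfl⟩ := Nat.dvd_of_mod_eq_zero h
  rw [zpow_natCast, pow_mul, Complex.I_pow_four, one_pow]

theorem I_zpow_of_mod_four_eq_two {k : ℕ} (h : k % 4 = 2) : Complex.I ^ (k : ℤ) = -1 := by
  have hk : k = 4 * (k / 4) + 2 := by omega
  rw [hk, zpow_natCast, pow_add, pow_mul, Complex.I_pow_four, one_pow, one_mul, Complex.I_sq]

theorem rowsIndepAt_I [Γ.FiniteIndex] (hneg : (-1 : SL(2, ℤ)) ∈ Γ) (B : WBasis Γ) :
    RowsIndepAt B UpperHalfPlane.I := by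
  classical
  intro s c h
  have hE4 : E4f UpperHalfPlane.I ≠ 0 := by
    intro h0
    have h1 := Δf_eq UpperHalfPlane.I
    rw [h0, E6f_I] at h1
    have h2 : Δf UpperHalfPlane.I = 0 := by linear_combination h1 / 1728
    exact Δf_ne_zero _ h2
  set A : SL(2, ℤ) ⧸ Γ → ℂ := fun q => ∑ i ∈ s with B.k i % 4 = 0,
    c i * tr (B.k i) (B.e i) q UpperHalfPlane.I with hA
  set Bs : SL(2, ℤ) ⧸ Γ → ℂ := fun q => ∑ i ∈ s with ¬ B.k i % 4 = 0,
    c i * tr (B.k i) (B.e i) q UpperHalfPlane.I with hBs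
  have hAB : ∀ q, A q + Bs q = 0 := by
    intro q
    simp only [hA, hBs]
    rw [Finset.sum_filter_add_sum_filter_not]
    exact h q
  have hA' : ∀ q, A q = A (ModularGroup.S⁻¹ • q) := by
    intro q
    simp only [hA]
    refine Finset.sum_congr rfl (fun i hi => ?_)
    have hk : B.k i % 4 = 0 := (Finset.mem_filter.mp hi).2
    have h1 := tr_smul_apply (B.isMF i).2.1 q ModularGroup.S UpperHalfPlane.I
    rw [S_smul_I, denom_S_I, I_zpow_of_mod_four_eq_zero hk, one_mul] at h1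
    rw [h1]
  have hB' : ∀ q, Bs q = - Bs (ModularGroup.S⁻¹ • q) := by
    intro q
    simp only [hBs]
    rw [← Finset.sum_neg_distrib]
    refine Finset.sum_congr rfl (fun i hi => ?_)
    have hk : B.k i % 4 = 2 := by
      have h1 : ¬ B.k i % 4 = 0 := (Finset.mem_filter.mp hi).2
      obtain ⟨t, ht⟩ := B.even hneg i
      omega
    have h1 := tr_smul_apply (B.isMF i).2.1 q ModularGroup.S UpperHalfPlane.I
    rw [S_smul_I, denom_S_I, I_zpow_of_mod_four_eq_two hk] at h1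
    rw [h1]
    ring
  have hA0 : ∀ q, A q = 0 := by
    intro q
    have h1 := hAB q
    have h2 := hAB (ModularGroup.S⁻¹ • q)
    rw [hA' q, hB' q] at h1
    rw [hA' q]
    linear_combination (1 / 2) * h1 + (1 / 2) * h2
  have hB0 : ∀ q, Bs q = 0 := by
    intro q
    have h1 := hAB q
    rwa [hA0 q, zero_add] at h1
  have hlim : ∃ c : ℂ, c ≠ 0 ∧ Tendsto E6f atImInfty (𝓝 c) := ⟨1, one_ne_zero, tendsto_E6f⟩
  have hex0 : ∀ i ∈ s.filter (fun i => B.k i % 4 = 0), ∃ r : ℍ → ℂ,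
      IsMF ⊤ ((4 * ((s.sup B.k : ℕ) : ℤ)) - B.k i) r ∧ r UpperHalfPlane.I = 1 := by
    intro i hi
    obtain ⟨hi, hk⟩ := Finset.mem_filter.mp hi
    have hle : B.k i ≤ s.sup B.k := Finset.le_sup hi
    refine exists_r_four _ hE4 _ ?_ ?_ <;> omega
  have hex2 : ∀ i ∈ s.filter (fun i => ¬ B.k i % 4 = 0), ∃ r : ℍ → ℂ,
      IsMF ⊤ ((4 * ((s.sup B.k : ℕ) : ℤ) + 2) - B.k i) r ∧ r UpperHalfPlane.I = 1 := by
    intro i hi
    obtain ⟨hi, hk⟩ := Finset.mem_filter.mp hi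
    have hle : B.k i ≤ s.sup B.k := Finset.le_sup hi
    obtain ⟨t, ht⟩ := B.even hneg i
    refine exists_r_four _ hE4 _ ?_ ?_ <;> omega
  choose! r0 hr0 hr01 using hex0
  choose! r2 hr2 hr21 using hex2
  have hc0 := core B UpperHalfPlane.I E6f 6 isMF_E6f E6f_I hlim div_E6f _ c _ r0 hr0 hr01 hA0
  have hc2 := core B UpperHalfPlane.I E6f 6 isMF_E6f E6f_I hlim div_E6f _ c _ r2 hr2 hr21 hB0
  intro i hi
  by_cases hk : B.k i % 4 = 0
  · exact hc0 i (Finset.mem_filter.mpr ⟨hi, hk⟩)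
  · exact hc2 i (Finset.mem_filter.mpr ⟨hi, hk⟩)

/-! ### The elliptic point `ρ` -/

theorem rho_sq_add : ((rhoPt : ℍ) : ℂ) ^ 2 + (rhoPt : ℂ) + 1 = 0 := by
  have h3 : Real.sqrt 3 * Real.sqrt 3 = 3 := Real.mul_self_sqrt (by norm_num)
  have hρ : ((rhoPt : ℍ) : ℂ) = ⟨-1 / 2, Real.sqrt 3 / 2⟩ := rfl
  rw [hρ]
  apply Complex.ext
  · simp only [pow_two, Complex.add_re, Complex.mul_re, Complex.one_re, Complex.zero_re]
    nlinarith [h3]
  · simp only [pow_two, Complex.add_im, Complex.mul_im, Complex.one_im, Complex.zero_im]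
    ring

theorem rho_cube : ((rhoPt : ℍ) : ℂ) ^ 3 = 1 := by
  linear_combination ((rhoPt : ℂ) - 1) * rho_sq_add

theorem ST_smul_rho : (ModularGroup.S * ModularGroup.T) • rhoPt = rhoPt := by
  rw [mul_smul, UpperHalfPlane.modular_T_smul, UpperHalfPlane.ext_iff,
    UpperHalfPlane.modular_S_smul]
  simp only [UpperHalfPlane.coe_vadd]
  refine inv_eq_of_mul_eq_one_right ?_
  push_cast
  linear_combination (-1 : ℂ) * rho_sq_add

theorem denom_ST_rho :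
    denom ((ModularGroup.S * ModularGroup.T : SL(2, ℤ)) : GL (Fin 2) ℝ) rhoPt =
      (rhoPt : ℂ) + 1 := by
  rw [ModularGroup.denom_apply]
  simp [Matrix.SpecialLinearGroup.coe_mul, ModularGroup.coe_S, ModularGroup.coe_T]

theorem zeta_zpow {k : ℕ} (hk : Even k) :
    ((rhoPt : ℂ) + 1) ^ (k : ℤ) = (rhoPt : ℂ) ^ ((k / 2) % 3) := by
  obtain ⟨t, rfl⟩ := hk
  have h1 : ((rhoPt : ℂ) + 1) ^ 2 = (rhoPt : ℂ) := by linear_combination rho_sq_add
  have h2 : (t + t) / 2 = t := by omega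
  rw [zpow_natCast, h2, ← two_mul, pow_mul, h1]
  exact pow_eq_pow_mod t rho_cube

theorem three_class (ρ a b c : ℂ) (P : ρ ^ 2 + ρ + 1 = 0) (h2 : a + b + c = 0)
    (h1 : a + ρ * b + ρ ^ 2 * c = 0) (h0 : a + ρ ^ 2 * b + ρ ^ 4 * c = 0) :
    a = 0 ∧ b = 0 ∧ c = 0 := by
  have ha : a = 0 := by
    linear_combination (1 / 3) * h2 + (1 / 3) * h1 + (1 / 3) * h0 - (1 / 3) * b * P -
      (1 / 3) * (ρ ^ 2 - ρ + 1) * c * P
  have hb : b = 0 := by
    linear_combination (1 / 3) * h2 + (1 / 3) * ρ ^ 2 * h1 + (1 / 3) * ρ * h0 -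
      (1 / 3) * (a + 2 * (ρ - 1) * b + (1 + ρ ^ 3 - ρ) * c) * P
  exact ⟨ha, hb, by linear_combination h2 - ha - hb⟩

theorem rowsIndepAt_rho [Γ.FiniteIndex] (hneg : (-1 : SL(2, ℤ)) ∈ Γ) (B : WBasis Γ) :
    RowsIndepAt B rhoPt := by
  classical
  intro s c h
  have hE6 : E6f rhoPt ≠ 0 := by
    intro h0
    have h1 := Δf_eq rhoPt
    rw [h0, E4f_rho] at h1
    have h2 : Δf rhoPt = 0 := by linear_combination h1 / 1728
    exact Δf_ne_zero _ h2
  set ρ : ℂ := (rhoPt : ℂ) with hρ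
  set σ : SL(2, ℤ) := (ModularGroup.S * ModularGroup.T)⁻¹ with hσ
  set cls : B.ι → ℕ := fun i => (B.k i / 2) % 3 with hcls
  set A : ℕ → SL(2, ℤ) ⧸ Γ → ℂ := fun j q => ∑ i ∈ s with cls i = j,
    c i * tr (B.k i) (B.e i) q rhoPt with hA
  have hsum : ∀ q, A 0 q + A 1 q + A 2 q = 0 := by
    intro q
    have h1 := Finset.sum_fiberwise_of_maps_to (s := s) (t := Finset.range 3) (g := cls)
      (fun i _ => Finset.mem_range.mpr (Nat.mod_lt _ (by norm_num)))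
      (fun i => c i * tr (B.k i) (B.e i) q rhoPt)
    rw [h q] at h1
    rw [← h1]
    simp only [hA, Finset.sum_range_succ, Finset.sum_range_zero, zero_add]
  have hsym : ∀ j q, A j q = ρ ^ j * A j (σ • q) := by
    intro j q
    simp only [hA]
    rw [Finset.mul_sum]
    refine Finset.sum_congr rfl (fun i hi => ?_)
    have hk : cls i = j := (Finset.mem_filter.mp hi).2
    have h1 := tr_smul_apply (B.isMF i).2.1 q (ModularGroup.S * ModularGroup.T) rhoPt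
    rw [ST_smul_rho, denom_ST_rho, zeta_zpow (B.even hneg i)] at h1
    rw [h1, ← hk]
    ring
  have hA0 : ∀ j, j < 3 → ∀ q, A j q = 0 := by
    intro j hj q
    have e0 := hsum q
    have e1 := hsum (σ • q)
    have e2 := hsum (σ • σ • q)
    have s00 := hsym 0 q
    have s01 := hsym 0 (σ • q)
    have s10 := hsym 1 q
    have s11 := hsym 1 (σ • q)
    have s20 := hsym 2 q
    have s21 := hsym 2 (σ • q)
    rw [pow_zero, one_mul] at s00 s01
    rw [pow_one] at s10 s11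
    have P : ρ ^ 2 + ρ + 1 = 0 := rho_sq_add
    obtain ⟨ha, hb, hc⟩ := three_class ρ (A 0 (σ • σ • q)) (A 1 (σ • σ • q)) (A 2 (σ • σ • q)) P
      e2 (by rw [s01, s11, s21] at e1; linear_combination e1)
      (by rw [s00, s10, s20, s01, s11, s21] at e0; linear_combination e0)
    interval_cases j
    · rw [s00, s01, ha]
    · rw [s10, s11, hb]; ring
    · rw [s20, s21, hc]; ring
  have hlim : ∃ c : ℂ, c ≠ 0 ∧ Tendsto E4f atImInfty (𝓝 c) := ⟨1, one_ne_zero, tendsto_E4f⟩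
  have hex : ∀ j, ∀ i ∈ s.filter (fun i => cls i = j), ∃ r : ℍ → ℂ,
      IsMF ⊤ ((6 * ((s.sup B.k : ℕ) : ℤ) + 2 * (j : ℤ)) - B.k i) r ∧ r rhoPt = 1 := by
    intro j i hi
    obtain ⟨hi, hk⟩ := Finset.mem_filter.mp hi
    have hle : B.k i ≤ s.sup B.k := Finset.le_sup hi
    obtain ⟨t, ht⟩ := B.even hneg i
    simp only [hcls] at hk
    refine exists_r_six _ hE6 _ ?_ ?_ <;> omega
  choose! r hr hr1 using hex
  intro i hi
  have hlt : cls i < 3 := Nat.mod_lt _ (by norm_num)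
  exact core B rhoPt E4f 4 isMF_E4f E4f_rho hlim div_E4f _ c _ (r (cls i)) (hr (cls i))
    (hr1 (cls i)) (hA0 (cls i) hlt) i (Finset.mem_filter.mpr ⟨hi, rfl⟩)

/-! ### Transport along the `SL(2, ℤ)`-action and conclusion -/

theorem rowsIndepAt_smul (B : WBasis Γ) (z1 : ℍ) (γ : SL(2, ℤ)) (h1 : RowsIndepAt B z1) :
    RowsIndepAt B (γ • z1) := by
  intro s c h
  have h2 := h1 s (fun i => c i * denom γ z1 ^ (B.k i : ℤ)) (fun q => by
    rw [← h (γ • q)]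
    refine Finset.sum_congr rfl (fun i _ => ?_)
    rw [tr_smul_apply (B.isMF i).2.1, inv_smul_smul]
    ring)
  intro i hi
  rcases mul_eq_zero.mp (h2 i hi) with h3 | h3
  · exact h3
  · exact absurd h3 (zpow_ne_zero _ (denom_ne_zero _ z1))

theorem rowsIndepAt_all [Γ.FiniteIndex] (hneg : (-1 : SL(2, ℤ)) ∈ Γ) (B : WBasis Γ) (z : ℍ) :
    RowsIndepAt B z := by
  by_cases h4 : E4f z = 0
  · obtain ⟨γ, rfl⟩ := (E4f_eq_zero_iff z).mp h4
    exact rowsIndepAt_smul B _ γ (rowsIndepAt_rho hneg B)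
  · by_cases h6 : E6f z = 0
    · obtain ⟨γ, rfl⟩ := (E6f_eq_zero_iff z).mp h6
      exact rowsIndepAt_smul B _ γ (rowsIndepAt_I hneg B)
    · exact rowsIndepAt_generic hneg B z h4 h6

end RowsIndep

/-- The rows of the conjugate matrix of a weak graded basis are linearly independent at every
point of the upper half plane. -/
theorem WBasis.rows_linearIndependent {Γ : Subgroup SL(2, ℤ)} [Γ.FiniteIndex]
    (hneg : (-1 : SL(2, ℤ)) ∈ Γ) (B : WBasis Γ) (z : ℍ) :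
    LinearIndependent ℂ (fun i : B.ι => fun q : SL(2, ℤ) ⧸ Γ => tr (B.k i) (B.e i) q z) := by
  rw [linearIndependent_iff']
  intro s g hg i hi
  refine RowsIndep.rowsIndepAt_all hneg B z s g (fun q => ?_) i hi
  have h1 := congrFun hg q
  simpa [Finset.sum_apply] using h1

end

end Fermat.Agent.S20
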