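import Fermat.Agent.S20.DefsW
import Fermat.Agent.S20.L1Basic
import Fermat.Agent.S20.Translates
import Fermat.Agent.S20.RowsIndep
import Fermat.Agent.S20.PermCount

/-!
# S20 — D4b: weights of a graded basis modulo 4 and modulo 6

For a graded basis `B : GBasis Γ` (with `-1 ∈ Γ`) the rows of the matrix of conjugates at the
elliptic points `i` and `ρ` are eigenvectors of the permutations of the cosets induced by `S`
and `S * T`; counting eigen-classes (PermCount) gives the number of weights in each residue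
class modulo 4 resp. modulo 6 in terms of the numbers of fixed cosets.
-/

set_option autoImplicit false

open UpperHalfPlane ModularForm Matrix.SpecialLinearGroup Filter
open scoped MatrixGroups Manifold ModularForm Topology

namespace Fermat.Agent.S20

noncomputable section

variable {Γ : Subgroup SL(2, ℤ)}

namespace FiberCounts

/-- `-1` acts trivially on the cosets of a subgroup containing `-1`. -/
theorem neg_one_smul_coset (hneg : (-1 : SL(2, ℤ)) ∈ Γ) (q : SL(2, ℤ) ⧸ Γ) :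
    (-1 : SL(2, ℤ)) • q = q := by
  induction q using QuotientGroup.induction_on with
  | H g =>
    rw [MulAction.Quotient.smul_mk, smul_eq_mul, neg_one_mul, ← mul_neg_one]
    exact QuotientGroup.mk_mul_of_mem g hneg

/-- Constants are modular forms of weight `0`. -/
theorem isMF_const (Γ : Subgroup SL(2, ℤ)) (c : ℂ) : IsMF Γ 0 (fun _ => c) := by
  have hc : ∀ γ : SL(2, ℤ), (fun _ : ℍ => c) ∣[(0 : ℤ)] γ = fun _ => c :=
    fun γ => ModularForm.is_invariant_const γ c
  refine ⟨mdifferentiable_const, fun γ _ => hc γ, fun γ => ?_⟩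
  rw [hc γ]
  exact Filter.const_boundedAtFilter _ c

theorem S_smul_I : ModularGroup.S • (I : ℍ) = I := by
  rw [modular_S_smul, UpperHalfPlane.ext_iff]
  norm_num

theorem ST_smul_rho : (ModularGroup.S * ModularGroup.T) • rhoPt = rhoPt :=
  (ModularGroup.stabilizer_ρ (g := ModularGroup.S * ModularGroup.T)).mpr (by simp)

theorem denom_ST_rho :
    denom ((ModularGroup.S * ModularGroup.T : SL(2, ℤ)) : GL (Fin 2) ℝ) rhoPt =
      (rhoPt : ℂ) + 1 := by
  have h10 : (ModularGroup.S * ModularGroup.T : SL(2, ℤ)) 1 0 = 1 := by decide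
  have h11 : (ModularGroup.S * ModularGroup.T : SL(2, ℤ)) 1 1 = 1 := by decide
  rw [ModularGroup.denom_apply, h10, h11]
  simp

/-- Transformation of the translates at the fixed point `i` of `S`. -/
theorem tr_S_inv_smul_I {k : ℤ} {f : ℍ → ℂ} (hf : ∀ γ ∈ Γ, f ∣[k] γ = f)
    (q : SL(2, ℤ) ⧸ Γ) :
    tr k f (ModularGroup.S⁻¹ • q) I = Complex.I ^ (-k) * tr k f q I := by
  rw [← tr_slash hf q ModularGroup.S, SL_slash_apply, S_smul_I, ModularGroup.denom_S, coe_I,
    mul_comm]

/-- Transformation of the translates at the fixed point `ρ` of `S * T`. -/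
theorem tr_ST_inv_smul_rho {k : ℤ} {f : ℍ → ℂ} (hf : ∀ γ ∈ Γ, f ∣[k] γ = f)
    (q : SL(2, ℤ) ⧸ Γ) :
    tr k f ((ModularGroup.S * ModularGroup.T)⁻¹ • q) rhoPt =
      ((rhoPt : ℂ) + 1) ^ (-k) * tr k f q rhoPt := by
  rw [← tr_slash hf q (ModularGroup.S * ModularGroup.T), SL_slash_apply, ST_smul_rho,
    denom_ST_rho, mul_comm]

theorem I_zpow_neg_even (n : ℕ) (hn : Even n) :
    (Complex.I ^ (-(n : ℤ)) = 1 ∧ n % 4 ≠ 2) ∨ (Complex.I ^ (-(n : ℤ)) = -1 ∧ n % 4 = 2) := by
  obtain ⟨m, rfl⟩ := hn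
  rcases Nat.even_or_odd m with ⟨j, rfl⟩ | ⟨j, rfl⟩
  · left
    refine ⟨?_, by omega⟩
    rw [zpow_neg, zpow_natCast, show j + j + (j + j) = 4 * j by ring, pow_mul, Complex.I_pow_four,
      one_pow, inv_one]
  · right
    refine ⟨?_, by omega⟩
    rw [zpow_neg, zpow_natCast, show 2 * j + 1 + (2 * j + 1) = 4 * j + 2 by ring, pow_add, pow_mul,
      Complex.I_pow_four, one_pow, one_mul, Complex.I_sq]
    norm_num

theorem rho_cube : (rhoPt : ℂ) ^ 3 = 1 := by
  have h : (rhoPt : ℂ) ^ 2 = -rhoPt - 1 := UpperHalfPlane.ρ_sq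
  have : (rhoPt : ℂ) ^ 3 = (rhoPt : ℂ) ^ 2 * rhoPt := by ring
  rw [this, h]
  linear_combination -h

theorem rho_ne_zero : (rhoPt : ℂ) ≠ 0 := by
  intro h
  have := rho_cube
  rw [h] at this
  norm_num at this

/-- `(ρ + 1) ^ (-2m) = (ρ⁻¹) ^ (m % 3)`. -/
theorem rho_add_one_zpow (n : ℕ) (hn : Even n) :
    ((rhoPt : ℂ) + 1) ^ (-(n : ℤ)) = ((rhoPt : ℂ)⁻¹) ^ (n / 2 % 3) := by
  obtain ⟨m, rfl⟩ := hn
  have h2 : ((rhoPt : ℂ) + 1) ^ 2 = rhoPt := by
    have h : (rhoPt : ℂ) ^ 2 = -rhoPt - 1 := UpperHalfPlane.ρ_sq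
    linear_combination h
  have h3 : ((rhoPt : ℂ)⁻¹) ^ 3 = 1 := by
    rw [inv_pow, rho_cube, inv_one]
  have hm : (m + m) / 2 = m := by omega
  rw [hm, zpow_neg, zpow_natCast, ← two_mul, pow_mul, h2, ← inv_pow]
  conv_lhs => rw [← Nat.div_add_mod m 3, pow_add, pow_mul, h3, one_pow, one_mul]

theorem rho_inv_root : ((rhoPt : ℂ)⁻¹) ^ 2 + (rhoPt : ℂ)⁻¹ + 1 = 0 := by
  have h : (rhoPt : ℂ) ^ 2 = -rhoPt - 1 := UpperHalfPlane.ρ_sq
  have h0 := rho_ne_zero
  field_simp
  linear_combination h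

/-- The number of fixed points of the permutation `q ↦ g⁻¹ • q`. -/
theorem card_filter_fixed {X : Type} [Fintype X] [DecidableEq X] [MulAction SL(2, ℤ) X]
    (g : SL(2, ℤ)) :
    (Finset.univ.filter (fun x : X => (MulAction.toPerm g⁻¹ : Equiv.Perm X) x = x)).card =
      Nat.card (MulAction.fixedBy X g) := by
  rw [← Nat.subtype_card (Finset.univ.filter
    (fun x : X => (MulAction.toPerm g⁻¹ : Equiv.Perm X) x = x))]
  intro x
  simp only [Finset.mem_filter, Finset.mem_univ, true_and, MulAction.toPerm_apply,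
    MulAction.mem_fixedBy, inv_smul_eq_iff]
  exact eq_comm

/-- A basis element is nonzero. -/
theorem e_ne_zero (B : GBasis Γ) (i : B.ι) : B.e i ≠ 0 := by
  classical
  intro h
  have hr : ∀ l, IsMF ⊤ ((B.k i : ℤ) - B.k l) ((Pi.single i (fun _ => (1 : ℂ)) : B.ι → ℍ → ℂ) l) := by
    intro l
    by_cases hl : l = i
    · subst hl
      rw [Pi.single_eq_same, sub_self]
      exact isMF_const ⊤ 1
    · rw [Pi.single_eq_of_ne hl]
      exact IsMF.zero _ _
  have hsum : ∑ l, (Pi.single i (fun _ => (1 : ℂ)) : B.ι → ℍ → ℂ) l * B.e l = 0 := by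
    rw [Fintype.sum_eq_single i]
    · rw [h, mul_zero]
    · intro l hl
      rw [Pi.single_eq_of_ne hl, zero_mul]
  have := B.uniq (B.k i) _ hr hsum i
  rw [Pi.single_eq_same] at this
  have := congrFun this I
  simp at this

end FiberCounts

theorem GBasis.even [Γ.FiniteIndex] (hneg : (-1 : SL(2, ℤ)) ∈ Γ) (B : GBasis Γ) (i : B.ι) :
    Even (B.k i) := by
  by_contra h
  rw [Nat.not_even_iff_odd] at h
  exact FiberCounts.e_ne_zero B i
    ((B.isMF i).eq_zero_of_odd hneg ((Int.odd_coe_nat (B.k i)).mpr h))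

theorem GBasis.rows_linearIndependent [Γ.FiniteIndex] (hneg : (-1 : SL(2, ℤ)) ∈ Γ)
    (B : GBasis Γ) (z : ℍ) : LinearIndependent ℂ (fun i => B.A z i) :=
  WBasis.rows_linearIndependent hneg B.toWBasis z

theorem GBasis.count_mod4 [Γ.FiniteIndex] (hneg : (-1 : SL(2, ℤ)) ∈ Γ) (B : GBasis Γ) :
    2 * (Finset.univ.filter (fun i => B.k i % 4 = 2)).card + nu2 Γ = Γ.index := by
  classical
  have : Fintype (SL(2, ℤ) ⧸ Γ) := Fintype.ofFinite _
  have hσ : (MulAction.toPerm (ModularGroup.S⁻¹ : SL(2, ℤ)) : Equiv.Perm (SL(2, ℤ) ⧸ Γ)) *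
      MulAction.toPerm (ModularGroup.S⁻¹ : SL(2, ℤ)) = 1 := by
    ext q
    rw [Equiv.Perm.mul_apply, MulAction.toPerm_apply, MulAction.toPerm_apply, ← mul_smul,
      show (ModularGroup.S⁻¹ * ModularGroup.S⁻¹ : SL(2, ℤ)) = -1 by decide,
      FiberCounts.neg_one_smul_coset hneg, Equiv.Perm.one_apply]
  have hcard : Fintype.card B.ι = Fintype.card (SL(2, ℤ) ⧸ Γ) := by
    rw [B.card_eq, Subgroup.index, Nat.card_eq_fintype_card]
  have key := card_le_of_involution
    (MulAction.toPerm (ModularGroup.S⁻¹ : SL(2, ℤ)) : Equiv.Perm (SL(2, ℤ) ⧸ Γ)) hσ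
    (fun i => B.A I i) (fun i => Complex.I ^ (-(B.k i : ℤ)))
    (fun i => by
      rcases FiberCounts.I_zpow_neg_even (B.k i) (B.even hneg i) with h | h
      · exact Or.inl h.1
      · exact Or.inr h.1)
    (fun i q => FiberCounts.tr_S_inv_smul_I (B.isMF i).2.1 q)
    (B.rows_linearIndependent hneg I) hcard
  rw [FiberCounts.card_filter_fixed] at key
  have hfilter : (Finset.univ.filter (fun i => Complex.I ^ (-(B.k i : ℤ)) = -1)) =
      Finset.univ.filter (fun i => B.k i % 4 = 2) := by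
    apply Finset.filter_congr
    intro i _
    rcases FiberCounts.I_zpow_neg_even (B.k i) (B.even hneg i) with h | h
    · constructor
      · intro h'
        rw [h.1] at h'
        norm_num at h'
      · intro h'
        exact absurd h' h.2
    · exact ⟨fun _ => h.2, fun _ => h.1⟩
  rw [hfilter] at key
  rw [nu2, Subgroup.index, Nat.card_eq_fintype_card (α := SL(2, ℤ) ⧸ Γ)]
  exact key

theorem GBasis.count_mod6 [Γ.FiniteIndex] (hneg : (-1 : SL(2, ℤ)) ∈ Γ) (B : GBasis Γ) :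
    3 * (Finset.univ.filter (fun i => B.k i % 6 = 0)).card = Γ.index + 2 * nu3 Γ ∧
      (Finset.univ.filter (fun i => B.k i % 6 = 2)).card =
        (Finset.univ.filter (fun i => B.k i % 6 = 4)).card := by
  classical
  have : Fintype (SL(2, ℤ) ⧸ Γ) := Fintype.ofFinite _
  set g : SL(2, ℤ) := ModularGroup.S * ModularGroup.T with hg
  have hσ : (MulAction.toPerm (g⁻¹ : SL(2, ℤ)) : Equiv.Perm (SL(2, ℤ) ⧸ Γ)) *
      MulAction.toPerm (g⁻¹ : SL(2, ℤ)) * MulAction.toPerm (g⁻¹ : SL(2, ℤ)) = 1 := by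
    ext q
    rw [Equiv.Perm.mul_apply, Equiv.Perm.mul_apply, MulAction.toPerm_apply,
      MulAction.toPerm_apply, MulAction.toPerm_apply, ← mul_smul, ← mul_smul,
      show (g⁻¹ * g⁻¹ * g⁻¹ : SL(2, ℤ)) = -1 by rw [hg]; decide,
      FiberCounts.neg_one_smul_coset hneg, Equiv.Perm.one_apply]
  have hcard : Fintype.card B.ι = Fintype.card (SL(2, ℤ) ⧸ Γ) := by
    rw [B.card_eq, Subgroup.index, Nat.card_eq_fintype_card]
  have hlt : ∀ i : B.ι, B.k i / 2 % 3 < 3 := fun i => Nat.mod_lt _ (by norm_num)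
  have key := card_le_of_order_three
    (MulAction.toPerm (g⁻¹ : SL(2, ℤ)) : Equiv.Perm (SL(2, ℤ) ⧸ Γ)) hσ
    ((rhoPt : ℂ)⁻¹) FiberCounts.rho_inv_root
    (fun i => B.A rhoPt i) (fun i => (⟨B.k i / 2 % 3, hlt i⟩ : Fin 3))
    (fun i q => by
      have := FiberCounts.tr_ST_inv_smul_rho (B.isMF i).2.1 q
      rw [FiberCounts.rho_add_one_zpow (B.k i) (B.even hneg i)] at this
      exact this)
    (B.rows_linearIndependent hneg rhoPt) hcard
  rw [FiberCounts.card_filter_fixed] at key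
  have hf0 : (Finset.univ.filter (fun i : B.ι => (⟨B.k i / 2 % 3, hlt i⟩ : Fin 3) = 0)) =
      Finset.univ.filter (fun i => B.k i % 6 = 0) := by
    apply Finset.filter_congr
    intro i _
    obtain ⟨m, hm⟩ := B.even hneg i
    rw [Fin.ext_iff]
    simp only [Fin.val_zero]
    omega
  have hf1 : (Finset.univ.filter (fun i : B.ι => (⟨B.k i / 2 % 3, hlt i⟩ : Fin 3) = 1)) =
      Finset.univ.filter (fun i => B.k i % 6 = 2) := by
    apply Finset.filter_congr
    intro i _
    obtain ⟨m, hm⟩ := B.even hneg i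
    rw [Fin.ext_iff]
    simp only [Fin.val_one]
    omega
  have hf2 : (Finset.univ.filter (fun i : B.ι => (⟨B.k i / 2 % 3, hlt i⟩ : Fin 3) = 2)) =
      Finset.univ.filter (fun i => B.k i % 6 = 4) := by
    apply Finset.filter_congr
    intro i _
    obtain ⟨m, hm⟩ := B.even hneg i
    rw [Fin.ext_iff]
    simp only [Fin.val_two]
    omega
  rw [hf0, hf1, hf2] at key
  rw [nu3, Subgroup.index, Nat.card_eq_fintype_card (α := SL(2, ℤ) ⧸ Γ)]
  exact key

theorem GBasis.card_weight_zero [Γ.FiniteIndex] (B : GBasis Γ) :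
    (Finset.univ.filter (fun i => B.k i = 0)).card = 1 := by
  classical
  -- existence of a weight zero generator
  obtain ⟨r, hr, h1⟩ := B.repr 0 (fun _ => 1) (FiberCounts.isMF_const Γ 1)
  have hex : ∃ i, B.k i = 0 := by
    by_contra hne'
    have hne : ∀ i, B.k i ≠ 0 := fun i hi => hne' ⟨i, hi⟩
    have hr0 : ∀ i, r i = 0 := fun i =>
      (hr i).eq_zero_of_neg (by have := Nat.pos_of_ne_zero (hne i); omega)
    have h2 : (fun _ : ℍ => (1 : ℂ)) = 0 := by
      rw [h1]
      exact Finset.sum_eq_zero (fun i _ => by rw [hr0 i, zero_mul])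
    have := congrFun h2 I
    simp at this
  obtain ⟨i0, hi0⟩ := hex
  rw [Finset.card_eq_one]
  refine ⟨i0, ?_⟩
  ext j
  simp only [Finset.mem_filter, Finset.mem_univ, true_and, Finset.mem_singleton]
  refine ⟨fun hj => ?_, fun hj => hj ▸ hi0⟩
  by_contra hne
  have hMF0 : IsMF Γ 0 (B.e i0) := by
    have := B.isMF i0
    rwa [hi0, Nat.cast_zero] at this
  have hMFj : IsMF Γ 0 (B.e j) := by
    have := B.isMF j
    rwa [hj, Nat.cast_zero] at this
  obtain ⟨c0, hc0⟩ := hMF0.eq_const_of_weight_zero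
  obtain ⟨cj, hcj⟩ := hMFj.eq_const_of_weight_zero
  set r' : B.ι → ℍ → ℂ := fun l => if l = i0 then (fun _ => cj) else
    if l = j then (fun _ => -c0) else 0 with hr'
  have hr'MF : ∀ l, IsMF ⊤ ((0 : ℤ) - B.k l) (r' l) := by
    intro l
    by_cases hl : l = i0
    · subst hl
      simp only [hr', if_true, hi0, Nat.cast_zero, sub_zero]
      exact FiberCounts.isMF_const ⊤ cj
    · by_cases hl' : l = j
      · subst hl'
        simp only [hr', if_neg hl, if_true, hj, Nat.cast_zero, sub_zero]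
        exact FiberCounts.isMF_const ⊤ (-c0)
      · simp only [hr', if_neg hl, if_neg hl']
        exact IsMF.zero _ _
  have hsum : ∑ l, r' l * B.e l = 0 := by
    rw [Fintype.sum_eq_add i0 j (Ne.symm hne)]
    · simp only [hr', if_true, if_neg hne]
      rw [hc0, hcj]
      funext z
      simp only [Pi.add_apply, Pi.mul_apply, Pi.zero_apply]
      ring
    · intro l hl
      simp only [hr', if_neg hl.1, if_neg hl.2, zero_mul]
  have h0 := B.uniq 0 r' hr'MF hsum i0
  simp only [hr', if_true] at h0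
  have hcj0 : cj = 0 := by
    have := congrFun h0 I
    simpa using this
  apply FiberCounts.e_ne_zero B j
  rw [hcj, hcj0]
  rfl

end

end Fermat.Agent.S20
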