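import Mathlib

set_option autoImplicit false

/-!
# Cosets of `Gamma0 N` in `SL(2, ℤ)`: basic criteria (S20, task T1)

`X = SL(2, ℤ) ⧸ Gamma0 N` with the left-multiplication action.  Equality of cosets and the action of
`S`, `S * T`, `T ^ k` are expressed through the first column `(g 0 0, g 1 0)` of a matrix.
-/

open scoped MatrixGroups
open CongruenceSubgroup Matrix Matrix.SpecialLinearGroup

namespace Fermat.Agent.S20.Count

theorem mul_apply_col (g h : SL(2, ℤ)) :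
    (g * h) 0 0 = g 0 0 * h 0 0 + g 0 1 * h 1 0 ∧ (g * h) 1 0 = g 1 0 * h 0 0 + g 1 1 * h 1 0 := by
  have h1 := (Matrix.two_mul_expl g.1 h.1).1
  have h2 := (Matrix.two_mul_expl g.1 h.1).2.2.1
  exact ⟨h1, h2⟩

theorem inv_apply_entries (g : SL(2, ℤ)) :
    g⁻¹ 0 0 = g 1 1 ∧ g⁻¹ 0 1 = - g 0 1 ∧ g⁻¹ 1 0 = - g 1 0 ∧ g⁻¹ 1 1 = g 0 0 := by
  rw [SL2_inv_expl g]
  exact ⟨rfl, rfl, rfl, rfl⟩

/-- Two cosets `g Γ₀(N)`, `g' Γ₀(N)` agree iff `N ∣ a c' - c a'` (first columns `(a, c)`, `(a', c')`). -/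
theorem mk_eq_mk_iff (N : ℕ) (g g' : SL(2, ℤ)) :
    (QuotientGroup.mk g : SL(2, ℤ) ⧸ Gamma0 N) = QuotientGroup.mk g' ↔
      (N : ℤ) ∣ g 0 0 * g' 1 0 - g 1 0 * g' 0 0 := by
  rw [QuotientGroup.eq, Gamma0_mem, ZMod.intCast_zmod_eq_zero_iff_dvd]
  have h : (g⁻¹ * g') 1 0 = g 0 0 * g' 1 0 - g 1 0 * g' 0 0 := by
    rw [(mul_apply_col g⁻¹ g').2, (inv_apply_entries g).2.2.1, (inv_apply_entries g).2.2.2]
    ring
  rw [h]

/-- The determinant relation for an element of `SL(2, ℤ)`. -/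
theorem det_rel (g : SL(2, ℤ)) : g 0 0 * g 1 1 - g 0 1 * g 1 0 = 1 := by
  have := g.det_coe
  rw [Matrix.det_fin_two] at this
  exact this

theorem S_mul_col (g : SL(2, ℤ)) :
    (ModularGroup.S * g) 0 0 = - g 1 0 ∧ (ModularGroup.S * g) 1 0 = g 0 0 := by
  have h := mul_apply_col ModularGroup.S g
  have e00 : ModularGroup.S 0 0 = 0 := rfl
  have e01 : ModularGroup.S 0 1 = -1 := rfl
  have e10 : ModularGroup.S 1 0 = 1 := rfl
  have e11 : ModularGroup.S 1 1 = 0 := rfl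
  rw [e00, e01] at h
  rw [e10, e11] at h
  constructor
  · rw [h.1]; ring
  · rw [h.2]; ring

theorem T_zpow_mul_col (k : ℤ) (g : SL(2, ℤ)) :
    (ModularGroup.T ^ k * g) 0 0 = g 0 0 + k * g 1 0 ∧ (ModularGroup.T ^ k * g) 1 0 = g 1 0 := by
  have h := mul_apply_col (ModularGroup.T ^ k) g
  have hT := ModularGroup.coe_T_zpow k
  have e00 : (ModularGroup.T ^ k) 0 0 = 1 := by
    show (ModularGroup.T ^ k).1 0 0 = 1
    rw [hT]; rfl
  have e01 : (ModularGroup.T ^ k) 0 1 = k := by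
    show (ModularGroup.T ^ k).1 0 1 = k
    rw [hT]; rfl
  have e10 : (ModularGroup.T ^ k) 1 0 = 0 := by
    show (ModularGroup.T ^ k).1 1 0 = 0
    rw [hT]; rfl
  have e11 : (ModularGroup.T ^ k) 1 1 = 1 := by
    show (ModularGroup.T ^ k).1 1 1 = 1
    rw [hT]; rfl
  rw [e00, e01] at h
  rw [e10, e11] at h
  constructor
  · rw [h.1]; ring
  · rw [h.2]; ring

theorem ST_mul_col (g : SL(2, ℤ)) :
    (ModularGroup.S * ModularGroup.T * g) 0 0 = - g 1 0 ∧
      (ModularGroup.S * ModularGroup.T * g) 1 0 = g 0 0 + g 1 0 := by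
  have h1 := T_zpow_mul_col 1 g
  rw [zpow_one] at h1
  have h2 := S_mul_col (ModularGroup.T * g)
  rw [mul_assoc]
  constructor
  · rw [h2.1, h1.2]
  · rw [h2.2, h1.1]; ring

/-- A matrix in `SL(2, ℤ)` with prescribed first column `(x, 1)`. -/
def colOne (x : ℤ) : SL(2, ℤ) := ⟨!![x, -1; 1, 0], by simp [Matrix.det_fin_two]⟩

@[simp] theorem colOne_apply_zero_zero (x : ℤ) : colOne x 0 0 = x := rfl
@[simp] theorem colOne_apply_one_zero (x : ℤ) : colOne x 1 0 = 1 := rfl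

/-- Every coprime pair of integers is the first column of an element of `SL(2, ℤ)`. -/
theorem exists_col (a c : ℤ) (h : IsCoprime a c) : ∃ g : SL(2, ℤ), g 0 0 = a ∧ g 1 0 = c := by
  obtain ⟨u, v, huv⟩ := h
  refine ⟨⟨!![a, -v; c, u], ?_⟩, rfl, rfl⟩
  simp only [Matrix.det_fin_two, of_apply, cons_val_zero, cons_val_one]
  linarith

/-- The first column of an element of `SL(2, ℤ)` is a coprime pair. -/
theorem isCoprime_col (g : SL(2, ℤ)) : IsCoprime (g 0 0) (g 1 0) :=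
  ⟨g 1 1, - g 0 1, by have := det_rel g; linarith⟩

end Fermat.Agent.S20.Count
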