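import Mathlib
import Fermat.Prelude.Def_ModularCurve_GenusNumerics
import Fermat.Agent.S20.CountBasic

set_option autoImplicit false

/-!
# Fixed points of `S` and `S * T` on `SL(2, ℤ) ⧸ Gamma0 N` (S20, task T1)

* `card_fixedBy_S  : Nat.card (fixedBy (SL(2, ℤ) ⧸ Gamma0 N) S) = nuTwo N`
* `card_fixedBy_ST : Nat.card (fixedBy (SL(2, ℤ) ⧸ Gamma0 N) (S * T)) = nuThree N`
-/

open scoped MatrixGroups
open CongruenceSubgroup Matrix Matrix.SpecialLinearGroup

namespace Fermat.Agent.S20.Count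

/-- Coset equality, phrased in `ZMod N`. -/
theorem mk_eq_mk_iff_zmod (N : ℕ) (g g' : SL(2, ℤ)) :
    (QuotientGroup.mk g : SL(2, ℤ) ⧸ Gamma0 N) = QuotientGroup.mk g' ↔
      ((g 0 0 : ℤ) : ZMod N) * ((g' 1 0 : ℤ) : ZMod N)
        - ((g 1 0 : ℤ) : ZMod N) * ((g' 0 0 : ℤ) : ZMod N) = 0 := by
  rw [mk_eq_mk_iff, ← ZMod.intCast_zmod_eq_zero_iff_dvd]
  push_cast
  rfl

theorem det_rel_zmod (N : ℕ) (g : SL(2, ℤ)) :
    ((g 0 0 : ℤ) : ZMod N) * ((g 1 1 : ℤ) : ZMod N)
      - ((g 0 1 : ℤ) : ZMod N) * ((g 1 0 : ℤ) : ZMod N) = 1 := by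
  have h := congrArg (Int.cast : ℤ → ZMod N) (det_rel g)
  push_cast at h
  exact h

theorem mem_fixedBy_S_iff (N : ℕ) (g : SL(2, ℤ)) :
    (QuotientGroup.mk g : SL(2, ℤ) ⧸ Gamma0 N) ∈
        MulAction.fixedBy (SL(2, ℤ) ⧸ Gamma0 N) ModularGroup.S ↔
      ((g 0 0 : ℤ) : ZMod N) ^ 2 + ((g 1 0 : ℤ) : ZMod N) ^ 2 = 0 := by
  rw [MulAction.mem_fixedBy, MulAction.Quotient.smul_mk, smul_eq_mul, eq_comm, mk_eq_mk_iff_zmod,
    (S_mul_col g).1, (S_mul_col g).2]
  push_cast
  constructor <;> intro h <;> linear_combination h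

theorem mem_fixedBy_ST_iff (N : ℕ) (g : SL(2, ℤ)) :
    (QuotientGroup.mk g : SL(2, ℤ) ⧸ Gamma0 N) ∈
        MulAction.fixedBy (SL(2, ℤ) ⧸ Gamma0 N) (ModularGroup.S * ModularGroup.T) ↔
      ((g 0 0 : ℤ) : ZMod N) ^ 2 + ((g 0 0 : ℤ) : ZMod N) * ((g 1 0 : ℤ) : ZMod N)
        + ((g 1 0 : ℤ) : ZMod N) ^ 2 = 0 := by
  rw [MulAction.mem_fixedBy, MulAction.Quotient.smul_mk, smul_eq_mul, eq_comm, mk_eq_mk_iff_zmod,
    (ST_mul_col g).1, (ST_mul_col g).2]
  push_cast
  constructor <;> intro h <;> linear_combination h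

/-- The number of fixed points of `S` on `SL(2, ℤ) ⧸ Γ₀(N)` is `ν₂(N)`. -/
theorem card_fixedBy_S (N : ℕ) [NeZero N] :
    Nat.card (MulAction.fixedBy (SL(2, ℤ) ⧸ Gamma0 N) ModularGroup.S) = ModularCurve.nuTwo N := by
  unfold ModularCurve.nuTwo
  symm
  have hmem : ∀ x : {x : ZMod N // x ^ 2 + 1 = 0},
      (QuotientGroup.mk (colOne (ZMod.cast x.1 : ℤ)) : SL(2, ℤ) ⧸ Gamma0 N) ∈
        MulAction.fixedBy (SL(2, ℤ) ⧸ Gamma0 N) ModularGroup.S := by
    intro x
    rw [mem_fixedBy_S_iff]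
    simp only [colOne_apply_zero_zero, colOne_apply_one_zero, ZMod.intCast_cast, ZMod.cast_id',
      id_eq, Int.cast_one, one_pow]
    exact x.2
  refine Nat.card_congr (Equiv.ofBijective (fun x => ⟨_, hmem x⟩) ⟨?_, ?_⟩)
  · intro x y hxy
    have h := congrArg Subtype.val hxy
    simp only at h
    rw [mk_eq_mk_iff_zmod] at h
    simp only [colOne_apply_zero_zero, colOne_apply_one_zero, ZMod.intCast_cast, ZMod.cast_id',
      id_eq, Int.cast_one, mul_one, one_mul] at h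
    exact Subtype.ext (sub_eq_zero.mp h)
  · rintro ⟨q, hq⟩
    induction q using QuotientGroup.induction_on with
    | H g =>
      rw [mem_fixedBy_S_iff] at hq
      have hdet := det_rel_zmod N g
      set a : ZMod N := ((g 0 0 : ℤ) : ZMod N) with ha
      set c : ZMod N := ((g 1 0 : ℤ) : ZMod N) with hc
      set r : ZMod N := ((g 1 1 : ℤ) : ZMod N) with hr
      set s : ZMod N := ((g 0 1 : ℤ) : ZMod N) with hs
      set cinv : ZMod N := -r ^ 2 * c - 2 * r * s * a + s ^ 2 * c with hcinv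
      have hcc : c * cinv = 1 := by
        rw [hcinv]
        linear_combination (-r ^ 2) * hq + (a * r - s * c + 1) * hdet
      have hx : (a * cinv) ^ 2 + 1 = 0 := by
        linear_combination cinv ^ 2 * hq - (1 + c * cinv) * hcc
      refine ⟨⟨a * cinv, hx⟩, ?_⟩
      apply Subtype.ext
      simp only
      rw [mk_eq_mk_iff_zmod]
      simp only [colOne_apply_zero_zero, colOne_apply_one_zero, ZMod.intCast_cast, ZMod.cast_id',
        id_eq, Int.cast_one, one_mul]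
      rw [← ha, ← hc]
      linear_combination a * hcc

/-- The number of fixed points of `S * T` on `SL(2, ℤ) ⧸ Γ₀(N)` is `ν₃(N)`. -/
theorem card_fixedBy_ST (N : ℕ) [NeZero N] :
    Nat.card (MulAction.fixedBy (SL(2, ℤ) ⧸ Gamma0 N) (ModularGroup.S * ModularGroup.T)) =
      ModularCurve.nuThree N := by
  unfold ModularCurve.nuThree
  symm
  have hmem : ∀ x : {x : ZMod N // x ^ 2 + x + 1 = 0},
      (QuotientGroup.mk (colOne (ZMod.cast x.1 : ℤ)) : SL(2, ℤ) ⧸ Gamma0 N) ∈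
        MulAction.fixedBy (SL(2, ℤ) ⧸ Gamma0 N) (ModularGroup.S * ModularGroup.T) := by
    intro x
    rw [mem_fixedBy_ST_iff]
    simp only [colOne_apply_zero_zero, colOne_apply_one_zero, ZMod.intCast_cast, ZMod.cast_id',
      id_eq, Int.cast_one, one_pow, mul_one]
    exact x.2
  refine Nat.card_congr (Equiv.ofBijective (fun x => ⟨_, hmem x⟩) ⟨?_, ?_⟩)
  · intro x y hxy
    have h := congrArg Subtype.val hxy
    simp only at h
    rw [mk_eq_mk_iff_zmod] at h
    simp only [colOne_apply_zero_zero, colOne_apply_one_zero, ZMod.intCast_cast, ZMod.cast_id',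
      id_eq, Int.cast_one, mul_one, one_mul] at h
    exact Subtype.ext (sub_eq_zero.mp h)
  · rintro ⟨q, hq⟩
    induction q using QuotientGroup.induction_on with
    | H g =>
      rw [mem_fixedBy_ST_iff] at hq
      have hdet := det_rel_zmod N g
      set a : ZMod N := ((g 0 0 : ℤ) : ZMod N) with ha
      set c : ZMod N := ((g 1 0 : ℤ) : ZMod N) with hc
      set r : ZMod N := ((g 1 1 : ℤ) : ZMod N) with hr
      set s : ZMod N := ((g 0 1 : ℤ) : ZMod N) with hs
      set cinv : ZMod N := -r ^ 2 * a - r ^ 2 * c - 2 * r * s * a + s ^ 2 * c with hcinv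
      have hcc : c * cinv = 1 := by
        rw [hcinv]
        linear_combination (-r ^ 2) * hq + (a * r - s * c + 1) * hdet
      have hx : (a * cinv) ^ 2 + a * cinv + 1 = 0 := by
        linear_combination cinv ^ 2 * hq - (a * cinv + 1 + c * cinv) * hcc
      refine ⟨⟨a * cinv, hx⟩, ?_⟩
      apply Subtype.ext
      simp only
      rw [mk_eq_mk_iff_zmod]
      simp only [colOne_apply_zero_zero, colOne_apply_one_zero, ZMod.intCast_cast, ZMod.cast_id',
        id_eq, Int.cast_one, one_mul]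
      rw [← ha, ← hc]
      linear_combination a * hcc

/-- `-1 ∈ Γ₀(N)`. -/
theorem neg_one_mem_Gamma0 (N : ℕ) : (-1 : SL(2, ℤ)) ∈ CongruenceSubgroup.Gamma0 N := by
  rw [Gamma0_mem]
  simp

end Fermat.Agent.S20.Count
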