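/-
S20-D5a (task 95): DFT projectors of a permutation matrix, the one-parameter family `Lam σ t`
and `det (Lam σ t) ^ 2 = t ^ (n (|X| - #orbits))`.  Pure linear algebra, Mathlib only.
-/
import Mathlib

set_option autoImplicit false
set_option linter.unusedSectionVars false
set_option linter.style.haveILetI false

namespace Fermat.Agent.S20

noncomputable section

open Finset

namespace PermProj

/-- The sum of the powers of an `n`-th root of unity. -/
theorem geom_sum_of_pow_eq_one {n : ℕ} {x : ℂ} (hx : x ^ n = 1) :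
    ∑ a ∈ range n, x ^ a = if x = 1 then (n : ℂ) else 0 := by
  split_ifs with h
  · subst h; simp
  · have h1 : (x - 1) * ∑ a ∈ range n, x ^ a = 0 := by
      rw [mul_geom_sum, hx, sub_self]
    exact (mul_eq_zero.mp h1).resolve_left (sub_ne_zero.mpr h)

section Abstract

variable {A : Type*} [Ring A] [Algebra ℂ A]

/-- The abstract DFT projector `(1/n) ∑_{a<n} ξ^(m a) P^a`. -/
def proj (P : A) (n : ℕ) (ξ : ℂ) (m : ℕ) : A :=
  ((n : ℂ))⁻¹ • ∑ a ∈ range n, ξ ^ (m * a) • P ^ a

theorem mul_proj (P : A) {n : ℕ} {ξ : ℂ} (hP : P ^ n = 1) (hξ : ξ ^ n = 1) (hξ0 : ξ ≠ 0)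
    (m : ℕ) : P * proj P n ξ m = (ξ ^ m)⁻¹ • proj P n ξ m := by
  have hm0 : ξ ^ m ≠ 0 := pow_ne_zero m hξ0
  unfold proj
  rw [mul_smul_comm, smul_comm ((ξ ^ m)⁻¹) ((n : ℂ)⁻¹)]
  congr 1
  rw [Finset.mul_sum, Finset.smul_sum]
  set g : ℕ → A := fun a => ((ξ ^ m)⁻¹ * ξ ^ (m * a)) • P ^ a with hg
  have h1 : ∀ a ∈ range n, P * ξ ^ (m * a) • P ^ a = g (a + 1) := by
    intro a _
    rw [hg, mul_smul_comm, ← pow_succ']
    congr 1
    rw [mul_add, mul_one, pow_add]
    field_simp
  have h2 : ∀ a ∈ range n, (ξ ^ m)⁻¹ • ξ ^ (m * a) • P ^ a = g a := by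
    intro a _
    rw [hg, smul_smul]
  rw [Finset.sum_congr rfl h1, Finset.sum_congr rfl h2]
  have h3 : ∑ a ∈ range n, g (a + 1) + g 0 = ∑ a ∈ range n, g a + g n := by
    rw [← Finset.sum_range_succ', Finset.sum_range_succ]
  have h4 : g n = g 0 := by
    simp only [hg]
    rw [hP, pow_zero, mul_zero, pow_zero, mul_comm m n, pow_mul, hξ, one_pow]
  rw [h4] at h3
  exact add_right_cancel h3

theorem pow_mul_of_mul_eq_smul (P V : A) (c : ℂ) (h : P * V = c • V) (a : ℕ) :
    P ^ a * V = c ^ a • V := by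
  induction a with
  | zero => simp
  | succ a ih => rw [pow_succ, mul_assoc, h, mul_smul_comm, ih, smul_smul, pow_succ']

/-- The projector kills (or fixes) any eigenvector of left multiplication by `P`. -/
theorem proj_mul_of_mul_eq_smul (P V : A) {n : ℕ} (hn : n ≠ 0) {ξ c : ℂ} (hξ : ξ ^ n = 1)
    (hc : c ^ n = 1) (h : P * V = c • V) (m : ℕ) :
    proj P n ξ m * V = if ξ ^ m * c = 1 then V else 0 := by
  have hx : (ξ ^ m * c) ^ n = 1 := by
    rw [mul_pow, ← pow_mul, mul_comm m n, pow_mul, hξ, one_pow, hc, one_mul]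
  unfold proj
  rw [smul_mul_assoc, Finset.sum_mul]
  have h1 : ∀ a ∈ range n, ξ ^ (m * a) • P ^ a * V = (ξ ^ m * c) ^ a • V := by
    intro a _
    rw [smul_mul_assoc, pow_mul_of_mul_eq_smul P V c h, smul_smul, mul_pow, pow_mul]
  rw [Finset.sum_congr rfl h1, ← Finset.sum_smul, geom_sum_of_pow_eq_one hx, smul_smul]
  split_ifs with hx1
  · rw [inv_mul_cancel₀ (Nat.cast_ne_zero.mpr hn), one_smul]
  · rw [mul_zero, zero_smul]

theorem sum_proj (P : A) {n : ℕ} (hn : n ≠ 0) {ξ : ℂ} (hξ : IsPrimitiveRoot ξ n) :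
    ∑ m ∈ range n, proj P n ξ m = 1 := by
  unfold proj
  rw [← Finset.smul_sum, Finset.sum_comm]
  have h1 : ∀ a ∈ range n, ∑ m ∈ range n, ξ ^ (m * a) • P ^ a =
      (if a = 0 then (n : ℂ) else 0) • P ^ a := by
    intro a ha
    rw [← Finset.sum_smul]
    congr 1
    have hx : (ξ ^ a) ^ n = 1 := by rw [← pow_mul, mul_comm, pow_mul, hξ.pow_eq_one, one_pow]
    have h2 : ∑ m ∈ range n, ξ ^ (m * a) = ∑ m ∈ range n, (ξ ^ a) ^ m :=
      Finset.sum_congr rfl fun m _ => by rw [← pow_mul, mul_comm]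
    rw [h2, geom_sum_of_pow_eq_one hx]
    have h3 : ξ ^ a = 1 ↔ a = 0 := by
      rw [hξ.pow_eq_one_iff_dvd]
      constructor
      · intro hd; exact Nat.eq_zero_of_dvd_of_lt hd (mem_range.mp ha)
      · rintro rfl; exact dvd_zero n
    simp only [h3]
  rw [Finset.sum_congr rfl h1, Finset.sum_eq_single 0]
  · rw [if_pos rfl, pow_zero, smul_smul, inv_mul_cancel₀ (Nat.cast_ne_zero.mpr hn), one_smul]
  · intro a _ ha; rw [if_neg ha, zero_smul]
  · intro h; exact absurd (mem_range.mpr (Nat.pos_of_ne_zero hn)) h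

end Abstract

/-- A polynomial function `ℂ → ℂ` which is multiplicative and takes the value `1` at `1` is a
power of the variable. -/
theorem eval_eq_pow_natDegree (p : Polynomial ℂ) (hone : p.eval 1 = 1)
    (hmul : ∀ r r' : ℂ, p.eval (r * r') = p.eval r * p.eval r') (t : ℂ) :
    p.eval t = t ^ p.natDegree := by
  have hp0 : p ≠ 0 := by
    rintro rfl
    simp at hone
  have h : p.comp (Polynomial.C t * Polynomial.X) = Polynomial.C (p.eval t) * p := by
    apply Polynomial.funext
    intro r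
    rw [Polynomial.eval_comp, Polynomial.eval_mul, Polynomial.eval_mul, Polynomial.eval_C,
      Polynomial.eval_X, Polynomial.eval_C, hmul]
  have h2 := congrArg (fun q => q.coeff p.natDegree) h
  simp only [Polynomial.comp_C_mul_X_coeff, Polynomial.coeff_C_mul] at h2
  have hl : p.coeff p.natDegree ≠ 0 := by
    rwa [Polynomial.coeff_natDegree, Polynomial.leadingCoeff_ne_zero]
  refine mul_right_cancel₀ hl ?_
  rw [← h2, mul_comm]

/-- `det (1 + (s - 1) e) = s ^ (trace e)` for an idempotent complex matrix `e`. -/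
theorem det_one_add_smul_of_idempotent {ι : Type*} [Fintype ι] [DecidableEq ι]
    (e : Matrix ι ι ℂ) (he : e * e = e) (d : ℕ) (hd : e.trace = d) (s : ℂ) :
    (1 + (s - 1) • e).det = s ^ d := by
  set p : Polynomial ℂ :=
    (1 + (Polynomial.X - 1 : Polynomial ℂ) • e.map Polynomial.C).det with hpdef
  have hp : ∀ r : ℂ, p.eval r = (1 + (r - 1) • e).det := by
    intro r
    rw [hpdef, ← Polynomial.coe_evalRingHom, RingHom.map_det]
    congr 1
    ext i j
    simp [Matrix.add_apply, Matrix.one_apply, apply_ite]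
  have hmul : ∀ r r' : ℂ, p.eval (r * r') = p.eval r * p.eval r' := by
    intro r r'
    rw [hp, hp, hp, ← Matrix.det_mul]
    congr 1
    rw [add_mul, mul_add, mul_add, one_mul, mul_one, one_mul, smul_mul_smul_comm, he]
    module
  have hone : p.eval 1 = 1 := by rw [hp]; simp
  have key := eval_eq_pow_natDegree p hone hmul
  have hdeg : p.natDegree = d := by
    have h : ((Polynomial.X + 1 : Polynomial ℂ)) ^ p.natDegree =
        1 + Polynomial.C (d : ℂ) * Polynomial.X +
          (Matrix.det (1 + (Polynomial.X : Polynomial ℂ) • e.map Polynomial.C)).divX.divX *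
            Polynomial.X ^ 2 := by
      apply Polynomial.funext
      intro r
      simp only [Polynomial.eval_pow, Polynomial.eval_add, Polynomial.eval_X,
        Polynomial.eval_one, Polynomial.eval_mul, Polynomial.eval_C]
      rw [← key, hp, add_sub_cancel_right, Matrix.det_one_add_smul, hd]
    have h2 := congrArg (fun q => q.coeff 1) h
    simp only [Polynomial.coeff_X_add_one_pow, Polynomial.coeff_add, Polynomial.coeff_one,
      Polynomial.coeff_C_mul, Polynomial.coeff_X_one, Polynomial.coeff_mul_X_pow',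
      Nat.choose_one_right] at h2
    norm_num at h2
    exact_mod_cast h2
  rw [← hp, key, hdeg]

theorem dvd_add_iff_eq_mod (n m m' : ℕ) (hm : m < n) (hm' : m' < n) :
    n ∣ m' + m ↔ m' = (n - m) % n := by
  constructor
  · rintro ⟨k, hk⟩
    have hk2 : k < 2 := by
      by_contra hcon
      have : n * 2 ≤ n * k := Nat.mul_le_mul_left n (not_lt.mp hcon)
      omega
    interval_cases k
    · have h0 : m' = 0 := by omega
      have h1 : m = 0 := by omega
      subst h0 h1
      simp
    · have h1 : m' = n - m := by omega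
      have h2 : 0 < m := by omega
      rw [h1, Nat.mod_eq_of_lt (by omega)]
  · intro h
    subst h
    rcases Nat.eq_zero_or_pos m with h0 | h0
    · subst h0; simp
    · rw [Nat.mod_eq_of_lt (by omega)]
      exact ⟨1, by omega⟩

end PermProj

variable {X : Type} [Fintype X] [DecidableEq X]

/-- DFT projector of the permutation matrix of `σ` onto its `ζ^m`-eigenspace,
`ζ = exp(2πi/n)`, `n = orderOf σ`. -/
def permProj (σ : Equiv.Perm X) (m : ℕ) : Matrix X X ℂ :=
  ((orderOf σ : ℂ))⁻¹ • ∑ a ∈ Finset.range (orderOf σ),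
    Complex.exp (-(2 * Real.pi * Complex.I * m * a / orderOf σ)) • (σ ^ a).permMatrix ℂ

/-- `Λ(t) = ∑_{m<n} t^m π_m` : a multiplicative one-parameter family with
`Λ(ζ) = ` the permutation matrix. -/
def Lam (σ : Equiv.Perm X) (t : ℂ) : Matrix X X ℂ :=
  ∑ m ∈ Finset.range (orderOf σ), t ^ m • permProj σ m

theorem Lam_apply (σ : Equiv.Perm X) (t : ℂ) (x y : X) :
    Lam σ t x y = ∑ m ∈ Finset.range (orderOf σ), t ^ m * permProj σ m x y := by
  simp [Lam, Matrix.sum_apply]

namespace PermProj

/-- `ξ = exp(-2πi/n)`, the inverse of the standard primitive `n`-th root of unity. -/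
def xi (σ : Equiv.Perm X) : ℂ := Complex.exp (-(2 * Real.pi * Complex.I / orderOf σ))

theorem order_ne_zero (σ : Equiv.Perm X) : orderOf σ ≠ 0 := (orderOf_pos σ).ne'

theorem xi_eq_inv (σ : Equiv.Perm X) :
    xi σ = (Complex.exp (2 * Real.pi * Complex.I / orderOf σ))⁻¹ := by
  rw [xi, Complex.exp_neg]

theorem xi_isPrimitiveRoot (σ : Equiv.Perm X) : IsPrimitiveRoot (xi σ) (orderOf σ) := by
  rw [xi_eq_inv]
  exact (Complex.isPrimitiveRoot_exp _ (order_ne_zero σ)).inv

theorem xi_pow_order (σ : Equiv.Perm X) : xi σ ^ orderOf σ = 1 :=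
  (xi_isPrimitiveRoot σ).pow_eq_one

theorem xi_ne_zero (σ : Equiv.Perm X) : xi σ ≠ 0 := Complex.exp_ne_zero _

theorem permMatrix_pow (σ : Equiv.Perm X) (a : ℕ) :
    (σ ^ a).permMatrix ℂ = (σ.permMatrix ℂ) ^ a := by
  induction a with
  | zero => simp
  | succ a ih => rw [pow_succ, Matrix.permMatrix_mul, ih, pow_succ']

theorem permMatrix_pow_order (σ : Equiv.Perm X) : (σ.permMatrix ℂ) ^ orderOf σ = 1 := by
  rw [← permMatrix_pow, pow_orderOf_eq_one, Matrix.permMatrix_one]

theorem permProj_eq_proj (σ : Equiv.Perm X) (m : ℕ) :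
    permProj σ m = proj (σ.permMatrix ℂ) (orderOf σ) (xi σ) m := by
  unfold permProj proj
  congr 1
  refine Finset.sum_congr rfl fun a _ => ?_
  rw [permMatrix_pow]
  congr 1
  rw [xi, ← Complex.exp_nat_mul]
  congr 1
  push_cast
  ring

theorem permMatrix_mul_permProj (σ : Equiv.Perm X) (m : ℕ) :
    σ.permMatrix ℂ * permProj σ m = (xi σ ^ m)⁻¹ • permProj σ m := by
  rw [permProj_eq_proj]
  exact mul_proj _ (permMatrix_pow_order σ) (xi_pow_order σ) (xi_ne_zero σ) m

theorem permProj_mul_permProj (σ : Equiv.Perm X) {m m' : ℕ} (hm : m < orderOf σ)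
    (hm' : m' < orderOf σ) :
    permProj σ m * permProj σ m' = if m = m' then permProj σ m' else 0 := by
  have hc : ((xi σ ^ m')⁻¹) ^ orderOf σ = 1 := by
    rw [inv_pow, ← pow_mul, mul_comm, pow_mul, xi_pow_order, one_pow, inv_one]
  have h := proj_mul_of_mul_eq_smul (σ.permMatrix ℂ) (permProj σ m') (order_ne_zero σ)
    (xi_pow_order σ) hc (permMatrix_mul_permProj σ m') m
  rw [← permProj_eq_proj] at h
  rw [h]
  have hiff : xi σ ^ m * (xi σ ^ m')⁻¹ = 1 ↔ m = m' := by
    rw [mul_inv_eq_one₀ (pow_ne_zero m' (xi_ne_zero σ))]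
    constructor
    · intro h'
      exact (xi_isPrimitiveRoot σ).pow_inj hm hm' h'
    · rintro rfl; rfl
  simp only [hiff]

theorem sum_permProj (σ : Equiv.Perm X) :
    ∑ m ∈ Finset.range (orderOf σ), permProj σ m = 1 := by
  rw [Finset.sum_congr rfl fun m _ => permProj_eq_proj σ m]
  exact sum_proj _ (order_ne_zero σ) (xi_isPrimitiveRoot σ)

/-- The transposed projectors are the projectors of the inverse permutation matrix. -/
theorem transpose_permProj (σ : Equiv.Perm X) (m : ℕ) :
    (permProj σ m).transpose = proj ((σ.permMatrix ℂ).transpose) (orderOf σ) (xi σ) m := by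
  rw [permProj_eq_proj]
  unfold proj
  rw [Matrix.transpose_smul, Matrix.transpose_sum]
  congr 1
  refine Finset.sum_congr rfl fun a _ => ?_
  rw [Matrix.transpose_smul, Matrix.transpose_pow]

theorem permMatrix_mul_transpose (σ : Equiv.Perm X) :
    σ.permMatrix ℂ * (σ.permMatrix ℂ).transpose = 1 := by
  rw [Matrix.transpose_permMatrix, ← Matrix.permMatrix_mul, inv_mul_cancel,
    Matrix.permMatrix_one]

theorem permMatrix_mul_transpose_permProj (σ : Equiv.Perm X) (m : ℕ) :
    σ.permMatrix ℂ * (permProj σ m).transpose = xi σ ^ m • (permProj σ m).transpose := by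
  have hQ : ((σ.permMatrix ℂ).transpose) ^ orderOf σ = 1 := by
    rw [← Matrix.transpose_pow, permMatrix_pow_order, Matrix.transpose_one]
  have h := mul_proj ((σ.permMatrix ℂ).transpose) hQ (xi_pow_order σ) (xi_ne_zero σ) m
  rw [← transpose_permProj] at h
  have hm0 : xi σ ^ m ≠ 0 := pow_ne_zero m (xi_ne_zero σ)
  calc σ.permMatrix ℂ * (permProj σ m).transpose
      = σ.permMatrix ℂ * (xi σ ^ m • ((xi σ ^ m)⁻¹ • (permProj σ m).transpose)) := by
        rw [smul_smul, mul_inv_cancel₀ hm0, one_smul]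
    _ = σ.permMatrix ℂ *
          (xi σ ^ m • ((σ.permMatrix ℂ).transpose * (permProj σ m).transpose)) := by rw [h]
    _ = xi σ ^ m • (permProj σ m).transpose := by
        rw [mul_smul_comm, ← mul_assoc, permMatrix_mul_transpose, one_mul]

theorem permProj_mul_transpose_permProj (σ : Equiv.Perm X) (m' m : ℕ) :
    permProj σ m' * (permProj σ m).transpose =
      if xi σ ^ m' * xi σ ^ m = 1 then (permProj σ m).transpose else 0 := by
  have hc : (xi σ ^ m) ^ orderOf σ = 1 := by
    rw [← pow_mul, mul_comm, pow_mul, xi_pow_order, one_pow]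
  have h := proj_mul_of_mul_eq_smul (σ.permMatrix ℂ) ((permProj σ m).transpose)
    (order_ne_zero σ) (xi_pow_order σ) hc (permMatrix_mul_transpose_permProj σ m) m'
  rw [← permProj_eq_proj] at h
  exact h

theorem Lam_mul_transpose (σ : Equiv.Perm X) (t : ℂ) :
    Lam σ t * (Lam σ t).transpose =
      1 + (t ^ orderOf σ - 1) • (1 - (permProj σ 0).transpose) := by
  set n := orderOf σ with hn
  have hsumT : ∑ m ∈ Finset.range n, (permProj σ m).transpose = 1 := by
    rw [← Matrix.transpose_sum, sum_permProj, Matrix.transpose_one]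
  have hinner : ∀ m ∈ Finset.range n,
      ∑ m' ∈ Finset.range n, (t ^ m' • permProj σ m') * (t ^ m • (permProj σ m).transpose) =
        (t ^ n + (if m = 0 then (1 - t ^ n) else 0)) • (permProj σ m).transpose := by
    intro m hm
    have hm := Finset.mem_range.mp hm
    have hiff : ∀ m' ∈ Finset.range n, (xi σ ^ m' * xi σ ^ m = 1 ↔ m' = (n - m) % n) := by
      intro m' hm'
      rw [← pow_add, (xi_isPrimitiveRoot σ).pow_eq_one_iff_dvd]
      exact dvd_add_iff_eq_mod n m m' hm (Finset.mem_range.mp hm')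
    rw [Finset.sum_eq_single ((n - m) % n)]
    · rw [smul_mul_smul_comm, permProj_mul_transpose_permProj,
        if_pos ((hiff _ (Finset.mem_range.mpr (Nat.mod_lt _ (by omega)))).mpr rfl)]
      congr 1
      rcases Nat.eq_zero_or_pos m with h0 | h0
      · subst h0
        simp
      · rw [if_neg (by omega), add_zero, Nat.mod_eq_of_lt (by omega), ← pow_add]
        congr 1
        omega
    · intro m' hm' hne
      rw [smul_mul_smul_comm, permProj_mul_transpose_permProj,
        if_neg (fun h => hne ((hiff m' hm').mp h)), smul_zero]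
    · intro h
      exact absurd (Finset.mem_range.mpr (Nat.mod_lt _ (by omega))) h
  have h0mem : 0 ∈ Finset.range n := Finset.mem_range.mpr (orderOf_pos σ)
  calc Lam σ t * (Lam σ t).transpose
      = ∑ m ∈ Finset.range n, ∑ m' ∈ Finset.range n,
          (t ^ m' • permProj σ m') * (t ^ m • (permProj σ m).transpose) := by
        unfold Lam
        rw [Matrix.transpose_sum, Finset.sum_mul_sum, Finset.sum_comm]
        refine Finset.sum_congr rfl fun m _ => Finset.sum_congr rfl fun m' _ => ?_
        rw [Matrix.transpose_smul]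
    _ = ∑ m ∈ Finset.range n,
          (t ^ n + (if m = 0 then (1 - t ^ n) else 0)) • (permProj σ m).transpose :=
        Finset.sum_congr rfl hinner
    _ = t ^ n • (1 : Matrix X X ℂ) + (1 - t ^ n) • (permProj σ 0).transpose := by
        simp only [add_smul, Finset.sum_add_distrib, ← Finset.smul_sum, hsumT, ite_smul,
          zero_smul, Finset.sum_ite_eq', h0mem, if_true]
    _ = 1 + (t ^ n - 1) • (1 - (permProj σ 0).transpose) := by
        module

theorem trace_permMatrix_pow (σ : Equiv.Perm X) (a : ℕ) :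
    ((σ.permMatrix ℂ) ^ a).trace = ((Function.fixedPoints (σ ^ a)).ncard : ℂ) := by
  rw [← permMatrix_pow, Matrix.trace_permutation]

/-- Burnside's lemma for the cyclic group generated by `σ`. -/
theorem sum_ncard_fixedPoints (σ : Equiv.Perm X) :
    ∑ a ∈ Finset.range (orderOf σ), (Function.fixedPoints (σ ^ a)).ncard =
      Nat.card (MulAction.orbitRel.Quotient (Subgroup.zpowers σ) X) * orderOf σ := by
  classical
  haveI : Fintype (Subgroup.zpowers σ) := Fintype.ofFinite _
  haveI : Fintype (MulAction.orbitRel.Quotient (Subgroup.zpowers σ) X) := Fintype.ofFinite _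
  have hB := MulAction.sum_card_fixedBy_eq_card_orbits_mul_card_group (Subgroup.zpowers σ) X
  rw [← Nat.card_eq_fintype_card, ← Nat.card_eq_fintype_card, Nat.card_zpowers] at hB
  rw [← hB, ← Fin.sum_univ_eq_sum_range (fun a => (Function.fixedPoints (σ ^ a)).ncard)
    (orderOf σ)]
  refine Fintype.sum_equiv (finEquivZPowers (isOfFinOrder_of_finite σ)) _ _ fun a => ?_
  rw [finEquivZPowers_apply, ← Nat.card_eq_fintype_card, ← Nat.card_coe_set_eq]
  rfl

theorem card_orbits_le (σ : Equiv.Perm X) :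
    Nat.card (MulAction.orbitRel.Quotient (Subgroup.zpowers σ) X) ≤ Fintype.card X := by
  rw [← Nat.card_eq_fintype_card]
  exact Nat.card_le_card_of_surjective (Quotient.mk _) Quotient.mk_surjective

theorem trace_permProj_zero (σ : Equiv.Perm X) :
    (permProj σ 0).trace =
      (Nat.card (MulAction.orbitRel.Quotient (Subgroup.zpowers σ) X) : ℂ) := by
  rw [permProj_eq_proj]
  unfold proj
  rw [Matrix.trace_smul, Matrix.trace_sum]
  have h1 : ∀ a ∈ Finset.range (orderOf σ),
      (xi σ ^ (0 * a) • (σ.permMatrix ℂ) ^ a).trace =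
        ((Function.fixedPoints (σ ^ a)).ncard : ℂ) := by
    intro a _
    rw [zero_mul, pow_zero, one_smul, trace_permMatrix_pow]
  rw [Finset.sum_congr rfl h1, ← Nat.cast_sum, sum_ncard_fixedPoints, Nat.cast_mul,
    smul_eq_mul, mul_comm, mul_assoc,
    mul_inv_cancel₀ (Nat.cast_ne_zero.mpr (order_ne_zero σ)), mul_one]

end PermProj

open PermProj in
theorem Lam_one (σ : Equiv.Perm X) : Lam σ 1 = 1 := by
  unfold Lam
  simp only [one_pow, one_smul]
  exact sum_permProj σ

open PermProj in
theorem Lam_mul (σ : Equiv.Perm X) (s t : ℂ) : Lam σ (s * t) = Lam σ s * Lam σ t := by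
  unfold Lam
  rw [Finset.sum_mul]
  refine Finset.sum_congr rfl fun m hm => ?_
  rw [Finset.mul_sum, Finset.sum_eq_single m]
  · rw [smul_mul_smul_comm,
      permProj_mul_permProj σ (Finset.mem_range.mp hm) (Finset.mem_range.mp hm), if_pos rfl,
      mul_pow]
  · intro m' hm' hne
    rw [smul_mul_smul_comm,
      permProj_mul_permProj σ (Finset.mem_range.mp hm) (Finset.mem_range.mp hm'),
      if_neg (Ne.symm hne), smul_zero]
  · intro h
    exact absurd hm h

open PermProj in
theorem Lam_zeta (σ : Equiv.Perm X) :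
    Lam σ (Complex.exp (2 * Real.pi * Complex.I / orderOf σ)) = σ.permMatrix ℂ := by
  unfold Lam
  have h1 : ∀ m ∈ Finset.range (orderOf σ),
      Complex.exp (2 * Real.pi * Complex.I / orderOf σ) ^ m • permProj σ m =
        σ.permMatrix ℂ * permProj σ m := by
    intro m _
    rw [permMatrix_mul_permProj, xi_eq_inv, inv_pow, inv_inv]
  rw [Finset.sum_congr rfl h1, ← Finset.mul_sum, sum_permProj, mul_one]

open PermProj in
theorem det_Lam_sq (σ : Equiv.Perm X) (t : ℂ) (ht : t ≠ 0) :
    (Lam σ t).det ^ 2 = t ^ (orderOf σ * (Fintype.card X -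
      Nat.card (MulAction.orbitRel.Quotient (Subgroup.zpowers σ) X))) := by
  have _ := ht
  have he : (1 - (permProj σ 0).transpose) * (1 - (permProj σ 0).transpose) =
      1 - (permProj σ 0).transpose := by
    have h0 : (permProj σ 0).transpose * (permProj σ 0).transpose = (permProj σ 0).transpose := by
      rw [← Matrix.transpose_mul, permProj_mul_permProj σ (orderOf_pos σ) (orderOf_pos σ),
        if_pos rfl]
    rw [sub_mul, mul_sub, mul_sub, one_mul, mul_one, one_mul, h0, sub_self, sub_zero]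
  have htr : (1 - (permProj σ 0).transpose).trace =
      ((Fintype.card X - Nat.card (MulAction.orbitRel.Quotient (Subgroup.zpowers σ) X) : ℕ) : ℂ) := by
    rw [Matrix.trace_sub, Matrix.trace_one, Matrix.trace_transpose, trace_permProj_zero,
      Nat.cast_sub (card_orbits_le σ)]
  calc (Lam σ t).det ^ 2 = (Lam σ t).det * (Lam σ t).transpose.det := by
        rw [Matrix.det_transpose, sq]
    _ = (Lam σ t * (Lam σ t).transpose).det := (Matrix.det_mul _ _).symm
    _ = (1 + (t ^ orderOf σ - 1) • (1 - (permProj σ 0).transpose)).det := by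
        rw [Lam_mul_transpose]
    _ = (t ^ orderOf σ) ^ (Fintype.card X -
          Nat.card (MulAction.orbitRel.Quotient (Subgroup.zpowers σ) X)) :=
        det_one_add_smul_of_idempotent _ he _ htr _
    _ = t ^ (orderOf σ * (Fintype.card X -
          Nat.card (MulAction.orbitRel.Quotient (Subgroup.zpowers σ) X))) := (pow_mul _ _ _).symm

theorem norm_Lam_le (σ : Equiv.Perm X) :
    ∃ C : ℝ, ∀ (t : ℂ) (x y : X), ‖Lam σ t x y‖ ≤ C * max 1 (‖t‖ ^ (orderOf σ - 1)) := by
  refine ⟨∑ m ∈ Finset.range (orderOf σ), ∑ x : X, ∑ y : X, ‖permProj σ m x y‖,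
    fun t x y => ?_⟩
  rw [Lam_apply, Finset.sum_mul]
  refine (norm_sum_le _ _).trans (Finset.sum_le_sum fun m hm => ?_)
  rw [norm_mul, norm_pow, mul_comm]
  have h1 : ‖permProj σ m x y‖ ≤ ∑ x : X, ∑ y : X, ‖permProj σ m x y‖ := by
    calc ‖permProj σ m x y‖ ≤ ∑ y : X, ‖permProj σ m x y‖ :=
          Finset.single_le_sum (f := fun y => ‖permProj σ m x y‖)
            (fun _ _ => norm_nonneg _) (Finset.mem_univ y)
      _ ≤ ∑ x : X, ∑ y : X, ‖permProj σ m x y‖ :=
          Finset.single_le_sum (f := fun x => ∑ y : X, ‖permProj σ m x y‖)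
            (fun _ _ => Finset.sum_nonneg fun _ _ => norm_nonneg _) (Finset.mem_univ x)
  have h2 : ‖t‖ ^ m ≤ max 1 (‖t‖ ^ (orderOf σ - 1)) := by
    rcases le_total ‖t‖ 1 with h | h
    · exact (pow_le_one₀ (norm_nonneg t) h).trans (le_max_left _ _)
    · exact (pow_le_pow_right₀ h (by have := Finset.mem_range.mp hm; omega)).trans
        (le_max_right _ _)
  exact mul_le_mul h1 h2 (pow_nonneg (norm_nonneg t) m)
    (Finset.sum_nonneg fun _ _ => Finset.sum_nonneg fun _ _ => norm_nonneg _)

theorem card_orbits_zpowers_toPerm {G : Type} [Group G] [MulAction G X] (g : G) :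
    Nat.card (MulAction.orbitRel.Quotient (Subgroup.zpowers (MulAction.toPerm g : Equiv.Perm X)) X)
      = Nat.card (MulAction.orbitRel.Quotient (Subgroup.zpowers g) X) := by
  have key : ∀ (k : ℤ) (y : X), ((MulAction.toPerm g : Equiv.Perm X) ^ k) y = g ^ k • y := by
    intro k y
    have h := map_zpow (MulAction.toPermHom G X) g k
    rw [MulAction.toPermHom_apply, MulAction.toPermHom_apply] at h
    rw [← h, MulAction.toPerm_apply]
  refine Nat.card_congr (Quotient.congr (Equiv.refl X) fun x y => ?_)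
  simp only [Equiv.refl_apply]
  rw [MulAction.orbitRel_apply, MulAction.orbitRel_apply, MulAction.mem_orbit_iff,
    MulAction.mem_orbit_iff]
  constructor
  · rintro ⟨⟨h, hh⟩, hk⟩
    obtain ⟨k, rfl⟩ := Subgroup.mem_zpowers_iff.mp hh
    refine ⟨⟨g ^ k, Subgroup.mem_zpowers_iff.mpr ⟨k, rfl⟩⟩, ?_⟩
    rw [← hk]
    exact (key k y).symm
  · rintro ⟨⟨h, hh⟩, hk⟩
    obtain ⟨k, rfl⟩ := Subgroup.mem_zpowers_iff.mp hh
    refine ⟨⟨(MulAction.toPerm g : Equiv.Perm X) ^ k, Subgroup.mem_zpowers_iff.mpr ⟨k, rfl⟩⟩, ?_⟩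
    rw [← hk]
    exact key k y

end

end Fermat.Agent.S20
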