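import Fermat.Agent.S20.Cycles
import Fermat.Agent.S20.PermProj
import Fermat.Agent.S20.CountFix
import Fermat.Agent.S20.IndexGamma0

/-!
# Orbit counts for elements of prime order on a finite set, and for `S`, `S * T` on cosets

* `card_orbits_perm_prime`: for a permutation `σ` with `σ ^ p = 1` (`p` prime),
  `p * #orbits = |X| + (p - 1) * #Fix σ`.
* `two_mul_card_orbits_S`, `three_mul_card_orbits_ST`: for `Γ ∋ -1` of finite index,
  `2 * #(⟨S⟩-orbits on SL(2,ℤ)/Γ) = [SL(2,ℤ) : Γ] + ν₂` and
  `3 * #(⟨ST⟩-orbits) = [SL(2,ℤ) : Γ] + 2 ν₃`; specialised to `Γ₀(N)` with `ν₂ = nuTwo N`,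
  `ν₃ = nuThree N`.
-/

set_option autoImplicit false

open scoped MatrixGroups
open CongruenceSubgroup

namespace Fermat.Agent.S20.Count

theorem card_orbits_perm_prime {X : Type} [Fintype X] [DecidableEq X] (σ : Equiv.Perm X) (p : ℕ)
    (hp : p.Prime) (hσ : σ ^ p = 1) :
    p * Nat.card (MulAction.orbitRel.Quotient (Subgroup.zpowers σ) X) =
      Fintype.card X + (p - 1) * (Finset.univ.filter (fun x => σ x = x)).card := by
  classical
  obtain ⟨n, w, φ, hw, hact, hn⟩ := Fermat.Agent.S20.exists_cycle_coordinates σ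
  rw [← hn]
  -- every cycle has length `1` or `p`
  have hw1 : ∀ j, w j = 1 ∨ w j = p := by
    intro j
    have h := hact j ⟨0, hw j⟩ p
    rw [hσ, Equiv.Perm.one_apply] at h
    have h2 := congrArg (fun s : (Σ j : Fin n, Fin (w j)) => (s.2 : ℕ)) (φ.injective h)
    simp only [zero_add] at h2
    have h3 : w j ∣ p := Nat.dvd_of_mod_eq_zero h2.symm
    exact (Nat.dvd_prime hp).mp h3
  have hp2 : 2 ≤ p := hp.two_le
  -- fixed points correspond to cycles of length one
  have hfix : (Finset.univ.filter (fun x => σ x = x)).card =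
      (Finset.univ.filter (fun j => w j = 1)).card := by
    have e1 : (Finset.univ.filter (fun x => σ x = x)).card =
        (Finset.univ.filter (fun s : (Σ j : Fin n, Fin (w j)) => w s.1 = 1)).card := by
      symm
      refine Finset.card_equiv φ (fun s => ?_)
      obtain ⟨j, a⟩ := s
      simp only [Finset.mem_filter, Finset.mem_univ, true_and]
      have h := hact j a 1
      rw [pow_one] at h
      rw [h]
      constructor
      · intro hj
        have e : (⟨(a.val + 1) % w j, Nat.mod_lt _ a.pos⟩ : Fin (w j)) = a := by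
          apply Fin.ext
          show (a.val + 1) % w j = a.val
          have ha : a.val = 0 := by have := a.isLt; omega
          rw [ha, hj]
        rw [e]
      · intro hfixed
        have h2 := congrArg (fun s : (Σ j : Fin n, Fin (w j)) => (s.2 : ℕ)) (φ.injective hfixed)
        simp only at h2
        rcases hw1 j with h1 | h1
        · exact h1
        · exfalso
          have ha := a.isLt
          rcases Nat.lt_or_ge (a.val + 1) (w j) with hlt | hge
          · rw [Nat.mod_eq_of_lt hlt] at h2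
            omega
          · have heq : a.val + 1 = w j := by omega
            rw [heq, Nat.mod_self] at h2
            omega
    rw [e1]
    have e2 : (Finset.univ.filter (fun s : (Σ j : Fin n, Fin (w j)) => w s.1 = 1)) =
        (Finset.univ.filter (fun j => w j = 1)).sigma (fun _ => Finset.univ) := by
      ext ⟨j, a⟩
      simp
    rw [e2, Finset.card_sigma]
    rw [Finset.card_eq_sum_ones]
    refine Finset.sum_congr rfl (fun j hj => ?_)
    rw [Finset.card_univ, Fintype.card_fin]
    exact (Finset.mem_filter.mp hj).2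
  have hcard : Fintype.card X = ∑ j, w j := by
    rw [← Fintype.card_congr φ, Fintype.card_sigma]
    simp
  have hsum : ∑ j, w j = (Finset.univ.filter (fun j => w j = 1)).card +
      p * (n - (Finset.univ.filter (fun j => w j = 1)).card) := by
    rw [← Finset.sum_filter_add_sum_filter_not Finset.univ (fun j => w j = 1)]
    have s1 : ∑ j ∈ Finset.univ.filter (fun j => w j = 1), w j =
        (Finset.univ.filter (fun j => w j = 1)).card := by
      rw [Finset.card_eq_sum_ones]
      exact Finset.sum_congr rfl (fun j hj => (Finset.mem_filter.mp hj).2)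
    have s2 : ∑ j ∈ Finset.univ.filter (fun j => ¬ w j = 1), w j =
        p * (Finset.univ.filter (fun j => ¬ w j = 1)).card := by
      rw [mul_comm, ← smul_eq_mul, ← Finset.sum_const]
      refine Finset.sum_congr rfl (fun j hj => ?_)
      exact (hw1 j).resolve_left (Finset.mem_filter.mp hj).2
    have s3 : (Finset.univ.filter (fun j => ¬ w j = 1)).card =
        n - (Finset.univ.filter (fun j => w j = 1)).card := by
      have := Finset.card_filter_add_card_filter_not (s := (Finset.univ : Finset (Fin n)))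
        (fun j => w j = 1)
      rw [Finset.card_univ, Fintype.card_fin] at this
      omega
    rw [s1, s2, s3]
  have hle : (Finset.univ.filter (fun j => w j = 1)).card ≤ n := by
    have := Finset.card_filter_le (Finset.univ : Finset (Fin n)) (fun j => w j = 1)
    rwa [Finset.card_univ, Fintype.card_fin] at this
  rw [hfix, hcard, hsum]
  generalize (Finset.univ.filter (fun j => w j = 1)).card = n1 at hle ⊢
  obtain ⟨m, rfl⟩ := Nat.exists_eq_add_of_le hle
  obtain ⟨q, rfl⟩ := Nat.exists_eq_add_of_le hp2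
  simp only [Nat.add_sub_cancel_left]
  have : 2 + q - 1 = 1 + q := by omega
  rw [this]
  ring

theorem card_orbits_of_pow_prime {G : Type} [Group G] {X : Type} [Fintype X] [DecidableEq X]
    [MulAction G X] (g : G) (p : ℕ) (hp : p.Prime) (hg : ∀ x : X, g ^ p • x = x) :
    p * Nat.card (MulAction.orbitRel.Quotient (Subgroup.zpowers g) X) =
      Fintype.card X + (p - 1) * Nat.card (MulAction.fixedBy X g) := by
  classical
  rw [← Fermat.Agent.S20.card_orbits_zpowers_toPerm g]
  have hσ : (MulAction.toPerm g : Equiv.Perm X) ^ p = 1 := by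
    ext x
    have h := map_pow (MulAction.toPermHom G X) g p
    rw [MulAction.toPermHom_apply, MulAction.toPermHom_apply] at h
    rw [← h, MulAction.toPerm_apply, Equiv.Perm.one_apply, hg]
  rw [card_orbits_perm_prime _ p hp hσ]
  congr 2
  rw [Nat.card_eq_fintype_card]
  rw [← Fintype.card_subtype]
  rfl

/-! ### `S` and `S * T` on cosets of a subgroup containing `-1` -/

theorem neg_one_smul_coset (Γ : Subgroup SL(2, ℤ)) (hneg : (-1 : SL(2, ℤ)) ∈ Γ)
    (x : SL(2, ℤ) ⧸ Γ) : (-1 : SL(2, ℤ)) • x = x := by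
  induction x using QuotientGroup.induction_on with
  | H g =>
    rw [MulAction.Quotient.smul_mk, smul_eq_mul, eq_comm, QuotientGroup.eq]
    have h : g⁻¹ * (-1 * g) = -1 := by
      rw [neg_mul, one_mul, mul_neg, inv_mul_cancel]
    rw [h]
    exact hneg

theorem S_pow_two : ModularGroup.S ^ 2 = -1 := by
  decide

theorem ST_pow_three : (ModularGroup.S * ModularGroup.T) ^ 3 = -1 := by
  decide

/-- `2 * #(⟨S⟩-orbits) = index + #Fix(S)`. -/
theorem two_mul_card_orbits_S (Γ : Subgroup SL(2, ℤ)) [Γ.FiniteIndex]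
    (hneg : (-1 : SL(2, ℤ)) ∈ Γ) :
    2 * Nat.card (MulAction.orbitRel.Quotient (Subgroup.zpowers ModularGroup.S)
        (SL(2, ℤ) ⧸ Γ)) =
      Γ.index + Nat.card (MulAction.fixedBy (SL(2, ℤ) ⧸ Γ) ModularGroup.S) := by
  classical
  let _ : Fintype (SL(2, ℤ) ⧸ Γ) := Subgroup.fintypeQuotientOfFiniteIndex
  have h := card_orbits_of_pow_prime (X := SL(2, ℤ) ⧸ Γ) ModularGroup.S 2 Nat.prime_two
    (fun x => by rw [S_pow_two]; exact neg_one_smul_coset Γ hneg x)
  refine Eq.trans h ?_
  rw [Subgroup.index, Nat.card_eq_fintype_card (α := SL(2, ℤ) ⧸ Γ)]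
  simp

/-- `3 * #(⟨ST⟩-orbits) = index + 2 * #Fix(ST)`. -/
theorem three_mul_card_orbits_ST (Γ : Subgroup SL(2, ℤ)) [Γ.FiniteIndex]
    (hneg : (-1 : SL(2, ℤ)) ∈ Γ) :
    3 * Nat.card (MulAction.orbitRel.Quotient
        (Subgroup.zpowers (ModularGroup.S * ModularGroup.T)) (SL(2, ℤ) ⧸ Γ)) =
      Γ.index + 2 * Nat.card (MulAction.fixedBy (SL(2, ℤ) ⧸ Γ)
        (ModularGroup.S * ModularGroup.T)) := by
  classical
  let _ : Fintype (SL(2, ℤ) ⧸ Γ) := Subgroup.fintypeQuotientOfFiniteIndex
  have h := card_orbits_of_pow_prime (X := SL(2, ℤ) ⧸ Γ) (ModularGroup.S * ModularGroup.T) 3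
    Nat.prime_three (fun x => by rw [ST_pow_three]; exact neg_one_smul_coset Γ hneg x)
  refine Eq.trans h ?_
  rw [Subgroup.index, Nat.card_eq_fintype_card (α := SL(2, ℤ) ⧸ Γ)]

/-- `2 * #(⟨S⟩-orbits on SL(2,ℤ)/Γ₀(N)) = ψ(N) + ν₂(N)`. -/
theorem two_mul_card_orbits_S_Gamma0 (N : ℕ) [NeZero N] :
    2 * Nat.card (MulAction.orbitRel.Quotient (Subgroup.zpowers ModularGroup.S)
        (SL(2, ℤ) ⧸ Gamma0 N)) = ModularCurve.dedekindPsi N + ModularCurve.nuTwo N := by
  rw [two_mul_card_orbits_S _ (neg_one_mem_Gamma0 N), index_Gamma0, card_fixedBy_S]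

/-- `3 * #(⟨ST⟩-orbits on SL(2,ℤ)/Γ₀(N)) = ψ(N) + 2 ν₃(N)`. -/
theorem three_mul_card_orbits_ST_Gamma0 (N : ℕ) [NeZero N] :
    3 * Nat.card (MulAction.orbitRel.Quotient
        (Subgroup.zpowers (ModularGroup.S * ModularGroup.T)) (SL(2, ℤ) ⧸ Gamma0 N)) =
      ModularCurve.dedekindPsi N + 2 * ModularCurve.nuThree N := by
  rw [three_mul_card_orbits_ST _ (neg_one_mem_Gamma0 N), index_Gamma0, card_fixedBy_ST]

end Fermat.Agent.S20.Count
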