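import Mathlib
import Fermat.Prelude.Def_ModularCurve_GenusNumerics
import Fermat.Agent.S20.CountBasic

set_option autoImplicit false

/-!
# Orbits of `T` on `SL(2, ℤ) ⧸ Gamma0 N` (S20, task T1)

`card_orbits_T : Nat.card (orbitRel.Quotient (zpowers T) (SL(2, ℤ) ⧸ Gamma0 N)) = cuspCount N`.

Two cosets `g Γ₀(N)`, `g' Γ₀(N)` (first columns `(a, c)`, `(a', c')`) lie in the same `⟨T⟩`-orbit iff
`gcd (c c', N) ∣ a c' - c a'`, iff `d := gcd (c, N) = gcd (c', N)` and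
`a (c/d)⁻¹ ≡ a' (c'/d)⁻¹ mod gcd (d, N/d)`.
-/

open scoped MatrixGroups
open CongruenceSubgroup Matrix Matrix.SpecialLinearGroup

namespace Fermat.Agent.S20.Count

/-! ### Elementary number theory -/

theorem exists_dvd_add_mul_iff (N : ℕ) (x m : ℤ) :
    (∃ k : ℤ, (N : ℤ) ∣ x + k * m) ↔ (Int.gcd m N : ℤ) ∣ x := by
  constructor
  · rintro ⟨k, hk⟩
    have h1 : (Int.gcd m N : ℤ) ∣ x + k * m := (Int.gcd_dvd_right m N).trans hk
    have h2 : (Int.gcd m N : ℤ) ∣ k * m := Dvd.dvd.mul_left (Int.gcd_dvd_left m N) k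
    exact (dvd_add_left h2).mp h1
  · rintro ⟨t, ht⟩
    refine ⟨- (Int.gcdA m N * t), Int.gcdB m N * t, ?_⟩
    have hb := Int.gcd_eq_gcd_ab m N
    rw [ht, hb]
    ring

theorem gcd_eq_of_dvd (N : ℕ) (a c a' c' : ℤ) (h : IsCoprime a c) (h' : IsCoprime a' c')
    (hdiv : (Int.gcd (c * c') N : ℤ) ∣ a * c' - c * a') : Int.gcd c N = Int.gcd c' N := by
  have hd_c : (Int.gcd c N : ℤ) ∣ c := Int.gcd_dvd_left c N
  have hd_N : (Int.gcd c N : ℤ) ∣ (N : ℤ) := Int.gcd_dvd_right c N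
  have hd'_c : (Int.gcd c' N : ℤ) ∣ c' := Int.gcd_dvd_left c' N
  have hd'_N : (Int.gcd c' N : ℤ) ∣ (N : ℤ) := Int.gcd_dvd_right c' N
  -- `d ∣ d'`
  have h1 : (Int.gcd c N : ℤ) ∣ (Int.gcd (c * c') N : ℤ) :=
    Int.dvd_coe_gcd (hd_c.mul_right c') hd_N
  have h2 : (Int.gcd c N : ℤ) ∣ a * c' - c * a' := h1.trans hdiv
  have h3 : (Int.gcd c N : ℤ) ∣ c' * a := by
    have := dvd_add h2 (hd_c.mul_right a')
    have e : a * c' - c * a' + c * a' = c' * a := by ring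
    rwa [e] at this
  have hcop : IsCoprime (Int.gcd c N : ℤ) a := h.symm.of_isCoprime_of_dvd_left hd_c
  have h4 : (Int.gcd c N : ℤ) ∣ c' := hcop.dvd_of_dvd_mul_right h3
  have h5 : Int.gcd c N ∣ Int.gcd c' N := Int.natCast_dvd_natCast.mp (Int.dvd_coe_gcd h4 hd_N)
  -- `d' ∣ d`
  have h1' : (Int.gcd c' N : ℤ) ∣ (Int.gcd (c * c') N : ℤ) :=
    Int.dvd_coe_gcd (hd'_c.mul_left c) hd'_N
  have h2' : (Int.gcd c' N : ℤ) ∣ a * c' - c * a' := h1'.trans hdiv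
  have h3' : (Int.gcd c' N : ℤ) ∣ c * a' := by
    have := dvd_sub (hd'_c.mul_left a) h2'
    have e : a * c' - (a * c' - c * a') = c * a' := by ring
    rwa [e] at this
  have hcop' : IsCoprime (Int.gcd c' N : ℤ) a' := h'.symm.of_isCoprime_of_dvd_left hd'_c
  have h4' : (Int.gcd c' N : ℤ) ∣ c := hcop'.dvd_of_dvd_mul_right h3'
  have h5' : Int.gcd c' N ∣ Int.gcd c N :=
    Int.natCast_dvd_natCast.mp (Int.dvd_coe_gcd h4' hd'_N)
  exact Nat.dvd_antisymm h5 h5'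

theorem cusp_criterion_core (d n : ℕ) (hd : d ≠ 0) (a e a' e' : ℤ)
    (he : IsCoprime e (n : ℤ)) (he' : IsCoprime e' (n : ℤ)) :
    (Int.gcd ((d : ℤ) * e * ((d : ℤ) * e')) ((d * n : ℕ) : ℤ) : ℤ) ∣
        a * ((d : ℤ) * e') - (d : ℤ) * e * a' ↔
      ((Nat.gcd d n : ℕ) : ℤ) ∣ a * e' - a' * e := by
  have hd' : (d : ℤ) ≠ 0 := by exact_mod_cast hd
  have hG1 : (Int.gcd ((d : ℤ) * e * ((d : ℤ) * e')) ((d * n : ℕ) : ℤ) : ℤ) ∣
      (d : ℤ) * e * ((d : ℤ) * e') := Int.gcd_dvd_left _ _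
  have hG2 : (Int.gcd ((d : ℤ) * e * ((d : ℤ) * e')) ((d * n : ℕ) : ℤ) : ℤ) ∣
      ((d * n : ℕ) : ℤ) := Int.gcd_dvd_right _ _
  have hg_d : ((Nat.gcd d n : ℕ) : ℤ) ∣ (d : ℤ) :=
    Int.natCast_dvd_natCast.mpr (Nat.gcd_dvd_left _ _)
  have hg_n : ((Nat.gcd d n : ℕ) : ℤ) ∣ (n : ℤ) :=
    Int.natCast_dvd_natCast.mpr (Nat.gcd_dvd_right _ _)
  have hexp : a * ((d : ℤ) * e') - (d : ℤ) * e * a' = (d : ℤ) * (a * e' - a' * e) := by ring
  rw [hexp]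
  constructor
  · intro hdiv
    obtain ⟨s, hs⟩ := hg_d
    obtain ⟨s', hs'⟩ := hg_n
    have h6 : (d : ℤ) * ((Nat.gcd d n : ℕ) : ℤ) ∣
        (Int.gcd ((d : ℤ) * e * ((d : ℤ) * e')) ((d * n : ℕ) : ℤ) : ℤ) := by
      apply Int.dvd_coe_gcd
      · refine ⟨s * e * e', ?_⟩
        linear_combination ((d : ℤ) * e * e') * hs
      · refine ⟨s', ?_⟩
        push_cast
        linear_combination (d : ℤ) * hs'
    exact (mul_dvd_mul_iff_left hd').mp (h6.trans hdiv)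
  · rintro ⟨t, ht⟩
    obtain ⟨u, v, huv⟩ := IsCoprime.mul_left he he'
    have hGd2 : (Int.gcd ((d : ℤ) * e * ((d : ℤ) * e')) ((d * n : ℕ) : ℤ) : ℤ) ∣
        (d : ℤ) * (d : ℤ) := by
      have e1 : (d : ℤ) * (d : ℤ) =
          ((d : ℤ) * e * ((d : ℤ) * e')) * u + ((d * n : ℕ) : ℤ) * (v * (d : ℤ)) := by
        push_cast
        linear_combination (-(d : ℤ) * (d : ℤ)) * huv
      rw [e1]
      exact dvd_add (hG1.mul_right _) (hG2.mul_right _)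
    have hbez := Nat.gcd_eq_gcd_ab d n
    have hGdg : (Int.gcd ((d : ℤ) * e * ((d : ℤ) * e')) ((d * n : ℕ) : ℤ) : ℤ) ∣
        (d : ℤ) * ((Nat.gcd d n : ℕ) : ℤ) := by
      have e1 : (d : ℤ) * ((Nat.gcd d n : ℕ) : ℤ) =
          (d : ℤ) * (d : ℤ) * Nat.gcdA d n + ((d * n : ℕ) : ℤ) * Nat.gcdB d n := by
        rw [hbez]
        push_cast
        ring
      rw [e1]
      exact dvd_add (hGd2.mul_right _) (hG2.mul_right _)
    rw [ht]
    have e2 : (d : ℤ) * (((Nat.gcd d n : ℕ) : ℤ) * t) = (d : ℤ) * ((Nat.gcd d n : ℕ) : ℤ) * t := by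
      ring
    rw [e2]
    exact hGdg.mul_right t

theorem cusp_criterion (N : ℕ) (hN : N ≠ 0) (a c a' c' : ℤ) (h : IsCoprime a c)
    (h' : IsCoprime a' c') :
    (Int.gcd (c * c') N : ℤ) ∣ a * c' - c * a' ↔
      Int.gcd c N = Int.gcd c' N ∧
        ((Nat.gcd (Int.gcd c N) (N / Int.gcd c N) : ℕ) : ℤ) ∣
          a * (c' / (Int.gcd c N : ℤ)) - a' * (c / (Int.gcd c N : ℤ)) := by
  have hd_c : (Int.gcd c N : ℤ) ∣ c := Int.gcd_dvd_left c N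
  have hd_N : (Int.gcd c N : ℤ) ∣ (N : ℤ) := Int.gcd_dvd_right c N
  have hd'_c : (Int.gcd c' N : ℤ) ∣ c' := Int.gcd_dvd_left c' N
  have hd0 : Int.gcd c N ≠ 0 := by
    intro h0
    rw [Int.gcd_eq_zero_iff] at h0
    exact hN (by exact_mod_cast h0.2)
  have hdN : Int.gcd c N ∣ N := Int.natCast_dvd_natCast.mp hd_N
  have hNn : Int.gcd c N * (N / Int.gcd c N) = N := Nat.mul_div_cancel' hdN
  have hc : (Int.gcd c N : ℤ) * (c / (Int.gcd c N : ℤ)) = c := Int.mul_ediv_cancel' hd_c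
  have hpos : 0 < Int.gcd c N := Nat.pos_of_ne_zero hd0
  have he : IsCoprime (c / (Int.gcd c N : ℤ)) ((N / Int.gcd c N : ℕ) : ℤ) := by
    rw [Int.isCoprime_iff_gcd_eq_one]
    have := Int.gcd_div_gcd_div_gcd (i := c) (j := (N : ℤ)) hpos
    rwa [← Int.natCast_div] at this
  -- the main equivalence, assuming `d = d'`
  have main : Int.gcd c N = Int.gcd c' N →
      ((Int.gcd (c * c') N : ℤ) ∣ a * c' - c * a' ↔
        ((Nat.gcd (Int.gcd c N) (N / Int.gcd c N) : ℕ) : ℤ) ∣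
          a * (c' / (Int.gcd c N : ℤ)) - a' * (c / (Int.gcd c N : ℤ))) := by
    intro hdd
    have h4 : (Int.gcd c N : ℤ) ∣ c' := by rw [hdd]; exact hd'_c
    have hc' : (Int.gcd c N : ℤ) * (c' / (Int.gcd c N : ℤ)) = c' := Int.mul_ediv_cancel' h4
    have hpos' : 0 < Int.gcd c' N := by rw [← hdd]; exact hpos
    have he' : IsCoprime (c' / (Int.gcd c N : ℤ)) ((N / Int.gcd c N : ℕ) : ℤ) := by
      rw [Int.isCoprime_iff_gcd_eq_one]
      have := Int.gcd_div_gcd_div_gcd (i := c') (j := (N : ℤ)) hpos'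
      rw [← hdd] at this
      rwa [← Int.natCast_div] at this
    have key := cusp_criterion_core (Int.gcd c N) (N / Int.gcd c N) hd0 a
      (c / (Int.gcd c N : ℤ)) a' (c' / (Int.gcd c N : ℤ)) he he'
    rw [hNn, hc, hc'] at key
    exact key
  constructor
  · intro hdiv
    have hdd := gcd_eq_of_dvd N a c a' c' h h' hdiv
    exact ⟨hdd, (main hdd).mp hdiv⟩
  · rintro ⟨hdd, hg⟩
    exact (main hdd).mpr hg

/-! ### The invariant -/

/-- `a * e⁻¹ mod m`, as a natural number. -/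
noncomputable def uOf (m : ℕ) (a e : ℤ) : ℕ := (((a : ℤ) : ZMod m) * (((e : ℤ) : ZMod m))⁻¹).val

theorem uOf_eq_iff (m : ℕ) [NeZero m] (a e a' e' : ℤ) (he : IsCoprime e (m : ℤ))
    (he' : IsCoprime e' (m : ℤ)) :
    uOf m a e = uOf m a' e' ↔ (m : ℤ) ∣ a * e' - a' * e := by
  have hu : IsUnit ((e : ℤ) : ZMod m) := (ZMod.coe_int_isUnit_iff_isCoprime e m).mpr he.symm
  have hu' : IsUnit ((e' : ℤ) : ZMod m) := (ZMod.coe_int_isUnit_iff_isCoprime e' m).mpr he'.symm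
  have h1 := ZMod.mul_inv_of_unit _ hu
  have h1' := ZMod.mul_inv_of_unit _ hu'
  unfold uOf
  rw [(ZMod.val_injective m).eq_iff, ← ZMod.intCast_zmod_eq_zero_iff_dvd]
  push_cast
  constructor
  · intro h
    linear_combination ((e : ZMod m) * (e' : ZMod m)) * h - (a : ZMod m) * (e' : ZMod m) * h1
      + (a' : ZMod m) * (e : ZMod m) * h1'
  · intro h
    linear_combination ((e : ZMod m))⁻¹ * ((e' : ZMod m))⁻¹ * h
      - (a : ZMod m) * ((e : ZMod m))⁻¹ * h1' + (a' : ZMod m) * ((e' : ZMod m))⁻¹ * h1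

/-- The index set for the cusps of `Γ₀(N)`: pairs `(d, u)` with `d ∣ N`, `u` a unit mod
`gcd (d, N/d)`. -/
def cuspIndex (N : ℕ) : Finset (Σ _ : ℕ, ℕ) :=
  N.divisors.sigma fun d =>
    (Finset.range (Nat.gcd d (N / d))).filter (Nat.Coprime (Nat.gcd d (N / d)))

theorem card_cuspIndex (N : ℕ) : (cuspIndex N).card = ModularCurve.cuspCount N := by
  unfold cuspIndex ModularCurve.cuspCount
  rw [Finset.card_sigma]
  rfl

/-- The cusp invariant of a matrix. -/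
noncomputable def cuspInv (N : ℕ) (g : SL(2, ℤ)) : Σ _ : ℕ, ℕ :=
  ⟨Int.gcd (g 1 0) N,
    uOf (Nat.gcd (Int.gcd (g 1 0) N) (N / Int.gcd (g 1 0) N)) (g 0 0)
      (g 1 0 / (Int.gcd (g 1 0) N : ℤ))⟩

theorem uOf_lt (m : ℕ) [NeZero m] (a e : ℤ) : uOf m a e < m := ZMod.val_lt _

theorem uOf_coprime (m : ℕ) [NeZero m] (a e : ℤ) (ha : IsCoprime a (m : ℤ))
    (he : IsCoprime e (m : ℤ)) : Nat.Coprime m (uOf m a e) := by
  have hu : IsUnit ((e : ℤ) : ZMod m) := (ZMod.coe_int_isUnit_iff_isCoprime e m).mpr he.symm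
  have hua : IsUnit ((a : ℤ) : ZMod m) := (ZMod.coe_int_isUnit_iff_isCoprime a m).mpr ha.symm
  have h1 := ZMod.mul_inv_of_unit _ hu
  have hui : IsUnit (((e : ℤ) : ZMod m))⁻¹ := IsUnit.of_mul_eq_one _ (by rw [mul_comm]; exact h1)
  have hx : IsUnit (((a : ℤ) : ZMod m) * (((e : ℤ) : ZMod m))⁻¹) := hua.mul hui
  have := ZMod.val_coe_unit_coprime hx.unit
  rw [IsUnit.unit_spec] at this
  exact this.symm

theorem gcd_ne_zero (N : ℕ) (hN : N ≠ 0) (c : ℤ) : Int.gcd c N ≠ 0 := by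
  intro h0
  rw [Int.gcd_eq_zero_iff] at h0
  exact hN (by exact_mod_cast h0.2)

theorem isCoprime_div_gcd (N : ℕ) (hN : N ≠ 0) (c : ℤ) :
    IsCoprime (c / (Int.gcd c N : ℤ))
      ((Nat.gcd (Int.gcd c N) (N / Int.gcd c N) : ℕ) : ℤ) := by
  have hpos : 0 < Int.gcd c N := Nat.pos_of_ne_zero (gcd_ne_zero N hN c)
  have he : IsCoprime (c / (Int.gcd c N : ℤ)) ((N / Int.gcd c N : ℕ) : ℤ) := by
    rw [Int.isCoprime_iff_gcd_eq_one]
    have := Int.gcd_div_gcd_div_gcd (i := c) (j := (N : ℤ)) hpos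
    rwa [← Int.natCast_div] at this
  exact he.of_isCoprime_of_dvd_right (Int.natCast_dvd_natCast.mpr (Nat.gcd_dvd_right _ _))

theorem cuspInv_mem (N : ℕ) [NeZero N] (g : SL(2, ℤ)) : cuspInv N g ∈ cuspIndex N := by
  have hN : N ≠ 0 := NeZero.ne N
  have hd0 := gcd_ne_zero N hN (g 1 0)
  have hd_c : (Int.gcd (g 1 0) N : ℤ) ∣ g 1 0 := Int.gcd_dvd_left _ _
  have hd_N : (Int.gcd (g 1 0) N : ℤ) ∣ (N : ℤ) := Int.gcd_dvd_right _ _
  have hdN : Int.gcd (g 1 0) N ∣ N := Int.natCast_dvd_natCast.mp hd_N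
  have : NeZero (Nat.gcd (Int.gcd (g 1 0) N) (N / Int.gcd (g 1 0) N)) :=
    ⟨Nat.gcd_ne_zero_left hd0⟩
  have hg_c : ((Nat.gcd (Int.gcd (g 1 0) N) (N / Int.gcd (g 1 0) N) : ℕ) : ℤ) ∣ g 1 0 :=
    (Int.natCast_dvd_natCast.mpr (Nat.gcd_dvd_left _ _)).trans hd_c
  have ha : IsCoprime (g 0 0)
      ((Nat.gcd (Int.gcd (g 1 0) N) (N / Int.gcd (g 1 0) N) : ℕ) : ℤ) :=
    (isCoprime_col g).of_isCoprime_of_dvd_right hg_c
  unfold cuspInv cuspIndex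
  rw [Finset.mem_sigma, Finset.mem_filter, Finset.mem_range, Nat.mem_divisors]
  exact ⟨⟨hdN, hN⟩, uOf_lt _ _ _, uOf_coprime _ _ _ ha (isCoprime_div_gcd N hN (g 1 0))⟩

theorem cuspInv_eq_iff (N : ℕ) [NeZero N] (g g' : SL(2, ℤ)) :
    cuspInv N g = cuspInv N g' ↔
      (Int.gcd (g 1 0 * g' 1 0) N : ℤ) ∣ g 0 0 * g' 1 0 - g 1 0 * g' 0 0 := by
  have hN : N ≠ 0 := NeZero.ne N
  rw [cusp_criterion N hN _ _ _ _ (isCoprime_col g) (isCoprime_col g')]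
  unfold cuspInv
  rw [Sigma.mk.injEq, heq_eq_eq]
  refine and_congr_right fun hdd => ?_
  have hd0 := gcd_ne_zero N hN (g 1 0)
  have : NeZero (Nat.gcd (Int.gcd (g 1 0) N) (N / Int.gcd (g 1 0) N)) :=
    ⟨Nat.gcd_ne_zero_left hd0⟩
  have he := isCoprime_div_gcd N hN (g 1 0)
  have he' := isCoprime_div_gcd N hN (g' 1 0)
  rw [← hdd] at he' ⊢
  exact uOf_eq_iff _ _ _ _ _ he he'

theorem orbit_iff (N : ℕ) (g g' : SL(2, ℤ)) :
    (∃ k : ℤ, (QuotientGroup.mk (ModularGroup.T ^ k * g') : SL(2, ℤ) ⧸ Gamma0 N) =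
        QuotientGroup.mk g) ↔
      (Int.gcd (g 1 0 * g' 1 0) N : ℤ) ∣ g 0 0 * g' 1 0 - g 1 0 * g' 0 0 := by
  have h1 : ∀ k : ℤ, ((QuotientGroup.mk (ModularGroup.T ^ k * g') : SL(2, ℤ) ⧸ Gamma0 N) =
      QuotientGroup.mk g) ↔
      (N : ℤ) ∣ (g' 0 0 * g 1 0 - g' 1 0 * g 0 0) + k * (g 1 0 * g' 1 0) := by
    intro k
    rw [mk_eq_mk_iff, (T_zpow_mul_col k g').1, (T_zpow_mul_col k g').2]
    have e : (g' 0 0 + k * g' 1 0) * g 1 0 - g' 1 0 * g 0 0 =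
        (g' 0 0 * g 1 0 - g' 1 0 * g 0 0) + k * (g 1 0 * g' 1 0) := by ring
    rw [e]
  simp_rw [h1]
  rw [exists_dvd_add_mul_iff, ← dvd_neg]
  have e : -(g' 0 0 * g 1 0 - g' 1 0 * g 0 0) = g 0 0 * g' 1 0 - g 1 0 * g' 0 0 := by ring
  rw [e]

theorem cuspInv_surj (N : ℕ) [NeZero N] (x : Σ _ : ℕ, ℕ) (hx : x ∈ cuspIndex N) :
    ∃ g : SL(2, ℤ), cuspInv N g = x := by
  obtain ⟨d, v⟩ := x
  unfold cuspIndex at hx
  rw [Finset.mem_sigma, Finset.mem_filter, Finset.mem_range, Nat.mem_divisors] at hx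
  obtain ⟨⟨hdN, hN⟩, hv, hcop⟩ := hx
  have hd0 : d ≠ 0 := fun h => hN (by rw [h] at hdN; exact Nat.eq_zero_of_zero_dvd hdN)
  have : NeZero d := ⟨hd0⟩
  have : NeZero (Nat.gcd d (N / d)) := ⟨Nat.gcd_ne_zero_left hd0⟩
  have hgd : Nat.gcd d (N / d) ∣ d := Nat.gcd_dvd_left _ _
  obtain ⟨w, hw⟩ := ZMod.unitsMap_surjective hgd (ZMod.unitOfCoprime v hcop.symm)
  have hwc : Nat.Coprime (w : ZMod d).val d := ZMod.val_coe_unit_coprime w
  obtain ⟨g0, hg0a, hg0c⟩ := exists_col ((w : ZMod d).val : ℤ) (d : ℤ)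
    (Nat.isCoprime_iff_coprime.mpr hwc)
  refine ⟨g0, ?_⟩
  unfold cuspInv
  rw [hg0a, hg0c]
  have e1 : Int.gcd (d : ℤ) (N : ℤ) = d := by
    rw [Int.gcd_natCast_natCast]
    exact Nat.gcd_eq_left hdN
  rw [e1]
  have e2 : (d : ℤ) / (d : ℤ) = 1 := Int.ediv_self (by exact_mod_cast hd0)
  rw [e2]
  congr 1
  unfold uOf
  have e3 : ((((w : ZMod d).val : ℤ) : ZMod (Nat.gcd d (N / d)))) = (v : ZMod (Nat.gcd d (N / d))) := by
    have h1 : ((ZMod.unitsMap hgd w : (ZMod (Nat.gcd d (N / d)))ˣ) : ZMod (Nat.gcd d (N / d))) =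
        (v : ZMod (Nat.gcd d (N / d))) := by
      rw [hw, ZMod.coe_unitOfCoprime]
    rw [← h1]
    rw [Int.cast_natCast, ZMod.natCast_val]
    rfl
  rw [e3]
  rw [Int.cast_one, ZMod.inv_one, mul_one]
  have hv' : v < Nat.gcd d (N / d) := hv
  exact ZMod.val_natCast_of_lt hv'

/-- A bijection between two quotients of the same type. -/
theorem card_eq_of_surj {A Q B : Type*} (π : A → Q) (Φ : A → B) (hπ : Function.Surjective π)
    (hΦ : Function.Surjective Φ) (h : ∀ g g', π g = π g' ↔ Φ g = Φ g') :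
    Nat.card Q = Nat.card B := by
  refine Nat.card_congr (Equiv.ofBijective (fun q => Φ (Function.surjInv hπ q)) ⟨?_, ?_⟩)
  · intro q q' hq
    have := (h _ _).mpr hq
    rwa [Function.surjInv_eq hπ, Function.surjInv_eq hπ] at this
  · intro b
    obtain ⟨g, rfl⟩ := hΦ b
    refine ⟨π g, (h _ _).mp ?_⟩
    exact Function.surjInv_eq hπ (π g)

/-- The number of `⟨T⟩`-orbits on `SL(2, ℤ) ⧸ Γ₀(N)` is the number of cusps of `Γ₀(N)`. -/
theorem card_orbits_T (N : ℕ) [NeZero N] :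
    Nat.card (MulAction.orbitRel.Quotient (Subgroup.zpowers ModularGroup.T)
      (SL(2, ℤ) ⧸ Gamma0 N)) = ModularCurve.cuspCount N := by
  rw [← card_cuspIndex, ← Nat.card_eq_finsetCard]
  refine card_eq_of_surj
    (fun g : SL(2, ℤ) => (Quotient.mk'' (QuotientGroup.mk g : SL(2, ℤ) ⧸ Gamma0 N) :
      MulAction.orbitRel.Quotient (Subgroup.zpowers ModularGroup.T) (SL(2, ℤ) ⧸ Gamma0 N)))
    (fun g : SL(2, ℤ) => (⟨cuspInv N g, cuspInv_mem N g⟩ : cuspIndex N)) ?_ ?_ ?_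
  · intro q
    induction q using Quotient.inductionOn' with
    | h x =>
      induction x using QuotientGroup.induction_on with
      | H g => exact ⟨g, rfl⟩
  · rintro ⟨x, hx⟩
    obtain ⟨g, hg⟩ := cuspInv_surj N x hx
    exact ⟨g, Subtype.ext hg⟩
  · intro g g'
    rw [Quotient.eq'', Subtype.mk.injEq, cuspInv_eq_iff, ← orbit_iff, MulAction.orbitRel_apply,
      MulAction.mem_orbit_iff]
    constructor
    · rintro ⟨⟨t, ht⟩, hx⟩
      obtain ⟨k, rfl⟩ := Subgroup.mem_zpowers_iff.mp ht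
      exact ⟨k, hx⟩
    · rintro ⟨k, hk⟩
      exact ⟨⟨ModularGroup.T ^ k, Subgroup.zpow_mem_zpowers _ k⟩, hk⟩

end Fermat.Agent.S20.Count
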