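import Mathlib

/-!
# S20 — basic function-level definitions

Function-level predicates for modular forms / cusp forms of a finite-index subgroup
`Γ ≤ SL(2, ℤ)`, and the translation to Mathlib's bundled `ModularForm` / `CuspForm`.
-/

set_option autoImplicit false

open UpperHalfPlane ModularForm Matrix.SpecialLinearGroup
open scoped MatrixGroups Manifold ModularForm Topology

namespace Fermat.Agent.S20

noncomputable section

/-- `f` is a holomorphic modular form of weight `k` for `Γ ≤ SL(2, ℤ)` (function level):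
holomorphic, `Γ`-slash-invariant, and every `SL(2, ℤ)`-translate is bounded at `i∞`. -/
def IsMF (Γ : Subgroup SL(2, ℤ)) (k : ℤ) (f : ℍ → ℂ) : Prop :=
  MDifferentiable 𝓘(ℂ) 𝓘(ℂ) f ∧ (∀ γ ∈ Γ, f ∣[k] γ = f) ∧
    ∀ γ : SL(2, ℤ), IsBoundedAtImInfty (f ∣[k] γ)

/-- `f` is a cusp form of weight `k` for `Γ ≤ SL(2, ℤ)` (function level). -/
def IsCF (Γ : Subgroup SL(2, ℤ)) (k : ℤ) (f : ℍ → ℂ) : Prop :=
  MDifferentiable 𝓘(ℂ) 𝓘(ℂ) f ∧ (∀ γ ∈ Γ, f ∣[k] γ = f) ∧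
    ∀ γ : SL(2, ℤ), IsZeroAtImInfty (f ∣[k] γ)

theorem IsCF.isMF {Γ : Subgroup SL(2, ℤ)} {k : ℤ} {f : ℍ → ℂ} (h : IsCF Γ k f) : IsMF Γ k f :=
  ⟨h.1, h.2.1, fun γ => (h.2.2 γ).isBoundedAtImInfty⟩

theorem IsMF.add {Γ : Subgroup SL(2, ℤ)} {k : ℤ} {f g : ℍ → ℂ} (hf : IsMF Γ k f)
    (hg : IsMF Γ k g) : IsMF Γ k (f + g) := by
  refine ⟨hf.1.add hg.1, fun γ hγ => ?_, fun γ => ?_⟩
  · rw [SlashAction.add_slash, hf.2.1 γ hγ, hg.2.1 γ hγ]
  · rw [SlashAction.add_slash]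
    exact (hf.2.2 γ).add (hg.2.2 γ)

theorem IsMF.zero (Γ : Subgroup SL(2, ℤ)) (k : ℤ) : IsMF Γ k 0 := by
  refine ⟨mdifferentiable_const, fun γ _ => SlashAction.zero_slash _ _, fun γ => ?_⟩
  rw [SlashAction.zero_slash]
  exact zero_form_isBoundedAtImInfty

theorem IsMF.smul {Γ : Subgroup SL(2, ℤ)} {k : ℤ} {f : ℍ → ℂ} (c : ℂ) (hf : IsMF Γ k f) :
    IsMF Γ k (c • f) := by
  refine ⟨hf.1.const_smul c, fun γ hγ => ?_, fun γ => ?_⟩
  · rw [SL_smul_slash, hf.2.1 γ hγ]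
  · rw [SL_smul_slash]
    exact (hf.2.2 γ).const_smul_left c

theorem IsCF.add {Γ : Subgroup SL(2, ℤ)} {k : ℤ} {f g : ℍ → ℂ} (hf : IsCF Γ k f)
    (hg : IsCF Γ k g) : IsCF Γ k (f + g) := by
  refine ⟨hf.1.add hg.1, fun γ hγ => ?_, fun γ => ?_⟩
  · rw [SlashAction.add_slash, hf.2.1 γ hγ, hg.2.1 γ hγ]
  · rw [SlashAction.add_slash]
    exact (hf.2.2 γ).add (hg.2.2 γ)

theorem IsCF.zero (Γ : Subgroup SL(2, ℤ)) (k : ℤ) : IsCF Γ k 0 := by
  refine ⟨mdifferentiable_const, fun γ _ => SlashAction.zero_slash _ _, fun γ => ?_⟩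
  rw [SlashAction.zero_slash]
  exact Filter.zero_zeroAtFilter _

theorem IsCF.smul {Γ : Subgroup SL(2, ℤ)} {k : ℤ} {f : ℍ → ℂ} (c : ℂ) (hf : IsCF Γ k f) :
    IsCF Γ k (c • f) := by
  refine ⟨hf.1.const_smul c, fun γ hγ => ?_, fun γ => ?_⟩
  · rw [SL_smul_slash, hf.2.1 γ hγ]
  · rw [SL_smul_slash]
    exact (hf.2.2 γ).smul c

/-- The space of modular forms of weight `k` and level `Γ` as a subspace of all functions. -/
def MFsub (Γ : Subgroup SL(2, ℤ)) (k : ℤ) : Submodule ℂ (ℍ → ℂ) where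
  carrier := {f | IsMF Γ k f}
  add_mem' := fun hf hg => hf.add hg
  zero_mem' := IsMF.zero Γ k
  smul_mem' := fun c _ hf => hf.smul c

/-- The space of cusp forms of weight `k` and level `Γ` as a subspace of all functions. -/
def CFsub (Γ : Subgroup SL(2, ℤ)) (k : ℤ) : Submodule ℂ (ℍ → ℂ) where
  carrier := {f | IsCF Γ k f}
  add_mem' := fun hf hg => hf.add hg
  zero_mem' := IsCF.zero Γ k
  smul_mem' := fun c _ hf => hf.smul c

@[simp] theorem mem_MFsub {Γ : Subgroup SL(2, ℤ)} {k : ℤ} {f : ℍ → ℂ} :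
    f ∈ MFsub Γ k ↔ IsMF Γ k f := Iff.rfl

@[simp] theorem mem_CFsub {Γ : Subgroup SL(2, ℤ)} {k : ℤ} {f : ℍ → ℂ} :
    f ∈ CFsub Γ k ↔ IsCF Γ k f := Iff.rfl

/-! ### Level-one functions -/

/-- The Eisenstein series `E₄` as a function. -/
def E4f : ℍ → ℂ := ⇑ModularForm.E₄

/-- The Eisenstein series `E₆` as a function. -/
def E6f : ℍ → ℂ := ⇑ModularForm.E₆

/-- The discriminant `Δ` as a function. -/
def Δf : ℍ → ℂ := ModularForm.discriminant

/-- The point `ρ = -1/2 + (√3/2) i` of the upper half plane (fixed by `S * T`). -/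
def rhoPt : ℍ := ⟨⟨-1 / 2, Real.sqrt 3 / 2⟩, by
  show (0 : ℝ) < Real.sqrt 3 / 2
  positivity⟩

/-! ### Cosets, translates, and the numerical invariants -/

/-- The translate of `f` attached to the coset `q = gΓ`: the function `f ∣[k] g⁻¹` for the
chosen representative `g = q.out`. If `f` is `Γ`-invariant it does not depend on the choice. -/
def tr (k : ℤ) (f : ℍ → ℂ) {Γ : Subgroup SL(2, ℤ)} (q : SL(2, ℤ) ⧸ Γ) : ℍ → ℂ :=
  f ∣[k] (q.out)⁻¹

/-- Number of cosets fixed by `S` (elliptic points of order 2). -/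
def nu2 (Γ : Subgroup SL(2, ℤ)) : ℕ :=
  Nat.card (MulAction.fixedBy (SL(2, ℤ) ⧸ Γ) ModularGroup.S)

/-- Number of cosets fixed by `S * T` (elliptic points of order 3). -/
def nu3 (Γ : Subgroup SL(2, ℤ)) : ℕ :=
  Nat.card (MulAction.fixedBy (SL(2, ℤ) ⧸ Γ) (ModularGroup.S * ModularGroup.T))

/-- Number of orbits of `⟨T⟩` on the cosets (cusps). -/
def cuspsNum (Γ : Subgroup SL(2, ℤ)) : ℕ :=
  Nat.card (MulAction.orbitRel.Quotient (Subgroup.zpowers ModularGroup.T) (SL(2, ℤ) ⧸ Γ))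

/-- A homogeneous basis of `⨁ₖ M_k(Γ)` as a graded module over `⨁ₖ M_k(SL(2,ℤ))`, with exactly
`[SL(2,ℤ) : Γ]` elements. -/
structure GBasis (Γ : Subgroup SL(2, ℤ)) where
  /-- index type -/
  ι : Type
  /-- finiteness of the index type -/
  fin : Fintype ι
  /-- decidable equality on the index type -/
  dec : DecidableEq ι
  /-- weights of the generators -/
  k : ι → ℕ
  /-- the generators -/
  e : ι → ℍ → ℂ
  isMF : ∀ i, IsMF Γ (k i) (e i)
  card_eq : @Fintype.card ι fin = Γ.index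
  repr : ∀ (K : ℤ) (f : ℍ → ℂ), IsMF Γ K f →
    ∃ r : ι → ℍ → ℂ, (∀ i, IsMF ⊤ (K - k i) (r i)) ∧ f = @Finset.sum ι _ _ (@Finset.univ ι fin) (fun i => r i * e i)
  uniq : ∀ (K : ℤ) (r : ι → ℍ → ℂ), (∀ i, IsMF ⊤ (K - k i) (r i)) →
    @Finset.sum ι _ _ (@Finset.univ ι fin) (fun i => r i * e i) = 0 → ∀ i, r i = 0

attribute [instance] GBasis.fin GBasis.dec

/-- The matrix of conjugates of a graded basis at a point `z`: rows are basis elements,
columns are cosets. -/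
def GBasis.A {Γ : Subgroup SL(2, ℤ)} (B : GBasis Γ) (z : ℍ) :
    Matrix B.ι (SL(2, ℤ) ⧸ Γ) ℂ :=
  fun i q => tr (B.k i) (B.e i) q z

/-- Square version of `GBasis.A`, columns reindexed along `ε : B.ι ≃ SL(2, ℤ) ⧸ Γ`. -/
def GBasis.Asq {Γ : Subgroup SL(2, ℤ)} (B : GBasis Γ) (ε : B.ι ≃ SL(2, ℤ) ⧸ Γ) (z : ℍ) :
    Matrix B.ι B.ι ℂ :=
  fun i j => tr (B.k i) (B.e i) (ε j) z

/-- The level-one span of monomials `x ^ a * y ^ b` with `4 a + 6 b = m` (abstract version of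
`M_m(SL(2,ℤ)) = ⨁ ℂ E₄^a E₆^b`). -/
def monoSpan {A : Type*} [CommRing A] [Algebra ℂ A] (x y : A) (m : ℤ) : Submodule ℂ A :=
  Submodule.span ℂ {g | ∃ a b : ℕ, (4 * a + 6 * b : ℤ) = m ∧ g = x ^ a * y ^ b}

end

end Fermat.Agent.S20
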