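import Mathlib
import Fermat.Agent.S20.Defs

/-!
# S20 — cycle coordinates for a permutation of a finite type

A permutation `σ` of a finite type `X` decomposes `X` into cycles: there is an equivalence
`(Σ j : Fin n, Fin (w j)) ≃ X` under which `σ` acts by `+1` on the position inside each cycle.
Applied to the action of `T⁻¹` on `SL(2, ℤ) ⧸ Γ` this gives the cusps of `Γ` and their widths.
-/

set_option autoImplicit false

open scoped MatrixGroups

namespace Fermat.Agent.S20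

namespace Cycles

/-- Reduction of the exponent modulo the minimal period. -/
theorem pow_mod_minimalPeriod {X : Type} (σ : Equiv.Perm X) (x : X) (t : ℕ) :
    (σ ^ (t % Function.minimalPeriod σ x)) x = (σ ^ t) x := by
  rw [← Equiv.Perm.iterate_eq_pow, ← Equiv.Perm.iterate_eq_pow]
  exact Function.iterate_mod_minimalPeriod_eq

/-- The orbit relation of the cyclic group generated by `g`. -/
theorem orbitRel_zpowers_iff {G : Type*} [Group G] {α : Type*} [MulAction G α] (g : G)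
    (a b : α) : MulAction.orbitRel (Subgroup.zpowers g) α a b ↔ ∃ k : ℤ, g ^ k • b = a := by
  rw [MulAction.orbitRel_apply, MulAction.mem_orbit_iff]
  constructor
  · rintro ⟨⟨x, hx⟩, rfl⟩
    obtain ⟨k, rfl⟩ := Subgroup.mem_zpowers_iff.mp hx
    exact ⟨k, rfl⟩
  · rintro ⟨k, rfl⟩
    exact ⟨⟨g ^ k, Subgroup.zpow_mem_zpowers g k⟩, rfl⟩

end Cycles

/-- Cycle coordinates: `X` is a disjoint union of `n` cycles, the `j`-th of length `w j`, and
`σ` acts by `+1` on the position. The number of cycles is the number of `⟨σ⟩`-orbits. -/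
theorem exists_cycle_coordinates {X : Type} [Fintype X] [DecidableEq X] (σ : Equiv.Perm X) :
    ∃ (n : ℕ) (w : Fin n → ℕ) (φ : (Σ j : Fin n, Fin (w j)) ≃ X), (∀ j, 0 < w j) ∧
      (∀ (j : Fin n) (a : Fin (w j)) (t : ℕ),
        (σ ^ t) (φ ⟨j, a⟩) = φ ⟨j, ⟨(a.val + t) % w j, Nat.mod_lt _ a.pos⟩⟩) ∧
      n = Nat.card (MulAction.orbitRel.Quotient (Subgroup.zpowers σ) X) := by
  classical
  have hfin : Finite (MulAction.orbitRel.Quotient (Subgroup.zpowers σ) X) :=
    Quotient.finite _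
  let e : MulAction.orbitRel.Quotient (Subgroup.zpowers σ) X ≃
      Fin (Nat.card (MulAction.orbitRel.Quotient (Subgroup.zpowers σ) X)) := Finite.equivFin _
  let rep : Fin (Nat.card (MulAction.orbitRel.Quotient (Subgroup.zpowers σ) X)) → X :=
    fun j => (e.symm j).out
  let w : Fin (Nat.card (MulAction.orbitRel.Quotient (Subgroup.zpowers σ) X)) → ℕ :=
    fun j => Function.minimalPeriod σ (rep j)
  have hw : ∀ j, 0 < w j := fun j =>
    Function.minimalPeriod_pos_of_mem_periodicPts (σ.injective.mem_periodicPts _)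
  let f : (Σ j : Fin (Nat.card (MulAction.orbitRel.Quotient (Subgroup.zpowers σ) X)),
      Fin (w j)) → X := fun p => (σ ^ p.2.val) (rep p.1)
  have hmk : ∀ (j : Fin (Nat.card (MulAction.orbitRel.Quotient (Subgroup.zpowers σ) X)))
      (k : ℕ), (Quotient.mk'' ((σ ^ k) (rep j)) :
        MulAction.orbitRel.Quotient (Subgroup.zpowers σ) X) = e.symm j := by
    intro j k
    have h1 : (Quotient.mk'' (rep j) : MulAction.orbitRel.Quotient (Subgroup.zpowers σ) X)
        = e.symm j := Quotient.out_eq' _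
    rw [← h1]
    apply Quotient.sound'
    rw [Cycles.orbitRel_zpowers_iff]
    exact ⟨k, by simp⟩
  have hinj : Function.Injective f := by
    rintro ⟨j, a⟩ ⟨j', a'⟩ h
    have h' : (σ ^ a.val) (rep j) = (σ ^ a'.val) (rep j') := h
    have hj : j = j' := by
      apply e.symm.injective
      rw [← hmk j a.val, ← hmk j' a'.val, h']
    subst hj
    have ha : a.val = a'.val :=
      Function.iterate_injOn_Iio_minimalPeriod (f := σ) (x := rep j) a.isLt a'.isLt
        (by simpa [Equiv.Perm.iterate_eq_pow] using h')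
    rw [Fin.ext ha]
  have hsurj : Function.Surjective f := by
    intro x
    let j := e (Quotient.mk'' x)
    have hrep : (Quotient.mk'' x : MulAction.orbitRel.Quotient (Subgroup.zpowers σ) X)
        = Quotient.mk'' (rep j) := by
      have h1 : (Quotient.mk'' (rep j) : MulAction.orbitRel.Quotient (Subgroup.zpowers σ) X)
          = e.symm j := Quotient.out_eq' _
      rw [h1, Equiv.symm_apply_apply]
    have hrel := Quotient.exact' hrep
    rw [MulAction.orbitRel_apply, MulAction.mem_orbit_iff] at hrel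
    obtain ⟨⟨g, hg⟩, hgx⟩ := hrel
    obtain ⟨m, rfl⟩ := mem_powers_iff_mem_zpowers.mpr hg
    have hgx' : (σ ^ m) (rep j) = x := hgx
    refine ⟨⟨j, ⟨m % w j, Nat.mod_lt _ (hw j)⟩⟩, ?_⟩
    show (σ ^ (m % w j)) (rep j) = x
    rw [Cycles.pow_mod_minimalPeriod, hgx']
  refine ⟨_, w, Equiv.ofBijective f ⟨hinj, hsurj⟩, hw, ?_, rfl⟩
  intro j a t
  show (σ ^ t) ((σ ^ a.val) (rep j)) = (σ ^ ((a.val + t) % w j)) (rep j)
  rw [Cycles.pow_mod_minimalPeriod, ← Equiv.Perm.mul_apply, ← pow_add, add_comm]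

/-- The sizes of the blocks of a decomposition of `SL(2, ℤ) ⧸ Γ` add up to the index. -/
theorem sum_eq_index_of_sigma_equiv (Γ : Subgroup SL(2, ℤ)) {n : ℕ} (w : Fin n → ℕ)
    (φ : (Σ j : Fin n, Fin (w j)) ≃ SL(2, ℤ) ⧸ Γ) : ∑ j, w j = Γ.index := by
  rw [Subgroup.index, ← Nat.card_congr φ, Nat.card_eq_fintype_card, Fintype.card_sigma]
  simp

/-- Cusp coordinates: the cosets `SL(2, ℤ) ⧸ Γ` decompose into `cuspsNum Γ` cycles under `T⁻¹`,
the `j`-th of length (width) `w j`. -/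
theorem exists_cusp_coordinates (Γ : Subgroup SL(2, ℤ)) [Γ.FiniteIndex] :
    ∃ (w : Fin (cuspsNum Γ) → ℕ) (φ : (Σ j : Fin (cuspsNum Γ), Fin (w j)) ≃ SL(2, ℤ) ⧸ Γ),
      (∀ j, 0 < w j) ∧ ∀ (j : Fin (cuspsNum Γ)) (a : Fin (w j)) (t : ℕ),
        (ModularGroup.T⁻¹) ^ t • φ ⟨j, a⟩ =
          φ ⟨j, ⟨(a.val + t) % w j, Nat.mod_lt _ a.pos⟩⟩ := by
  classical
  let _ : Fintype (SL(2, ℤ) ⧸ Γ) := Subgroup.fintypeQuotientOfFiniteIndex
  obtain ⟨n, w, φ, hw, hact, hn⟩ := exists_cycle_coordinates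
    (MulAction.toPermHom SL(2, ℤ) (SL(2, ℤ) ⧸ Γ) (ModularGroup.T⁻¹))
  have hn' : n = cuspsNum Γ := by
    rw [hn, cuspsNum]
    apply Nat.card_congr
    refine Quotient.congrRight (fun a b => ?_)
    rw [Cycles.orbitRel_zpowers_iff]
    change _ ↔ a ∈ MulAction.orbit (Subgroup.zpowers ModularGroup.T) b
    rw [MulAction.mem_orbit_iff]
    constructor
    · rintro ⟨k, hk⟩
      refine ⟨⟨ModularGroup.T ^ (-k), Subgroup.zpow_mem_zpowers _ _⟩, ?_⟩
      rw [← hk, ← map_zpow, inv_zpow']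
      rfl
    · rintro ⟨⟨x, hx⟩, hxb⟩
      obtain ⟨k, rfl⟩ := Subgroup.mem_zpowers_iff.mp hx
      refine ⟨-k, ?_⟩
      rw [← hxb, ← map_zpow, inv_zpow', neg_neg]
      rfl
  subst hn'
  refine ⟨w, φ, hw, fun j a t => ?_⟩
  rw [← hact j a t, ← map_pow]
  rfl

/-- The widths of the cusps add up to the index (for any cusp coordinates). -/
theorem exists_cusp_coordinates_sum (Γ : Subgroup SL(2, ℤ)) [Γ.FiniteIndex] :
    ∃ (w : Fin (cuspsNum Γ) → ℕ) (φ : (Σ j : Fin (cuspsNum Γ), Fin (w j)) ≃ SL(2, ℤ) ⧸ Γ),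
      (∀ j, 0 < w j) ∧ (∀ (j : Fin (cuspsNum Γ)) (a : Fin (w j)) (t : ℕ),
        (ModularGroup.T⁻¹) ^ t • φ ⟨j, a⟩ =
          φ ⟨j, ⟨(a.val + t) % w j, Nat.mod_lt _ a.pos⟩⟩) ∧ ∑ j, w j = Γ.index := by
  obtain ⟨w, φ, hw, hact⟩ := exists_cusp_coordinates Γ
  exact ⟨w, φ, hw, hact, sum_eq_index_of_sigma_equiv Γ w φ⟩

/-- There are at most `[SL(2, ℤ) : Γ]` cusps. -/
theorem cuspsNum_le_index (Γ : Subgroup SL(2, ℤ)) [Γ.FiniteIndex] : cuspsNum Γ ≤ Γ.index := by
  obtain ⟨w, φ, hw, -⟩ := exists_cusp_coordinates Γ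
  rw [← sum_eq_index_of_sigma_equiv Γ w φ]
  calc cuspsNum Γ = ∑ _j : Fin (cuspsNum Γ), 1 := by simp
    _ ≤ ∑ j, w j := Finset.sum_le_sum (fun j _ => hw j)

end Fermat.Agent.S20
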