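/-
S20 helper library: finite Fourier components of a `w`-periodic function on the upper half
plane.  For `g : ℍ → ℂ` with `g (z + w) = g z` we put

  `dftComp w m g z = exp (-2πi m z / w) * (1/w) * ∑_{t < w} exp (-2πi m t / w) * g (z + t)`.

It is `1`-periodic, holomorphic if `g` is, tends to a limit at `i∞` if `g` is bounded there,
and `g` is recovered from the `dftComp w m g`, `m < w`, by finite Fourier inversion.
-/
import Mathlib

set_option autoImplicit false

namespace Fermat.Agent.S20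

open UpperHalfPlane hiding I
open Complex Filter Function
open scoped Real Topology Manifold

/-- The `m`-th finite Fourier component of a function of period `w` on the upper half plane. -/
noncomputable def dftComp (w m : ℕ) (g : ℍ → ℂ) : ℍ → ℂ := fun z =>
  Complex.exp (-2 * Real.pi * Complex.I * m * z / w) *
    ((1 / (w : ℂ)) * ∑ t ∈ Finset.range w,
      Complex.exp (-2 * Real.pi * Complex.I * m * t / w) * g ((t : ℝ) +ᵥ z))

theorem dftComp_apply (w m : ℕ) (g : ℍ → ℂ) (z : ℍ) :
    dftComp w m g z = Complex.exp (-2 * Real.pi * Complex.I * m * z / w) *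
      ((1 / (w : ℂ)) * ∑ t ∈ Finset.range w,
        Complex.exp (-2 * Real.pi * Complex.I * m * t / w) * g ((t : ℝ) +ᵥ z)) := rfl

/-! ### Linearity -/

theorem dftComp_add (w m : ℕ) (g₁ g₂ : ℍ → ℂ) :
    dftComp w m (g₁ + g₂) = dftComp w m g₁ + dftComp w m g₂ := by
  funext z
  simp only [dftComp_apply, Pi.add_apply, mul_add, Finset.sum_add_distrib]

theorem dftComp_const_smul (w m : ℕ) (c : ℂ) (g : ℍ → ℂ) :
    dftComp w m (c • g) = c • dftComp w m g := by
  funext z
  simp only [dftComp_apply, Pi.smul_apply, smul_eq_mul, Finset.mul_sum]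
  refine Finset.sum_congr rfl fun t _ => ?_
  ring

theorem dftComp_zero (w m : ℕ) : dftComp w m 0 = 0 := by
  funext z
  simp [dftComp_apply]

theorem dftComp_sum {ι : Type*} (w m : ℕ) (s : Finset ι) (c : ι → ℂ) (g : ι → ℍ → ℂ) :
    dftComp w m (∑ i ∈ s, c i • g i) = ∑ i ∈ s, c i • dftComp w m (g i) := by
  classical
  induction s using Finset.induction_on with
  | empty => simp [dftComp_zero]
  | insert a s ha ih =>
    rw [Finset.sum_insert ha, Finset.sum_insert ha, dftComp_add, dftComp_const_smul, ih]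

/-- A `1`-periodic function is invariant under all natural translations. -/
theorem DFT.vadd_natCast_of_periodic_one {r : ℍ → ℂ} (hr : ∀ z : ℍ, r ((1 : ℝ) +ᵥ z) = r z)
    (t : ℕ) (z : ℍ) : r ((t : ℝ) +ᵥ z) = r z := by
  induction t with
  | zero => simp
  | succ t ih =>
    rw [Nat.cast_succ, add_comm, add_vadd, hr, ih]

/-- Multiplication by a `1`-periodic function commutes with `dftComp`. -/
theorem dftComp_mul_periodic (w m : ℕ) {r : ℍ → ℂ} (hr : ∀ z : ℍ, r ((1 : ℝ) +ᵥ z) = r z)
    (g : ℍ → ℂ) : dftComp w m (r * g) = r * dftComp w m g := by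
  funext z
  simp only [dftComp_apply, Pi.mul_apply, Finset.mul_sum, DFT.vadd_natCast_of_periodic_one hr]
  refine Finset.sum_congr rfl fun t _ => ?_
  ring

/-! ### Periodicity -/

/-- A `w`-periodic function is invariant under translation by multiples of `w`. -/
theorem DFT.vadd_mul_of_periodic {w : ℕ} {g : ℍ → ℂ} (hper : ∀ z : ℍ, g ((w : ℝ) +ᵥ z) = g z)
    (k : ℕ) (z : ℍ) : g (((k * w : ℕ) : ℝ) +ᵥ z) = g z := by
  induction k with
  | zero => simp
  | succ k ih =>
    rw [Nat.succ_mul, Nat.cast_add, add_comm, add_vadd, hper, ih]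

theorem DFT.vadd_mod_of_periodic {w : ℕ} {g : ℍ → ℂ} (hper : ∀ z : ℍ, g ((w : ℝ) +ᵥ z) = g z)
    (t : ℕ) (z : ℍ) : g (((t % w : ℕ) : ℝ) +ᵥ z) = g ((t : ℝ) +ᵥ z) := by
  conv_rhs => rw [← Nat.mod_add_div t w, mul_comm w, Nat.cast_add, add_comm, add_vadd]
  rw [DFT.vadd_mul_of_periodic hper]

theorem DFT.exp_neg_two_pi_I_mul_nat (m : ℕ) :
    Complex.exp (-2 * Real.pi * Complex.I * m) = 1 := by
  have h := Complex.exp_int_mul_two_pi_mul_I (-(m : ℤ))
  rw [← h]
  congr 1
  push_cast
  ring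

/-- `dftComp w m g` is `1`-periodic when `g` is `w`-periodic. -/
theorem dftComp_periodic {w : ℕ} (hw : 0 < w) (m : ℕ) {g : ℍ → ℂ}
    (hper : ∀ z : ℍ, g ((w : ℝ) +ᵥ z) = g z) (z : ℍ) :
    dftComp w m g ((1 : ℝ) +ᵥ z) = dftComp w m g z := by
  have hw0 : (w : ℂ) ≠ 0 := Nat.cast_ne_zero.mpr hw.ne'
  set f : ℕ → ℂ := fun s =>
    Complex.exp (-2 * Real.pi * Complex.I * m * s / w) * g ((s : ℝ) +ᵥ z) with hf
  have hfw : f w = f 0 := by
    simp only [hf, Nat.cast_zero, zero_vadd, mul_zero, zero_div, Complex.exp_zero, hper]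
    rw [mul_div_assoc, div_self hw0, mul_one, DFT.exp_neg_two_pi_I_mul_nat]
  have hshift : ∑ s ∈ Finset.range w, f (s + 1) = ∑ s ∈ Finset.range w, f s := by
    have h1 := Finset.sum_range_succ f w
    have h2 := Finset.sum_range_succ' f w
    rw [h1] at h2
    rw [hfw] at h2
    exact (add_right_cancel h2).symm
  have hterm : ∀ t : ℕ, Complex.exp (-2 * Real.pi * Complex.I * m * ((1 : ℝ) +ᵥ z : ℍ) / w) *
      (Complex.exp (-2 * Real.pi * Complex.I * m * t / w) * g ((t : ℝ) +ᵥ ((1 : ℝ) +ᵥ z)))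
      = Complex.exp (-2 * Real.pi * Complex.I * m * z / w) * f (t + 1) := by
    intro t
    simp only [hf]
    rw [← mul_assoc, ← mul_assoc, ← Complex.exp_add, ← Complex.exp_add, ← add_vadd,
      UpperHalfPlane.coe_vadd]
    congr 2
    · push_cast
      ring
    · push_cast
      ring_nf
  simp only [dftComp_apply]
  have key : Complex.exp (-2 * Real.pi * Complex.I * m * ((1 : ℝ) +ᵥ z : ℍ) / w) *
      (1 / (w : ℂ) * ∑ t ∈ Finset.range w,
        (Complex.exp (-2 * Real.pi * Complex.I * m * t / w) * g ((t : ℝ) +ᵥ ((1 : ℝ) +ᵥ z))))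
      = 1 / (w : ℂ) * ∑ t ∈ Finset.range w,
        Complex.exp (-2 * Real.pi * Complex.I * m * z / w) * f (t + 1) := by
    rw [mul_left_comm, Finset.mul_sum]
    congr 1
    exact Finset.sum_congr rfl fun t _ => hterm t
  rw [key, ← Finset.mul_sum, hshift]
  simp only [hf]
  ring

/-! ### Finite Fourier inversion -/

/-- Orthogonality of the characters of `ℤ/w`. -/
theorem DFT.char_sum_eq {w : ℕ} (hw : 0 < w) (t s : ℕ) :
    ∑ m ∈ Finset.range w, Complex.exp (2 * Real.pi * Complex.I * m * t / w) *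
        Complex.exp (-2 * Real.pi * Complex.I * m * s / w)
      = if s % w = t % w then (w : ℂ) else 0 := by
  have hw0 : (w : ℂ) ≠ 0 := Nat.cast_ne_zero.mpr hw.ne'
  set x : ℂ := Complex.exp (2 * Real.pi * Complex.I * ((t : ℂ) - s) / w) with hx
  have hterm : ∀ m : ℕ, Complex.exp (2 * Real.pi * Complex.I * m * t / w) *
      Complex.exp (-2 * Real.pi * Complex.I * m * s / w) = x ^ m := by
    intro m
    rw [hx, ← Complex.exp_nat_mul, ← Complex.exp_add]
    congr 1
    ring
  simp only [hterm]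
  have hxw : x ^ w = 1 := by
    rw [hx, ← Complex.exp_nat_mul]
    have h := Complex.exp_int_mul_two_pi_mul_I ((t : ℤ) - s)
    rw [← h]
    congr 1
    push_cast
    field_simp
  split_ifs with hst
  · have hdvd : (w : ℤ) ∣ (t : ℤ) - s := (Nat.modEq_iff_dvd.mp hst)
    obtain ⟨k, hk⟩ := hdvd
    have hx1 : x = 1 := by
      rw [hx]
      have h := Complex.exp_int_mul_two_pi_mul_I k
      rw [← h]
      congr 1
      have hk' : ((t : ℂ) - s) = (w : ℂ) * k := by exact_mod_cast congrArg (Int.cast : ℤ → ℂ) hk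
      rw [hk']
      field_simp
    simp [hx1]
  · have hx1 : x ≠ 1 := by
      intro h1
      rw [hx, Complex.exp_eq_one_iff] at h1
      obtain ⟨n, hn⟩ := h1
      have h2 : ((t : ℂ) - s) = (n : ℂ) * w := by
        have hpi : (2 * Real.pi * Complex.I : ℂ) ≠ 0 := Complex.two_pi_I_ne_zero
        field_simp at hn
        linear_combination hn
      have h3 : (t : ℤ) - s = n * w := by exact_mod_cast h2
      exact hst (Nat.modEq_iff_dvd.mpr ⟨n, by rw [h3]; ring⟩)
    rw [geom_sum_eq hx1, hxw, sub_self, zero_div]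

/-- Finite Fourier inversion: a `w`-periodic function is recovered from its components. -/
theorem dftComp_inversion {w : ℕ} (hw : 0 < w) {g : ℍ → ℂ}
    (hper : ∀ z : ℍ, g ((w : ℝ) +ᵥ z) = g z) (t : ℕ) (z : ℍ) :
    g ((t : ℝ) +ᵥ z) = ∑ m ∈ Finset.range w,
      Complex.exp (2 * Real.pi * Complex.I * m * t / w) *
        Complex.exp (2 * Real.pi * Complex.I * m * z / w) * dftComp w m g z := by
  have hw0 : (w : ℂ) ≠ 0 := Nat.cast_ne_zero.mpr hw.ne'
  have h1 : ∀ m ∈ Finset.range w,
      Complex.exp (2 * Real.pi * Complex.I * m * t / w) *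
        Complex.exp (2 * Real.pi * Complex.I * m * z / w) * dftComp w m g z
      = ∑ s ∈ Finset.range w, (1 / (w : ℂ)) * g ((s : ℝ) +ᵥ z) *
          (Complex.exp (2 * Real.pi * Complex.I * m * t / w) *
            Complex.exp (-2 * Real.pi * Complex.I * m * s / w)) := by
    intro m _
    have hz : Complex.exp (2 * Real.pi * Complex.I * m * z / w) *
        Complex.exp (-2 * Real.pi * Complex.I * m * z / w) = 1 := by
      rw [← Complex.exp_add, ← Complex.exp_zero]
      congr 1
      ring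
    rw [dftComp_apply, mul_assoc, ← mul_assoc (Complex.exp (2 * Real.pi * Complex.I * m * z / w)),
      hz, one_mul, Finset.mul_sum, Finset.mul_sum]
    refine Finset.sum_congr rfl fun s _ => ?_
    ring
  rw [Finset.sum_congr rfl h1, Finset.sum_comm]
  simp only [← Finset.mul_sum, DFT.char_sum_eq hw]
  have h2 : ∀ s ∈ Finset.range w,
      (1 / (w : ℂ)) * g ((s : ℝ) +ᵥ z) * (if s % w = t % w then (w : ℂ) else 0)
        = if s = t % w then g ((s : ℝ) +ᵥ z) else 0 := by
    intro s hs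
    rw [Nat.mod_eq_of_lt (Finset.mem_range.mp hs)]
    split_ifs
    · field_simp
    · simp
  rw [Finset.sum_congr rfl h2, Finset.sum_ite_eq' (Finset.range w) (t % w)
    (fun s => g ((s : ℝ) +ᵥ z)), if_pos (Finset.mem_range.mpr (Nat.mod_lt t hw)),
    DFT.vadd_mod_of_periodic hper]

/-! ### Holomorphy -/

theorem DFT.vadd_ofComplex {z : ℂ} (hz : 0 < z.im) (t : ℝ) :
    (t +ᵥ ofComplex z : ℍ) = ofComplex ((t : ℂ) + z) := by
  have hz' : 0 < ((t : ℂ) + z).im := by simpa using hz
  rw [ofComplex_apply_of_im_pos hz, ofComplex_apply_of_im_pos hz']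
  ext
  simp [UpperHalfPlane.coe_vadd]

theorem DFT.coe_ofComplex_of_im_pos {z : ℂ} (hz : 0 < z.im) : ((ofComplex z : ℍ) : ℂ) = z := by
  rw [ofComplex_apply_of_im_pos hz]

/-- `dftComp w m g` is holomorphic when `g` is. -/
theorem dftComp_mdiff (w m : ℕ) {g : ℍ → ℂ} (hg : MDifferentiable 𝓘(ℂ) 𝓘(ℂ) g) :
    MDifferentiable 𝓘(ℂ) 𝓘(ℂ) (dftComp w m g) := by
  rw [UpperHalfPlane.mdifferentiable_iff] at hg ⊢
  have hF : DifferentiableOn ℂ (fun z : ℂ => Complex.exp (-2 * Real.pi * Complex.I * m * z / w) *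
      ((1 / (w : ℂ)) * ∑ t ∈ Finset.range w,
        Complex.exp (-2 * Real.pi * Complex.I * m * t / w) *
          (g ∘ ofComplex) (((t : ℝ) : ℂ) + z))) {z | 0 < z.im} := by
    refine DifferentiableOn.mul (by fun_prop) (DifferentiableOn.const_mul ?_ _)
    refine DifferentiableOn.fun_sum fun t _ => DifferentiableOn.const_mul ?_ _
    refine hg.comp (by fun_prop) ?_
    intro z hz
    simpa using hz
  refine hF.congr fun z hz => ?_
  have hz' : 0 < z.im := hz
  simp only [Function.comp_apply, dftComp_apply, DFT.vadd_ofComplex hz', DFT.coe_ofComplex_of_im_pos hz']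

/-! ### Behaviour at `i∞` -/

/-- Periodicity of `f ∘ ofComplex` from periodicity on the upper half plane. -/
theorem DFT.periodic_comp_ofComplex_one {f : ℍ → ℂ} (h : ∀ z : ℍ, f ((1 : ℝ) +ᵥ z) = f z) :
    Function.Periodic (f ∘ ofComplex) ((1 : ℝ) : ℂ) := by
  intro z
  by_cases hz : 0 < z.im
  · have hz' : 0 < (z + ((1 : ℝ) : ℂ)).im := by simpa using hz
    simp only [Function.comp_apply]
    rw [← h (ofComplex z), DFT.vadd_ofComplex hz, add_comm]
  · have hz1 : z.im ≤ 0 := not_lt.mp hz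
    have hz2 : (z + ((1 : ℝ) : ℂ)).im ≤ 0 := by simpa using hz1
    simp only [Function.comp_apply]
    rw [ofComplex_apply_of_im_nonpos hz2, ofComplex_apply_of_im_nonpos hz1]

theorem DFT.norm_exp_neg_two_pi_I_mul (c : ℕ) (z : ℂ) (w : ℕ) :
    ‖Complex.exp (-2 * Real.pi * Complex.I * c * z / w)‖ =
      Real.exp (2 * Real.pi * c * z.im / w) := by
  rw [Complex.norm_exp]
  congr 1
  have : (-2 * Real.pi * Complex.I * c * z / w : ℂ) =
      (((-2 * Real.pi * c / w : ℝ)) : ℂ) * (Complex.I * z) := by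
    push_cast
    ring
  rw [this, Complex.re_ofReal_mul, Complex.I_mul_re]
  ring

/-- Crude bound for `dftComp`: it grows at most like `exp (2π m y / w)`. -/
theorem norm_dftComp_le {w : ℕ} (hw : 0 < w) (m : ℕ) {g : ℍ → ℂ} {M A : ℝ}
    (hM : ∀ z : ℍ, A ≤ z.im → ‖g z‖ ≤ M) (z : ℍ) (hz : A ≤ z.im) :
    ‖dftComp w m g z‖ ≤ Real.exp (2 * Real.pi * m * z.im / w) * M := by
  have hw0 : (0 : ℝ) < w := Nat.cast_pos.mpr hw
  rw [dftComp_apply, norm_mul, DFT.norm_exp_neg_two_pi_I_mul, UpperHalfPlane.coe_im]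
  have hsum : ‖(1 / (w : ℂ)) * ∑ t ∈ Finset.range w,
      Complex.exp (-2 * Real.pi * Complex.I * m * t / w) * g ((t : ℝ) +ᵥ z)‖ ≤ M := by
    rw [norm_mul]
    have h1 : ‖∑ t ∈ Finset.range w,
        Complex.exp (-2 * Real.pi * Complex.I * m * t / w) * g ((t : ℝ) +ᵥ z)‖ ≤ w * M := by
      calc ‖∑ t ∈ Finset.range w,
            Complex.exp (-2 * Real.pi * Complex.I * m * t / w) * g ((t : ℝ) +ᵥ z)‖
          ≤ ∑ t ∈ Finset.range w,
            ‖Complex.exp (-2 * Real.pi * Complex.I * m * t / w) * g ((t : ℝ) +ᵥ z)‖ :=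
            norm_sum_le _ _
        _ ≤ ∑ _t ∈ Finset.range w, M := by
            refine Finset.sum_le_sum fun t _ => ?_
            have ht : ‖Complex.exp (-2 * Real.pi * Complex.I * m * t / w)‖ = 1 := by
              have := DFT.norm_exp_neg_two_pi_I_mul m (t : ℂ) w
              rw [this]
              simp
            rw [norm_mul, ht, one_mul]
            exact hM _ (by rw [UpperHalfPlane.vadd_im]; exact hz)
        _ = w * M := by simp
    have h2 : ‖(1 / (w : ℂ))‖ = 1 / (w : ℝ) := by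
      rw [norm_div, norm_one, Complex.norm_natCast]
    rw [h2]
    calc 1 / (w : ℝ) * ‖∑ t ∈ Finset.range w,
          Complex.exp (-2 * Real.pi * Complex.I * m * t / w) * g ((t : ℝ) +ᵥ z)‖
        ≤ 1 / (w : ℝ) * (w * M) := by gcongr
      _ = M := by field_simp
  gcongr

/-- `dftComp w m g` tends to a limit at `i∞` when `g` is holomorphic, `w`-periodic and bounded
at `i∞` (and `m < w`). -/
theorem dftComp_tendsto {w m : ℕ} (hw : 0 < w) (hm : m < w) {g : ℍ → ℂ}
    (hg : MDifferentiable 𝓘(ℂ) 𝓘(ℂ) g) (hper : ∀ z : ℍ, g ((w : ℝ) +ᵥ z) = g z)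
    (hbdd : UpperHalfPlane.IsBoundedAtImInfty g) :
    ∃ β : ℂ, Filter.Tendsto (dftComp w m g) UpperHalfPlane.atImInfty (nhds β) := by
  have hw0 : (0 : ℝ) < w := Nat.cast_pos.mpr hw
  obtain ⟨M, A, hM⟩ := UpperHalfPlane.isBoundedAtImInfty_iff.mp hbdd
  -- the auxiliary function `G₁ = q * dftComp`
  set G₁ : ℍ → ℂ := fun z => Complex.exp (2 * Real.pi * Complex.I * z) * dftComp w m g z
    with hG₁
  -- it is holomorphic
  have hG₁_mdiff : MDifferentiable 𝓘(ℂ) 𝓘(ℂ) G₁ := by
    have hG := dftComp_mdiff w m hg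
    rw [UpperHalfPlane.mdifferentiable_iff] at hG ⊢
    have hF : DifferentiableOn ℂ (fun z : ℂ => Complex.exp (2 * Real.pi * Complex.I * z) *
        (dftComp w m g ∘ ofComplex) z) {z | 0 < z.im} :=
      DifferentiableOn.mul (by fun_prop) hG
    refine hF.congr fun z hz => ?_
    have hz' : 0 < z.im := hz
    simp only [Function.comp_apply, hG₁, DFT.coe_ofComplex_of_im_pos hz']
  -- it is periodic
  have hG₁_per : Function.Periodic (G₁ ∘ ofComplex) ((1 : ℝ) : ℂ) := by
    refine DFT.periodic_comp_ofComplex_one fun z => ?_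
    simp only [hG₁]
    rw [dftComp_periodic hw m hper, UpperHalfPlane.coe_vadd]
    congr 1
    have h := Complex.exp_periodic (2 * Real.pi * Complex.I * z)
    rw [← h]
    congr 1
    push_cast
    ring
  -- it tends to zero at `i∞`
  have hc : 0 < 2 * Real.pi * (1 - (m : ℝ) / w) := by
    have : (m : ℝ) / w < 1 := by
      rw [div_lt_one hw0]
      exact_mod_cast hm
    have := Real.pi_pos
    nlinarith
  have hG₁_bound : ∀ z : ℍ, A ≤ z.im →
      ‖G₁ z‖ ≤ M * Real.exp (-(2 * Real.pi * (1 - (m : ℝ) / w)) * z.im) := by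
    intro z hz
    have h1 := norm_dftComp_le hw m hM z hz
    have h2 : ‖Complex.exp (2 * Real.pi * Complex.I * z)‖ = Real.exp (-(2 * Real.pi * z.im)) := by
      rw [Complex.norm_exp]
      congr 1
      have : (2 * Real.pi * Complex.I * z : ℂ) = ((2 * Real.pi : ℝ) : ℂ) * (Complex.I * z) := by
        push_cast
        ring
      rw [this, Complex.re_ofReal_mul, Complex.I_mul_re]
      simp
    simp only [hG₁]
    rw [norm_mul, h2]
    calc Real.exp (-(2 * Real.pi * z.im)) * ‖dftComp w m g z‖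
        ≤ Real.exp (-(2 * Real.pi * z.im)) * (Real.exp (2 * Real.pi * m * z.im / w) * M) := by
          gcongr
      _ = M * Real.exp (-(2 * Real.pi * (1 - (m : ℝ) / w)) * z.im) := by
          rw [← mul_assoc, ← Real.exp_add, mul_comm]
          congr 2
          field_simp
          ring
  have hG₁_zero : UpperHalfPlane.IsZeroAtImInfty G₁ := by
    have hlim : Tendsto (fun z : ℍ => M * Real.exp (-(2 * Real.pi * (1 - (m : ℝ) / w)) * z.im))
        UpperHalfPlane.atImInfty (nhds 0) := by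
      have h1 : Tendsto (fun y : ℝ => M * Real.exp (-(2 * Real.pi * (1 - (m : ℝ) / w)) * y))
          atTop (nhds 0) := by
        have h2 : Tendsto (fun y : ℝ => -(2 * Real.pi * (1 - (m : ℝ) / w)) * y) atTop atBot := by
          have h3 : Tendsto (fun y : ℝ => 2 * Real.pi * (1 - (m : ℝ) / w) * y) atTop atTop :=
            Filter.Tendsto.const_mul_atTop hc tendsto_id
          have h4 := tendsto_neg_atTop_atBot.comp h3
          refine h4.congr fun y => ?_
          simp only [Function.comp_apply]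
          ring
        simpa using (Real.tendsto_exp_atBot.comp h2).const_mul M
      exact h1.comp tendsto_comap
    refine squeeze_zero_norm' ?_ hlim
    rw [Filter.Eventually, UpperHalfPlane.atImInfty_mem]
    exact ⟨A, fun z hz => hG₁_bound z hz⟩
  -- hence its cusp function is differentiable at `0` and vanishes there
  have hF₁ : DifferentiableAt ℂ (UpperHalfPlane.cuspFunction 1 G₁) 0 :=
    UpperHalfPlane.differentiableAt_cuspFunction one_pos hG₁_per hG₁_mdiff
      hG₁_zero.isBoundedAtImInfty (by simp)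
  have hF₁0 : UpperHalfPlane.cuspFunction 1 G₁ 0 = 0 := hG₁_zero.cuspFunction_apply_zero one_pos
  refine ⟨deriv (UpperHalfPlane.cuspFunction 1 G₁) 0, ?_⟩
  have hslope := hasDerivAt_iff_tendsto_slope_zero.mp hF₁.hasDerivAt
  have hq : Tendsto (fun z : ℍ => Function.Periodic.qParam 1 (z : ℂ)) UpperHalfPlane.atImInfty
      (𝓝[≠] 0) :=
    (Function.Periodic.qParam_tendsto (h := 1) one_pos).comp UpperHalfPlane.tendsto_coe_atImInfty
  refine (hslope.comp hq).congr fun z => ?_
  have hqz : Function.Periodic.qParam 1 (z : ℂ) = Complex.exp (2 * Real.pi * Complex.I * z) := by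
    simp [Function.Periodic.qParam]
  have hne : Complex.exp (2 * Real.pi * Complex.I * z) ≠ 0 := Complex.exp_ne_zero _
  simp only [Function.comp_apply, zero_add, hF₁0, sub_zero, smul_eq_mul]
  rw [UpperHalfPlane.eq_cuspFunction z one_ne_zero hG₁_per, hqz]
  simp only [hG₁]
  field_simp

/-- A component tending to `0` at `i∞` decays exponentially. -/
theorem dftComp_decay {w : ℕ} (hw : 0 < w) (m : ℕ) {g : ℍ → ℂ}
    (hg : MDifferentiable 𝓘(ℂ) 𝓘(ℂ) g) (hper : ∀ z : ℍ, g ((w : ℝ) +ᵥ z) = g z)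
    (h0 : Filter.Tendsto (dftComp w m g) UpperHalfPlane.atImInfty (nhds 0)) :
    (dftComp w m g) =O[UpperHalfPlane.atImInfty] (fun z : ℍ => Real.exp (-2 * Real.pi * z.im)) := by
  have h0' : UpperHalfPlane.IsZeroAtImInfty (dftComp w m g) := h0
  have h := h0'.exp_decay_atImInfty (h := 1) one_pos
    (DFT.periodic_comp_ofComplex_one (dftComp_periodic hw m hper)) (dftComp_mdiff w m hg)
    h0'.isBoundedAtImInfty
  simpa using h

/-- In particular `dftComp w m g` is bounded at `i∞`. -/
theorem dftComp_isBoundedAtImInfty {w m : ℕ} (hw : 0 < w) (hm : m < w) {g : ℍ → ℂ}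
    (hg : MDifferentiable 𝓘(ℂ) 𝓘(ℂ) g) (hper : ∀ z : ℍ, g ((w : ℝ) +ᵥ z) = g z)
    (hbdd : UpperHalfPlane.IsBoundedAtImInfty g) :
    UpperHalfPlane.IsBoundedAtImInfty (dftComp w m g) := by
  obtain ⟨β, hβ⟩ := dftComp_tendsto hw hm hg hper hbdd
  exact hβ.isBigO_one ℝ

end Fermat.Agent.S20
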