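import Fermat.Agent.S20.CuspNondeg
import Fermat.Agent.S20.DFT
import Fermat.Agent.S20.Cycles

/-!
# S20 — cusp asymptotics of the matrix of translates (DFT route)

For a graded basis `B` of `⨁ₖ M_k(Γ)` with square matrix of translates `B.Asq ε z`:

* `CuspsDFT.det_sq_asymp`: `det (B.Asq ε z) ^ 2 / Δ z ^ (index - cusps)` tends to a nonzero
  constant at `i∞`;
* `CuspsDFT.inv_decay`: `Δ z * (B.Asq ε z)⁻¹ j i → 0` at `i∞`.

Method: cusp coordinates (`Cycles.lean`) split the columns into `T`-cycles; on each cycle the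
finite Fourier components (`DFT.lean`) of the translates are `1`-periodic with limits at `i∞`;
the limit matrix is invertible by cusp nondegeneracy (`CuspNondeg.lean`).
-/

set_option autoImplicit false

open UpperHalfPlane ModularForm Matrix.SpecialLinearGroup Filter Asymptotics
open scoped MatrixGroups Manifold ModularForm Topology

namespace Fermat.Agent.S20.CuspsDFT

noncomputable section

/-- Slash by a natural power of `T` is translation. -/
theorem slash_T_pow (k : ℤ) (F : ℍ → ℂ) (a : ℕ) (z : ℍ) :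
    (F ∣[k] (ModularGroup.T ^ a)) z = F ((a : ℝ) +ᵥ z) := by
  rw [SL_slash_apply]
  have h1 : (ModularGroup.T ^ a : SL(2, ℤ)) • z = (a : ℝ) +ᵥ z := by
    apply UpperHalfPlane.ext
    have := ModularGroup.coe_T_zpow_smul_eq (z := z) (n := (a : ℤ))
    rw [zpow_natCast] at this
    rw [this, UpperHalfPlane.coe_vadd]
    push_cast
    ring
  have h2 : denom (ModularGroup.T ^ a : SL(2, ℤ)) z = 1 := by
    have h := ModularGroup.coe_T_zpow (a : ℤ)
    rw [zpow_natCast] at h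
    rw [ModularGroup.denom_apply]
    have h10 : (ModularGroup.T ^ a : SL(2, ℤ)) 1 0 = 0 := by
      rw [h]; rfl
    have h11 : (ModularGroup.T ^ a : SL(2, ℤ)) 1 1 = 1 := by
      rw [h]; rfl
    rw [h10, h11]
    simp
  rw [h1, h2]
  simp

/-- Translate at `(T⁻¹)^a • q` is the translate at `q` shifted by `a`. -/
theorem tr_T_inv_pow_smul {Γ : Subgroup SL(2, ℤ)} {k : ℤ} {f : ℍ → ℂ}
    (hf : ∀ γ ∈ Γ, f ∣[k] γ = f) (q : SL(2, ℤ) ⧸ Γ) (a : ℕ) (z : ℍ) :
    tr k f ((ModularGroup.T⁻¹) ^ a • q) z = tr k f q ((a : ℝ) +ᵥ z) := by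
  rw [← slash_T_pow k (tr k f q) a z, tr_slash hf, inv_pow]

/-- `‖exp (2 π i x)‖ = exp (-2 π Im x)`. -/
theorem norm_exp_two_pi_I_mul (x : ℂ) :
    ‖Complex.exp (2 * Real.pi * Complex.I * x)‖ = Real.exp (-2 * Real.pi * x.im) := by
  rw [Complex.norm_exp]
  congr 1
  have : (2 * Real.pi * Complex.I * x : ℂ) = ((2 * Real.pi : ℝ) : ℂ) * (Complex.I * x) := by
    push_cast
    ring
  rw [this, Complex.re_ofReal_mul, Complex.I_mul_re]
  ring


/-- `Δ / q → 1` at `i∞`. -/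
theorem tendsto_Δ_div_q :
    Tendsto (fun z : ℍ => Δf z / Complex.exp (2 * Real.pi * Complex.I * z)) atImInfty (𝓝 1) := by
  refine ModularForm.tendsto_atImInfty_tprod_one_sub_eta_q_pow.congr fun z => ?_
  have h := ModularForm.discriminant_eq_q_prod z
  have hq : Function.Periodic.qParam 1 (z : ℂ) = Complex.exp (2 * Real.pi * Complex.I * z) := by
    simp [Function.Periodic.qParam]
  rw [show Δf z = ModularForm.discriminant z from rfl, h, hq,
    mul_div_cancel_left₀ _ (Complex.exp_ne_zero _)]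

/-- `exp (2 π i c z) → 0` at `i∞` for real `c > 0`. -/
theorem tendsto_exp_mul_atImInfty {c : ℝ} (hc : 0 < c) :
    Tendsto (fun z : ℍ => Complex.exp (2 * Real.pi * Complex.I * ((c : ℂ) * z))) atImInfty
      (𝓝 0) := by
  rw [tendsto_zero_iff_norm_tendsto_zero]
  have h1 : Tendsto (fun z : ℍ => 2 * Real.pi * c * z.im) atImInfty atTop :=
    Tendsto.const_mul_atTop (by positivity) tendsto_comap
  have h2 := Real.tendsto_exp_neg_atTop_nhds_zero.comp h1
  refine h2.congr fun z => ?_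
  rw [norm_exp_two_pi_I_mul, Complex.im_ofReal_mul]
  simp only [Function.comp_apply, UpperHalfPlane.coe_im]
  congr 1
  ring

section Setup

variable {Γ : Subgroup SL(2, ℤ)} (B : GBasis Γ) {n : ℕ} (w : Fin n → ℕ)
  (φ : (Σ j : Fin n, Fin (w j)) ≃ SL(2, ℤ) ⧸ Γ) (hw : ∀ j, 0 < w j)

/-- The translate of the `i`-th basis element at the base point of the `j`-th cusp. -/
def col (i : B.ι) (j : Fin n) : ℍ → ℂ := tr (B.k i) (B.e i) (φ ⟨j, ⟨0, hw j⟩⟩)

/-- The matrix of Fourier components of the translates. -/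
def Bm (z : ℍ) : Matrix B.ι (Σ j : Fin n, Fin (w j)) ℂ :=
  fun i y => dftComp (w y.1) y.2 (col B w φ hw i y.1) z

variable (hact : ∀ (j : Fin n) (a : Fin (w j)) (t : ℕ),
  (ModularGroup.T⁻¹) ^ t • φ ⟨j, a⟩ = φ ⟨j, ⟨(a.val + t) % w j, Nat.mod_lt _ a.pos⟩⟩)

include hact in
theorem col_shift (i : B.ι) (j : Fin n) (a : Fin (w j)) (z : ℍ) :
    tr (B.k i) (B.e i) (φ ⟨j, a⟩) z = col B w φ hw i j ((a : ℝ) +ᵥ z) := by
  have h1 := hact j ⟨0, hw j⟩ a.val
  have h2 : (⟨((⟨0, hw j⟩ : Fin (w j)).val + a.val) % w j, Nat.mod_lt _ (hw j)⟩ : Fin (w j)) = a := by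
    apply Fin.ext
    simp [Nat.mod_eq_of_lt a.isLt]
  rw [h2] at h1
  rw [col, ← tr_T_inv_pow_smul (B.isMF i).2.1, h1]

include hact in
theorem col_periodic (i : B.ι) (j : Fin n) (z : ℍ) :
    col B w φ hw i j ((w j : ℝ) +ᵥ z) = col B w φ hw i j z := by
  have h1 := hact j ⟨0, hw j⟩ (w j)
  have h2 : (⟨((⟨0, hw j⟩ : Fin (w j)).val + w j) % w j, Nat.mod_lt _ (hw j)⟩ : Fin (w j)) =
      ⟨0, hw j⟩ := by
    apply Fin.ext
    simp
  rw [h2] at h1
  rw [col, ← tr_T_inv_pow_smul (B.isMF i).2.1, h1]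

theorem col_mdiff (i : B.ι) (j : Fin n) : MDifferentiable 𝓘(ℂ) 𝓘(ℂ) (col B w φ hw i j) :=
  (B.isMF i).tr_mdiff _

theorem col_bdd (i : B.ι) (j : Fin n) : IsBoundedAtImInfty (col B w φ hw i j) :=
  (B.isMF i).tr_bdd _

include hact in
theorem exists_beta : ∃ β : Matrix B.ι (Σ j : Fin n, Fin (w j)) ℂ,
    ∀ i y, Tendsto (fun z => Bm B w φ hw z i y) atImInfty (𝓝 (β i y)) := by
  have h : ∀ (i : B.ι) (y : Σ j : Fin n, Fin (w j)), ∃ b : ℂ,
      Tendsto (fun z => Bm B w φ hw z i y) atImInfty (𝓝 b) := fun i y =>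
    dftComp_tendsto (hw y.1) y.2.isLt (col_mdiff B w φ hw i y.1)
      (col_periodic B w φ hw hact i y.1) (col_bdd B w φ hw i y.1)
  choose β hβ using h
  exact ⟨β, hβ⟩


include hact in
/-- The limit matrix has independent rows. -/
theorem beta_nondeg [Γ.FiniteIndex] (hneg : (-1 : SL(2, ℤ)) ∈ Γ)
    (β : Matrix B.ι (Σ j : Fin n, Fin (w j)) ℂ)
    (hβ : ∀ i y, Tendsto (fun z => Bm B w φ hw z i y) atImInfty (𝓝 (β i y)))
    (c : B.ι → ℂ) (hc : ∀ y, ∑ i, c i * β i y = 0) : c = 0 := by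
  apply B.coeff_zero_of_decay hneg c
  intro q
  obtain ⟨⟨j, a⟩, rfl⟩ := φ.surjective q
  set G : ℍ → ℂ := ∑ i, c i • col B w φ hw i j with hG
  have hGper : ∀ z : ℍ, G ((w j : ℝ) +ᵥ z) = G z := by
    intro z
    simp only [hG, Finset.sum_apply, Pi.smul_apply, col_periodic B w φ hw hact]
  have hGmd : MDifferentiable 𝓘(ℂ) 𝓘(ℂ) G := by
    rw [hG]
    exact MDifferentiable.sum (fun i _ => (col_mdiff B w φ hw i j).const_smul (c i))
  have hcomp : ∀ m, m < w j → dftComp (w j) m G =O[atImInfty]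
      (fun z : ℍ => Real.exp (-2 * Real.pi * z.im)) := by
    intro m hm
    apply dftComp_decay (hw j) m hGmd hGper
    rw [hG, dftComp_sum]
    have h1 : Tendsto (fun z => ∑ i, c i * Bm B w φ hw z i ⟨j, ⟨m, hm⟩⟩) atImInfty
        (𝓝 (∑ i, c i * β i ⟨j, ⟨m, hm⟩⟩)) :=
      tendsto_finsetSum _ fun i _ => (hβ i _).const_mul (c i)
    rw [hc] at h1
    convert h1 using 1
    funext z
    simp [Bm, Finset.sum_apply]
  have hinv : ∀ z : ℍ, (∑ i, c i * tr (B.k i) (B.e i) (φ ⟨j, a⟩) z) =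
      ∑ m ∈ Finset.range (w j), Complex.exp (2 * Real.pi * Complex.I * m * (a : ℕ) / w j) *
        Complex.exp (2 * Real.pi * Complex.I * m * z / w j) * dftComp (w j) m G z := by
    intro z
    rw [← dftComp_inversion (hw j) hGper a z]
    simp only [hG, Finset.sum_apply, Pi.smul_apply, smul_eq_mul, col_shift B w φ hw hact]
  have hmain : (fun z : ℍ => ∑ m ∈ Finset.range (w j),
      Complex.exp (2 * Real.pi * Complex.I * m * (a : ℕ) / w j) *
        Complex.exp (2 * Real.pi * Complex.I * m * z / w j) * dftComp (w j) m G z) =O[atImInfty]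
      (fun z : ℍ => Real.exp (-2 * Real.pi * z.im)) := by
    refine IsBigO.fun_sum fun m hm => ?_
    have hm' := Finset.mem_range.mp hm
    have hb : (fun z : ℍ => Complex.exp (2 * Real.pi * Complex.I * m * (a : ℕ) / w j) *
        Complex.exp (2 * Real.pi * Complex.I * m * z / w j)) =O[atImInfty]
        (fun _ : ℍ => (1 : ℝ)) := by
      apply IsBigO.of_bound 1
      filter_upwards with z
      have e1 : (2 * Real.pi * Complex.I * m * (a : ℕ) / w j : ℂ) =
          2 * Real.pi * Complex.I * (((m * (a : ℕ) / w j : ℝ)) : ℂ) := by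
        push_cast; ring
      have e2 : (2 * Real.pi * Complex.I * m * z / w j : ℂ) =
          2 * Real.pi * Complex.I * ((((m / w j : ℝ)) : ℂ) * z) := by
        push_cast; ring
      rw [norm_mul, e1, e2, norm_exp_two_pi_I_mul, norm_exp_two_pi_I_mul, Complex.ofReal_im,
        Complex.im_ofReal_mul]
      simp only [mul_zero, Real.exp_zero, one_mul, norm_one]
      rw [Real.exp_le_one_iff]
      have h0 : 0 ≤ (m : ℝ) / w j * (z : ℂ).im :=
        mul_nonneg (div_nonneg (Nat.cast_nonneg _) (Nat.cast_nonneg _)) z.im_pos.le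
      nlinarith [Real.pi_pos]
    simpa using hb.mul (hcomp m hm')
  exact hmain.congr_left (fun z => (hinv z).symm)


/-- The (block) finite Fourier matrix. -/
def Gm : Matrix (Σ j : Fin n, Fin (w j)) (Σ j : Fin n, Fin (w j)) ℂ :=
  fun y y' => if y.1 = y'.1 then
    (1 / (w y'.1 : ℂ)) *
      Complex.exp (-2 * Real.pi * Complex.I * (y'.2 : ℕ) * (y.2 : ℕ) / w y'.1) else 0

/-- The diagonal exponential factor. -/
def Dg (z : ℍ) : (Σ j : Fin n, Fin (w j)) → ℂ :=
  fun y => Complex.exp (-2 * Real.pi * Complex.I * (y.2 : ℕ) * z / w y.1)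

include hact in
theorem Bm_eq (z : ℍ) (i : B.ι) (y' : Σ j : Fin n, Fin (w j)) :
    Bm B w φ hw z i y' = (∑ y, tr (B.k i) (B.e i) (φ y) z * Gm w y y') * Dg w z y' := by
  obtain ⟨j, m⟩ := y'
  rw [Fintype.sum_sigma, Finset.sum_eq_single j]
  · simp only [Gm, Dg, if_true]
    rw [Bm, dftComp_apply]
    have h1 : ∑ a : Fin (w j), tr (B.k i) (B.e i) (φ ⟨j, a⟩) z *
        (1 / (w j : ℂ) * Complex.exp (-2 * Real.pi * Complex.I * (m : ℕ) * (a : ℕ) / w j)) =
        ∑ t ∈ Finset.range (w j), col B w φ hw i j ((t : ℝ) +ᵥ z) *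
          (1 / (w j : ℂ) * Complex.exp (-2 * Real.pi * Complex.I * (m : ℕ) * t / w j)) := by
      rw [← Fin.sum_univ_eq_sum_range (fun t => col B w φ hw i j ((t : ℝ) +ᵥ z) *
          (1 / (w j : ℂ) * Complex.exp (-2 * Real.pi * Complex.I * (m : ℕ) * t / w j))) (w j)]
      refine Finset.sum_congr rfl fun a _ => ?_
      rw [col_shift B w φ hw hact]
    rw [h1, Finset.mul_sum, Finset.mul_sum, Finset.sum_mul]
    refine Finset.sum_congr rfl fun t _ => by ring
  · intro j' _ hj'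
    refine Finset.sum_eq_zero fun a _ => ?_
    simp [Gm, hj']
  · intro h
    exact absurd (Finset.mem_univ j) h

include hact in
theorem Bsq_eq (ε : B.ι ≃ SL(2, ℤ) ⧸ Γ) (z : ℍ) :
    (Matrix.of fun y y' => Bm B w φ hw z ((ε.trans φ.symm).symm y) y') =
      (B.Asq ε z).submatrix (ε.trans φ.symm).symm (ε.trans φ.symm).symm * Gm w *
        Matrix.diagonal (Dg w z) := by
  ext y y'
  rw [Matrix.mul_diagonal, Matrix.mul_apply, Matrix.of_apply, Bm_eq B w φ hw hact]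
  congr 1
  refine Finset.sum_congr rfl fun y1 _ => ?_
  simp [GBasis.Asq]

include hact in
theorem det_Bsq (ε : B.ι ≃ SL(2, ℤ) ⧸ Γ) (z : ℍ) :
    (Matrix.of fun y y' => Bm B w φ hw z ((ε.trans φ.symm).symm y) y').det =
      (B.Asq ε z).det * (Gm w).det * ∏ y, Dg w z y := by
  rw [Bsq_eq B w φ hw hact ε z, Matrix.det_mul, Matrix.det_mul, Matrix.det_diagonal,
    Matrix.det_submatrix_equiv_self]

include hw in
theorem prod_Dg_sq (z : ℍ) :
    (∏ y, Dg w z y) ^ 2 * Complex.exp (2 * Real.pi * Complex.I * z) ^ (∑ j, (w j - 1)) = 1 := by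
  rw [Fintype.prod_sigma, ← Finset.prod_pow, ← Finset.prod_pow_eq_pow_sum,
    ← Finset.prod_mul_distrib]
  refine Finset.prod_eq_one fun j _ => ?_
  simp only [Dg]
  rw [← Complex.exp_sum, ← Complex.exp_nat_mul, ← Complex.exp_nat_mul, ← Complex.exp_add]
  have hsum : ∑ m : Fin (w j), (-2 * Real.pi * Complex.I * ((m : ℕ) : ℂ) * z / (w j : ℂ)) =
      -2 * Real.pi * Complex.I * z / (w j) * ∑ m ∈ Finset.range (w j), (m : ℂ) := by
    rw [← Fin.sum_univ_eq_sum_range (fun m => (m : ℂ)) (w j), Finset.mul_sum]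
    refine Finset.sum_congr rfl fun m _ => by ring
  have hgauss : (∑ m ∈ Finset.range (w j), (m : ℂ)) * 2 = (w j : ℂ) * ((w j : ℂ) - 1) := by
    have h := Finset.sum_range_id_mul_two (w j)
    have h2 : (((∑ i ∈ Finset.range (w j), i) * 2 : ℕ) : ℂ) = ((w j * (w j - 1) : ℕ) : ℂ) := by
      rw [h]
    rw [Nat.cast_mul, Nat.cast_sum, Nat.cast_mul, Nat.cast_sub (hw j)] at h2
    simpa using h2
  have hw0 : (w j : ℂ) ≠ 0 := Nat.cast_ne_zero.mpr (hw j).ne'
  convert Complex.exp_zero using 2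
  rw [hsum, Nat.cast_sub (hw j)]
  field_simp
  push_cast
  linear_combination (-2 * Real.pi * Complex.I * z) * hgauss


include hact in
/-- The square limit matrix is invertible. -/
theorem det_beta_ne_zero [Γ.FiniteIndex] (hneg : (-1 : SL(2, ℤ)) ∈ Γ)
    (ε : B.ι ≃ SL(2, ℤ) ⧸ Γ) (β : Matrix B.ι (Σ j : Fin n, Fin (w j)) ℂ)
    (hβ : ∀ i y, Tendsto (fun z => Bm B w φ hw z i y) atImInfty (𝓝 (β i y))) :
    (Matrix.of fun y y' => β ((ε.trans φ.symm).symm y) y').det ≠ 0 := by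
  intro h0
  obtain ⟨v, hv, hv0⟩ := Matrix.exists_vecMul_eq_zero_iff.mpr h0
  apply hv
  have hc := beta_nondeg B w φ hw hact hneg β hβ (fun i => v ((ε.trans φ.symm) i)) (fun y' => by
    have h1 := congrFun hv0 y'
    simp only [Matrix.vecMul, dotProduct, Matrix.of_apply, Pi.zero_apply] at h1
    rw [← h1, ← Equiv.sum_comp (ε.trans φ.symm)]
    refine Finset.sum_congr rfl fun i _ => ?_
    rw [Equiv.symm_apply_apply])
  funext y
  have h2 := congrFun hc ((ε.trans φ.symm).symm y)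
  simpa using h2

include hact in
/-- Key determinant identity. -/
theorem det_sq_identity (ε : B.ι ≃ SL(2, ℤ) ⧸ Γ) (z : ℍ) :
    (B.Asq ε z).det ^ 2 * (Gm w).det ^ 2 =
      (Matrix.of fun y y' => Bm B w φ hw z ((ε.trans φ.symm).symm y) y').det ^ 2 *
        Complex.exp (2 * Real.pi * Complex.I * z) ^ (∑ j, (w j - 1)) := by
  rw [det_Bsq B w φ hw hact ε z]
  have h := prod_Dg_sq w hw z
  linear_combination (-(B.Asq ε z).det ^ 2 * (Gm w).det ^ 2) * h

theorem tendsto_Bsq (ε : B.ι ≃ SL(2, ℤ) ⧸ Γ) (β : Matrix B.ι (Σ j : Fin n, Fin (w j)) ℂ)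
    (hβ : ∀ i y, Tendsto (fun z => Bm B w φ hw z i y) atImInfty (𝓝 (β i y))) :
    Tendsto (fun z => (Matrix.of fun y y' => Bm B w φ hw z ((ε.trans φ.symm).symm y) y' :
      Matrix (Σ j : Fin n, Fin (w j)) (Σ j : Fin n, Fin (w j)) ℂ)) atImInfty
      (𝓝 (Matrix.of fun y y' => β ((ε.trans φ.symm).symm y) y')) := by
  refine tendsto_pi_nhds.mpr fun y => tendsto_pi_nhds.mpr fun y' => ?_
  exact hβ _ _

end Setup

/-- **Asymptotics of the determinant** (the plan statement `GBasis.det_sq_asymp`). -/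
theorem det_sq_asymp {Γ : Subgroup SL(2, ℤ)} [Γ.FiniteIndex] (hneg : (-1 : SL(2, ℤ)) ∈ Γ)
    (B : GBasis Γ) (ε : B.ι ≃ SL(2, ℤ) ⧸ Γ) :
    ∃ c : ℂ, c ≠ 0 ∧ Tendsto (fun z => (B.Asq ε z).det ^ 2 / Δf z ^ (Γ.index - cuspsNum Γ))
      atImInfty (𝓝 c) := by
  obtain ⟨w, φ, hw, hact, hsum⟩ := exists_cusp_coordinates_sum Γ
  obtain ⟨β, hβ⟩ := exists_beta B w φ hw hact
  have hβdet := det_beta_ne_zero B w φ hw hact hneg ε β hβ
  set βsq : Matrix (Σ j : Fin (cuspsNum Γ), Fin (w j)) (Σ j : Fin (cuspsNum Γ), Fin (w j)) ℂ :=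
    Matrix.of fun y y' => β ((ε.trans φ.symm).symm y) y' with hβsq
  have hN : ∑ j, (w j - 1) = Γ.index - cuspsNum Γ := by
    rw [Finset.sum_tsub_distrib _ (fun j _ => hw j), hsum]
    simp
  have hdetB : Tendsto (fun z => (Matrix.of fun y y' =>
      Bm B w φ hw z ((ε.trans φ.symm).symm y) y').det) atImInfty (𝓝 βsq.det) :=
    (continuous_id.matrix_det.tendsto βsq).comp (tendsto_Bsq B w φ hw ε β hβ)
  have hqΔ : Tendsto (fun z : ℍ => Complex.exp (2 * Real.pi * Complex.I * z) / Δf z) atImInfty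
      (𝓝 1) := by
    have h := tendsto_Δ_div_q.inv₀ one_ne_zero
    simp only [inv_one] at h
    refine h.congr fun z => ?_
    rw [inv_div]
  have hR : Tendsto (fun z : ℍ => (Matrix.of fun y y' =>
      Bm B w φ hw z ((ε.trans φ.symm).symm y) y').det ^ 2 *
      (Complex.exp (2 * Real.pi * Complex.I * z) / Δf z) ^ (Γ.index - cuspsNum Γ)) atImInfty
      (𝓝 (βsq.det ^ 2 * 1 ^ (Γ.index - cuspsNum Γ))) :=
    (hdetB.pow 2).mul (hqΔ.pow _)
  rw [one_pow, mul_one] at hR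
  have hid : ∀ z : ℍ, (B.Asq ε z).det ^ 2 / Δf z ^ (Γ.index - cuspsNum Γ) * (Gm w).det ^ 2 =
      (Matrix.of fun y y' => Bm B w φ hw z ((ε.trans φ.symm).symm y) y').det ^ 2 *
        (Complex.exp (2 * Real.pi * Complex.I * z) / Δf z) ^ (Γ.index - cuspsNum Γ) := by
    intro z
    have h1 := det_sq_identity B w φ hw hact ε z
    rw [hN] at h1
    rw [div_pow, div_mul_eq_mul_div, h1, mul_div_assoc]
  have hG : (Gm w).det ≠ 0 := by
    intro h0
    have h2 : Tendsto (fun _ : ℍ => (0 : ℂ)) atImInfty (𝓝 (βsq.det ^ 2)) := by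
      refine hR.congr fun z => ?_
      rw [← hid z, h0]
      simp
    have h3 := tendsto_nhds_unique h2 tendsto_const_nhds
    exact hβdet ((pow_eq_zero_iff two_ne_zero).mp h3)
  refine ⟨βsq.det ^ 2 / (Gm w).det ^ 2, div_ne_zero (pow_ne_zero _ hβdet) (pow_ne_zero _ hG), ?_⟩
  have h4 := hR.div_const ((Gm w).det ^ 2)
  refine h4.congr fun z => ?_
  rw [← hid z, mul_div_cancel_right₀ _ (pow_ne_zero _ hG)]

/-- **Decay of the inverse matrix** (the plan statement `GBasis.inv_decay`). -/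
theorem inv_decay {Γ : Subgroup SL(2, ℤ)} [Γ.FiniteIndex] (hneg : (-1 : SL(2, ℤ)) ∈ Γ)
    (B : GBasis Γ) (ε : B.ι ≃ SL(2, ℤ) ⧸ Γ) (i j : B.ι) :
    IsZeroAtImInfty (fun z => Δf z * (B.Asq ε z)⁻¹ j i) := by
  obtain ⟨w, φ, hw, hact, hsum⟩ := exists_cusp_coordinates_sum Γ
  obtain ⟨β, hβ⟩ := exists_beta B w φ hw hact
  have hβdet := det_beta_ne_zero B w φ hw hact hneg ε β hβ
  set e := ε.trans φ.symm with he
  set βsq : Matrix (Σ j : Fin (cuspsNum Γ), Fin (w j)) (Σ j : Fin (cuspsNum Γ), Fin (w j)) ℂ :=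
    Matrix.of fun y y' => β (e.symm y) y' with hβsq
  set Bsq : ℍ → Matrix (Σ j : Fin (cuspsNum Γ), Fin (w j))
      (Σ j : Fin (cuspsNum Γ), Fin (w j)) ℂ :=
    fun z => Matrix.of fun y y' => Bm B w φ hw z (e.symm y) y' with hBsq
  have hBt : Tendsto Bsq atImInfty (𝓝 βsq) := tendsto_Bsq B w φ hw ε β hβ
  have hdetB : Tendsto (fun z => (Bsq z).det) atImInfty (𝓝 βsq.det) :=
    (continuous_id.matrix_det.tendsto βsq).comp hBt
  have hev : ∀ᶠ z in atImInfty, (Bsq z).det ≠ 0 := hdetB.eventually_ne hβdet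
  have hinvc : ContinuousAt (Inv.inv : Matrix (Σ j : Fin (cuspsNum Γ), Fin (w j))
      (Σ j : Fin (cuspsNum Γ), Fin (w j)) ℂ → _) βsq := by
    apply continuousAt_matrix_inv
    rw [Ring.inverse_eq_inv']
    exact continuousAt_inv₀ hβdet
  have hBinv : Tendsto (fun z => (Bsq z)⁻¹) atImInfty (𝓝 βsq⁻¹) := hinvc.tendsto.comp hBt
  have hBinv' : ∀ y1 y', Tendsto (fun z => (Bsq z)⁻¹ y1 y') atImInfty (𝓝 (βsq⁻¹ y1 y')) :=
    fun y1 y' => tendsto_pi_nhds.mp (tendsto_pi_nhds.mp hBinv y1) y'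
  have hΔD : ∀ y1, Tendsto (fun z : ℍ => Δf z * Dg w z y1) atImInfty (𝓝 0) := by
    intro y1
    obtain ⟨j1, m⟩ := y1
    have hwpos : (0 : ℝ) < w j1 := by exact_mod_cast hw j1
    have hc : (0 : ℝ) < 1 - ((m : ℕ) : ℝ) / (w j1) := by
      have hm : ((m : ℕ) : ℝ) < w j1 := by exact_mod_cast m.isLt
      rw [sub_pos, div_lt_one hwpos]
      exact hm
    have h1 := tendsto_Δ_div_q.mul (tendsto_exp_mul_atImInfty hc)
    rw [one_mul] at h1
    refine h1.congr fun z => ?_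
    simp only [Dg]
    have hw0 : (w j1 : ℂ) ≠ 0 := Nat.cast_ne_zero.mpr (hw j1).ne'
    have key : Complex.exp (2 * Real.pi * Complex.I *
        (((1 - ((m : ℕ) : ℝ) / (w j1) : ℝ) : ℂ) * z)) =
        Complex.exp (2 * Real.pi * Complex.I * z) *
          Complex.exp (-2 * Real.pi * Complex.I * ((m : ℕ) : ℂ) * z / (w j1)) := by
      rw [← Complex.exp_add]
      congr 1
      push_cast
      field_simp
      ring
    rw [key]
    field_simp
  have hform : ∀ᶠ z in atImInfty, Δf z * (B.Asq ε z)⁻¹ j i =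
      ∑ y1, Gm w (e j) y1 * (Δf z * Dg w z y1) * (Bsq z)⁻¹ y1 (e i) := by
    filter_upwards [hev] with z hz
    have hB := Bsq_eq B w φ hw hact ε z
    have h1 : (B.Asq ε z).submatrix e.symm e.symm *
        (Gm w * Matrix.diagonal (Dg w z) * (Bsq z)⁻¹) = 1 := by
      rw [← Matrix.mul_assoc, ← Matrix.mul_assoc, ← hB]
      exact Matrix.mul_nonsing_inv _ (isUnit_iff_ne_zero.mpr hz)
    have h2 := Matrix.inv_eq_right_inv h1
    rw [Matrix.inv_submatrix_equiv] at h2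
    have h3 := congrFun (congrFun h2 (e j)) (e i)
    simp only [Matrix.submatrix_apply, Equiv.symm_apply_apply] at h3
    rw [h3, Matrix.mul_apply, Finset.mul_sum]
    refine Finset.sum_congr rfl fun y1 _ => ?_
    rw [Matrix.mul_diagonal]
    ring
  have hlim : Tendsto (fun z : ℍ => ∑ y1, Gm w (e j) y1 * (Δf z * Dg w z y1) *
      (Bsq z)⁻¹ y1 (e i)) atImInfty (𝓝 (∑ y1, Gm w (e j) y1 * 0 * βsq⁻¹ y1 (e i))) :=
    tendsto_finsetSum _ fun y1 _ => ((hΔD y1).const_mul _).mul (hBinv' y1 (e i))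
  simp only [mul_zero, zero_mul, Finset.sum_const_zero] at hlim
  exact hlim.congr' (hform.mono fun z hz => hz.symm)

end

end Fermat.Agent.S20.CuspsDFT
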