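import Fermat.Agent.S20.L1Basic

/-!
# S20 — the dual basis of a graded basis

Let `B : GBasis Γ` and `ε : B.ι ≃ SL(2, ℤ) ⧸ Γ`, so that `B.Asq ε z` is the square matrix of
conjugates `(tr (k i) (e i) (ε j) z)`.  Assume `det (B.Asq ε z) ≠ 0` for all `z` and that
`Δ · (B.Asq ε z)⁻¹` tends to `0` at `i∞` entrywise.  Then the entries of the row of the inverse
matrix attached to the trivial coset give, after multiplication by `Δ`, cusp forms
`Δ · h_i ∈ S_{12 - k_i}(Γ)`; consequently all weights `k_i` are `≤ 10`, and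
`dim S_2(Γ) = #{i | k_i = 10}`.

Main results: `DualBasis.weight_le_ten_of`, `DualBasis.finrank_CF_two_of`.
-/

set_option autoImplicit false

open UpperHalfPlane ModularForm Matrix.SpecialLinearGroup Filter
open scoped MatrixGroups Manifold ModularForm Topology

namespace Fermat.Agent.S20

noncomputable section

namespace DualBasis

variable {Γ : Subgroup SL(2, ℤ)}

/-! ### Holomorphic matrices -/

/-- Holomorphic functions on `ℍ` form a subring of all functions. -/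
def holoSubring : Subring (ℍ → ℂ) where
  carrier := {f | MDifferentiable 𝓘(ℂ) 𝓘(ℂ) f}
  mul_mem' := fun hf hg => hf.mul hg
  one_mem' := mdifferentiable_const
  add_mem' := fun hf hg => hf.add hg
  zero_mem' := mdifferentiable_const
  neg_mem' := fun hf => hf.neg

theorem mdiff_det {n : Type} [Fintype n] [DecidableEq n] (M : Matrix n n (ℍ → ℂ))
    (hM : ∀ i j, MDifferentiable 𝓘(ℂ) 𝓘(ℂ) (M i j)) : MDifferentiable 𝓘(ℂ) 𝓘(ℂ) M.det := by
  let M' : Matrix n n holoSubring := fun i j => ⟨M i j, hM i j⟩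
  have h : M = holoSubring.subtype.mapMatrix M' := by ext i j; rfl
  rw [h, ← RingHom.map_det]
  exact (M'.det).2

theorem mdiff_adjugate {n : Type} [Fintype n] [DecidableEq n] (M : Matrix n n (ℍ → ℂ))
    (hM : ∀ i j, MDifferentiable 𝓘(ℂ) 𝓘(ℂ) (M i j)) (i j : n) :
    MDifferentiable 𝓘(ℂ) 𝓘(ℂ) (M.adjugate i j) := by
  let M' : Matrix n n holoSubring := fun i j => ⟨M i j, hM i j⟩
  have h : M = holoSubring.subtype.mapMatrix M' := by ext i j; rfl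
  rw [h, ← RingHom.map_adjugate]
  exact (M'.adjugate i j).2

theorem det_eval {n : Type} [Fintype n] [DecidableEq n] (M : Matrix n n (ℍ → ℂ)) (z : ℍ) :
    M.det z = (M.map (fun f => f z)).det :=
  RingHom.map_det (Pi.evalRingHom (fun _ : ℍ => ℂ) z) M

theorem adjugate_eval {n : Type} [Fintype n] [DecidableEq n] (M : Matrix n n (ℍ → ℂ)) (z : ℍ)
    (i j : n) : M.adjugate i j z = (M.map (fun f => f z)).adjugate i j :=
  congrFun (congrFun (RingHom.map_adjugate (Pi.evalRingHom (fun _ : ℍ => ℂ) z) M) i) j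

/-- The matrix of conjugates as a matrix of functions. -/
def AF (B : GBasis Γ) (ε : B.ι ≃ SL(2, ℤ) ⧸ Γ) : Matrix B.ι B.ι (ℍ → ℂ) :=
  fun i j => tr (B.k i) (B.e i) (ε j)

theorem AF_map (B : GBasis Γ) (ε : B.ι ≃ SL(2, ℤ) ⧸ Γ) (z : ℍ) :
    (AF B ε).map (fun f => f z) = B.Asq ε z := rfl

theorem AF_mdiff (B : GBasis Γ) (ε : B.ι ≃ SL(2, ℤ) ⧸ Γ) (i j : B.ι) :
    MDifferentiable 𝓘(ℂ) 𝓘(ℂ) (AF B ε i j) :=
  (B.isMF i).tr_mdiff _

/-- The entries of the inverse of the matrix of conjugates, as functions on `ℍ`. -/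
def invF (B : GBasis Γ) (ε : B.ι ≃ SL(2, ℤ) ⧸ Γ) (j i : B.ι) : ℍ → ℂ :=
  fun z => (B.Asq ε z)⁻¹ j i

theorem invF_eq (B : GBasis Γ) (ε : B.ι ≃ SL(2, ℤ) ⧸ Γ) (j i : B.ι) :
    invF B ε j i = fun z => (AF B ε).adjugate j i z / (AF B ε).det z := by
  funext z
  rw [invF, Matrix.inv_def, Matrix.smul_apply, Ring.inverse_eq_inv', adjugate_eval, det_eval,
    AF_map, smul_eq_mul, div_eq_inv_mul]

theorem invF_mdiff (B : GBasis Γ) (ε : B.ι ≃ SL(2, ℤ) ⧸ Γ) (hdet : ∀ z, (B.Asq ε z).det ≠ 0)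
    (j i : B.ι) : MDifferentiable 𝓘(ℂ) 𝓘(ℂ) (invF B ε j i) := by
  rw [invF_eq, UpperHalfPlane.mdifferentiable_iff]
  have h1 := UpperHalfPlane.mdifferentiable_iff.mp
    (mdiff_adjugate (AF B ε) (AF_mdiff B ε) j i)
  have h2 := UpperHalfPlane.mdifferentiable_iff.mp (mdiff_det (AF B ε) (AF_mdiff B ε))
  refine h1.div h2 (fun w _ => ?_)
  rw [det_eval, AF_map]
  exact hdet _

/-! ### Transformation laws -/

theorem tr_smul_pt {k : ℤ} {f : ℍ → ℂ} (hf : ∀ γ ∈ Γ, f ∣[k] γ = f) (q : SL(2, ℤ) ⧸ Γ)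
    (γ : SL(2, ℤ)) (z : ℍ) :
    tr k f q (γ • z) = denom γ z ^ k * tr k f (γ⁻¹ • q) z := by
  have h := congrFun (tr_slash hf q γ) z
  rw [SL_slash_apply] at h
  rw [← h, mul_comm, mul_assoc, ← zpow_add₀ (denom_ne_zero _ z), neg_add_cancel, zpow_zero,
    mul_one]

/-- The permutation of the index set induced by `γ⁻¹` acting on cosets. -/
def perm (B : GBasis Γ) (ε : B.ι ≃ SL(2, ℤ) ⧸ Γ) (γ : SL(2, ℤ)) : Equiv.Perm B.ι :=
  (ε.trans (MulAction.toPerm γ⁻¹)).trans ε.symm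

theorem ε_perm (B : GBasis Γ) (ε : B.ι ≃ SL(2, ℤ) ⧸ Γ) (γ : SL(2, ℤ)) (j : B.ι) :
    ε (perm B ε γ j) = γ⁻¹ • ε j := by
  simp [perm]

/-- The index of the trivial coset. -/
def j0 (B : GBasis Γ) (ε : B.ι ≃ SL(2, ℤ) ⧸ Γ) : B.ι :=
  ε.symm ((1 : SL(2, ℤ)) : SL(2, ℤ) ⧸ Γ)

theorem perm_of_mem (B : GBasis Γ) (ε : B.ι ≃ SL(2, ℤ) ⧸ Γ) {γ : SL(2, ℤ)} (hγ : γ ∈ Γ) :
    perm B ε γ (j0 B ε) = j0 B ε := by
  apply ε.injective
  rw [ε_perm, j0, Equiv.apply_symm_apply, MulAction.Quotient.smul_mk, QuotientGroup.eq]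
  simpa using hγ

theorem exists_perm_eq (B : GBasis Γ) (ε : B.ι ≃ SL(2, ℤ) ⧸ Γ) (j : B.ι) :
    ∃ γ : SL(2, ℤ), perm B ε γ (j0 B ε) = j := by
  obtain ⟨g, hg⟩ := QuotientGroup.mk_surjective (ε j)
  refine ⟨g⁻¹, ε.injective ?_⟩
  rw [ε_perm, j0, Equiv.apply_symm_apply, inv_inv, MulAction.Quotient.smul_mk, smul_eq_mul,
    mul_one, hg]

theorem Asq_smul (B : GBasis Γ) (ε : B.ι ≃ SL(2, ℤ) ⧸ Γ) (γ : SL(2, ℤ)) (z : ℍ) (i j : B.ι) :
    B.Asq ε (γ • z) i j = denom γ z ^ (B.k i : ℤ) * B.Asq ε z i (perm B ε γ j) := by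
  show tr (B.k i) (B.e i) (ε j) (γ • z)
    = denom γ z ^ (B.k i : ℤ) * tr (B.k i) (B.e i) (ε (perm B ε γ j)) z
  rw [ε_perm, tr_smul_pt (B.isMF i).2.1]

theorem inv_smul (B : GBasis Γ) (ε : B.ι ≃ SL(2, ℤ) ⧸ Γ) (hdet : ∀ z, (B.Asq ε z).det ≠ 0)
    (γ : SL(2, ℤ)) (z : ℍ) (j i : B.ι) :
    (B.Asq ε (γ • z))⁻¹ j i
      = (B.Asq ε z)⁻¹ (perm B ε γ j) i * (denom γ z ^ (B.k i : ℤ))⁻¹ := by
  have key : (Matrix.of fun j i => (B.Asq ε z)⁻¹ (perm B ε γ j) i * (denom γ z ^ (B.k i : ℤ))⁻¹)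
      * B.Asq ε (γ • z) = 1 := by
    ext j j'
    rw [Matrix.mul_apply]
    have h1 : ∀ i : B.ι,
        (Matrix.of fun j i => (B.Asq ε z)⁻¹ (perm B ε γ j) i * (denom γ z ^ (B.k i : ℤ))⁻¹) j i
          * B.Asq ε (γ • z) i j'
        = (B.Asq ε z)⁻¹ (perm B ε γ j) i * B.Asq ε z i (perm B ε γ j') := by
      intro i
      have hd : denom γ z ^ (B.k i : ℤ) ≠ 0 := zpow_ne_zero _ (denom_ne_zero _ z)
      rw [Matrix.of_apply, Asq_smul, mul_assoc, ← mul_assoc _ (denom γ z ^ (B.k i : ℤ)),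
        inv_mul_cancel₀ hd, one_mul]
    rw [Finset.sum_congr rfl (fun i _ => h1 i), ← Matrix.mul_apply,
      Matrix.nonsing_inv_mul _ (isUnit_iff_ne_zero.mpr (hdet z)), Matrix.one_apply,
      Matrix.one_apply]
    simp only [EmbeddingLike.apply_eq_iff_eq]
  rw [Matrix.inv_eq_left_inv key, Matrix.of_apply]

theorem invF_slash (B : GBasis Γ) (ε : B.ι ≃ SL(2, ℤ) ⧸ Γ) (hdet : ∀ z, (B.Asq ε z).det ≠ 0)
    (γ : SL(2, ℤ)) (j i : B.ι) :
    invF B ε j i ∣[-(B.k i : ℤ)] γ = invF B ε (perm B ε γ j) i := by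
  funext z
  have hd : denom γ z ^ (B.k i : ℤ) ≠ 0 := zpow_ne_zero _ (denom_ne_zero _ z)
  rw [SL_slash_apply, neg_neg]
  show (B.Asq ε (γ • z))⁻¹ j i * denom γ z ^ (B.k i : ℤ) = (B.Asq ε z)⁻¹ (perm B ε γ j) i
  rw [inv_smul B ε hdet, mul_assoc, inv_mul_cancel₀ hd, mul_one]

/-! ### The dual cusp forms -/

theorem isCF_dual (B : GBasis Γ) (ε : B.ι ≃ SL(2, ℤ) ⧸ Γ) (hdet : ∀ z, (B.Asq ε z).det ≠ 0)
    (hdecay : ∀ i j : B.ι, IsZeroAtImInfty (fun z => Δf z * (B.Asq ε z)⁻¹ j i)) (i : B.ι) :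
    IsCF Γ (12 - (B.k i : ℤ)) (Δf * invF B ε (j0 B ε) i) := by
  have hsl : ∀ γ : SL(2, ℤ), (Δf * invF B ε (j0 B ε) i) ∣[12 - (B.k i : ℤ)] γ
      = Δf * invF B ε (perm B ε γ (j0 B ε)) i := by
    intro γ
    rw [sub_eq_add_neg, mul_slash_SL2, Δf_slash, invF_slash B ε hdet]
  refine ⟨Δf_mdiff.mul (invF_mdiff B ε hdet _ _), fun γ hγ => ?_, fun γ => ?_⟩
  · rw [hsl, perm_of_mem B ε hγ]
  · rw [hsl]
    exact hdecay i _

theorem invF_ne_zero (B : GBasis Γ) (ε : B.ι ≃ SL(2, ℤ) ⧸ Γ) (hdet : ∀ z, (B.Asq ε z).det ≠ 0)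
    (i : B.ι) : invF B ε (j0 B ε) i ≠ 0 := by
  intro h0
  have hall : ∀ j, invF B ε j i = 0 := by
    intro j
    obtain ⟨γ, rfl⟩ := exists_perm_eq B ε j
    rw [← invF_slash B ε hdet, h0, SlashAction.zero_slash]
  have h1 := congrFun (congrFun (Matrix.mul_nonsing_inv (B.Asq ε UpperHalfPlane.I)
    (isUnit_iff_ne_zero.mpr (hdet UpperHalfPlane.I))) i) i
  rw [Matrix.mul_apply, Matrix.one_apply_eq] at h1
  have h2 : ∀ j, (B.Asq ε UpperHalfPlane.I)⁻¹ j i = 0 := fun j => congrFun (hall j) _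
  simp [h2] at h1

/-- All weights of a graded basis are `≤ 10` (given nonvanishing of the determinant and decay of
`Δ · A⁻¹` at `i∞`). -/
theorem weight_le_ten_of [Γ.FiniteIndex] (B : GBasis Γ) (ε : B.ι ≃ SL(2, ℤ) ⧸ Γ)
    (heven : ∀ i, Even (B.k i)) (hdet : ∀ z, (B.Asq ε z).det ≠ 0)
    (hdecay : ∀ i j : B.ι, IsZeroAtImInfty (fun z => Δf z * (B.Asq ε z)⁻¹ j i)) (i : B.ι) :
    B.k i ≤ 10 := by
  by_contra hlt
  obtain ⟨m, hm⟩ := heven i
  have hk : (12 : ℤ) - (B.k i : ℤ) ≤ 0 := by omega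
  have h0 := (isCF_dual B ε hdet hdecay i).eq_zero_of_nonpos hk
  apply invF_ne_zero B ε hdet i
  funext z
  have h1 := congrFun h0 z
  rw [Pi.mul_apply] at h1
  exact (mul_eq_zero.mp h1).resolve_left (Δf_ne_zero z)

/-! ### The trace pairing and the reconstruction formula -/

theorem zero_mul_bdd {f g : ℍ → ℂ} (hf : IsZeroAtImInfty f) (hg : IsBoundedAtImInfty g) :
    IsZeroAtImInfty (f * g) := by
  have h1 : f =o[atImInfty] (fun _ => (1 : ℝ)) := (Asymptotics.isLittleO_one_iff ℝ).mpr hf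
  have h2 : g =O[atImInfty] (fun _ => (1 : ℝ)) := hg
  have h3 := h1.mul_isBigO h2
  simp only [mul_one] at h3
  exact (Asymptotics.isLittleO_one_iff ℝ).mp h3

/-- The trace pairing of `f` with the `i`-th basis element: `∑_x tr f x * tr e_i x`. -/
def trPair (B : GBasis Γ) (ε : B.ι ≃ SL(2, ℤ) ⧸ Γ) (f : ℍ → ℂ) (i : B.ι) : ℍ → ℂ :=
  ∑ j : B.ι, tr 2 f (ε j) * tr (B.k i) (B.e i) (ε j)

theorem trPair_isCF (B : GBasis Γ) (ε : B.ι ≃ SL(2, ℤ) ⧸ Γ) {f : ℍ → ℂ} (hf : IsCF Γ 2 f)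
    (i : B.ι) (w : ℤ) (hw : w = 2 + (B.k i : ℤ)) : IsCF ⊤ w (trPair B ε f i) := by
  subst hw
  have hsl : ∀ γ : SL(2, ℤ), trPair B ε f i ∣[2 + (B.k i : ℤ)] γ = trPair B ε f i := by
    intro γ
    rw [trPair, SlashAction.sum_slash,
      ← Equiv.sum_comp (perm B ε γ) (fun j => tr 2 f (ε j) * tr (B.k i) (B.e i) (ε j))]
    refine Finset.sum_congr rfl (fun j _ => ?_)
    rw [mul_slash_SL2, tr_slash hf.2.1, tr_slash (B.isMF i).2.1, ε_perm]
  have hz : IsZeroAtImInfty (trPair B ε f i) := by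
    have hmem : trPair B ε f i ∈ zeroAtFilterSubmodule ℂ atImInfty :=
      Submodule.sum_mem _ (fun j _ => zero_mul_bdd (hf.tr_zero_at _) ((B.isMF i).tr_bdd _))
    exact hmem
  refine ⟨?_, fun γ _ => hsl γ, fun γ => by rw [hsl γ]; exact hz⟩
  exact Subring.sum_mem holoSubring
    (fun j _ => Subring.mul_mem _ (hf.isMF.tr_mdiff _) ((B.isMF i).tr_mdiff _))

theorem reconstruct (B : GBasis Γ) (ε : B.ι ≃ SL(2, ℤ) ⧸ Γ) (hdet : ∀ z, (B.Asq ε z).det ≠ 0)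
    {f : ℍ → ℂ} (hf : ∀ γ ∈ Γ, f ∣[(2 : ℤ)] γ = f) (z : ℍ) :
    f z = ∑ i : B.ι, trPair B ε f i z * invF B ε (j0 B ε) i z := by
  have h1 : ∀ i : B.ι, trPair B ε f i z * invF B ε (j0 B ε) i z
      = ∑ j : B.ι, tr 2 f (ε j) z * ((B.Asq ε z)⁻¹ (j0 B ε) i * B.Asq ε z i j) := by
    intro i
    rw [trPair, Finset.sum_apply, Finset.sum_mul]
    refine Finset.sum_congr rfl (fun j _ => ?_)
    simp only [Pi.mul_apply, invF, GBasis.Asq]
    ring
  have h2 : ∀ j : B.ι, ∑ i : B.ι, tr 2 f (ε j) z * ((B.Asq ε z)⁻¹ (j0 B ε) i * B.Asq ε z i j)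
      = tr 2 f (ε j) z * (1 : Matrix B.ι B.ι ℂ) (j0 B ε) j := by
    intro j
    rw [← Finset.mul_sum, ← Matrix.mul_apply,
      Matrix.nonsing_inv_mul _ (isUnit_iff_ne_zero.mpr (hdet z))]
  rw [Finset.sum_congr rfl (fun i _ => h1 i), Finset.sum_comm,
    Finset.sum_congr rfl (fun j _ => h2 j)]
  simp only [Matrix.one_apply, mul_ite, mul_one, mul_zero, Finset.sum_ite_eq, Finset.mem_univ,
    if_true]
  rw [j0, Equiv.apply_symm_apply, tr_one hf]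

theorem levelOne_cusp_lt {w : ℤ} (hw : w < 12) {t : ℍ → ℂ} (ht : IsCF ⊤ w t) : t = 0 := by
  obtain ⟨F, rfl⟩ := (isCF_top_iff w t).mp ht
  have h := rank_zero_iff_forall_zero.mp (CuspForm.rank_eq_zero_of_weight_lt_twelve hw) F
  rw [h]
  rfl

theorem levelOne_cusp_twelve {t : ℍ → ℂ} (ht : IsCF ⊤ 12 t) : ∃ c : ℂ, t = c • Δf := by
  obtain ⟨F, rfl⟩ := (isCF_top_iff 12 t).mp ht
  obtain ⟨c, hc⟩ := CuspForm.exists_smul_discriminant_of_weight_eq_twelve F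
  exact ⟨c, by rw [← hc]; rfl⟩

/-! ### The basis of `S_2(Γ)` -/

/-- The dual cusp forms of weight `2`: `Δ · h_i` for the generators of weight `10`. -/
def dualCF (B : GBasis Γ) (ε : B.ι ≃ SL(2, ℤ) ⧸ Γ) (hdet : ∀ z, (B.Asq ε z).det ≠ 0)
    (hdecay : ∀ i j : B.ι, IsZeroAtImInfty (fun z => Δf z * (B.Asq ε z)⁻¹ j i))
    (i : {i : B.ι // B.k i = 10}) : CFsub Γ 2 :=
  ⟨Δf * invF B ε (j0 B ε) i.1, by
    have h := isCF_dual B ε hdet hdecay i.1
    have h2 : (12 : ℤ) - (B.k i.1 : ℤ) = 2 := by rw [i.2]; norm_num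
    rw [h2] at h
    exact h⟩

theorem dualCF_linearIndependent (B : GBasis Γ) (ε : B.ι ≃ SL(2, ℤ) ⧸ Γ)
    (hdet : ∀ z, (B.Asq ε z).det ≠ 0)
    (hdecay : ∀ i j : B.ι, IsZeroAtImInfty (fun z => Δf z * (B.Asq ε z)⁻¹ j i)) :
    LinearIndependent ℂ (dualCF B ε hdet hdecay) := by
  rw [Fintype.linearIndependent_iff]
  intro c hc i₀
  -- the relation, pointwise, for the row of the trivial coset
  have hfun : ∀ z : ℍ, ∑ i : {i : B.ι // B.k i = 10}, c i * (B.Asq ε z)⁻¹ (j0 B ε) i.1 = 0 := by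
    intro z
    have h1 := congrFun (congrArg Subtype.val hc) z
    rw [Submodule.coe_sum, Finset.sum_apply] at h1
    have h2 : ∀ i : {i : B.ι // B.k i = 10},
        ((c i • dualCF B ε hdet hdecay i : CFsub Γ 2) : ℍ → ℂ) z
          = Δf z * (c i * (B.Asq ε z)⁻¹ (j0 B ε) i.1) := by
      intro i
      show c i * (Δf z * (B.Asq ε z)⁻¹ (j0 B ε) i.1) = _
      ring
    rw [Finset.sum_congr rfl (fun i _ => h2 i), ← Finset.mul_sum] at h1
    exact (mul_eq_zero.mp h1).resolve_left (Δf_ne_zero z)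
  -- transport to all rows
  have hall : ∀ (j : B.ι) (z : ℍ),
      ∑ i : {i : B.ι // B.k i = 10}, c i * (B.Asq ε z)⁻¹ j i.1 = 0 := by
    intro j z
    obtain ⟨γ, rfl⟩ := exists_perm_eq B ε j
    have h1 := hfun (γ • z)
    have h2 : ∀ i : {i : B.ι // B.k i = 10},
        c i * (B.Asq ε (γ • z))⁻¹ (j0 B ε) i.1
          = (denom γ z ^ (10 : ℤ))⁻¹ * (c i * (B.Asq ε z)⁻¹ (perm B ε γ (j0 B ε)) i.1) := by
      intro i
      rw [inv_smul B ε hdet, i.2]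
      push_cast
      ring
    rw [Finset.sum_congr rfl (fun i _ => h2 i), ← Finset.mul_sum] at h1
    exact (mul_eq_zero.mp h1).resolve_left (inv_ne_zero (zpow_ne_zero _ (denom_ne_zero _ z)))
  -- multiply by the matrix itself
  have hz := hdet UpperHalfPlane.I
  have h3 : ∑ j : B.ι, B.Asq ε UpperHalfPlane.I i₀.1 j
      * ∑ i : {i : B.ι // B.k i = 10}, c i * (B.Asq ε UpperHalfPlane.I)⁻¹ j i.1 = 0 := by
    refine Finset.sum_eq_zero (fun j _ => ?_)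
    rw [hall j, mul_zero]
  have h4 : ∑ j : B.ι, B.Asq ε UpperHalfPlane.I i₀.1 j
      * ∑ i : {i : B.ι // B.k i = 10}, c i * (B.Asq ε UpperHalfPlane.I)⁻¹ j i.1
      = ∑ i : {i : B.ι // B.k i = 10}, c i * (1 : Matrix B.ι B.ι ℂ) i₀.1 i.1 := by
    simp only [Finset.mul_sum]
    rw [Finset.sum_comm]
    refine Finset.sum_congr rfl (fun i _ => ?_)
    rw [← Matrix.mul_nonsing_inv _ (isUnit_iff_ne_zero.mpr hz), Matrix.mul_apply, Finset.mul_sum]
    refine Finset.sum_congr rfl (fun j _ => ?_)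
    ring
  rw [h4] at h3
  simp only [Matrix.one_apply, Subtype.coe_inj, mul_ite, mul_one, mul_zero, Finset.sum_ite_eq,
    Finset.mem_univ, if_true] at h3
  exact h3

theorem dualCF_span [Γ.FiniteIndex] (B : GBasis Γ) (ε : B.ι ≃ SL(2, ℤ) ⧸ Γ)
    (heven : ∀ i, Even (B.k i)) (hdet : ∀ z, (B.Asq ε z).det ≠ 0)
    (hdecay : ∀ i j : B.ι, IsZeroAtImInfty (fun z => Δf z * (B.Asq ε z)⁻¹ j i)) :
    ⊤ ≤ Submodule.span ℂ (Set.range (dualCF B ε hdet hdecay)) := by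
  rintro ⟨f, hf⟩ -
  have hf' : IsCF Γ 2 f := hf
  -- the trace pairings with generators of weight `10` are multiples of `Δ`
  have hc : ∀ i : {i : B.ι // B.k i = 10}, ∃ c : ℂ, trPair B ε f i.1 = c • Δf := by
    intro i
    refine levelOne_cusp_twelve (trPair_isCF B ε hf' i.1 12 ?_)
    rw [i.2]
    norm_num
  choose c hc using hc
  -- the other trace pairings vanish
  have hzero : ∀ i : B.ι, B.k i ≠ 10 → trPair B ε f i = 0 := by
    intro i hi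
    have hle := weight_le_ten_of B ε heven hdet hdecay i
    obtain ⟨m, hm⟩ := heven i
    refine levelOne_cusp_lt (w := 2 + (B.k i : ℤ)) ?_ (trPair_isCF B ε hf' i _ rfl)
    omega
  have key : (⟨f, hf⟩ : CFsub Γ 2) = ∑ i, c i • dualCF B ε hdet hdecay i := by
    apply Subtype.ext
    funext z
    rw [Submodule.coe_sum, Finset.sum_apply]
    show f z = _
    rw [reconstruct B ε hdet hf'.2.1 z,
      ← Finset.sum_filter_of_ne (p := fun i => B.k i = 10) (fun i _ hne => ?_),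
      Finset.sum_subtype (Finset.univ.filter (fun i => B.k i = 10)) (p := fun i => B.k i = 10)
        (fun i => by simp)]
    · refine Finset.sum_congr rfl (fun i _ => ?_)
      show _ = c i * (Δf z * invF B ε (j0 B ε) i.1 z)
      rw [hc i]
      simp only [Pi.smul_apply, smul_eq_mul]
      ring
    · by_contra h10
      rw [hzero i h10] at hne
      simp at hne
  rw [key]
  exact Submodule.sum_mem _ (fun i _ => Submodule.smul_mem _ _ (Submodule.subset_span ⟨i, rfl⟩))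

/-- `dim S_2(Γ)` is the number of generators of weight `10` (given nonvanishing of the determinant
and decay of `Δ · A⁻¹` at `i∞`). -/
theorem finrank_CF_two_of [Γ.FiniteIndex] (B : GBasis Γ) (ε : B.ι ≃ SL(2, ℤ) ⧸ Γ)
    (heven : ∀ i, Even (B.k i)) (hdet : ∀ z, (B.Asq ε z).det ≠ 0)
    (hdecay : ∀ i j : B.ι, IsZeroAtImInfty (fun z => Δf z * (B.Asq ε z)⁻¹ j i)) :
    Module.finrank ℂ (CFsub Γ 2) = (Finset.univ.filter (fun i => B.k i = 10)).card := by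
  have b := Module.Basis.mk (dualCF_linearIndependent B ε hdet hdecay)
    (dualCF_span B ε heven hdet hdecay)
  rw [Module.finrank_eq_card_basis b, Fintype.card_subtype]

end DualBasis

end

end Fermat.Agent.S20
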