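import Fermat.Agent.S20.Defs
import Fermat.Agent.S20.PermCount

/-!
# S20 — elliptic fibres: eigenvalue counts at `i` and `ρ`

If the matrix of translates `A(z) = (e_i ∣ γ_x⁻¹ (z))` of a graded basis is invertible at
`z = i` (resp. `z = ρ`), then its rows are eigenvectors of the permutation of the cosets given by
`S` (resp. `S * T`), with eigenvalue `i ^ k_i` (resp. `(ρ + 1) ^ k_i`).  Comparing traces gives
the number of basis elements in each weight class mod `4` (resp. mod `6`).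
-/

set_option autoImplicit false

open UpperHalfPlane ModularForm Matrix.SpecialLinearGroup
open scoped MatrixGroups Manifold ModularForm Topology

namespace Fermat.Agent.S20.EllCount

noncomputable section

/-- Equivariance of the translates: `tr f (g • q) = (tr f q) ∣ g⁻¹`. -/
theorem tr_smul_eq (k : ℤ) (f : ℍ → ℂ) {Γ : Subgroup SL(2, ℤ)} (hf : ∀ γ ∈ Γ, f ∣[k] γ = f)
    (g : SL(2, ℤ)) (q : SL(2, ℤ) ⧸ Γ) : tr k f (g • q) = (tr k f q) ∣[k] g⁻¹ := by
  unfold tr
  have hmk : (QuotientGroup.mk (g * q.out) : SL(2, ℤ) ⧸ Γ) = QuotientGroup.mk (g • q).out := by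
    rw [QuotientGroup.out_eq']
    conv_rhs => rw [← QuotientGroup.out_eq' q]
    rfl
  have hmem : (g * q.out)⁻¹ * (g • q).out ∈ Γ := QuotientGroup.eq.mp hmk
  have hinv : ((g * q.out)⁻¹ * (g • q).out)⁻¹ ∈ Γ := Γ.inv_mem hmem
  have e1 : ((g • q).out)⁻¹ = ((g * q.out)⁻¹ * (g • q).out)⁻¹ * ((q.out)⁻¹ * g⁻¹) := by group
  rw [e1, SlashAction.slash_mul, hf _ hinv, SlashAction.slash_mul]

/-- The translate by `g • q` slashed by `g` is the translate by `q`. -/
theorem tr_smul_slash (k : ℤ) (f : ℍ → ℂ) {Γ : Subgroup SL(2, ℤ)} (hf : ∀ γ ∈ Γ, f ∣[k] γ = f)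
    (g : SL(2, ℤ)) (q : SL(2, ℤ) ⧸ Γ) : (tr k f (g • q)) ∣[k] g = tr k f q := by
  rw [tr_smul_eq k f hf, ← SlashAction.slash_mul, inv_mul_cancel, SlashAction.slash_one]

/-- Pointwise form of the equivariance. -/
theorem tr_smul_apply (k : ℤ) (f : ℍ → ℂ) {Γ : Subgroup SL(2, ℤ)} (hf : ∀ γ ∈ Γ, f ∣[k] γ = f)
    (g : SL(2, ℤ)) (q : SL(2, ℤ) ⧸ Γ) (z : ℍ) :
    tr k f q z = tr k f (g • q) (g • z) * denom g z ^ (-k) := by
  conv_lhs => rw [← tr_smul_slash k f hf g q]
  rw [SL_slash_apply]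

/-! ### The fixed points `i` and `ρ` -/

theorem S_smul_I : ModularGroup.S • UpperHalfPlane.I = UpperHalfPlane.I := by
  rw [UpperHalfPlane.modular_S_smul]
  ext
  simp

theorem rhoPt_coe : ((rhoPt : ℍ) : ℂ) = ⟨-1 / 2, Real.sqrt 3 / 2⟩ := rfl

theorem rhoPt_sq_add : ((rhoPt : ℍ) : ℂ) ^ 2 + (rhoPt : ℂ) + 1 = 0 := by
  have h3 : Real.sqrt 3 * Real.sqrt 3 = 3 := Real.mul_self_sqrt (by norm_num)
  rw [rhoPt_coe]
  apply Complex.ext
  · simp [pow_two]
    nlinarith [h3]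
  · simp [pow_two]
    ring

theorem ST_smul_rhoPt : (ModularGroup.S * ModularGroup.T) • rhoPt = rhoPt := by
  rw [mul_smul, UpperHalfPlane.modular_T_smul, UpperHalfPlane.modular_S_smul]
  ext
  simp only [UpperHalfPlane.coe_vadd]
  apply inv_eq_of_mul_eq_one_left
  push_cast
  linear_combination -rhoPt_sq_add

theorem denom_ST (z : ℍ) :
    denom ((ModularGroup.S * ModularGroup.T : SL(2, ℤ)) : GL (Fin 2) ℝ) z = (z : ℂ) + 1 := by
  rw [ModularGroup.denom_apply]
  simp [ModularGroup.S, ModularGroup.T, Matrix.mul_apply, Fin.sum_univ_two]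

/-- Row relation at `i`. -/
theorem tr_S_smul_I (k : ℤ) (f : ℍ → ℂ) {Γ : Subgroup SL(2, ℤ)} (hf : ∀ γ ∈ Γ, f ∣[k] γ = f)
    (q : SL(2, ℤ) ⧸ Γ) :
    tr k f (ModularGroup.S • q) UpperHalfPlane.I = Complex.I ^ k * tr k f q UpperHalfPlane.I := by
  rw [tr_smul_apply k f hf ModularGroup.S q UpperHalfPlane.I, S_smul_I, ModularGroup.denom_S,
    UpperHalfPlane.coe_I, mul_comm, mul_assoc, ← zpow_add₀ Complex.I_ne_zero]
  simp

/-- Row relation at `ρ`. -/
theorem tr_ST_smul_rhoPt (k : ℤ) (f : ℍ → ℂ) {Γ : Subgroup SL(2, ℤ)}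
    (hf : ∀ γ ∈ Γ, f ∣[k] γ = f) (q : SL(2, ℤ) ⧸ Γ) :
    tr k f ((ModularGroup.S * ModularGroup.T) • q) rhoPt =
      ((rhoPt : ℂ) + 1) ^ k * tr k f q rhoPt := by
  have hne : ((rhoPt : ℍ) : ℂ) + 1 ≠ 0 := by
    intro h0
    have h1 := rhoPt_sq_add
    have h2 : ((rhoPt : ℍ) : ℂ) = -1 := by linear_combination h0
    rw [h2] at h1
    norm_num at h1
  rw [tr_smul_apply k f hf (ModularGroup.S * ModularGroup.T) q rhoPt, ST_smul_rhoPt, denom_ST,
    mul_comm, mul_assoc, ← zpow_add₀ hne]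
  simp

/-! ### The trace argument -/

/-- If the rows of an invertible matrix are eigenvectors of a permutation of the columns, the sum
of the eigenvalues is the number of fixed points of the permutation. -/
theorem sum_eigen_eq_card_fixed {ι X : Type*} [Fintype ι] [DecidableEq ι] [Fintype X]
    [DecidableEq X] (σ : Equiv.Perm X) (e : ι ≃ X) (M : Matrix ι ι ℂ) (hM : M.det ≠ 0)
    (ε : ι → ℂ) (h : ∀ i j, M i (e.symm (σ (e j))) = ε i * M i j) :
    ∑ i, ε i = (Fintype.card {x : X // σ x = x} : ℂ) := by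
  have hu : IsUnit M.det := isUnit_iff_ne_zero.mpr hM
  have h1 : M * M⁻¹ = 1 := Matrix.mul_nonsing_inv M hu
  have h2 : M⁻¹ * M = 1 := Matrix.nonsing_inv_mul M hu
  calc ∑ i, ε i = ∑ i, ε i * (M * M⁻¹) i i := by simp [h1]
    _ = ∑ i, ∑ j, M i (e.symm (σ (e j))) * M⁻¹ j i := by
        refine Finset.sum_congr rfl fun i _ => ?_
        rw [Matrix.mul_apply, Finset.mul_sum]
        refine Finset.sum_congr rfl fun j _ => ?_
        rw [h i j]; ring
    _ = ∑ j, ∑ i, M⁻¹ j i * M i (e.symm (σ (e j))) := by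
        rw [Finset.sum_comm]
        exact Finset.sum_congr rfl fun j _ => Finset.sum_congr rfl fun i _ => mul_comm _ _
    _ = ∑ j, (M⁻¹ * M) j (e.symm (σ (e j))) := by simp only [Matrix.mul_apply]
    _ = ∑ j, if j = e.symm (σ (e j)) then (1 : ℂ) else 0 := by simp only [h2, Matrix.one_apply]
    _ = ∑ x, if σ x = x then (1 : ℂ) else 0 := by
        rw [← Equiv.sum_comp e (fun x => if σ x = x then (1 : ℂ) else 0)]
        refine Finset.sum_congr rfl fun j _ => ?_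
        have hiff : (j = e.symm (σ (e j))) ↔ (σ (e j) = e j) := by
          rw [Equiv.eq_symm_apply, eq_comm]
        simp only [hiff]
    _ = (Fintype.card {x : X // σ x = x} : ℂ) := by
        rw [Finset.sum_boole, Fintype.card_subtype]

/-! ### Consequences for a graded basis -/

theorem isMF_top_one : IsMF ⊤ 0 (1 : ℍ → ℂ) := by
  refine ⟨mdifferentiable_const, fun γ _ => is_invariant_one γ, fun γ => ?_⟩
  rw [is_invariant_one]
  exact Filter.const_boundedAtFilter _ (1 : ℂ)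

theorem gbasis_e_ne_zero {Γ : Subgroup SL(2, ℤ)} (B : GBasis Γ) (i : B.ι) : B.e i ≠ 0 := by
  intro h0
  have key := B.uniq (B.k i) (fun j => if j = i then (1 : ℍ → ℂ) else 0) (fun j => by
      by_cases hj : j = i
      · subst hj
        simp only [if_true, sub_self]
        exact isMF_top_one
      · simp only [hj, if_false]
        exact IsMF.zero _ _) (by
      rw [Finset.sum_eq_single i]
      · simp [h0]
      · intro j _ hj
        simp [hj]
      · intro hi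
        exact absurd (Finset.mem_univ i) hi) i
  simp only [if_true] at key
  have := congrFun key UpperHalfPlane.I
  simp at this

theorem slash_neg_one_odd (k : ℕ) (hk : Odd k) (f : ℍ → ℂ) :
    f ∣[(k : ℤ)] (-1 : SL(2, ℤ)) = -f := by
  ext z
  rw [SL_slash_apply, ModularGroup.SL_neg_smul, one_smul]
  have hd : denom ((-1 : SL(2, ℤ))) z = -1 := by
    rw [ModularGroup.denom_apply]
    simp
  rw [hd, zpow_neg, zpow_natCast, hk.neg_one_pow]
  simp

/-- If `-1 ∈ Γ`, all weights of a graded basis are even. -/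
theorem gbasis_even {Γ : Subgroup SL(2, ℤ)} (B : GBasis Γ) (hneg : (-1 : SL(2, ℤ)) ∈ Γ)
    (i : B.ι) : Even (B.k i) := by
  by_contra hodd
  rw [Nat.not_even_iff_odd] at hodd
  have h1 := (B.isMF i).2.1 (-1) hneg
  rw [slash_neg_one_odd _ hodd] at h1
  apply gbasis_e_ne_zero B i
  ext z
  have h2 := congrFun h1 z
  simp only [Pi.neg_apply] at h2
  have h3 : (2 : ℂ) * B.e i z = 0 := by linear_combination (-1 : ℂ) * h2
  simpa using h3

theorem nu2_eq_card {Γ : Subgroup SL(2, ℤ)} [Fintype (SL(2, ℤ) ⧸ Γ)]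
    [DecidableEq (SL(2, ℤ) ⧸ Γ)] :
    nu2 Γ = Fintype.card {x : SL(2, ℤ) ⧸ Γ //
      (MulAction.toPerm ModularGroup.S : Equiv.Perm (SL(2, ℤ) ⧸ Γ)) x = x} := by
  unfold nu2
  rw [← Nat.card_eq_fintype_card]
  rfl

theorem nu3_eq_card {Γ : Subgroup SL(2, ℤ)} [Fintype (SL(2, ℤ) ⧸ Γ)]
    [DecidableEq (SL(2, ℤ) ⧸ Γ)] :
    nu3 Γ = Fintype.card {x : SL(2, ℤ) ⧸ Γ //
      (MulAction.toPerm (ModularGroup.S * ModularGroup.T) : Equiv.Perm (SL(2, ℤ) ⧸ Γ)) x = x} := by
  unfold nu3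
  rw [← Nat.card_eq_fintype_card]
  rfl

/-- Core of the count mod `4`, from the trace identity. -/
theorem count_mod4_core {Γ : Subgroup SL(2, ℤ)} (B : GBasis Γ) (hneg : (-1 : SL(2, ℤ)) ∈ Γ)
    [Fintype (SL(2, ℤ) ⧸ Γ)] [DecidableEq (SL(2, ℤ) ⧸ Γ)]
    (key : ∑ i, Complex.I ^ (B.k i) = (Fintype.card {x : SL(2, ℤ) ⧸ Γ //
      (MulAction.toPerm ModularGroup.S : Equiv.Perm (SL(2, ℤ) ⧸ Γ)) x = x} : ℂ)) :
    2 * (Finset.univ.filter fun i => B.k i % 4 = 2).card + nu2 Γ = Γ.index := by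
  have hε : ∀ i, Complex.I ^ (B.k i) = 1 - 2 * (if B.k i % 4 = 2 then (1 : ℂ) else 0) := by
    intro i
    have hev := gbasis_even B hneg i
    rw [pow_eq_pow_mod (B.k i) Complex.I_pow_four]
    have hcases : B.k i % 4 = 0 ∨ B.k i % 4 = 2 := by
      obtain ⟨m, hm⟩ := hev
      omega
    rcases hcases with h | h <;> rw [h] <;> norm_num
  simp only [hε] at key
  rw [Finset.sum_sub_distrib, ← Finset.mul_sum, Finset.sum_boole] at key
  simp only [Finset.sum_const, Finset.card_univ, nsmul_eq_mul, mul_one] at key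
  rw [nu2_eq_card, ← B.card_eq]
  have hfin : ((2 * (Finset.univ.filter fun i => B.k i % 4 = 2).card +
      Fintype.card {x : SL(2, ℤ) ⧸ Γ //
        (MulAction.toPerm ModularGroup.S : Equiv.Perm (SL(2, ℤ) ⧸ Γ)) x = x} : ℕ) : ℂ) =
      ((Fintype.card B.ι : ℕ) : ℂ) := by
    push_cast
    rw [← key]
    ring
  exact_mod_cast hfin

/-- Weight classes mod `4`: `#{i | k_i ≡ 2 mod 4} = (μ - ν₂) / 2`, from invertibility of the
matrix of translates at `i`. -/
theorem count_mod4_of_det {Γ : Subgroup SL(2, ℤ)} (B : GBasis Γ) (hneg : (-1 : SL(2, ℤ)) ∈ Γ)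
    (ε : B.ι ≃ SL(2, ℤ) ⧸ Γ) (hdet : (B.Asq ε UpperHalfPlane.I).det ≠ 0) :
    2 * (Finset.univ.filter fun i => B.k i % 4 = 2).card + nu2 Γ = Γ.index := by
  classical
  let _ : Fintype (SL(2, ℤ) ⧸ Γ) := Fintype.ofEquiv B.ι ε
  exact count_mod4_core B hneg (sum_eigen_eq_card_fixed
    (MulAction.toPerm ModularGroup.S : Equiv.Perm (SL(2, ℤ) ⧸ Γ)) ε
    (B.Asq ε UpperHalfPlane.I) hdet (fun i => Complex.I ^ (B.k i)) (by
      intro i j
      simp only [Equiv.apply_symm_apply, MulAction.toPerm_apply, GBasis.Asq]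
      rw [tr_S_smul_I (B.k i) (B.e i) (B.isMF i).2.1 (ε j), zpow_natCast]))

/-- Weight classes mod `4`, from linear independence of the rows of the matrix of translates
at `i`. -/
theorem count_mod4_of_li {Γ : Subgroup SL(2, ℤ)} [Γ.FiniteIndex] (B : GBasis Γ)
    (hneg : (-1 : SL(2, ℤ)) ∈ Γ)
    (hli : LinearIndependent ℂ (fun i => B.A UpperHalfPlane.I i)) :
    2 * (Finset.univ.filter fun i => B.k i % 4 = 2).card + nu2 Γ = Γ.index := by
  classical
  let _ : Fintype (SL(2, ℤ) ⧸ Γ) := Fintype.ofFinite _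
  have hcard : Fintype.card B.ι = Fintype.card (SL(2, ℤ) ⧸ Γ) := by
    rw [B.card_eq, Subgroup.index, Nat.card_eq_fintype_card]
  have key := sum_eigenvalues_eq_card_fixed
    (MulAction.toPerm ModularGroup.S : Equiv.Perm (SL(2, ℤ) ⧸ Γ))
    (fun i => B.A UpperHalfPlane.I i) (fun i => Complex.I ^ (B.k i)) (by
      intro i x
      simp only [MulAction.toPerm_apply, GBasis.A]
      rw [tr_S_smul_I (B.k i) (B.e i) (B.isMF i).2.1 x, zpow_natCast]) hli hcard
  rw [← Fintype.card_subtype] at key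
  exact count_mod4_core B hneg key

/-- Core of the count mod `6`, from the trace identity. -/
theorem count_mod6_core {Γ : Subgroup SL(2, ℤ)} (B : GBasis Γ) (hneg : (-1 : SL(2, ℤ)) ∈ Γ)
    [Fintype (SL(2, ℤ) ⧸ Γ)] [DecidableEq (SL(2, ℤ) ⧸ Γ)]
    (key : ∑ i, ((rhoPt : ℂ) + 1) ^ (B.k i) = (Fintype.card {x : SL(2, ℤ) ⧸ Γ //
      (MulAction.toPerm (ModularGroup.S * ModularGroup.T) :
        Equiv.Perm (SL(2, ℤ) ⧸ Γ)) x = x} : ℂ)) :
    3 * (Finset.univ.filter fun i => B.k i % 6 = 0).card = Γ.index + 2 * nu3 Γ ∧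
      (Finset.univ.filter fun i => B.k i % 6 = 2).card =
        (Finset.univ.filter fun i => B.k i % 6 = 4).card := by
  have hρ := rhoPt_sq_add
  have hw2 : ((rhoPt : ℂ) + 1) ^ 2 = (rhoPt : ℂ) := by linear_combination hρ
  have hw4 : ((rhoPt : ℂ) + 1) ^ 4 = (rhoPt : ℂ) ^ 2 := by
    have : ((rhoPt : ℂ) + 1) ^ 4 = (((rhoPt : ℂ) + 1) ^ 2) ^ 2 := by ring
    rw [this, hw2]
  have hρ3 : (rhoPt : ℂ) ^ 3 = 1 := by linear_combination ((rhoPt : ℂ) - 1) * hρ
  have hw6 : ((rhoPt : ℂ) + 1) ^ 6 = 1 := by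
    have : ((rhoPt : ℂ) + 1) ^ 6 = (((rhoPt : ℂ) + 1) ^ 2) ^ 3 := by ring
    rw [this, hw2, hρ3]
  have hcases : ∀ i, B.k i % 6 = 0 ∨ B.k i % 6 = 2 ∨ B.k i % 6 = 4 := by
    intro i
    obtain ⟨m, hm⟩ := gbasis_even B hneg i
    omega
  have hε : ∀ i, ((rhoPt : ℂ) + 1) ^ (B.k i) = (if B.k i % 6 = 0 then (1 : ℂ) else 0) +
      (rhoPt : ℂ) * (if B.k i % 6 = 2 then (1 : ℂ) else 0) +
      (rhoPt : ℂ) ^ 2 * (if B.k i % 6 = 4 then (1 : ℂ) else 0) := by
    intro i
    rw [pow_eq_pow_mod (B.k i) hw6]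
    rcases hcases i with h | h | h <;> rw [h] <;> simp [hw2, hw4]
  have hone : ∀ i : B.ι, (1 : ℂ) = (if B.k i % 6 = 0 then (1 : ℂ) else 0) +
      (if B.k i % 6 = 2 then (1 : ℂ) else 0) + (if B.k i % 6 = 4 then (1 : ℂ) else 0) := by
    intro i
    rcases hcases i with h | h | h <;> rw [h] <;> simp
  have htot : ((Fintype.card B.ι : ℕ) : ℂ) =
      ((Finset.univ.filter fun i => B.k i % 6 = 0).card : ℂ) +
      ((Finset.univ.filter fun i => B.k i % 6 = 2).card : ℂ) +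
      ((Finset.univ.filter fun i => B.k i % 6 = 4).card : ℂ) := by
    have : ∑ _i : B.ι, (1 : ℂ) = ∑ i : B.ι, ((if B.k i % 6 = 0 then (1 : ℂ) else 0) +
      (if B.k i % 6 = 2 then (1 : ℂ) else 0) + (if B.k i % 6 = 4 then (1 : ℂ) else 0)) :=
      Finset.sum_congr rfl fun i _ => hone i
    rw [Finset.sum_add_distrib, Finset.sum_add_distrib, Finset.sum_boole, Finset.sum_boole,
      Finset.sum_boole] at this
    simpa using this
  simp only [hε] at key
  rw [Finset.sum_add_distrib, Finset.sum_add_distrib, ← Finset.mul_sum, ← Finset.mul_sum,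
    Finset.sum_boole, Finset.sum_boole, Finset.sum_boole] at key
  set n0 := (Finset.univ.filter fun i => B.k i % 6 = 0).card with hn0
  set n2 := (Finset.univ.filter fun i => B.k i % 6 = 2).card with hn2
  set n4 := (Finset.univ.filter fun i => B.k i % 6 = 4).card with hn4
  rw [nu3_eq_card, ← B.card_eq]
  set F := Fintype.card {x : SL(2, ℤ) ⧸ Γ //
      (MulAction.toPerm (ModularGroup.S * ModularGroup.T) : Equiv.Perm (SL(2, ℤ) ⧸ Γ)) x = x}
    with hF
  have h3 : Real.sqrt 3 * Real.sqrt 3 = 3 := Real.mul_self_sqrt (by norm_num)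
  have hs : (0 : ℝ) < Real.sqrt 3 := Real.sqrt_pos.mpr (by norm_num)
  have hre := congrArg Complex.re key
  have him := congrArg Complex.im key
  rw [rhoPt_coe] at hre him
  simp [pow_two] at hre him
  have htotR : (Fintype.card B.ι : ℝ) = n0 + n2 + n4 := by exact_mod_cast htot
  have e24 : (n2 : ℝ) = n4 := by
    have : Real.sqrt 3 * ((n2 : ℝ) - n4) = 0 := by nlinarith [him]
    rcases mul_eq_zero.mp this with h | h
    · exact absurd h hs.ne'
    · linarith
  have e0 : (n0 : ℝ) - n2 = F := by nlinarith [hre, h3]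
  constructor
  · have : ((3 * n0 : ℕ) : ℝ) = ((Fintype.card B.ι + 2 * F : ℕ) : ℝ) := by
      push_cast
      linarith
    exact_mod_cast this
  · exact_mod_cast e24

/-- Weight classes mod `6`: `#{i | k_i ≡ 0 mod 6} = (μ + 2 ν₃) / 3` and
`#{i | k_i ≡ 2 mod 6} = #{i | k_i ≡ 4 mod 6}`, from invertibility of the matrix of translates
at `ρ`. -/
theorem count_mod6_of_det {Γ : Subgroup SL(2, ℤ)} (B : GBasis Γ) (hneg : (-1 : SL(2, ℤ)) ∈ Γ)
    (ε : B.ι ≃ SL(2, ℤ) ⧸ Γ) (hdet : (B.Asq ε rhoPt).det ≠ 0) :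
    3 * (Finset.univ.filter fun i => B.k i % 6 = 0).card = Γ.index + 2 * nu3 Γ ∧
      (Finset.univ.filter fun i => B.k i % 6 = 2).card =
        (Finset.univ.filter fun i => B.k i % 6 = 4).card := by
  classical
  let _ : Fintype (SL(2, ℤ) ⧸ Γ) := Fintype.ofEquiv B.ι ε
  exact count_mod6_core B hneg (sum_eigen_eq_card_fixed
    (MulAction.toPerm (ModularGroup.S * ModularGroup.T) : Equiv.Perm (SL(2, ℤ) ⧸ Γ)) ε
    (B.Asq ε rhoPt) hdet (fun i => ((rhoPt : ℂ) + 1) ^ (B.k i)) (by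
      intro i j
      simp only [Equiv.apply_symm_apply, MulAction.toPerm_apply, GBasis.Asq]
      rw [tr_ST_smul_rhoPt (B.k i) (B.e i) (B.isMF i).2.1 (ε j), zpow_natCast]))

/-- Weight classes mod `6`, from linear independence of the rows of the matrix of translates
at `ρ`. -/
theorem count_mod6_of_li {Γ : Subgroup SL(2, ℤ)} [Γ.FiniteIndex] (B : GBasis Γ)
    (hneg : (-1 : SL(2, ℤ)) ∈ Γ) (hli : LinearIndependent ℂ (fun i => B.A rhoPt i)) :
    3 * (Finset.univ.filter fun i => B.k i % 6 = 0).card = Γ.index + 2 * nu3 Γ ∧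
      (Finset.univ.filter fun i => B.k i % 6 = 2).card =
        (Finset.univ.filter fun i => B.k i % 6 = 4).card := by
  classical
  let _ : Fintype (SL(2, ℤ) ⧸ Γ) := Fintype.ofFinite _
  have hcard : Fintype.card B.ι = Fintype.card (SL(2, ℤ) ⧸ Γ) := by
    rw [B.card_eq, Subgroup.index, Nat.card_eq_fintype_card]
  have key := sum_eigenvalues_eq_card_fixed
    (MulAction.toPerm (ModularGroup.S * ModularGroup.T) : Equiv.Perm (SL(2, ℤ) ⧸ Γ))
    (fun i => B.A rhoPt i) (fun i => ((rhoPt : ℂ) + 1) ^ (B.k i)) (by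
      intro i x
      simp only [MulAction.toPerm_apply, GBasis.A]
      rw [tr_ST_smul_rhoPt (B.k i) (B.e i) (B.isMF i).2.1 x, zpow_natCast]) hli hcard
  rw [← Fintype.card_subtype] at key
  exact count_mod6_core B hneg key

end

end Fermat.Agent.S20.EllCount
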