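import Fermat.Agent.S20.Defs

/-!
# S20 — abstract graded freeness from a regular sequence

Let `A` be a commutative `ℂ`-algebra, `x y : A` and `M : ℤ → Submodule ℂ A` a family of
subspaces with `x * M k ⊆ M (k + 4)`, `y * M k ⊆ M (k + 6)`, `M k = 0` for `k < 0`, such that
`(x, y)` is a regular sequence on `M`.  Then `⨁ M k` is free over `ℂ[X, Y]` (weights `4, 6`) on
a homogeneous family `e i ∈ M (wt i)`.
-/

set_option autoImplicit false

open MvPolynomial

namespace Fermat.Agent.S20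

noncomputable section

namespace GradedFree

/-- The weights `(4, 6)` of the two variables. -/
def wt46 : Fin 2 → ℤ := ![4, 6]

/-- Weighted-homogeneous polynomials of weighted degree `m` in two variables of weights `4, 6`. -/
def WH (m : ℤ) : Submodule ℂ (MvPolynomial (Fin 2) ℂ) := weightedHomogeneousSubmodule ℂ wt46 m

theorem mem_WH {m : ℤ} {P : MvPolynomial (Fin 2) ℂ} :
    P ∈ WH m ↔ IsWeightedHomogeneous wt46 P m := Iff.rfl

theorem weight46 (d : Fin 2 →₀ ℕ) : Finsupp.weight wt46 d = 4 * (d 0 : ℤ) + 6 * (d 1 : ℤ) := by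
  rw [Finsupp.weight_eq_sum, Fin.sum_univ_two]
  simp [wt46, mul_comm]

/-- Quotient by the first variable. -/
def dX (P : MvPolynomial (Fin 2) ℂ) : MvPolynomial (Fin 2) ℂ :=
  P.divMonomial (Finsupp.single 0 1)

/-- Quotient by the second variable of the remainder modulo the first variable. -/
def dY (P : MvPolynomial (Fin 2) ℂ) : MvPolynomial (Fin 2) ℂ :=
  (P.modMonomial (Finsupp.single 0 1)).divMonomial (Finsupp.single 1 1)

theorem dX_zero : dX 0 = 0 := by simp [dX]

theorem dY_zero : dY 0 = 0 := by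
  unfold dY
  have h : (0 : MvPolynomial (Fin 2) ℂ).modMonomial (Finsupp.single 0 1) = 0 := by
    have := divMonomial_add_modMonomial_single (0 : MvPolynomial (Fin 2) ℂ) 0
    simpa using this
  rw [h]; simp

theorem poly_decomp (P : MvPolynomial (Fin 2) ℂ) :
    P = C (coeff 0 P) + X 0 * dX P + X 1 * dY P := by
  have h1 := divMonomial_add_modMonomial_single P 0
  have h2 := divMonomial_add_modMonomial_single (P.modMonomial (Finsupp.single 0 1)) 1
  have h3 : (P.modMonomial (Finsupp.single 0 1)).modMonomial (Finsupp.single 1 1)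
      = C (coeff 0 P) := by
    ext d
    rw [coeff_C]
    by_cases hd : d = 0
    · subst hd
      rw [if_pos rfl, coeff_modMonomial_of_not_le, coeff_modMonomial_of_not_le]
      · intro h
        have := h 0
        simp at this
      · intro h
        have := h 1
        simp at this
    · rw [if_neg (Ne.symm hd)]
      by_cases h1 : Finsupp.single 1 1 ≤ d
      · exact coeff_modMonomial_of_le _ h1
      · rw [coeff_modMonomial_of_not_le _ h1]
        by_cases h0 : Finsupp.single 0 1 ≤ d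
        · exact coeff_modMonomial_of_le _ h0
        · exfalso
          apply hd
          ext i
          fin_cases i
          · by_contra hne
            apply h0
            rw [Finsupp.single_le_iff]
            exact Nat.one_le_iff_ne_zero.mpr hne
          · by_contra hne
            apply h1
            rw [Finsupp.single_le_iff]
            exact Nat.one_le_iff_ne_zero.mpr hne
  unfold dX dY
  rw [h3] at h2
  calc P = X 0 * P.divMonomial (Finsupp.single 0 1) + P.modMonomial (Finsupp.single 0 1) := h1.symm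
    _ = X 0 * P.divMonomial (Finsupp.single 0 1) +
        (X 1 * (P.modMonomial (Finsupp.single 0 1)).divMonomial (Finsupp.single 1 1)
          + C (coeff 0 P)) := by rw [h2]
    _ = _ := by ring

theorem dX_mem {m : ℤ} {P : MvPolynomial (Fin 2) ℂ} (h : P ∈ WH m) : dX P ∈ WH (m - 4) := by
  intro d hd
  rw [dX, coeff_divMonomial] at hd
  have h' := h hd
  rw [weight46] at h' ⊢
  simp at h'
  linarith

theorem dY_mem {m : ℤ} {P : MvPolynomial (Fin 2) ℂ} (h : P ∈ WH m) : dY P ∈ WH (m - 6) := by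
  intro d hd
  rw [dY, coeff_divMonomial] at hd
  have hd' : coeff (Finsupp.single 1 1 + d) P ≠ 0 := by
    by_cases h0 : Finsupp.single 0 1 ≤ Finsupp.single 1 1 + d
    · rw [coeff_modMonomial_of_le _ h0] at hd
      exact absurd rfl hd
    · rwa [coeff_modMonomial_of_not_le _ h0] at hd
  have h' := h hd'
  rw [weight46] at h' ⊢
  simp at h'
  linarith

theorem coeff_zero_eq_zero {m : ℤ} {P : MvPolynomial (Fin 2) ℂ} (h : P ∈ WH m) (hm : m ≠ 0) :
    coeff 0 P = 0 := by
  by_contra hc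
  have h' := h hc
  rw [weight46] at h'
  simp at h'
  exact hm h'.symm

theorem X0_mul_mem {m : ℤ} {P : MvPolynomial (Fin 2) ℂ} (h : P ∈ WH m) :
    X 0 * P ∈ WH (m + 4) := by
  have := (isWeightedHomogeneous_X ℂ wt46 0).mul h
  rw [mem_WH]
  convert this using 1
  simp [wt46, add_comm]

theorem X1_mul_mem {m : ℤ} {P : MvPolynomial (Fin 2) ℂ} (h : P ∈ WH m) :
    X 1 * P ∈ WH (m + 6) := by
  have := (isWeightedHomogeneous_X ℂ wt46 1).mul h
  rw [mem_WH]
  convert this using 1
  simp [wt46, add_comm]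

theorem C_mem_WH (c : ℂ) : C c ∈ WH 0 := isWeightedHomogeneous_C wt46 c

theorem WH_eq_zero_of_neg {m : ℤ} (hm : m < 0) {P : MvPolynomial (Fin 2) ℂ} (h : P ∈ WH m) :
    P = 0 := by
  ext d
  by_contra hc
  have h' := h hc
  rw [weight46] at h'
  have h0 : (0 : ℤ) ≤ d 0 := Int.natCast_nonneg _
  have h1 : (0 : ℤ) ≤ d 1 := Int.natCast_nonneg _
  linarith

/-! ### Evaluation and total evaluation -/

section Core

universe u v

variable {A : Type u} [CommRing A] [Algebra ℂ A] (x y : A)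

/-- Evaluation of a two-variable polynomial at `(x, y)`. -/
def ev : MvPolynomial (Fin 2) ℂ →ₐ[ℂ] A := aeval ![x, y]

@[simp] theorem ev_X0 : ev x y (X 0) = x := by simp [ev]

@[simp] theorem ev_X1 : ev x y (X 1) = y := by simp [ev]

theorem ev_C (c : ℂ) : ev x y (C c) = algebraMap ℂ A c := by simp [ev]

theorem ev_monomial (d : Fin 2 →₀ ℕ) (c : ℂ) :
    ev x y (monomial d c) = algebraMap ℂ A c * (x ^ d 0 * y ^ d 1) := by
  simp [ev, aeval_monomial, Finsupp.prod_fintype, Fin.prod_univ_two]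

variable {ι : Type v} (e : ι → A)

/-- Total evaluation `r ↦ ∑ i, r i (x, y) * e i`. -/
def tot : (ι →₀ MvPolynomial (Fin 2) ℂ) →ₗ[ℂ] A :=
  Finsupp.lsum ℂ (fun i => (LinearMap.mulRight ℂ (e i)).comp (ev x y).toLinearMap)

theorem tot_apply (r : ι →₀ MvPolynomial (Fin 2) ℂ) :
    tot x y e r = r.sum (fun i P => ev x y P * e i) := by
  rw [tot, Finsupp.lsum_apply]
  rfl

@[simp] theorem tot_single (i : ι) (P : MvPolynomial (Fin 2) ℂ) :
    tot x y e (Finsupp.single i P) = ev x y P * e i := by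
  simp [tot]

/-- Multiply all coefficients by a fixed polynomial. -/
def mulL (Q : MvPolynomial (Fin 2) ℂ) :
    (ι →₀ MvPolynomial (Fin 2) ℂ) →ₗ[ℂ] (ι →₀ MvPolynomial (Fin 2) ℂ) :=
  Finsupp.mapRange.linearMap (LinearMap.mulLeft ℂ Q)

@[simp] theorem mulL_apply (Q : MvPolynomial (Fin 2) ℂ) (r : ι →₀ MvPolynomial (Fin 2) ℂ)
    (i : ι) : mulL Q r i = Q * r i := rfl

theorem tot_mulL (Q : MvPolynomial (Fin 2) ℂ) (r : ι →₀ MvPolynomial (Fin 2) ℂ) :
    tot x y e (mulL Q r) = ev x y Q * tot x y e r := by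
  induction r using Finsupp.induction_linear with
  | zero => simp
  | add f g hf hg => simp only [map_add, hf, hg, mul_add]
  | single i P =>
    have : mulL Q (Finsupp.single i P) = Finsupp.single i (Q * P) := by
      simp [mulL]
    rw [this, tot_single, tot_single, map_mul, mul_assoc]

theorem tot_mapRange_C (c : ι →₀ ℂ) :
    tot x y e (c.mapRange C (map_zero C)) = Finsupp.linearCombination ℂ e c := by
  induction c using Finsupp.induction_linear with
  | zero => simp
  | add f g hf hg =>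
    rw [Finsupp.mapRange_add (fun a b => map_add C a b), map_add, map_add, hf, hg]
  | single i a =>
    rw [Finsupp.mapRange_single, tot_single, ev_C, Finsupp.linearCombination_single,
      Algebra.smul_def]

/-- Families of polynomial coefficients that are homogeneous of total degree `K`. -/
def HomSub (wt : ι → ℕ) (K : ℤ) : Submodule ℂ (ι →₀ MvPolynomial (Fin 2) ℂ) where
  carrier := {r | ∀ i, r i ∈ WH (K - wt i)}
  add_mem' := fun {a b} ha hb i => by
    rw [Finsupp.add_apply]; exact (WH _).add_mem (ha i) (hb i)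
  zero_mem' := fun i => (WH _).zero_mem
  smul_mem' := fun c r hr i => by
    rw [Finsupp.smul_apply]; exact (WH _).smul_mem c (hr i)

theorem mem_HomSub {wt : ι → ℕ} {K : ℤ} {r : ι →₀ MvPolynomial (Fin 2) ℂ} :
    r ∈ HomSub wt K ↔ ∀ i, r i ∈ WH (K - wt i) := Iff.rfl

theorem mulL_X0_mem {wt : ι → ℕ} {K K' : ℤ} (hK : K' = K + 4)
    {r : ι →₀ MvPolynomial (Fin 2) ℂ} (hr : r ∈ HomSub wt K) :
    mulL (X 0) r ∈ HomSub wt K' := fun i => by
  have := X0_mul_mem (hr i)
  rw [mulL_apply]
  have e2 : K' - (wt i : ℤ) = K - wt i + 4 := by rw [hK]; ring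
  rw [e2]; exact this

theorem mulL_X1_mem {wt : ι → ℕ} {K K' : ℤ} (hK : K' = K + 6)
    {r : ι →₀ MvPolynomial (Fin 2) ℂ} (hr : r ∈ HomSub wt K) :
    mulL (X 1) r ∈ HomSub wt K' := fun i => by
  have := X1_mul_mem (hr i)
  rw [mulL_apply]
  have e2 : K' - (wt i : ℤ) = K - wt i + 6 := by rw [hK]; ring
  rw [e2]; exact this

variable (M : ℤ → Submodule ℂ A)

theorem pow_mul_mem (hx : ∀ k f, f ∈ M k → x * f ∈ M (k + 4))
    (hy : ∀ k f, f ∈ M k → y * f ∈ M (k + 6)) (a b : ℕ) (k : ℤ) (f : A) (hf : f ∈ M k) :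
    x ^ a * y ^ b * f ∈ M (k + 4 * a + 6 * b) := by
  induction a with
  | zero =>
    induction b with
    | zero => simpa using hf
    | succ b ih =>
      have h := hy _ _ ih
      have e1 : x ^ 0 * y ^ (b + 1) * f = y * (x ^ 0 * y ^ b * f) := by ring
      have e2 : k + 4 * ((0 : ℕ) : ℤ) + 6 * ((b + 1 : ℕ) : ℤ)
          = k + 4 * ((0 : ℕ) : ℤ) + 6 * (b : ℤ) + 6 := by push_cast; ring
      rw [e1, e2]; exact h
  | succ a ih =>
    have h := hx _ _ ih
    have e1 : x ^ (a + 1) * y ^ b * f = x * (x ^ a * y ^ b * f) := by ring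
    have e2 : k + 4 * ((a + 1 : ℕ) : ℤ) + 6 * (b : ℤ) = k + 4 * (a : ℤ) + 6 * (b : ℤ) + 4 := by
      push_cast; ring
    rw [e1, e2]; exact h

theorem ev_mul_mem (hx : ∀ k f, f ∈ M k → x * f ∈ M (k + 4))
    (hy : ∀ k f, f ∈ M k → y * f ∈ M (k + 6)) {m k : ℤ} {P : MvPolynomial (Fin 2) ℂ}
    (hP : P ∈ WH m) {f : A} (hf : f ∈ M k) : ev x y P * f ∈ M (k + m) := by
  rw [mem_WH] at hP
  induction hP using IsWeightedHomogeneous.induction_on with
  | zero => simp
  | add p q hp hq ihp ihq => rw [map_add, add_mul]; exact (M _).add_mem ihp ihq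
  | monomial d r hr =>
    rw [ev_monomial, mul_assoc, ← Algebra.smul_def]
    apply Submodule.smul_mem
    have h := pow_mul_mem x y M hx hy (d 0) (d 1) k f hf
    rw [weight46] at hr
    have e2 : k + m = k + 4 * (d 0 : ℤ) + 6 * (d 1 : ℤ) := by rw [← hr]; ring
    rw [e2]; exact h

theorem tot_mem (hx : ∀ k f, f ∈ M k → x * f ∈ M (k + 4))
    (hy : ∀ k f, f ∈ M k → y * f ∈ M (k + 6)) {wt : ι → ℕ} (he : ∀ i, e i ∈ M (wt i))
    {K : ℤ} {r : ι →₀ MvPolynomial (Fin 2) ℂ} (hr : r ∈ HomSub wt K) :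
    tot x y e r ∈ M K := by
  rw [tot_apply]
  refine Submodule.sum_mem _ fun i _ => ?_
  have h := ev_mul_mem x y M hx hy (hr i) (he i)
  have e2 : (wt i : ℤ) + (K - wt i) = K := by ring
  rwa [e2] at h

/-! ### The decomposable part and complements -/

/-- The decomposable part `x * M (k - 4) + y * M (k - 6)` in degree `k`. -/
def Fsub (k : ℤ) : Submodule ℂ A :=
  (M (k - 4)).map (LinearMap.mulLeft ℂ x) ⊔ (M (k - 6)).map (LinearMap.mulLeft ℂ y)

theorem Fsub_le (hx : ∀ k f, f ∈ M k → x * f ∈ M (k + 4))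
    (hy : ∀ k f, f ∈ M k → y * f ∈ M (k + 6)) (k : ℤ) : Fsub x y M k ≤ M k := by
  refine sup_le ?_ ?_
  · rintro _ ⟨f, hf, rfl⟩
    have h := hx _ _ hf
    have e2 : k - 4 + 4 = k := by ring
    rw [e2] at h; exact h
  · rintro _ ⟨f, hf, rfl⟩
    have h := hy _ _ hf
    have e2 : k - 6 + 6 = k := by ring
    rw [e2] at h; exact h

theorem exists_compl_in {V : Type*} [AddCommGroup V] [Module ℂ V] (F N : Submodule ℂ V)
    (h : F ≤ N) : ∃ W : Submodule ℂ V, W ≤ N ∧ F ⊓ W = ⊥ ∧ F ⊔ W = N := by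
  obtain ⟨W0, hW0⟩ := Submodule.exists_isCompl F
  refine ⟨W0 ⊓ N, inf_le_right, ?_, ?_⟩
  · rw [← inf_assoc, hW0.inf_eq_bot, bot_inf_eq]
  · rw [← sup_inf_assoc_of_le W0 h, hW0.sup_eq_top, top_inf_eq]

/-- Generation: every element of `M K` is a homogeneous polynomial combination of the `e i`. -/
theorem gen_aux (hneg : ∀ k, k < 0 → M k = ⊥)
    (W : ℤ → Submodule ℂ A) (hW1 : ∀ k, W k ≤ M k)
    (hW3 : ∀ k, Fsub x y M k ⊔ W k = M k)
    (wt : ι → ℕ) (hspan : ∀ k : ℕ, W k ≤ Submodule.span ℂ (e '' {i | wt i = k})) :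
    ∀ n : ℕ, ∀ K : ℤ, K < n → M K ≤ (HomSub wt K).map (tot x y e) := by
  intro n
  induction n with
  | zero =>
    intro K hK
    rw [hneg K (by simpa using hK)]
    exact bot_le
  | succ n ih =>
    intro K hK
    rw [← hW3 K]
    refine sup_le (sup_le ?_ ?_) ?_
    · rintro _ ⟨f, hf, rfl⟩
      obtain ⟨r, hr, rfl⟩ := ih (K - 4) (by push_cast at hK; linarith) hf
      refine ⟨mulL (X 0) r, mulL_X0_mem (by ring) hr, ?_⟩
      rw [tot_mulL, ev_X0]; rfl
    · rintro _ ⟨f, hf, rfl⟩
      obtain ⟨r, hr, rfl⟩ := ih (K - 6) (by push_cast at hK; linarith) hf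
      refine ⟨mulL (X 1) r, mulL_X1_mem (by ring) hr, ?_⟩
      rw [tot_mulL, ev_X1]; rfl
    · rcases lt_or_ge K 0 with hK0 | hK0
      · have := hW1 K
        rw [hneg K hK0] at this
        exact this.trans bot_le
      · obtain ⟨k, rfl⟩ := Int.eq_ofNat_of_zero_le hK0
        refine (hspan k).trans (Submodule.span_le.mpr ?_)
        rintro _ ⟨i, hi, rfl⟩
        refine ⟨Finsupp.single i 1, fun j => ?_, ?_⟩
        · by_cases hj : j = i
          · subst hj
            rw [Finsupp.single_eq_same]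
            have : ((k : ℕ) : ℤ) - (wt j : ℤ) = 0 := by
              have : wt j = k := hi
              rw [this]; ring
            rw [this]
            exact C_mem_WH 1
          · rw [Finsupp.single_eq_of_ne hj]
            exact (WH _).zero_mem
        · rw [tot_single, map_one, one_mul]

/-- Independence: a homogeneous polynomial relation between the `e i` is trivial. -/
theorem indep_aux (hx : ∀ k f, f ∈ M k → x * f ∈ M (k + 4))
    (hy : ∀ k f, f ∈ M k → y * f ∈ M (k + 6)) (hneg : ∀ k, k < 0 → M k = ⊥)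
    (hregx : ∀ k f, f ∈ M k → x * f = 0 → f = 0)
    (hregy : ∀ k f g, f ∈ M k → g ∈ M (k + 2) → y * f = x * g → ∃ h ∈ M (k - 4), f = x * h)
    (W : ℤ → Submodule ℂ A) (hW1 : ∀ k, W k ≤ M k)
    (hW2 : ∀ k, Fsub x y M k ⊓ W k = ⊥) (hW3 : ∀ k, Fsub x y M k ⊔ W k = M k)
    (wt : ι → ℕ) (he : ∀ i, e i ∈ W (wt i))
    (hspan : ∀ k : ℕ, W k ≤ Submodule.span ℂ (e '' {i | wt i = k}))
    (hind : ∀ k : ℕ, LinearIndepOn ℂ e {i | wt i = k}) :
    ∀ n : ℕ, ∀ K : ℤ, K < n → ∀ r ∈ HomSub wt K, tot x y e r = 0 → r = 0 := by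
  have heM : ∀ i, e i ∈ M (wt i) := fun i => hW1 _ (he i)
  have base : ∀ K : ℤ, K < 0 → ∀ r ∈ HomSub wt K, r = 0 := by
    intro K hK r hr
    ext1 i
    have hi : K - (wt i : ℤ) < 0 := by
      have : (0 : ℤ) ≤ wt i := Int.natCast_nonneg _
      linarith
    rw [WH_eq_zero_of_neg hi (hr i)]; rfl
  intro n
  induction n with
  | zero =>
    intro K hK r hr _
    exact base K (by simpa using hK) r hr
  | succ n ih =>
    intro K hK r hr h0
    rcases lt_or_ge K 0 with hK0 | hK0
    · exact base K hK0 r hr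
    obtain ⟨k, rfl⟩ := Int.eq_ofNat_of_zero_le hK0
    -- decomposition of the coefficients
    set c : ι →₀ ℂ := r.mapRange (coeff 0) (MvPolynomial.coeff_zero 0) with hc
    set a : ι →₀ MvPolynomial (Fin 2) ℂ := r.mapRange dX dX_zero with ha
    set b : ι →₀ MvPolynomial (Fin 2) ℂ := r.mapRange dY dY_zero with hb
    have hr_eq : r = c.mapRange C (map_zero C) + mulL (X 0) a + mulL (X 1) b := by
      ext1 i
      rw [Finsupp.add_apply, Finsupp.add_apply, Finsupp.mapRange_apply, mulL_apply, mulL_apply,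
        hc, ha, hb, Finsupp.mapRange_apply, Finsupp.mapRange_apply, Finsupp.mapRange_apply]
      exact poly_decomp (r i)
    have hahom : a ∈ HomSub wt ((k : ℤ) - 4) := fun i => by
      have h := dX_mem (hr i)
      rw [ha, Finsupp.mapRange_apply]
      have e2 : (k : ℤ) - 4 - (wt i : ℤ) = (k : ℤ) - wt i - 4 := by ring
      rw [e2]; exact h
    have hbhom : b ∈ HomSub wt ((k : ℤ) - 6) := fun i => by
      have h := dY_mem (hr i)
      rw [hb, Finsupp.mapRange_apply]
      have e2 : (k : ℤ) - 6 - (wt i : ℤ) = (k : ℤ) - wt i - 6 := by ring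
      rw [e2]; exact h
    have hcsupp : c ∈ Finsupp.supported ℂ ℂ {i | wt i = k} := by
      intro i hi
      have hci : coeff 0 (r i) ≠ 0 := by
        have := Finsupp.mem_support_iff.mp hi
        rwa [hc, Finsupp.mapRange_apply] at this
      by_contra hne
      apply hci
      apply coeff_zero_eq_zero (hr i)
      intro h
      apply hne
      have : (wt i : ℤ) = (k : ℤ) := by linarith
      exact_mod_cast this
    set A' := tot x y e a with hA'
    set B' := tot x y e b with hB'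
    have hA'mem : A' ∈ M ((k : ℤ) - 4) := tot_mem x y e M hx hy heM hahom
    have hB'mem : B' ∈ M ((k : ℤ) - 6) := tot_mem x y e M hx hy heM hbhom
    have hsum : Finsupp.linearCombination ℂ e c + x * A' + y * B' = 0 := by
      rw [← h0]
      conv_rhs => rw [hr_eq]
      rw [map_add, map_add, tot_mapRange_C, tot_mulL, tot_mulL, ev_X0, ev_X1]
    -- the constant part vanishes
    have hlcW : Finsupp.linearCombination ℂ e c ∈ W k := by
      rw [Finsupp.linearCombination_apply]
      refine Submodule.sum_mem _ fun i hi => ?_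
      have hwi : wt i = k := hcsupp hi
      have := he i
      rw [hwi] at this
      exact Submodule.smul_mem _ _ this
    have hlcF : Finsupp.linearCombination ℂ e c ∈ Fsub x y M k := by
      have : Finsupp.linearCombination ℂ e c = -(x * A' + y * B') := by
        rw [eq_neg_iff_add_eq_zero, ← add_assoc]; exact hsum
      rw [this]
      apply Submodule.neg_mem
      apply Submodule.add_mem
      · exact Submodule.mem_sup_left ⟨A', hA'mem, rfl⟩
      · exact Submodule.mem_sup_right ⟨B', hB'mem, rfl⟩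
    have hlc0 : Finsupp.linearCombination ℂ e c = 0 := by
      have : Finsupp.linearCombination ℂ e c ∈ Fsub x y M k ⊓ W k := ⟨hlcF, hlcW⟩
      rw [hW2] at this
      simpa using this
    have hc0 : c = 0 := linearIndepOn_iff.mp (hind k) c hcsupp hlc0
    have hxy : x * A' + y * B' = 0 := by
      rw [hlc0, zero_add] at hsum; exact hsum
    -- regular sequence
    have hnegA : -A' ∈ M ((k : ℤ) - 6 + 2) := by
      have e2 : (k : ℤ) - 6 + 2 = (k : ℤ) - 4 := by ring
      rw [e2]; exact Submodule.neg_mem _ hA'mem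
    obtain ⟨C', hC'mem, hBC⟩ := hregy _ B' (-A') hB'mem hnegA (by
      rw [mul_neg, eq_neg_iff_add_eq_zero, add_comm]; exact hxy)
    have hyC : y * C' ∈ M ((k : ℤ) - 4) := by
      have h := hy _ _ hC'mem
      have e2 : (k : ℤ) - 6 - 4 + 6 = (k : ℤ) - 4 := by ring
      rw [e2] at h; exact h
    have hAC : A' + y * C' = 0 := by
      apply hregx _ _ (Submodule.add_mem _ hA'mem hyC)
      rw [mul_add, ← hxy, hBC]; ring
    -- generation in degree `k - 10`
    obtain ⟨γ, hγ, hγC⟩ := gen_aux x y e M hneg W hW1 hW3 wt hspan n ((k : ℤ) - 6 - 4)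
      (by push_cast at hK; linarith) hC'mem
    -- induction hypothesis in degrees `k - 6` and `k - 4`
    have hb_eq : b - mulL (X 0) γ = 0 := by
      apply ih ((k : ℤ) - 6) (by push_cast at hK; linarith)
      · exact Submodule.sub_mem _ hbhom (mulL_X0_mem (by ring) hγ)
      · rw [map_sub, tot_mulL, ev_X0, hγC, ← hB', hBC, sub_self]
    have ha_eq : a + mulL (X 1) γ = 0 := by
      apply ih ((k : ℤ) - 4) (by push_cast at hK; linarith)
      · exact Submodule.add_mem _ hahom (mulL_X1_mem (by ring) hγ)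
      · rw [map_add, tot_mulL, ev_X1, hγC, ← hA', hAC]
    rw [hr_eq, hc0]
    have hb' : b = mulL (X 0) γ := sub_eq_zero.mp hb_eq
    have ha' : a = -mulL (X 1) γ := eq_neg_of_add_eq_zero_left ha_eq
    rw [hb', ha']
    ext1 i
    simp only [Finsupp.mapRange_zero, zero_add, map_neg, Finsupp.add_apply, Finsupp.neg_apply,
      mulL_apply, Finsupp.zero_apply]
    ring

/-! ### Graded bases -/

/-- `e` is a homogeneous basis (weights `wt`) of the graded module `⨁ M k` over `ℂ[X, Y]`
(`X ↦ x` of weight `4`, `Y ↦ y` of weight `6`). -/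
structure IsGradedBasis (wt : ι → ℕ) : Prop where
  mem : ∀ i, e i ∈ M (wt i)
  gen : ∀ (K : ℤ) (f : A), f ∈ M K → ∃ r ∈ HomSub wt K, tot x y e r = f
  indep : ∀ (K : ℤ), ∀ r ∈ HomSub wt K, tot x y e r = 0 → r = 0

/-- **Graded freeness.** If `(x, y)` is a regular sequence on the graded module `⨁ M k`
(bounded below), then it has a homogeneous basis over `ℂ[X, Y]`. -/
theorem exists_isGradedBasis (hx : ∀ k f, f ∈ M k → x * f ∈ M (k + 4))
    (hy : ∀ k f, f ∈ M k → y * f ∈ M (k + 6)) (hneg : ∀ k, k < 0 → M k = ⊥)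
    (hregx : ∀ k f, f ∈ M k → x * f = 0 → f = 0)
    (hregy : ∀ k f g, f ∈ M k → g ∈ M (k + 2) → y * f = x * g → ∃ h ∈ M (k - 4), f = x * h) :
    ∃ (ι : Type u) (wt : ι → ℕ) (e : ι → A), IsGradedBasis x y e M wt := by
  choose W hW1 hW2 hW3 using fun k : ℤ =>
    exists_compl_in (Fsub x y M k) (M k) (Fsub_le x y M hx hy k)
  let ι : Type u := Σ k : ℕ, Module.Basis.ofVectorSpaceIndex ℂ (W k)
  let wt : ι → ℕ := fun i => i.1
  let e : ι → A := fun i => ((Module.Basis.ofVectorSpace ℂ (W i.1)) i.2 : A)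
  have he : ∀ i, e i ∈ W (wt i) := fun i => ((Module.Basis.ofVectorSpace ℂ (W i.1)) i.2).2
  have hspan : ∀ k : ℕ, W k ≤ Submodule.span ℂ (e '' {i | wt i = k}) := by
    intro k w hw
    have h1 := (Module.Basis.ofVectorSpace ℂ (W k)).mem_span ⟨w, hw⟩
    have h2 := Submodule.apply_mem_span_image_of_mem_span (W k).subtype h1
    refine Submodule.span_mono ?_ h2
    rintro _ ⟨_, ⟨b, rfl⟩, rfl⟩
    exact ⟨⟨k, b⟩, rfl, rfl⟩
  have hind : ∀ k : ℕ, LinearIndepOn ℂ e {i | wt i = k} := by
    intro k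
    have hset : {i : ι | wt i = k} = Set.range (Sigma.mk k) := by
      ext ⟨k', b⟩
      constructor
      · rintro (rfl : k' = k)
        exact ⟨b, rfl⟩
      · rintro ⟨b', hb'⟩
        exact (congrArg Sigma.fst hb').symm
    rw [hset, linearIndepOn_range_iff sigma_mk_injective]
    exact (Module.Basis.ofVectorSpace ℂ (W k)).linearIndependent.map' (W k).subtype
      (Submodule.ker_subtype _)
  refine ⟨ι, wt, e, fun i => hW1 _ (he i), fun K f hf => ?_, fun K r hr h0 => ?_⟩
  · obtain ⟨n, hn⟩ : ∃ n : ℕ, K < n := ⟨(K + 1).toNat, by omega⟩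
    exact gen_aux x y e M hneg W hW1 hW3 wt hspan n K hn hf
  · obtain ⟨n, hn⟩ : ∃ n : ℕ, K < n := ⟨(K + 1).toNat, by omega⟩
    exact indep_aux x y e M hx hy hneg hregx hregy W hW1 hW2 hW3 wt he hspan hind n K hn r hr h0

/-! ### Translation to `monoSpan` -/

theorem ev_mem_monoSpan {m : ℤ} {P : MvPolynomial (Fin 2) ℂ} (hP : P ∈ WH m) :
    ev x y P ∈ monoSpan x y m := by
  rw [mem_WH] at hP
  induction hP using IsWeightedHomogeneous.induction_on with
  | zero => simp
  | add p q hp hq ihp ihq => rw [map_add]; exact Submodule.add_mem _ ihp ihq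
  | monomial d r hr =>
    rw [ev_monomial, ← Algebra.smul_def]
    apply Submodule.smul_mem
    apply Submodule.subset_span
    rw [weight46] at hr
    exact ⟨d 0, d 1, hr, rfl⟩

theorem exists_WH_of_mem_monoSpan {m : ℤ} {a : A} (ha : a ∈ monoSpan x y m) :
    ∃ P ∈ WH m, ev x y P = a := by
  unfold monoSpan at ha
  induction ha using Submodule.span_induction with
  | mem g hg =>
    obtain ⟨a, b, hab, rfl⟩ := hg
    refine ⟨X 0 ^ a * X 1 ^ b, ?_, by simp⟩
    have h := ((isWeightedHomogeneous_X ℂ wt46 0).pow a).mul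
      ((isWeightedHomogeneous_X ℂ wt46 1).pow b)
    rw [mem_WH]
    convert h using 1
    rw [← hab]
    simp [wt46, mul_comm]
  | zero => exact ⟨0, (WH m).zero_mem, map_zero _⟩
  | add g h _ _ ihg ihh =>
    obtain ⟨P, hP, rfl⟩ := ihg
    obtain ⟨Q, hQ, rfl⟩ := ihh
    exact ⟨P + Q, (WH m).add_mem hP hQ, map_add _ _ _⟩
  | smul c g _ ihg =>
    obtain ⟨P, hP, rfl⟩ := ihg
    exact ⟨c • P, (WH m).smul_mem c hP, map_smul _ _ _⟩

theorem sum_mapRange_ev (r : ι →₀ MvPolynomial (Fin 2) ℂ) :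
    (r.mapRange (ev x y) (map_zero _)).sum (fun i a => a * e i) = tot x y e r := by
  rw [tot_apply, Finsupp.sum_mapRange_index (fun i => zero_mul _)]

variable {x y e M} in
theorem IsGradedBasis.gen_monoSpan {wt : ι → ℕ} (h : IsGradedBasis x y e M wt) (K : ℤ) (f : A)
    (hf : f ∈ M K) :
    ∃ r : ι →₀ A, (∀ i, r i ∈ monoSpan x y (K - wt i)) ∧ f = r.sum (fun i a => a * e i) := by
  obtain ⟨r, hr, rfl⟩ := h.gen K f hf
  refine ⟨r.mapRange (ev x y) (map_zero _), fun i => ?_, (sum_mapRange_ev x y e r).symm⟩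
  rw [Finsupp.mapRange_apply]
  exact ev_mem_monoSpan x y (hr i)

variable {x y e M} in
theorem IsGradedBasis.indep_monoSpan {wt : ι → ℕ} (h : IsGradedBasis x y e M wt) (K : ℤ)
    (r : ι →₀ A) (hr : ∀ i, r i ∈ monoSpan x y (K - wt i))
    (h0 : r.sum (fun i a => a * e i) = 0) : r = 0 := by
  have hex : ∀ i, ∃ P ∈ WH (K - wt i), ev x y P = r i ∧ (r i = 0 → P = 0) := by
    intro i
    by_cases hi : r i = 0
    · exact ⟨0, (WH _).zero_mem, by rw [map_zero, hi], fun _ => rfl⟩
    · obtain ⟨P, hP, hPr⟩ := exists_WH_of_mem_monoSpan x y (hr i)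
      exact ⟨P, hP, hPr, fun h => absurd h hi⟩
  choose P hP1 hP2 hP3 using hex
  let R : ι →₀ MvPolynomial (Fin 2) ℂ := Finsupp.onFinset r.support P (fun i hi => by
    rw [Finsupp.mem_support_iff]
    exact fun h => hi (hP3 i h))
  have hR : ∀ i, R i = P i := fun i => rfl
  have hRr : r = R.mapRange (ev x y) (map_zero _) := by
    ext1 i
    rw [Finsupp.mapRange_apply, hR, hP2]
  have hR0 : R = 0 := by
    apply h.indep K R (fun i => by rw [hR]; exact hP1 i)
    rw [← sum_mapRange_ev, ← hRr]; exact h0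
  rw [hRr, hR0, Finsupp.mapRange_zero]

end Core

end GradedFree

open GradedFree in
/-- **Graded freeness from a regular sequence** (task S20-B1).  Let `M k ⊆ A` be subspaces of a
commutative `ℂ`-algebra with `x * M k ⊆ M (k + 4)`, `y * M k ⊆ M (k + 6)`, `M k = 0` for `k < 0`,
and `(x, y)` a regular sequence on `⨁ M k`.  Then there is a homogeneous family `e i ∈ M (k i)`
such that every `f ∈ M K` is a combination `∑ r i * e i` with `r i` in the span of the monomials
`x ^ a * y ^ b`, `4 a + 6 b = K - k i`, and such combinations are unique. -/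
theorem exists_graded_basis {A : Type} [CommRing A] [Algebra ℂ A]
    (M : ℤ → Submodule ℂ A) (x y : A)
    (hx : ∀ k, ∀ f ∈ M k, x * f ∈ M (k + 4)) (hy : ∀ k, ∀ f ∈ M k, y * f ∈ M (k + 6))
    (hneg : ∀ k < 0, M k = ⊥)
    (hxreg : ∀ k, ∀ f ∈ M k, x * f = 0 → f = 0)
    (hyreg : ∀ k, ∀ f ∈ M k, ∀ g ∈ M (k + 2), y * f = x * g → ∃ h ∈ M (k - 4), f = x * h) :
    ∃ (ι : Type) (k : ι → ℕ) (e : ι → A), (∀ i, e i ∈ M (k i)) ∧
      (∀ K, ∀ f ∈ M K, ∃ r : ι →₀ A, (∀ i, r i ∈ monoSpan x y (K - k i)) ∧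
        f = r.sum (fun i a => a * e i)) ∧
      (∀ K (r : ι →₀ A), (∀ i, r i ∈ monoSpan x y (K - k i)) →
        r.sum (fun i a => a * e i) = 0 → r = 0) := by
  obtain ⟨ι, wt, e, h⟩ := exists_isGradedBasis x y M hx hy hneg hxreg
    (fun k f g hf hg hfg => hyreg k f hf g hg hfg)
  exact ⟨ι, wt, e, h.mem, fun K f hf => h.gen_monoSpan K f hf,
    fun K r hr h0 => h.indep_monoSpan K r hr h0⟩

end

end Fermat.Agent.S20
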