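import Fermat.Agent.S20.DefsW
import Fermat.Agent.S20.L1Basic
import Fermat.Agent.S20.Translates
import Fermat.Agent.S20.GradedFree

/-!
# S20-D2 — `⨁ₖ M_k(Γ)` is free over `ℂ[E₄, E₆]`: existence of a weak graded basis

Instantiates the abstract graded-freeness theorem `exists_graded_basis` with
`A = (ℍ → ℂ)`, `M k = MFsub Γ k`, `x = E4f`, `y = E6f`.
-/

set_option autoImplicit false

open UpperHalfPlane ModularForm Matrix.SpecialLinearGroup Filter
open scoped MatrixGroups Manifold ModularForm Topology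

namespace Fermat.Agent.S20

noncomputable section

/-- `E₄` is not the zero function (it tends to `1` at `i∞`). -/
theorem freeness_E4f_ne_zero : E4f ≠ 0 := by
  intro h
  have h1 : Tendsto (fun _ : ℍ => (0 : ℂ)) atImInfty (𝓝 1) := by
    have := tendsto_E4f
    rw [h] at this
    exact this
  have h2 : Tendsto (fun _ : ℍ => (0 : ℂ)) atImInfty (𝓝 0) := tendsto_const_nhds
  exact zero_ne_one (tendsto_nhds_unique h2 h1)

/-- `E₄` and `E₆` have no common zero. -/
theorem freeness_E6f_ne_zero {z : ℍ} (h : E4f z = 0) : E6f z ≠ 0 := by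
  intro h6
  have := Δf_eq z
  rw [h, h6] at this
  have h0 : Δf z = 0 := by
    have h' : (1728 : ℂ) * Δf z = 0 := by rw [this]; ring
    rcases mul_eq_zero.mp h' with h'' | h''
    · norm_num at h''
    · exact h''
  exact Δf_ne_zero z h0

/-- Holomorphic division by `E₄` (regular-sequence property): if `E₆ f = E₄ g` with `f`, `g`
holomorphic then `f = E₄ q` with `q` holomorphic. -/
theorem freeness_exists_mdiff_eq_E4f_mul {f g : ℍ → ℂ} (hf : MDifferentiable 𝓘(ℂ) 𝓘(ℂ) f)
    (hg : MDifferentiable 𝓘(ℂ) 𝓘(ℂ) g) (h : E6f * f = E4f * g) :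
    ∃ q : ℍ → ℂ, MDifferentiable 𝓘(ℂ) 𝓘(ℂ) q ∧ f = E4f * q := by
  classical
  have hrel : ∀ z, E6f z * f z = E4f z * g z := fun z => congrFun h z
  have h4 : MDifferentiable 𝓘(ℂ) 𝓘(ℂ) E4f := isMF_E4f.1
  have h6 : MDifferentiable 𝓘(ℂ) 𝓘(ℂ) E6f := isMF_E6f.1
  refine ⟨fun z => if E4f z ≠ 0 then f z / E4f z else g z / E6f z, ?_, ?_⟩
  · intro z0
    rw [UpperHalfPlane.mdifferentiableAt_iff]
    have hf0 := UpperHalfPlane.mdifferentiableAt_iff.mp (hf z0)
    have hg0 := UpperHalfPlane.mdifferentiableAt_iff.mp (hg z0)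
    have h40 := UpperHalfPlane.mdifferentiableAt_iff.mp (h4 z0)
    have h60 := UpperHalfPlane.mdifferentiableAt_iff.mp (h6 z0)
    by_cases hz0 : E4f z0 = 0
    · -- near `z0` the quotient is `g / E6f`
      have hz6 : E6f z0 ≠ 0 := freeness_E6f_ne_zero hz0
      have hne : (E6f ∘ ofComplex) (z0 : ℂ) ≠ 0 := by
        simpa [Function.comp, ofComplex_apply] using hz6
      have hev : ∀ᶠ w in 𝓝 (z0 : ℂ), (E6f ∘ ofComplex) w ≠ 0 :=
        h60.continuousAt.eventually_ne hne
      have hd : DifferentiableAt ℂ (fun w => (g ∘ ofComplex) w / (E6f ∘ ofComplex) w) (z0 : ℂ) :=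
        hg0.div h60 hne
      refine hd.congr_of_eventuallyEq ?_
      filter_upwards [hev] with w hw
      show (if E4f (ofComplex w) ≠ 0 then f (ofComplex w) / E4f (ofComplex w)
        else g (ofComplex w) / E6f (ofComplex w)) = g (ofComplex w) / E6f (ofComplex w)
      have hw' : E6f (ofComplex w) ≠ 0 := hw
      split_ifs with hw4
      · rw [div_eq_div_iff hw4 hw', mul_comm (f _), hrel, mul_comm]
      · rfl
    · -- near `z0` the quotient is `f / E4f`
      have hne : (E4f ∘ ofComplex) (z0 : ℂ) ≠ 0 := by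
        simpa [Function.comp, ofComplex_apply] using hz0
      have hev : ∀ᶠ w in 𝓝 (z0 : ℂ), (E4f ∘ ofComplex) w ≠ 0 :=
        h40.continuousAt.eventually_ne hne
      have hd : DifferentiableAt ℂ (fun w => (f ∘ ofComplex) w / (E4f ∘ ofComplex) w) (z0 : ℂ) :=
        hf0.div h40 hne
      refine hd.congr_of_eventuallyEq ?_
      filter_upwards [hev] with w hw
      show (if E4f (ofComplex w) ≠ 0 then f (ofComplex w) / E4f (ofComplex w)
        else g (ofComplex w) / E6f (ofComplex w)) = f (ofComplex w) / E4f (ofComplex w)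
      have hw' : E4f (ofComplex w) ≠ 0 := hw
      rw [if_pos hw']
  · funext z
    show f z = E4f z * (if E4f z ≠ 0 then f z / E4f z else g z / E6f z)
    by_cases hz : E4f z = 0
    · have hz6 : E6f z ≠ 0 := freeness_E6f_ne_zero hz
      have hfz : f z = 0 := by
        have := hrel z
        rw [hz, zero_mul] at this
        exact (mul_eq_zero.mp this).resolve_left hz6
      rw [hz, zero_mul, hfz]
    · rw [if_pos hz, mul_div_cancel₀ _ hz]

/-- The regular-sequence property of `(E₄, E₆)` on modular forms of level `Γ`. -/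
theorem IsMF.freeness_exists_eq_E4f_mul {Γ : Subgroup SL(2, ℤ)} {k : ℤ} {f g : ℍ → ℂ}
    (hf : IsMF Γ k f) (hg : IsMF Γ (k + 2) g) (h : E6f * f = E4f * g) :
    ∃ q : ℍ → ℂ, IsMF Γ (k - 4) q ∧ f = E4f * q := by
  obtain ⟨q, hq, hfq⟩ := freeness_exists_mdiff_eq_E4f_mul hf.1 hg.1 h
  exact ⟨q, hf.of_mul_eq isMF_E4f ⟨1, one_ne_zero, tendsto_E4f⟩ hq hfq, hfq⟩

/-- **S20-D2.** `⨁ₖ M_k(Γ)` has a homogeneous basis over `ℂ[E₄, E₆]` (index type arbitrary). -/
theorem exists_wbasis (Γ : Subgroup SL(2, ℤ)) [Γ.FiniteIndex] : Nonempty (WBasis Γ) := by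
  obtain ⟨ι, k, e, he, hrepr, huniq⟩ := exists_graded_basis (A := ℍ → ℂ)
    (fun k => MFsub Γ k) E4f E6f
    (fun k f hf => by
      have h1 : IsMF Γ (k + 4) (f * E4f) := IsMF.mul hf (isMF_E4f.mono le_top)
      rw [mul_comm] at h1
      exact h1)
    (fun k f hf => by
      have h1 : IsMF Γ (k + 6) (f * E6f) := IsMF.mul hf (isMF_E6f.mono le_top)
      rw [mul_comm] at h1
      exact h1)
    (fun k hk => (Submodule.eq_bot_iff _).mpr fun f hf => IsMF.eq_zero_of_neg hf hk)
    (fun k f hf h0 => (mdiff_mul_eq_zero isMF_E4f.1 (mem_MFsub.mp hf).1 h0).resolve_left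
      freeness_E4f_ne_zero)
    (fun k f hf g hg h => by
      obtain ⟨q, hq, hfq⟩ :=
        IsMF.freeness_exists_eq_E4f_mul (mem_MFsub.mp hf) (mem_MFsub.mp hg) h
      exact ⟨q, hq, hfq⟩)
  refine ⟨{ ι := ι, k := k, e := e, isMF := he, repr := ?_, uniq := ?_ }⟩
  · intro K f hf
    obtain ⟨r, hr, hfr⟩ := hrepr K f hf
    exact ⟨r, fun i => monoSpan_le_MFsub _ (hr i), hfr⟩
  · intro K r hr h0
    exact huniq K r (fun i => levelOne_mem_monoSpan _ _ (hr i)) h0

end

end Fermat.Agent.S20
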