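import Fermat.Agent.S20.Defs

/-!
# S20 — glue between function-level predicates and Mathlib's bundled forms
-/

set_option autoImplicit false

open UpperHalfPlane ModularForm Matrix.SpecialLinearGroup
open scoped MatrixGroups Manifold ModularForm Topology

namespace Fermat.Agent.S20

noncomputable section

variable (Γ : Subgroup SL(2, ℤ)) [Γ.FiniteIndex] (k : ℤ)

theorem isMF_coe_modularForm (F : ModularForm (Γ.map (mapGL ℝ)) k) : IsMF Γ k ⇑F := by
  refine ⟨F.holo', fun γ hγ => ?_, fun γ => ?_⟩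
  · exact SlashInvariantFormClass.slash_action_eq F (mapGL ℝ γ) (Subgroup.mem_map_of_mem _ hγ)
  · have hc : IsCusp (mapGL ℝ γ • OnePoint.infty) (Γ.map (mapGL ℝ)) := by
      rw [Subgroup.IsArithmetic.isCusp_iff_isCusp_SL2Z, isCusp_SL2Z_iff']
      exact ⟨γ, rfl⟩
    exact F.bdd_at_cusps' hc (mapGL ℝ γ) rfl

theorem isCF_coe_cuspForm (F : CuspForm (Γ.map (mapGL ℝ)) k) : IsCF Γ k ⇑F := by
  refine ⟨F.holo', fun γ hγ => ?_, fun γ => ?_⟩
  · exact SlashInvariantFormClass.slash_action_eq F (mapGL ℝ γ) (Subgroup.mem_map_of_mem _ hγ)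
  · have hc : IsCusp (mapGL ℝ γ • OnePoint.infty) (Γ.map (mapGL ℝ)) := by
      rw [Subgroup.IsArithmetic.isCusp_iff_isCusp_SL2Z, isCusp_SL2Z_iff']
      exact ⟨γ, rfl⟩
    exact F.zero_at_cusps' hc (mapGL ℝ γ) rfl

/-- Build a bundled modular form from a function satisfying `IsMF`. -/
def IsMF.toModularForm {Γ : Subgroup SL(2, ℤ)} [Γ.FiniteIndex] {k : ℤ} {f : ℍ → ℂ}
    (hf : IsMF Γ k f) : ModularForm (Γ.map (mapGL ℝ)) k where
  toFun := f
  slash_action_eq' := by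
    rintro _ ⟨γ, hγ, rfl⟩
    exact hf.2.1 γ hγ
  holo' := hf.1
  bdd_at_cusps' := by
    intro c hc
    rw [Subgroup.IsArithmetic.isCusp_iff_isCusp_SL2Z] at hc
    rw [OnePoint.isBoundedAt_iff_forall_SL2Z hc]
    intro γ _
    exact hf.2.2 γ

/-- Build a bundled cusp form from a function satisfying `IsCF`. -/
def IsCF.toCuspForm {Γ : Subgroup SL(2, ℤ)} [Γ.FiniteIndex] {k : ℤ} {f : ℍ → ℂ}
    (hf : IsCF Γ k f) : CuspForm (Γ.map (mapGL ℝ)) k where
  toFun := f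
  slash_action_eq' := by
    rintro _ ⟨γ, hγ, rfl⟩
    exact hf.2.1 γ hγ
  holo' := hf.1
  zero_at_cusps' := by
    intro c hc
    rw [Subgroup.IsArithmetic.isCusp_iff_isCusp_SL2Z] at hc
    rw [OnePoint.isZeroAt_iff_forall_SL2Z hc]
    intro γ _
    exact hf.2.2 γ

@[simp] theorem IsMF.coe_toModularForm {Γ : Subgroup SL(2, ℤ)} [Γ.FiniteIndex] {k : ℤ}
    {f : ℍ → ℂ} (hf : IsMF Γ k f) : ⇑hf.toModularForm = f := rfl

@[simp] theorem IsCF.coe_toCuspForm {Γ : Subgroup SL(2, ℤ)} [Γ.FiniteIndex] {k : ℤ}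
    {f : ℍ → ℂ} (hf : IsCF Γ k f) : ⇑hf.toCuspForm = f := rfl

/-- Bundled modular forms of level `Γ` are the same as the subspace `MFsub Γ k`. -/
def mfEquiv : ModularForm (Γ.map (mapGL ℝ)) k ≃ₗ[ℂ] MFsub Γ k where
  toFun F := ⟨⇑F, isMF_coe_modularForm Γ k F⟩
  map_add' F G := rfl
  map_smul' c F := rfl
  invFun f := IsMF.toModularForm f.2
  left_inv F := by ext z; rfl
  right_inv f := by ext z; rfl

/-- Bundled cusp forms of level `Γ` are the same as the subspace `CFsub Γ k`. -/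
def cfEquiv : CuspForm (Γ.map (mapGL ℝ)) k ≃ₗ[ℂ] CFsub Γ k where
  toFun F := ⟨⇑F, isCF_coe_cuspForm Γ k F⟩
  map_add' F G := rfl
  map_smul' c F := rfl
  invFun f := IsCF.toCuspForm f.2
  left_inv F := by ext z; rfl
  right_inv f := by ext z; rfl

theorem finrank_cuspForm_eq :
    Module.finrank ℂ (CuspForm (Γ.map (mapGL ℝ)) k) = Module.finrank ℂ (CFsub Γ k) :=
  (cfEquiv Γ k).finrank_eq

theorem finrank_modularForm_eq :
    Module.finrank ℂ (ModularForm (Γ.map (mapGL ℝ)) k) = Module.finrank ℂ (MFsub Γ k) :=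
  (mfEquiv Γ k).finrank_eq

end

end Fermat.Agent.S20
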