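import Fermat.Agent.S20.L1Basic

/-!
# S20 — matrices of holomorphic functions and the conjugate matrix `GBasis.Asq`

Small shared lemmas for the determinant / dual-basis arguments (tasks D5/D6):

* `mdiff_det`, `mdiff_inv_entry`: determinant and inverse entries of a matrix of holomorphic
  functions on `ℍ` are holomorphic;
* `tr_smul_apply`, `asq_smul`: transformation of the translates / of `B.Asq ε` under `z ↦ g • z`;
* `asq_det_ne_zero_of_li`: `det (B.Asq ε z) ≠ 0` from linear independence of the rows of `B.A z`;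
* `asq_inv_smul`: transformation of the inverse matrix;
* `asq_det_sq_smul`: `det (B.Asq ε (g • z)) ^ 2 = denom g z ^ (2 Σ kᵢ) * det (B.Asq ε z) ^ 2`.
-/

set_option autoImplicit false

open UpperHalfPlane ModularForm Matrix.SpecialLinearGroup Filter
open scoped MatrixGroups Manifold ModularForm Topology

namespace Fermat.Agent.S20.MatHol

noncomputable section

/-- The determinant of a matrix of holomorphic functions on `ℍ` is holomorphic. -/
theorem mdiff_det {n : Type*} [Fintype n] [DecidableEq n] (M : ℍ → Matrix n n ℂ)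
    (hM : ∀ i j, MDifferentiable 𝓘(ℂ) 𝓘(ℂ) (fun z => M z i j)) :
    MDifferentiable 𝓘(ℂ) 𝓘(ℂ) (fun z => (M z).det) := by
  rw [UpperHalfPlane.mdifferentiable_iff]
  have h : ((fun z => (M z).det) ∘ ofComplex) = fun w =>
      ∑ σ : Equiv.Perm n, ((Equiv.Perm.sign σ : ℤ) : ℂ) *
        ∏ i, ((fun z => M z (σ i) i) ∘ ofComplex) w := by
    funext w
    simp only [Function.comp_apply, Matrix.det_apply']
  rw [h]
  refine DifferentiableOn.fun_sum (fun σ _ => ?_)
  refine DifferentiableOn.mul (differentiableOn_const _) ?_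
  refine DifferentiableOn.fun_finsetProd (fun i _ => ?_)
  exact UpperHalfPlane.mdifferentiable_iff.mp (hM (σ i) i)

/-- The entries of the inverse of an everywhere invertible matrix of holomorphic functions on
`ℍ` are holomorphic. -/
theorem mdiff_inv_entry {n : Type*} [Fintype n] [DecidableEq n] (M : ℍ → Matrix n n ℂ)
    (hM : ∀ i j, MDifferentiable 𝓘(ℂ) 𝓘(ℂ) (fun z => M z i j)) (hdet : ∀ z, (M z).det ≠ 0)
    (i j : n) : MDifferentiable 𝓘(ℂ) 𝓘(ℂ) (fun z => (M z)⁻¹ i j) := by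
  have h : (fun z => (M z)⁻¹ i j) =
      fun z => ((M z).det)⁻¹ * ((M z).updateRow j (Pi.single i 1)).det := by
    funext z
    rw [Matrix.inv_def, Matrix.smul_apply, Matrix.adjugate_apply, Ring.inverse_eq_inv',
      smul_eq_mul]
  rw [h]
  have h1 := mdiff_det M hM
  have h2 : MDifferentiable 𝓘(ℂ) 𝓘(ℂ)
      (fun z => ((M z).updateRow j (Pi.single i 1)).det) := by
    apply mdiff_det
    intro a b
    by_cases hab : a = j
    · subst hab
      simp only [Matrix.updateRow_self]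
      exact mdifferentiable_const
    · simp only [Matrix.updateRow_ne hab]
      exact hM a b
  rw [UpperHalfPlane.mdifferentiable_iff] at h1 h2 ⊢
  have h3 : DifferentiableOn ℂ (fun w => (((fun z => (M z).det) ∘ ofComplex) w)⁻¹)
      {z : ℂ | 0 < z.im} := h1.inv (fun w _ => hdet _)
  exact h3.mul h2

variable {Γ : Subgroup SL(2, ℤ)}

/-- Value of a translate at `g • z`. -/
theorem tr_smul_apply {k : ℤ} {f : ℍ → ℂ} (hf : ∀ γ ∈ Γ, f ∣[k] γ = f) (q : SL(2, ℤ) ⧸ Γ)
    (g : SL(2, ℤ)) (z : ℍ) :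
    tr k f q (g • z) = denom g z ^ k * tr k f (g⁻¹ • q) z := by
  have h := congrFun (tr_slash hf q g) z
  rw [SL_slash_apply] at h
  rw [← h, mul_comm, mul_assoc, ← zpow_add₀ (denom_ne_zero g z), neg_add_cancel, zpow_zero,
    mul_one]

/-- The permutation of the index set induced by `g⁻¹` acting on the cosets. -/
def sigma (B : GBasis Γ) (ε : B.ι ≃ SL(2, ℤ) ⧸ Γ) (g : SL(2, ℤ)) : Equiv.Perm B.ι :=
  ε.trans ((MulAction.toPerm g⁻¹).trans ε.symm)

theorem sigma_apply (B : GBasis Γ) (ε : B.ι ≃ SL(2, ℤ) ⧸ Γ) (g : SL(2, ℤ)) (j : B.ι) :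
    sigma B ε g j = ε.symm (g⁻¹ • ε j) := rfl

/-- Transformation of the conjugate matrix under `z ↦ g • z`. -/
theorem asq_smul (B : GBasis Γ) (ε : B.ι ≃ SL(2, ℤ) ⧸ Γ) (g : SL(2, ℤ)) (z : ℍ) (i j : B.ι) :
    B.Asq ε (g • z) i j = denom g z ^ (B.k i : ℤ) * B.Asq ε z i (sigma B ε g j) := by
  unfold GBasis.Asq
  rw [tr_smul_apply (B.isMF i).2.1, sigma_apply, Equiv.apply_symm_apply]

/-- `det (B.Asq ε z) ≠ 0` if the rows of `B.A z` are linearly independent. -/
theorem asq_det_ne_zero_of_li (B : GBasis Γ) (ε : B.ι ≃ SL(2, ℤ) ⧸ Γ) (z : ℍ)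
    (hli : LinearIndependent ℂ (fun i => B.A z i)) : (B.Asq ε z).det ≠ 0 := by
  have h1 : LinearIndependent ℂ (fun i => LinearMap.funLeft ℂ ℂ ε (B.A z i)) :=
    hli.map' _ (LinearMap.ker_eq_bot.mpr (LinearMap.funLeft_injective_of_surjective ℂ ℂ ε
      ε.surjective))
  have h2 : LinearIndependent ℂ (B.Asq ε z).row := h1
  have h3 := Matrix.linearIndependent_rows_iff_isUnit.mp h2
  exact ((Matrix.isUnit_iff_isUnit_det _).mp h3).ne_zero

/-- Transformation of the inverse of the conjugate matrix under `z ↦ g • z`. -/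
theorem asq_inv_smul (B : GBasis Γ) (ε : B.ι ≃ SL(2, ℤ) ⧸ Γ) (g : SL(2, ℤ)) (z : ℍ)
    (hdet : (B.Asq ε z).det ≠ 0) (j i : B.ι) :
    (B.Asq ε (g • z))⁻¹ j i =
      (B.Asq ε z)⁻¹ (sigma B ε g j) i * denom g z ^ (-(B.k i : ℤ)) := by
  have hd : denom g z ≠ 0 := denom_ne_zero g z
  have hinv : B.Asq ε z * (B.Asq ε z)⁻¹ = 1 := Matrix.mul_nonsing_inv _ (IsUnit.mk0 _ hdet)
  have key : B.Asq ε (g • z) *
      (Matrix.of fun j i => (B.Asq ε z)⁻¹ (sigma B ε g j) i * denom g z ^ (-(B.k i : ℤ))) = 1 := by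
    ext i i'
    rw [Matrix.mul_apply]
    simp only [Matrix.of_apply, asq_smul]
    have h1 : ∑ j, denom g z ^ (B.k i : ℤ) * B.Asq ε z i (sigma B ε g j) *
        ((B.Asq ε z)⁻¹ (sigma B ε g j) i' * denom g z ^ (-(B.k i' : ℤ))) =
        denom g z ^ (B.k i : ℤ) * denom g z ^ (-(B.k i' : ℤ)) *
          ∑ j, B.Asq ε z i (sigma B ε g j) * (B.Asq ε z)⁻¹ (sigma B ε g j) i' := by
      rw [Finset.mul_sum]
      refine Finset.sum_congr rfl (fun j _ => ?_)
      ring
    rw [h1, Equiv.sum_comp (sigma B ε g)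
      (fun j => B.Asq ε z i j * (B.Asq ε z)⁻¹ j i'), ← Matrix.mul_apply, hinv]
    by_cases hii : i = i'
    · subst hii
      rw [Matrix.one_apply_eq, mul_one, ← zpow_add₀ hd, add_neg_cancel, zpow_zero]
    · rw [Matrix.one_apply_ne hii, mul_zero]
  rw [Matrix.inv_eq_right_inv key, Matrix.of_apply]

theorem prod_zpow_natCast {ι : Type} [Fintype ι] {x : ℂ} (hx : x ≠ 0) (k : ι → ℕ) :
    (∏ i, x ^ (k i : ℤ)) = x ^ (∑ i, (k i : ℤ)) := by
  classical
  induction (Finset.univ : Finset ι) using Finset.induction_on with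
  | empty => simp
  | insert a s ha ih => rw [Finset.prod_insert ha, Finset.sum_insert ha, ih, zpow_add₀ hx]

/-- The determinant of the conjugate matrix transforms, up to the sign of a permutation, like a
level-one form of weight `Σ kᵢ`. -/
theorem asq_det_smul (B : GBasis Γ) (ε : B.ι ≃ SL(2, ℤ) ⧸ Γ) (g : SL(2, ℤ)) (z : ℍ) :
    (B.Asq ε (g • z)).det =
      denom g z ^ (∑ i, (B.k i : ℤ)) *
        (((Equiv.Perm.sign (sigma B ε g) : ℤ) : ℂ) * (B.Asq ε z).det) := by
  have hd : denom g z ≠ 0 := denom_ne_zero g z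
  have h1 : B.Asq ε (g • z) =
      Matrix.diagonal (fun i => denom g z ^ (B.k i : ℤ)) *
        (B.Asq ε z).submatrix id (sigma B ε g) := by
    ext i j
    rw [Matrix.diagonal_mul, Matrix.submatrix_apply, id, asq_smul]
  rw [h1, Matrix.det_mul, Matrix.det_diagonal, Matrix.det_permute', prod_zpow_natCast hd]

/-- The square of the determinant of the conjugate matrix transforms like a level-one form of
weight `2 Σ kᵢ`. -/
theorem asq_det_sq_smul (B : GBasis Γ) (ε : B.ι ≃ SL(2, ℤ) ⧸ Γ) (g : SL(2, ℤ)) (z : ℍ) :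
    (B.Asq ε (g • z)).det ^ 2 =
      denom g z ^ (2 * ∑ i, (B.k i : ℤ)) * (B.Asq ε z).det ^ 2 := by
  have hd : denom g z ≠ 0 := denom_ne_zero g z
  have h2 : (((Equiv.Perm.sign (sigma B ε g) : ℤ) : ℂ)) ^ 2 = 1 := by
    rcases Int.units_eq_one_or (Equiv.Perm.sign (sigma B ε g)) with h | h <;> simp [h]
  rw [asq_det_smul, mul_pow, mul_pow, h2, one_mul, ← zpow_natCast, ← zpow_mul]
  congr 2
  push_cast
  ring

/-- Entries of the conjugate matrix are holomorphic. -/
theorem asq_mdiff (B : GBasis Γ) (ε : B.ι ≃ SL(2, ℤ) ⧸ Γ) (i j : B.ι) :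
    MDifferentiable 𝓘(ℂ) 𝓘(ℂ) (fun z => B.Asq ε z i j) :=
  (B.isMF i).tr_mdiff (ε j)

/-- Entries of the conjugate matrix are bounded at `i∞`. -/
theorem asq_bdd (B : GBasis Γ) (ε : B.ι ≃ SL(2, ℤ) ⧸ Γ) (i j : B.ι) :
    IsBoundedAtImInfty (fun z => B.Asq ε z i j) :=
  (B.isMF i).tr_bdd (ε j)

end

end Fermat.Agent.S20.MatHol
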