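import Mathlib

/-!
# S20 — final arithmetic

`numerics`: from the weight statistics of a homogeneous basis (weights even, `≤ 10`, exactly one
of weight `0`, the residue counts mod `4` and mod `6`, and the weight sum) one gets the genus
formula for the number of generators of weight `10`.
-/

set_option autoImplicit false

namespace Fermat.Agent.S20

/-- Pointwise identity behind `numerics`: for even `n ≤ 10` the indicator contributions
balance. -/
theorem numerics_pointwise (n : ℕ) (he : Even n) (hle : n ≤ 10) :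
    12 * (if n = 10 then 1 else 0) + 6 + 6 * (if n % 6 = 0 then 1 else 0)
        + 2 * (if n % 6 = 2 then 1 else 0)
      = 12 * (if n = 0 then 1 else 0) + 6 * (if n % 4 = 2 then 1 else 0) + n
        + 2 * (if n % 6 = 4 then 1 else 0) := by
  obtain ⟨m, rfl⟩ := he
  have hm : m ≤ 5 := by omega
  interval_cases m <;> simp

theorem numerics {ι : Type} [Fintype ι] (k : ι → ℕ) (μ ν₂ ν₃ c : ℕ) (heven : ∀ i, Even (k i))
    (hle : ∀ i, k i ≤ 10) (hcard : Fintype.card ι = μ)
    (h0 : (Finset.univ.filter (fun i => k i = 0)).card = 1)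
    (h4 : 2 * (Finset.univ.filter (fun i => k i % 4 = 2)).card + ν₂ = μ)
    (h60 : 3 * (Finset.univ.filter (fun i => k i % 6 = 0)).card = μ + 2 * ν₃)
    (h624 : (Finset.univ.filter (fun i => k i % 6 = 2)).card
      = (Finset.univ.filter (fun i => k i % 6 = 4)).card)
    (hsum : ∑ i, k i + 6 * c = 6 * μ) :
    (((Finset.univ.filter (fun i => k i = 10)).card : ℕ) : ℚ)
      = 1 + (μ : ℚ) / 12 - (ν₂ : ℚ) / 4 - (ν₃ : ℚ) / 3 - (c : ℚ) / 2 := by
  have hs : ∑ i : ι, (12 * (if k i = 10 then 1 else 0) + 6 + 6 * (if k i % 6 = 0 then 1 else 0)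
        + 2 * (if k i % 6 = 2 then 1 else 0))
      = ∑ i : ι, (12 * (if k i = 0 then 1 else 0) + 6 * (if k i % 4 = 2 then 1 else 0) + k i
        + 2 * (if k i % 6 = 4 then 1 else 0)) :=
    Finset.sum_congr rfl (fun i _ => numerics_pointwise (k i) (heven i) (hle i))
  simp only [Finset.sum_add_distrib, ← Finset.mul_sum, ← Finset.card_filter, Finset.sum_const,
    Finset.card_univ, smul_eq_mul] at hs
  have hnat : 12 * (Finset.univ.filter (fun i => k i = 10)).card + 3 * ν₂ + 4 * ν₃ + 6 * c
      = 12 + μ := by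
    omega
  have hq : (12 * ((Finset.univ.filter (fun i => k i = 10)).card : ℚ) + 3 * ν₂ + 4 * ν₃ + 6 * c)
      = 12 + μ := by
    exact_mod_cast hnat
  linarith

end Fermat.Agent.S20
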