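import Fermat.Agent.S20.DefsW

/-!
# S20 — from a weak graded basis to a graded basis with exactly `[SL(2,ℤ) : Γ]` elements

Given a weak basis `B : WBasis Γ` whose rows of conjugates are linearly independent at every
point, and a "primitive element" (a form whose stabiliser in `SL(2,ℤ)` is exactly `Γ`), the index
type of `B` is finite of cardinality `Γ.index`; hence a `GBasis Γ` exists.
-/

set_option autoImplicit false

open UpperHalfPlane ModularForm Matrix.SpecialLinearGroup
open scoped MatrixGroups Manifold ModularForm Topology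

namespace Fermat.Agent.S20

noncomputable section

namespace Rank

/-- Slash of a power by an element of `SL(2, ℤ)`. -/
theorem pow_slash (k : ℤ) (f : ℍ → ℂ) (n : ℕ) (γ : SL(2, ℤ)) :
    (f ^ n) ∣[k * (n : ℤ)] γ = (f ∣[k] γ) ^ n := by
  induction n with
  | zero =>
    simp only [Nat.cast_zero, mul_zero, pow_zero]
    exact is_invariant_one γ
  | succ n ih =>
    have h : k * ((n + 1 : ℕ) : ℤ) = k * (n : ℤ) + k := by push_cast; ring
    rw [h, pow_succ, mul_slash_SL2, ih, pow_succ]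

/-- Powers of bounded functions are bounded at `i∞`. -/
theorem isBoundedAtImInfty_pow {g : ℍ → ℂ} (hg : IsBoundedAtImInfty g) (n : ℕ) :
    IsBoundedAtImInfty (g ^ n) := by
  induction n with
  | zero =>
    rw [pow_zero]
    exact Filter.const_boundedAtFilter _ (1 : ℂ)
  | succ n ih =>
    rw [pow_succ]
    exact ih.mul hg

/-- Powers of modular forms are modular forms. -/
theorem isMF_pow {Γ : Subgroup SL(2, ℤ)} {k : ℤ} {f : ℍ → ℂ} (hf : IsMF Γ k f) (n : ℕ) :
    IsMF Γ (k * (n : ℤ)) (f ^ n) := by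
  refine ⟨hf.1.pow n, fun γ hγ => ?_, fun γ => ?_⟩
  · rw [pow_slash, hf.2.1 γ hγ]
  · rw [pow_slash]
    exact isBoundedAtImInfty_pow (hf.2.2 γ) n

/-- The translate of a power. -/
theorem tr_pow (k : ℤ) (f : ℍ → ℂ) (n : ℕ) {Γ : Subgroup SL(2, ℤ)} (q : SL(2, ℤ) ⧸ Γ) :
    tr (k * (n : ℤ)) (f ^ n) q = (tr k f q) ^ n :=
  pow_slash k f n _

/-- The translate of a finite sum. -/
theorem tr_sum {ι : Type*} (s : Finset ι) (K : ℤ) (F : ι → ℍ → ℂ) {Γ : Subgroup SL(2, ℤ)}
    (q : SL(2, ℤ) ⧸ Γ) : tr K (∑ i ∈ s, F i) q = ∑ i ∈ s, tr K (F i) q :=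
  SlashAction.sum_slash K _

/-- The translate of a product with a level-one form. -/
theorem tr_levelOne_mul {K k : ℤ} {r : ℍ → ℂ} (hr : IsMF ⊤ (K - k) r) (e : ℍ → ℂ)
    {Γ : Subgroup SL(2, ℤ)} (q : SL(2, ℤ) ⧸ Γ) : tr K (r * e) q = r * tr k e q := by
  have h : K = (K - k) + k := by ring
  unfold tr
  conv_lhs => rw [h]
  rw [mul_slash_SL2, hr.2.1 _ (Subgroup.mem_top _)]

/-- The translates are holomorphic. -/
theorem tr_mdiff {k : ℤ} {f : ℍ → ℂ} (hf : MDifferentiable 𝓘(ℂ) 𝓘(ℂ) f)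
    {Γ : Subgroup SL(2, ℤ)} (q : SL(2, ℤ) ⧸ Γ) : MDifferentiable 𝓘(ℂ) 𝓘(ℂ) (tr k f q) := by
  unfold tr
  rw [SL_slash]
  exact hf.slash k _

/-- The translates of a primitive element are pairwise distinct functions. -/
theorem tr_injective_of_prim {Γ : Subgroup SL(2, ℤ)} {k : ℤ} {f : ℍ → ℂ}
    (hprim : ∀ γ : SL(2, ℤ), f ∣[k] γ = f → γ ∈ Γ) :
    Function.Injective (fun q : SL(2, ℤ) ⧸ Γ => tr k f q) := by
  intro q q' h
  have h1 : f ∣[k] ((q.out)⁻¹ * q'.out) = f := by
    have h2 : f ∣[k] (q.out)⁻¹ = f ∣[k] (q'.out)⁻¹ := h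
    rw [SlashAction.slash_mul, h2, ← SlashAction.slash_mul, inv_mul_cancel, SlashAction.slash_one]
  have h3 := hprim _ h1
  have h4 : ((q.out : SL(2, ℤ)) : SL(2, ℤ) ⧸ Γ) = ((q'.out : SL(2, ℤ)) : SL(2, ℤ) ⧸ Γ) :=
    QuotientGroup.eq.mpr h3
  rwa [QuotientGroup.out_eq', QuotientGroup.out_eq'] at h4

/-- There is a point at which the translates of a primitive element take pairwise distinct
values. -/
theorem exists_point_injective {Γ : Subgroup SL(2, ℤ)} [Finite (SL(2, ℤ) ⧸ Γ)] {k : ℤ}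
    {f : ℍ → ℂ} (hf : MDifferentiable 𝓘(ℂ) 𝓘(ℂ) f)
    (hprim : ∀ γ : SL(2, ℤ), f ∣[k] γ = f → γ ∈ Γ) :
    ∃ z : ℍ, Function.Injective (fun q : SL(2, ℤ) ⧸ Γ => tr k f q z) := by
  classical
  have : Fintype (SL(2, ℤ) ⧸ Γ) := Fintype.ofFinite _
  set s : Finset ((SL(2, ℤ) ⧸ Γ) × (SL(2, ℤ) ⧸ Γ)) :=
    Finset.univ.filter (fun p => p.1 ≠ p.2) with hs
  set D : ((SL(2, ℤ) ⧸ Γ) × (SL(2, ℤ) ⧸ Γ)) → ℍ → ℂ := fun p => tr k f p.1 - tr k f p.2 with hD
  have hDm : ∀ p ∈ s, MDifferentiable 𝓘(ℂ) 𝓘(ℂ) (D p) :=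
    fun p _ => (tr_mdiff hf p.1).sub (tr_mdiff hf p.2)
  have hne : ∏ p ∈ s, D p ≠ 0 := by
    intro h0
    obtain ⟨p, hp, hp0⟩ := (UpperHalfPlane.prod_eq_zero_iff hDm).mp h0
    have hp' : p.1 ≠ p.2 := (Finset.mem_filter.mp hp).2
    exact hp' (tr_injective_of_prim hprim (sub_eq_zero.mp hp0))
  obtain ⟨z, hz⟩ := Function.ne_iff.mp hne
  refine ⟨z, fun q q' h => ?_⟩
  by_contra hqq
  apply hz
  rw [Finset.prod_apply, Pi.zero_apply]
  refine Finset.prod_eq_zero (i := (q, q')) (Finset.mem_filter.mpr ⟨Finset.mem_univ _, hqq⟩) ?_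
  simp only [hD, Pi.sub_apply]
  exact sub_eq_zero.mpr h

end Rank

/-- **Rank of the graded module of modular forms.**  A weak graded basis with linearly
independent rows of conjugates at every point, together with a primitive element, yields a graded
basis with exactly `Γ.index` elements. -/
theorem exists_gbasis_of_wbasis (Γ : Subgroup SL(2, ℤ)) [Γ.FiniteIndex] (B : WBasis Γ)
    (hrows : ∀ z : ℍ, LinearIndependent ℂ
      (fun i : B.ι => fun q : SL(2, ℤ) ⧸ Γ => tr (B.k i) (B.e i) q z))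
    (hprim : ∃ (k : ℤ) (f : ℍ → ℂ), IsMF Γ k f ∧ ∀ γ : SL(2, ℤ), f ∣[k] γ = f → γ ∈ Γ) :
    Nonempty (GBasis Γ) := by
  classical
  have : Fintype (SL(2, ℤ) ⧸ Γ) := Fintype.ofFinite _
  -- the index type is finite
  have hfin : Finite B.ι := (hrows UpperHalfPlane.I).finite
  let instι : Fintype B.ι := Fintype.ofFinite _
  have hindex : Γ.index = Fintype.card (SL(2, ℤ) ⧸ Γ) := by
    rw [Subgroup.index, Nat.card_eq_fintype_card]
  -- upper bound
  have hle : Fintype.card B.ι ≤ Fintype.card (SL(2, ℤ) ⧸ Γ) := by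
    have := (hrows UpperHalfPlane.I).fintype_card_le_finrank
    rwa [Module.finrank_fintype_fun_eq_card] at this
  -- lower bound
  have hge : Fintype.card (SL(2, ℤ) ⧸ Γ) ≤ Fintype.card B.ι := by
    by_contra hlt
    replace hlt := not_le.mp hlt
    obtain ⟨k, f, hf, hstab⟩ := hprim
    obtain ⟨z, hz⟩ := Rank.exists_point_injective hf.1 hstab
    set μ := Fintype.card (SL(2, ℤ) ⧸ Γ) with hμ
    -- expansions of the powers of `f`
    choose r hr hfr using fun a : Fin μ =>
      B.repr (k * ((a : ℕ) : ℤ)) (f ^ (a : ℕ)) (Rank.isMF_pow hf a)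
    -- a nontrivial relation between the coefficient vectors at `z`
    have hdep : ¬ LinearIndependent ℂ (fun a : Fin μ => fun i : B.ι => r a i z) := by
      intro hli
      have := hli.fintype_card_le_finrank
      rw [Module.finrank_fintype_fun_eq_card, Fintype.card_fin] at this
      omega
    obtain ⟨c, hc, a₀, ha₀⟩ := Fintype.not_linearIndependent_iff.mp hdep
    -- the values of the translates of `f` at `z` are roots of `∑ c_a X^a`
    have hroot : ∀ q : SL(2, ℤ) ⧸ Γ, ∑ a : Fin μ, c a * (tr k f q z) ^ (a : ℕ) = 0 := by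
      intro q
      have hpow : ∀ a : Fin μ, (tr k f q z) ^ (a : ℕ) =
          ∑ i : B.ι, r a i z * tr (B.k i) (B.e i) q z := by
        intro a
        have h1 : (tr k f q) ^ (a : ℕ) = ∑ i : B.ι, r a i * tr (B.k i) (B.e i) q := by
          rw [← Rank.tr_pow, hfr a, Finsupp.sum_fintype _ _ (fun i => by simp), Rank.tr_sum]
          exact Finset.sum_congr rfl fun i _ => Rank.tr_levelOne_mul (hr a i) _ q
        have h2 := congrFun h1 z
        simpa [Finset.sum_apply] using h2
      have hc' : ∀ i : B.ι, ∑ a : Fin μ, c a * r a i z = 0 := by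
        intro i
        have := congrFun hc i
        simpa [Finset.sum_apply] using this
      calc ∑ a : Fin μ, c a * (tr k f q z) ^ (a : ℕ)
          = ∑ a : Fin μ, ∑ i : B.ι, c a * (r a i z * tr (B.k i) (B.e i) q z) := by
            refine Finset.sum_congr rfl fun a _ => ?_
            rw [hpow a, Finset.mul_sum]
        _ = ∑ i : B.ι, ∑ a : Fin μ, c a * (r a i z * tr (B.k i) (B.e i) q z) :=
            Finset.sum_comm
        _ = ∑ i : B.ι, (∑ a : Fin μ, c a * r a i z) * tr (B.k i) (B.e i) q z := by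
            refine Finset.sum_congr rfl fun i _ => ?_
            rw [Finset.sum_mul]
            exact Finset.sum_congr rfl fun a _ => by ring
        _ = 0 := by simp [hc']
    -- Vandermonde
    set e : Fin μ ≃ SL(2, ℤ) ⧸ Γ := (Fintype.equivFin _).symm with he
    set v : Fin μ → ℂ := fun j => tr k f (e j) z with hv
    have hvinj : Function.Injective v := fun j j' h => e.injective (hz h)
    have hdet : (Matrix.vandermonde v).det ≠ 0 := Matrix.det_vandermonde_ne_zero_iff.mpr hvinj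
    have hmv : (Matrix.vandermonde v).mulVec c = 0 := by
      ext j
      simp only [Matrix.mulVec, dotProduct, Matrix.vandermonde_apply, Pi.zero_apply]
      rw [← hroot (e j)]
      exact Finset.sum_congr rfl fun a _ => by ring
    have hc0 : c = 0 := Matrix.eq_zero_of_mulVec_eq_zero hdet hmv
    exact ha₀ (congrFun hc0 a₀)
  refine ⟨{ ι := B.ι, fin := instι, dec := Classical.decEq _, k := B.k, e := B.e,
            isMF := B.isMF, card_eq := ?_, repr := ?_, uniq := ?_ }⟩
  · rw [hindex]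
    exact le_antisymm hle hge
  · intro K f hf
    obtain ⟨r, hr, hfr⟩ := B.repr K f hf
    refine ⟨fun i => r i, hr, ?_⟩
    rw [hfr, Finsupp.sum_fintype _ _ (fun i => by simp)]
  · intro K r hr h
    have h' : (Finsupp.equivFunOnFinite.symm r).sum (fun i a => a * B.e i) = 0 := by
      rw [Finsupp.sum_fintype _ _ (fun i => by simp)]
      simpa using h
    have := B.uniq K (Finsupp.equivFunOnFinite.symm r) (fun i => by simpa using hr i) h'
    intro i
    have hi := DFunLike.congr_fun this i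
    simpa using hi

end

end Fermat.Agent.S20
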