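import Fermat.Agent.S20.Defs

/-!
# S20 — complex analysis at the cusp

Riemann's removable singularity theorem at `i∞` for `1`-periodic holomorphic functions with
moderate growth, exponential decay of periodic holomorphic functions vanishing at `i∞`, and the
asymptotics of `Δ` at `i∞`.
-/

set_option autoImplicit false

open UpperHalfPlane ModularForm Matrix.SpecialLinearGroup Filter
open scoped MatrixGroups Manifold ModularForm Topology

namespace Fermat.Agent.S20

noncomputable section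

/-- A function on `ℍ` invariant under `z ↦ 1 + z` gives a `1`-periodic function on `ℂ`. -/
theorem periodic_comp_ofComplex_of_vadd {G : ℍ → ℂ} (hper : ∀ z : ℍ, G ((1 : ℝ) +ᵥ z) = G z) :
    Function.Periodic (G ∘ ofComplex) (1 : ℝ) := by
  intro w
  by_cases hw : 0 < Complex.im w
  · have hw' : 0 < Complex.im (w + (1 : ℝ)) := by simp [hw]
    simp only [Function.comp_apply, ofComplex_apply_of_im_pos hw', ofComplex_apply_of_im_pos hw]
    rw [← hper ⟨w, hw⟩]
    congr 1
    ext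
    simp [add_comm]
  · have hw0 : Complex.im w ≤ 0 := not_lt.mp hw
    have hw' : Complex.im (w + (1 : ℝ)) ≤ 0 := by simpa using hw0
    rw [Function.comp_apply, Function.comp_apply, ofComplex_apply_of_im_nonpos hw',
      ofComplex_apply_of_im_nonpos hw0]

/-- Riemann removable singularity at the cusp: a `1`-periodic holomorphic function growing slower
than `1/|q|` has a limit at `i∞`. -/
theorem exists_tendsto_of_periodic_of_growth {G : ℍ → ℂ}
    (hG : MDifferentiable 𝓘(ℂ) 𝓘(ℂ) G) (hper : ∀ z : ℍ, G ((1 : ℝ) +ᵥ z) = G z)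
    {θ C : ℝ} (hθ : θ < 1)
    (hbd : ∀ᶠ z in atImInfty, ‖G z‖ ≤ C * Real.exp (2 * Real.pi * θ * z.im)) :
    ∃ l : ℂ, Tendsto G atImInfty (𝓝 l) := by
  set f : ℂ → ℂ := G ∘ ofComplex with hf
  have hfper : Function.Periodic f (1 : ℝ) := periodic_comp_ofComplex_of_vadd hper
  set F : ℂ → ℂ := Function.Periodic.cuspFunction 1 f with hF
  have h_hol : ∀ᶠ z in comap Complex.im atTop, DifferentiableAt ℂ f z :=
    eventually_of_mem (preimage_mem_comap (Ioi_mem_atTop 0))
      (fun z hz => UpperHalfPlane.mdifferentiableAt_iff.mp (hG ⟨z, hz⟩))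
  have hd : ∀ᶠ q in 𝓝[≠] (0 : ℂ), DifferentiableAt ℂ F q :=
    Function.Periodic.eventually_differentiableAt_cuspFunction_nhds_ne_zero one_pos hfper h_hol
  obtain ⟨A, hA⟩ := (atImInfty_mem _).mp hbd
  -- growth of the cusp function near `0`
  have hFq : ∀ᶠ q in 𝓝[≠] (0 : ℂ), ‖F q‖ ≤ |C| * Real.exp (-θ * Real.log ‖q‖) := by
    have h1 : ∀ᶠ q in 𝓝[≠] (0 : ℂ),
        max A 1 ≤ Complex.im (Function.Periodic.invQParam 1 q) :=
      (Function.Periodic.invQParam_tendsto one_pos).eventually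
        (preimage_mem_comap (Ici_mem_atTop (max A 1)))
    filter_upwards [h1, self_mem_nhdsWithin] with q hq hq0
    have him : 0 < Complex.im (Function.Periodic.invQParam 1 q) :=
      lt_of_lt_of_le (lt_of_lt_of_le one_pos (le_max_right A 1)) hq
    have hGz := hA ⟨_, him⟩ (le_trans (le_max_left _ _) hq)
    have hval : F q = G ⟨_, him⟩ := by
      rw [hF, Function.Periodic.cuspFunction_eq_of_nonzero _ _ hq0, hf, Function.comp_apply,
        ofComplex_apply_of_im_pos him]
    have hexp : 2 * Real.pi * θ * Complex.im (Function.Periodic.invQParam 1 q)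
        = -θ * Real.log ‖q‖ := by
      rw [Function.Periodic.im_invQParam]
      have hpi : Real.pi ≠ 0 := Real.pi_ne_zero
      field_simp
    rw [hval]
    calc ‖G ⟨_, him⟩‖ ≤ C * Real.exp (2 * Real.pi * θ *
          Complex.im (Function.Periodic.invQParam 1 q)) := hGz
      _ ≤ |C| * Real.exp (2 * Real.pi * θ * Complex.im (Function.Periodic.invQParam 1 q)) :=
          mul_le_mul_of_nonneg_right (le_abs_self C) (Real.exp_pos _).le
      _ = |C| * Real.exp (-θ * Real.log ‖q‖) := by rw [hexp]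
  -- the little-o condition of the removable singularity theorem
  have ho : (fun q => F q - F 0) =o[𝓝[≠] (0 : ℂ)] fun q => (q - 0)⁻¹ := by
    have hgf : ∀ᶠ q in 𝓝[≠] (0 : ℂ), (q - 0)⁻¹ = 0 → F q - F 0 = 0 := by
      filter_upwards [self_mem_nhdsWithin] with q hq h
      simp only [sub_zero, inv_eq_zero] at h
      exact absurd h hq
    rw [Asymptotics.isLittleO_iff_tendsto' hgf]
    have hlog : Tendsto (fun q : ℂ => Real.log ‖q‖) (𝓝[≠] (0 : ℂ)) atBot :=
      Real.tendsto_log_nhdsGT_zero.comp tendsto_norm_nhdsNE_zero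
    have ha1 : Tendsto (fun q : ℂ => |C| * Real.exp ((1 - θ) * Real.log ‖q‖))
        (𝓝[≠] (0 : ℂ)) (𝓝 (|C| * 0)) :=
      (Real.tendsto_exp_atBot.comp
        (hlog.const_mul_atBot (sub_pos.mpr hθ))).const_mul _
    have ha2 : Tendsto (fun q : ℂ => ‖F 0‖ * ‖q‖) (𝓝[≠] (0 : ℂ)) (𝓝 (‖F 0‖ * 0)) :=
      (tendsto_norm_zero.mono_left nhdsWithin_le_nhds).const_mul _
    have ha : Tendsto (fun q : ℂ => |C| * Real.exp ((1 - θ) * Real.log ‖q‖) + ‖F 0‖ * ‖q‖)
        (𝓝[≠] (0 : ℂ)) (𝓝 0) := by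
      simpa using ha1.add ha2
    refine squeeze_zero_norm' ?_ ha
    filter_upwards [hFq, self_mem_nhdsWithin] with q hq hq0
    have hq0' : q ≠ 0 := hq0
    have hqpos : 0 < ‖q‖ := norm_pos_iff.mpr hq0'
    have hnorm : ‖(F q - F 0) / (q - 0)⁻¹‖ = ‖F q - F 0‖ * ‖q‖ := by
      rw [sub_zero, div_inv_eq_mul, norm_mul]
    have hexp : Real.exp (-θ * Real.log ‖q‖) * ‖q‖ = Real.exp ((1 - θ) * Real.log ‖q‖) := by
      conv_lhs => rw [← Real.exp_log hqpos]
      rw [Real.log_exp, ← Real.exp_add]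
      congr 1
      ring
    rw [hnorm]
    calc ‖F q - F 0‖ * ‖q‖ ≤ (‖F q‖ + ‖F 0‖) * ‖q‖ :=
          mul_le_mul_of_nonneg_right (norm_sub_le _ _) hqpos.le
      _ = ‖F q‖ * ‖q‖ + ‖F 0‖ * ‖q‖ := by ring
      _ ≤ |C| * Real.exp (-θ * Real.log ‖q‖) * ‖q‖ + ‖F 0‖ * ‖q‖ :=
          add_le_add (mul_le_mul_of_nonneg_right hq hqpos.le) le_rfl
      _ = |C| * Real.exp ((1 - θ) * Real.log ‖q‖) + ‖F 0‖ * ‖q‖ := by
          rw [mul_assoc, hexp]
  have hlim := Complex.tendsto_limUnder_of_differentiable_on_punctured_nhds_of_isLittleO hd ho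
  refine ⟨limUnder (𝓝[≠] (0 : ℂ)) F, ?_⟩
  have h2 := hlim.comp (Function.Periodic.qParam_tendsto (h := 1) one_pos)
  have h3 := h2.comp tendsto_coe_atImInfty
  refine h3.congr fun z => ?_
  simp only [Function.comp_apply]
  rw [hF, Function.Periodic.eq_cuspFunction one_ne_zero hfper, hf, Function.comp_apply,
    ofComplex_apply]

/-- A `1`-periodic holomorphic function tending to `0` at `i∞` decays like `|q|`. -/
theorem isBigO_exp_of_periodic_of_tendsto_zero {G : ℍ → ℂ}
    (hG : MDifferentiable 𝓘(ℂ) 𝓘(ℂ) G) (hper : ∀ z : ℍ, G ((1 : ℝ) +ᵥ z) = G z)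
    (h0 : Tendsto G atImInfty (𝓝 0)) :
    G =O[atImInfty] (fun z : ℍ => Real.exp (-2 * Real.pi * z.im)) := by
  have hz : IsZeroAtImInfty G := h0
  have := hz.exp_decay_atImInfty one_pos (periodic_comp_ofComplex_of_vadd hper) hG
    hz.isBoundedAtImInfty
  simpa using this

/-- `Δ(z) / q → 1` at `i∞`. -/
theorem tendsto_Δf_div_q :
    Tendsto (fun z : ℍ => Δf z / Complex.exp (2 * Real.pi * Complex.I * z)) atImInfty (𝓝 1) := by
  refine ModularForm.tendsto_atImInfty_tprod_one_sub_eta_q_pow.congr fun z => ?_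
  have hq : Function.Periodic.qParam 1 (z : ℂ) = Complex.exp (2 * Real.pi * Complex.I * z) := by
    simp [Function.Periodic.qParam]
  rw [Δf, ModularForm.discriminant_eq_q_prod, hq, mul_div_cancel_left₀ _ (Complex.exp_ne_zero _)]

/-- `Δ = O(|q|)` at `i∞`. -/
theorem Δf_isBigO_exp : Δf =O[atImInfty] (fun z : ℍ => Real.exp (-2 * Real.pi * z.im)) := by
  refine Asymptotics.IsBigO.of_bound 2 ?_
  have hprod := ModularForm.tendsto_atImInfty_tprod_one_sub_eta_q_pow.eventually
    (Metric.ball_mem_nhds 1 (by norm_num : (0 : ℝ) < 1))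
  filter_upwards [hprod] with z hz
  rw [Δf, ModularForm.discriminant_eq_q_prod, norm_mul,
    Real.norm_of_nonneg (Real.exp_pos _).le]
  have hq_norm : ‖Function.Periodic.qParam 1 (z : ℂ)‖ = Real.exp (-2 * Real.pi * z.im) := by
    simp [Function.Periodic.qParam, Complex.norm_exp]
  rw [hq_norm]
  have hsub : ‖(∏' n, (1 - eta_q n z) ^ 24) - 1‖ < 1 := by
    rwa [Complex.dist_eq] at hz
  have hP : ‖∏' n, (1 - eta_q n z) ^ 24‖ ≤ 2 := by
    have h1 := norm_add_le ((∏' n, (1 - eta_q n z) ^ 24) - 1) 1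
    rw [sub_add_cancel, norm_one] at h1
    linarith
  calc Real.exp (-2 * Real.pi * z.im) * ‖∏' n, (1 - eta_q n z) ^ 24‖
      ≤ Real.exp (-2 * Real.pi * z.im) * 2 :=
        mul_le_mul_of_nonneg_left hP (Real.exp_pos _).le
    _ = 2 * Real.exp (-2 * Real.pi * z.im) := by ring

end

end Fermat.Agent.S20
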