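import Fermat.Agent.S20.LevelOneBridge
import Fermat.Agent.S20.EllCount

/-!
# S20 — cusp nondegeneracy of a graded basis

The rows of the matrix of translates `A(z) = (tr (k i) (e i) q z)` of a graded basis are linearly
independent "modulo `O(q)`": if a constant combination `∑ i, c i * tr (k i) (e i) q` decays like
`exp (-2 π Im z)` for every coset `q`, then `c = 0`.
-/

set_option autoImplicit false

open UpperHalfPlane ModularForm Matrix.SpecialLinearGroup Filter Asymptotics
open scoped MatrixGroups Manifold ModularForm Topology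

namespace Fermat.Agent.S20

noncomputable section

namespace CuspNondeg

/-- Exponential decay of `v - c` for a level-one form `v` tending to `c` at `i∞`. -/
theorem levelOne_sub_isBigO {m : ℤ} {v : ℍ → ℂ} (hv : IsMF ⊤ m v) {c : ℂ}
    (hc : Tendsto v atImInfty (𝓝 c)) :
    (fun z => v z - c) =O[atImInfty] (fun z : ℍ => Real.exp (-2 * Real.pi * z.im)) := by
  obtain ⟨F, rfl⟩ := (isMF_top_iff m v).1 hv
  have h1 := UpperHalfPlane.exp_decay_sub_atImInfty (h := 1) one_pos
    (SlashInvariantFormClass.periodic_comp_ofComplex F one_mem_strictPeriods_SL)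
    (ModularFormClass.holo F) (ModularFormClass.bdd_at_infty F)
  have h2 : valueAtInfty (⇑F) = c := hc.limUnder_eq
  rw [h2] at h1
  simpa using h1

/-- A level-one form of any even weight `≥ 4` with value `1` at `i∞`. -/
theorem exists_levelOne_tendsto_one (n : ℕ) (hn : Even n) (h4 : 4 ≤ n) :
    ∃ v : ℍ → ℂ, IsMF ⊤ (n : ℤ) v ∧ Tendsto v atImInfty (𝓝 1) := by
  obtain ⟨a, b, hab⟩ : ∃ a b : ℕ, 4 * a + 6 * b = n := by
    obtain ⟨t, ht⟩ := hn
    rcases Nat.even_or_odd t with ⟨s, hs⟩ | ⟨s, hs⟩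
    · exact ⟨s, 0, by omega⟩
    · exact ⟨s - 1, 1, by omega⟩
  refine ⟨E4f ^ a * E6f ^ b, LevelOneBridge.isMF_monomial a b (by exact_mod_cast hab), ?_⟩
  have h := (tendsto_E4f.pow a).mul (tendsto_E6f.pow b)
  rw [one_pow, one_pow, mul_one] at h
  exact h

end CuspNondeg

open CuspNondeg

/-- **Cusp nondegeneracy.** If a constant combination of the rows of the matrix of translates of
a graded basis is `O(exp (-2 π Im z))` in every column, then it is the zero combination. -/
theorem GBasis.coeff_zero_of_decay {Γ : Subgroup SL(2, ℤ)} [Γ.FiniteIndex]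
    (hneg : (-1 : SL(2, ℤ)) ∈ Γ) (B : GBasis Γ) (c : B.ι → ℂ)
    (h : ∀ q : SL(2, ℤ) ⧸ Γ, (fun z : ℍ => ∑ i, c i * tr (B.k i) (B.e i) q z) =O[atImInfty]
      (fun z : ℍ => Real.exp (-2 * Real.pi * z.im))) : c = 0 := by
  classical
  -- the common weight
  set M : ℕ := ∑ i, B.k i with hM
  set K : ℕ := 2 * M + 4 with hK
  have hkle : ∀ i, B.k i ≤ M := fun i =>
    Finset.single_le_sum (f := B.k) (fun _ _ => Nat.zero_le _) (Finset.mem_univ i)
  have heven : ∀ i, Even (B.k i) := fun i => EllCount.gbasis_even B hneg i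
  -- level-one multipliers
  have hv : ∀ i, ∃ v : ℍ → ℂ, IsMF ⊤ ((K : ℤ) - B.k i) v ∧ Tendsto v atImInfty (𝓝 1) := by
    intro i
    have hle := hkle i
    obtain ⟨v, hv1, hv2⟩ := exists_levelOne_tendsto_one (K - B.k i)
      (by
        obtain ⟨t, ht⟩ := heven i
        exact ⟨M + 2 - t, by omega⟩) (by omega)
    refine ⟨v, ?_, hv2⟩
    have e : ((K - B.k i : ℕ) : ℤ) = (K : ℤ) - B.k i := by
      rw [Nat.cast_sub (by omega)]
    rwa [e] at hv1
  choose v hv1 hv2 using hv
  -- the form `f`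
  set f : ℍ → ℂ := ∑ i, c i • (v i * B.e i) with hf
  have hfMF : IsMF Γ K f := by
    have hmem : ∀ i, c i • (v i * B.e i) ∈ MFsub Γ K := fun i => by
      have h1 := (hv1 i).levelOne_mul (B.isMF i)
      rw [sub_add_cancel] at h1
      exact h1.smul (c i)
    exact (MFsub Γ K).sum_mem (fun i _ => hmem i)
  -- translates of `f`
  have htr : ∀ q : SL(2, ℤ) ⧸ Γ, tr K f q = ∑ i, c i • (v i * tr (B.k i) (B.e i) q) := by
    intro q
    rw [hf, tr_sum]
    refine Finset.sum_congr rfl fun i _ => ?_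
    rw [tr_smul]
    congr 1
    have h1 := tr_mul_levelOne (Γ := Γ) (k := B.k i) (B.e i) (v i) (hv1 i) q
    rwa [sub_add_cancel] at h1
  -- decay of the translates
  have hdec : ∀ q : SL(2, ℤ) ⧸ Γ,
      (tr K f q) =O[atImInfty] (fun z : ℍ => Real.exp (-2 * Real.pi * z.im)) := by
    intro q
    have e : tr K f q = fun z => (∑ i, c i * tr (B.k i) (B.e i) q z) +
        ∑ i, c i * ((v i z - 1) * tr (B.k i) (B.e i) q z) := by
      funext z
      rw [htr q]
      simp only [Finset.sum_apply, Pi.smul_apply, Pi.mul_apply, smul_eq_mul]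
      rw [← Finset.sum_add_distrib]
      exact Finset.sum_congr rfl fun i _ => by ring
    rw [e]
    refine (h q).add (IsBigO.fun_sum fun i _ => ?_)
    refine IsBigO.const_mul_left ?_ _
    have h1 := levelOne_sub_isBigO (hv1 i) (hv2 i)
    have h2 : (tr (B.k i) (B.e i) q) =O[atImInfty] (fun _ : ℍ => (1 : ℝ)) :=
      (B.isMF i).tr_bdd q
    simpa using h1.mul h2
  -- divide by `Δ`
  set g : ℍ → ℂ := fun z => f z / Δf z with hg
  have hfg : f = Δf * g := by
    funext z
    simp only [hg, Pi.mul_apply]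
    rw [mul_div_cancel₀ _ (Δf_ne_zero z)]
  have hgMF : IsMF Γ ((K : ℤ) - 12) g := hfMF.of_mul_Δ hdec hfg
  obtain ⟨r, hr1, hr2⟩ := B.repr _ g hgMF
  -- uniqueness of coefficients
  have hs : ∀ i, IsMF ⊤ ((K : ℤ) - B.k i) (c i • v i - Δf * r i) := by
    intro i
    have h1 : c i • v i ∈ MFsub ⊤ ((K : ℤ) - B.k i) := (hv1 i).smul (c i)
    have h2 : IsMF ⊤ (12 + ((K : ℤ) - 12 - B.k i)) (Δf * r i) := isCF_Δf.isMF.mul (hr1 i)
    rw [show (12 : ℤ) + ((K : ℤ) - 12 - B.k i) = (K : ℤ) - B.k i by ring] at h2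
    exact (MFsub ⊤ ((K : ℤ) - B.k i)).sub_mem h1 h2
  have hsum : ∑ i, (c i • v i - Δf * r i) * B.e i = 0 := by
    have e1 : ∑ i, (c i • v i - Δf * r i) * B.e i = f - Δf * g := by
      rw [hr2, hf, Finset.mul_sum, ← Finset.sum_sub_distrib]
      refine Finset.sum_congr rfl fun i _ => ?_
      funext z
      simp only [Pi.sub_apply, Pi.mul_apply, Pi.smul_apply, smul_eq_mul]
      ring
    rw [e1, ← hfg, sub_self]
  have huniq := B.uniq K _ hs hsum
  -- limits at `i∞`
  funext i
  have hi := huniq i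
  have hlim1 : Tendsto (fun z => c i * v i z) atImInfty (𝓝 (c i * 1)) := (hv2 i).const_mul (c i)
  have hlim2 : Tendsto (fun z => Δf z * r i z) atImInfty (𝓝 0) := by
    have hΔ : IsZeroAtImInfty Δf := ModularForm.discriminant_isZeroAtImInfty
    have hr : IsBoundedAtImInfty (r i) := by
      have := (hr1 i).2.2 1
      rwa [SlashAction.slash_one] at this
    exact hΔ.mul_boundedAtFilter hr
  have heq : (fun z => c i * v i z) = fun z => Δf z * r i z := by
    funext z
    have h3 := congrFun hi z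
    simp only [Pi.sub_apply, Pi.mul_apply, Pi.smul_apply, smul_eq_mul, Pi.zero_apply] at h3
    linear_combination h3
  rw [heq] at hlim1
  have h4 := tendsto_nhds_unique hlim1 hlim2
  simpa using h4

end

end Fermat.Agent.S20
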