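import Fermat.Agent.S20.Defs

/-!
# S20 — weak graded bases (index type not yet known to be finite)
-/

set_option autoImplicit false

open UpperHalfPlane ModularForm Matrix.SpecialLinearGroup
open scoped MatrixGroups Manifold ModularForm Topology

namespace Fermat.Agent.S20

noncomputable section

/-- A homogeneous basis of `⨁ₖ M_k(Γ)` over `⨁ₖ M_k(SL(2,ℤ))`, index type arbitrary,
finitely supported coefficient families. -/
structure WBasis (Γ : Subgroup SL(2, ℤ)) where
  /-- index type -/
  ι : Type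
  /-- weights of the generators -/
  k : ι → ℕ
  /-- the generators -/
  e : ι → ℍ → ℂ
  isMF : ∀ i, IsMF Γ (k i) (e i)
  repr : ∀ (K : ℤ) (f : ℍ → ℂ), IsMF Γ K f →
    ∃ r : ι →₀ (ℍ → ℂ), (∀ i, IsMF ⊤ (K - k i) (r i)) ∧ f = r.sum (fun i a => a * e i)
  uniq : ∀ (K : ℤ) (r : ι →₀ (ℍ → ℂ)), (∀ i, IsMF ⊤ (K - k i) (r i)) →
    r.sum (fun i a => a * e i) = 0 → r = 0

/-- A (finite) graded basis is in particular a weak basis. -/
def GBasis.toWBasis {Γ : Subgroup SL(2, ℤ)} (B : GBasis Γ) : WBasis Γ where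
  ι := B.ι
  k := B.k
  e := B.e
  isMF := B.isMF
  repr := by
    intro K f hf
    obtain ⟨r, hr, hfr⟩ := B.repr K f hf
    refine ⟨Finsupp.equivFunOnFinite.symm r, fun i => by simpa using hr i, ?_⟩
    rw [hfr, Finsupp.sum_fintype _ _ (fun i => by simp)]
    simp
  uniq := by
    intro K r hr h
    have h' : ∑ i, (r i) * B.e i = 0 := by
      rw [← h, Finsupp.sum_fintype _ _ (fun i => by simp)]
    have := B.uniq K (fun i => r i) hr h'
    ext i : 1
    simpa using this i

end

end Fermat.Agent.S20
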