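import Fermat.Agent.S20.Defs

/-!
# S20 — division by a holomorphic function with simple zeros, and the elliptic zeros of
`E₄`, `E₆`

* `exists_mdiff_factor`: if `u` is holomorphic on `ℍ`, all zeros of `u` are simple, and `f`
  (holomorphic) vanishes at every zero of `u`, then `f = u * g` with `g` holomorphic.
* `E4f_rho`, `E6f_I`: `E₄(ρ) = 0`, `E₆(i) = 0`.
-/

set_option autoImplicit false

open UpperHalfPlane ModularForm Matrix.SpecialLinearGroup Filter CongruenceSubgroup
open scoped MatrixGroups Manifold ModularForm Topology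

namespace Fermat.Agent.S20

noncomputable section

namespace DivisionCore

/-- Local division at a simple zero: if `F`, `U` are holomorphic near `w0`, both vanish at `w0`,
and `U' w0 ≠ 0`, then any function which is `F / U` off the zeros of `U` and `F' w0 / U' w0` at
`w0` is differentiable at `w0`. -/
theorem differentiableAt_div_of_simple_zero {F U : ℂ → ℂ} {s : Set ℂ} (hs : IsOpen s)
    (hF : DifferentiableOn ℂ F s) (hU : DifferentiableOn ℂ U s) {w0 : ℂ} (hw0 : w0 ∈ s)
    (hF0 : F w0 = 0) (hU0 : U w0 = 0) (hU' : deriv U w0 ≠ 0) (G : ℂ → ℂ)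
    (hG0 : G w0 = deriv F w0 / deriv U w0) (hG : ∀ w, U w ≠ 0 → G w = F w / U w) :
    DifferentiableAt ℂ G w0 := by
  have hsn : s ∈ 𝓝 w0 := hs.mem_nhds hw0
  have hdF : DifferentiableOn ℂ (dslope F w0) s := (Complex.differentiableOn_dslope hsn).mpr hF
  have hdU : DifferentiableOn ℂ (dslope U w0) s := (Complex.differentiableOn_dslope hsn).mpr hU
  have hdFa : DifferentiableAt ℂ (dslope F w0) w0 := hdF.differentiableAt hsn
  have hdUa : DifferentiableAt ℂ (dslope U w0) w0 := hdU.differentiableAt hsn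
  have hne : dslope U w0 w0 ≠ 0 := by rwa [dslope_same]
  have hev : ∀ᶠ w in 𝓝 w0, dslope U w0 w ≠ 0 := hdUa.continuousAt.eventually_ne hne
  have hquot : DifferentiableAt ℂ (fun w => dslope F w0 w / dslope U w0 w) w0 :=
    hdFa.div hdUa hne
  refine hquot.congr_of_eventuallyEq ?_
  filter_upwards [hev] with w hw
  by_cases hww : w = w0
  · rw [hww, hG0, dslope_same, dslope_same]
  · rw [dslope_of_ne _ hww, slope_def_field, hU0, sub_zero] at hw
    have hUw : U w ≠ 0 := fun h => hw (by rw [h, zero_div])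
    have hsub : w - w0 ≠ 0 := sub_ne_zero.mpr hww
    rw [hG w hUw, dslope_of_ne _ hww, dslope_of_ne _ hww, slope_def_field, slope_def_field,
      hF0, hU0, sub_zero, sub_zero]
    field_simp

end DivisionCore

/-- Division by a holomorphic function with simple zeros: if `f` vanishes at all zeros of `u`
and all zeros of `u` are simple, then `f = u * g` with `g` holomorphic on `ℍ`. -/
theorem exists_mdiff_factor (f u : ℍ → ℂ) (hf : MDifferentiable 𝓘(ℂ) 𝓘(ℂ) f)
    (hu : MDifferentiable 𝓘(ℂ) 𝓘(ℂ) u)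
    (h : ∀ z : ℍ, u z = 0 → f z = 0 ∧ deriv (u ∘ UpperHalfPlane.ofComplex) (z : ℂ) ≠ 0) :
    ∃ g : ℍ → ℂ, MDifferentiable 𝓘(ℂ) 𝓘(ℂ) g ∧ f = u * g := by
  classical
  have hF : DifferentiableOn ℂ (f ∘ UpperHalfPlane.ofComplex) {z | 0 < z.im} :=
    UpperHalfPlane.mdifferentiable_iff.mp hf
  have hU : DifferentiableOn ℂ (u ∘ UpperHalfPlane.ofComplex) {z | 0 < z.im} :=
    UpperHalfPlane.mdifferentiable_iff.mp hu
  set F : ℂ → ℂ := f ∘ UpperHalfPlane.ofComplex with hFdef
  set U : ℂ → ℂ := u ∘ UpperHalfPlane.ofComplex with hUdef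
  let G : ℂ → ℂ := fun w => if U w = 0 then deriv F w / deriv U w else F w / U w
  have hopen : IsOpen {z : ℂ | 0 < z.im} := isOpen_upperHalfPlaneSet
  have hUz : ∀ z : ℍ, U (z : ℂ) = u z := fun z => by simp [hUdef]
  have hFz : ∀ z : ℍ, F (z : ℂ) = f z := fun z => by simp [hFdef]
  have hG : DifferentiableOn ℂ G {z | 0 < z.im} := by
    intro w hw
    refine DifferentiableAt.differentiableWithinAt ?_
    by_cases hUw : U w = 0
    · have hz := h ⟨w, hw⟩ (by rw [← hUz]; exact hUw)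
      refine DivisionCore.differentiableAt_div_of_simple_zero hopen hF hU hw ?_ hUw hz.2 G ?_ ?_
      · have := hFz ⟨w, hw⟩
        rw [hz.1] at this
        exact this
      · simp [G, hUw]
      · intro w' hw'
        simp [G, hw']
    · have hUa : DifferentiableAt ℂ U w := hU.differentiableAt (hopen.mem_nhds hw)
      have hFa : DifferentiableAt ℂ F w := hF.differentiableAt (hopen.mem_nhds hw)
      have hev : ∀ᶠ w' in 𝓝 w, U w' ≠ 0 := hUa.continuousAt.eventually_ne hUw
      refine (hFa.div hUa hUw).congr_of_eventuallyEq ?_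
      filter_upwards [hev] with w' hw'
      simp [G, hw']
  refine ⟨fun z => G (z : ℂ), ?_, ?_⟩
  · rw [UpperHalfPlane.mdifferentiable_iff]
    refine hG.congr ?_
    intro w hw
    simp [Function.comp, ofComplex_apply_of_im_pos hw]
  · funext z
    by_cases huz : u z = 0
    · simp [Pi.mul_apply, huz, (h z huz).1]
    · have hne : U (z : ℂ) ≠ 0 := by rwa [hUz]
      simp only [Pi.mul_apply, G, hUz, hFz, if_neg huz]
      field_simp

/-- `E₆(i) = 0`. -/
theorem E6f_I : E6f UpperHalfPlane.I = 0 := by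
  have : SlashInvariantFormClass (ModularForm 𝒮ℒ 6) Γ(1) 6 := Gamma_one_coe_eq_SL ▸ inferInstance
  have hI := SlashInvariantForm.slash_action_eqn_SL'' (E₆ : ModularForm 𝒮ℒ 6)
    (mem_Gamma_one ModularGroup.S) UpperHalfPlane.I
  have hS : ModularGroup.S • UpperHalfPlane.I = UpperHalfPlane.I := by
    apply UpperHalfPlane.ext
    rw [UpperHalfPlane.modular_S_smul]
    simp
  rw [hS, ModularGroup.denom_S] at hI
  have h6 : ((UpperHalfPlane.I : ℍ) : ℂ) ^ (6 : ℤ) = -1 := by
    rw [UpperHalfPlane.coe_I]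
    norm_cast
    rw [show (6 : ℕ) = 2 * 3 by norm_num, pow_mul, Complex.I_sq]
    norm_num
  rw [h6] at hI
  show (E₆ : ModularForm 𝒮ℒ 6) UpperHalfPlane.I = 0
  linear_combination (1 / 2 : ℂ) * hI

namespace DivisionCore

/-- `ρ² + ρ + 1 = 0`. -/
theorem rhoPt_sq_add : ((rhoPt : ℍ) : ℂ) ^ 2 + (rhoPt : ℂ) + 1 = 0 := by
  have h3 : Real.sqrt 3 * Real.sqrt 3 = 3 := Real.mul_self_sqrt (by norm_num)
  show (⟨-1 / 2, Real.sqrt 3 / 2⟩ : ℂ) ^ 2 + (⟨-1 / 2, Real.sqrt 3 / 2⟩ : ℂ) + 1 = 0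
  apply Complex.ext
  · simp [pow_two]
    nlinarith [h3]
  · simp [pow_two]
    ring

/-- `ρ` is fixed by `S * T`. -/
theorem ST_smul_rhoPt : (ModularGroup.S * ModularGroup.T) • rhoPt = rhoPt := by
  apply UpperHalfPlane.ext
  rw [mul_smul, UpperHalfPlane.modular_T_smul, UpperHalfPlane.modular_S_smul]
  simp only [UpperHalfPlane.coe_vadd]
  apply inv_eq_of_mul_eq_one_right
  push_cast
  linear_combination (-1 : ℂ) * rhoPt_sq_add

end DivisionCore

/-- `E₄(ρ) = 0`. -/
theorem E4f_rho : E4f rhoPt = 0 := by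
  have : SlashInvariantFormClass (ModularForm 𝒮ℒ 4) Γ(1) 4 := Gamma_one_coe_eq_SL ▸ inferInstance
  have hI := SlashInvariantForm.slash_action_eqn_SL'' (E₄ : ModularForm 𝒮ℒ 4)
    (mem_Gamma_one (ModularGroup.S * ModularGroup.T)) rhoPt
  have hd : denom (↑(ModularGroup.S * ModularGroup.T) : GL (Fin 2) ℝ) rhoPt
      = (rhoPt : ℂ) + 1 := by
    simp [denom, ModularGroup.S, ModularGroup.T, Matrix.mul_apply, Fin.sum_univ_two]
  rw [DivisionCore.ST_smul_rhoPt, hd] at hI
  have h4 : ((rhoPt : ℂ) + 1) ^ (4 : ℤ) = -(rhoPt : ℂ) - 1 := by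
    norm_cast
    linear_combination ((rhoPt : ℂ) ^ 2 + 3 * (rhoPt : ℂ) + 2) * DivisionCore.rhoPt_sq_add
  rw [h4] at hI
  have hne : (rhoPt : ℂ) + 2 ≠ 0 := by
    intro h0
    have := congrArg Complex.re h0
    have hre : ((rhoPt : ℍ) : ℂ).re = -1 / 2 := rfl
    rw [Complex.add_re, hre] at this
    norm_num at this
  show (E₄ : ModularForm 𝒮ℒ 4) rhoPt = 0
  have hmul : ((rhoPt : ℂ) + 2) * (E₄ : ModularForm 𝒮ℒ 4) rhoPt = 0 := by
    linear_combination hI
  exact (mul_eq_zero.mp hmul).resolve_left hne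

end

end Fermat.Agent.S20
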