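import Mathlib

/-!
# S20 — abstract eigen-class splitting

If a combination `∑ c i * v i x` of functions vanishes identically and every `v i` is an
eigenfunction of precomposition with `σ` (eigenvalues `±1`, resp. cube roots of unity), then
the sub-combination over each eigen-class vanishes identically.
-/

set_option autoImplicit false

namespace Fermat.Agent.S20

namespace EigenSplit

/-! ### Abstract eigen-class splitting -/

/-- Splitting of a vanishing combination into the `(+1)`- and `(-1)`-classes of an involution. -/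
theorem split_two {ι X : Type*} (σ : X → X) (s : Finset ι) (c : ι → ℂ) (v : ι → X → ℂ)
    (p : ι → Prop) [DecidablePred p]
    (hp : ∀ i ∈ s, p i → ∀ x, v i (σ x) = v i x)
    (hn : ∀ i ∈ s, ¬ p i → ∀ x, v i (σ x) = -v i x)
    (h : ∀ x, ∑ i ∈ s, c i * v i x = 0) :
    (∀ x, ∑ i ∈ s.filter p, c i * v i x = 0) ∧
      (∀ x, ∑ i ∈ s.filter (fun i => ¬ p i), c i * v i x = 0) := by
  have key : ∀ x, (∑ i ∈ s.filter p, c i * v i x) -
      (∑ i ∈ s.filter (fun i => ¬ p i), c i * v i x) = 0 := by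
    intro x
    have h1 := h (σ x)
    rw [← Finset.sum_filter_add_sum_filter_not s p] at h1
    have e1 : ∑ i ∈ s.filter p, c i * v i (σ x) = ∑ i ∈ s.filter p, c i * v i x :=
      Finset.sum_congr rfl (fun i hi => by
        rw [hp i (Finset.mem_filter.mp hi).1 (Finset.mem_filter.mp hi).2])
    have e2 : ∑ i ∈ s.filter (fun i => ¬ p i), c i * v i (σ x) =
        -∑ i ∈ s.filter (fun i => ¬ p i), c i * v i x := by
      rw [← Finset.sum_neg_distrib]
      exact Finset.sum_congr rfl (fun i hi => by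
        rw [hn i (Finset.mem_filter.mp hi).1 (Finset.mem_filter.mp hi).2]; ring)
    rw [e1, e2] at h1
    linear_combination h1
  have key2 : ∀ x, (∑ i ∈ s.filter p, c i * v i x) +
      (∑ i ∈ s.filter (fun i => ¬ p i), c i * v i x) = 0 := by
    intro x
    rw [Finset.sum_filter_add_sum_filter_not s p]
    exact h x
  constructor
  · intro x; linear_combination (1 / 2 : ℂ) * key x + (1 / 2 : ℂ) * key2 x
  · intro x; linear_combination (1 / 2 : ℂ) * key2 x - (1 / 2 : ℂ) * key x

theorem pow_eq_pow_mod_three {ω : ℂ} (hω : ω ^ 2 + ω + 1 = 0) (n : ℕ) : ω ^ n = ω ^ (n % 3) := by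
  have h3 : ω ^ 3 = 1 := by linear_combination (ω - 1) * hω
  conv_lhs => rw [← Nat.div_add_mod n 3, pow_add, pow_mul, h3, one_pow, one_mul]

/-- Splitting of a vanishing combination into the three eigen-classes of an operator of order
three. -/
theorem split_three {ι X : Type*} (σ : X → X) (s : Finset ι) (c : ι → ℂ) (v : ι → X → ℂ)
    (ω : ℂ) (hω : ω ^ 2 + ω + 1 = 0) (j : ι → ℕ)
    (hv : ∀ i ∈ s, ∀ x, v i (σ x) = ω ^ j i * v i x)
    (h : ∀ x, ∑ i ∈ s, c i * v i x = 0) (a : ℕ) (ha : a < 3) :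
    ∀ x, ∑ i ∈ s.filter (fun i => j i % 3 = a), c i * v i x = 0 := by
  -- the three class sums
  set A : ℕ → X → ℂ := fun a x => ∑ i ∈ s.filter (fun i => j i % 3 = a), c i * v i x with hA
  have hsplit : ∀ x, ∑ i ∈ s, c i * v i x = A 0 x + A 1 x + A 2 x := by
    intro x
    rw [← Finset.sum_fiberwise_of_maps_to (s := s) (t := Finset.range 3) (g := fun i => j i % 3)
      (fun i _ => Finset.mem_range.mpr (Nat.mod_lt _ (by norm_num)))]
    rw [Finset.sum_range_succ, Finset.sum_range_succ, Finset.sum_range_one]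
  have hshift : ∀ a x, A a (σ x) = ω ^ a * A a x := by
    intro a x
    simp only [hA]
    rw [Finset.mul_sum]
    refine Finset.sum_congr rfl (fun i hi => ?_)
    obtain ⟨his, hia⟩ := Finset.mem_filter.mp hi
    rw [hv i his, pow_eq_pow_mod_three hω (j i), hia]
    ring
  have e1 : ∀ x, A 0 x + A 1 x + A 2 x = 0 := fun x => by rw [← hsplit]; exact h x
  have e2 : ∀ x, A 0 x + ω * A 1 x + ω ^ 2 * A 2 x = 0 := by
    intro x
    have := e1 (σ x)
    rw [hshift, hshift, hshift] at this
    linear_combination this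
  have e3 : ∀ x, A 0 x + ω ^ 2 * A 1 x + ω ^ 4 * A 2 x = 0 := by
    intro x
    have := e2 (σ x)
    rw [hshift, hshift, hshift] at this
    linear_combination this
  have h0 : ∀ x, A 0 x = 0 := by
    intro x
    linear_combination (1 / 3 : ℂ) * e1 x + (1 / 3 : ℂ) * e2 x + (1 / 3 : ℂ) * e3 x
      - (1 / 3 : ℂ) * (A 1 x + (ω ^ 2 - ω + 1) * A 2 x) * hω
  have h1 : ∀ x, A 1 x = 0 := by
    intro x
    linear_combination (1 / 3 : ℂ) * e1 x + (1 / 3 : ℂ) * ω ^ 2 * e2 x + (1 / 3 : ℂ) * ω * e3 x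
      - (1 / 3 : ℂ) * (A 0 x + 2 * (ω - 1) * A 1 x + (ω ^ 3 - ω + 1) * A 2 x) * hω
  have h2 : ∀ x, A 2 x = 0 := by
    intro x
    linear_combination e1 x - h0 x - h1 x
  intro x
  interval_cases a
  · exact h0 x
  · exact h1 x
  · exact h2 x

end EigenSplit

end Fermat.Agent.S20
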