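import Fermat.Agent.S20.Defs
import Fermat.Agent.S20.DefsW

/-!
# S20 — the matrix of conjugates of a graded basis is invertible at every point

Input: two forms `f4`, `f6` of weights `4`, `6` for `Γ` whose conjugates separate the cosets at
every point (`hsep`), and two level-one forms `u4`, `u6` of weights `4`, `6` without common zero,
`u4` vanishing only on the orbit of `rhoPt` and `u6` only on the orbit of `I`.

Output: at every `z0`, the vectors of values `(tr K F q z0)_q` of modular forms `F` for `Γ`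
span all functions on the cosets (`valSpan_eq_top`).  Consequently the rows of the matrix of
conjugates of a (weak) graded basis span (`span_rows_eq_top`) and the square matrix of a graded
basis has nonzero determinant (`det_Asq_ne_zero`).
-/

set_option autoImplicit false

open UpperHalfPlane ModularForm Matrix.SpecialLinearGroup
open scoped MatrixGroups Manifold ModularForm Topology

namespace Fermat.Agent.S20

namespace Interp

noncomputable section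

variable {Γ : Subgroup SL(2, ℤ)}

/-! ### Translates -/

theorem tr_mk {k : ℤ} {f : ℍ → ℂ} (hf : ∀ γ ∈ Γ, f ∣[k] γ = f) (g : SL(2, ℤ)) :
    tr k f (QuotientGroup.mk g : SL(2, ℤ) ⧸ Γ) = f ∣[k] g⁻¹ := by
  obtain ⟨h, hh⟩ := QuotientGroup.mk_out_eq_mul Γ g
  unfold tr
  rw [hh, mul_inv_rev, SlashAction.slash_mul, hf _ (Γ.inv_mem h.2)]

theorem tr_smul {k : ℤ} {f : ℍ → ℂ} (hf : ∀ γ ∈ Γ, f ∣[k] γ = f) (g : SL(2, ℤ))
    (q : SL(2, ℤ) ⧸ Γ) : tr k f (g • q) = (tr k f q) ∣[k] g⁻¹ := by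
  induction q using QuotientGroup.induction_on with
  | H h =>
    rw [MulAction.Quotient.smul_mk, tr_mk hf, tr_mk hf, smul_eq_mul, mul_inv_rev,
      SlashAction.slash_mul]

theorem tr_inv_smul_apply {k : ℤ} {f : ℍ → ℂ} (hf : ∀ γ ∈ Γ, f ∣[k] γ = f) (g : SL(2, ℤ))
    (q : SL(2, ℤ) ⧸ Γ) (z : ℍ) :
    tr k f (g⁻¹ • q) z = tr k f q (g • z) * denom g z ^ (-k) := by
  rw [tr_smul hf, inv_inv, SL_slash_apply]

theorem tr_mul {k k1 k2 : ℤ} (h : k = k1 + k2) (f1 f2 : ℍ → ℂ) (q : SL(2, ℤ) ⧸ Γ) :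
    tr k (f1 * f2) q = tr k1 f1 q * tr k2 f2 q := by
  subst h
  exact mul_slash_SL2 _ _ _ _ _

theorem tr_top {k : ℤ} {u : ℍ → ℂ} (hu : IsMF ⊤ k u) (q : SL(2, ℤ) ⧸ Γ) : tr k u q = u :=
  hu.2.1 _ (Subgroup.mem_top _)

theorem tr_add (k : ℤ) (f g : ℍ → ℂ) (q : SL(2, ℤ) ⧸ Γ) :
    tr k (f + g) q = tr k f q + tr k g q :=
  SlashAction.add_slash _ _ _ _

theorem tr_const_smul (k : ℤ) (c : ℂ) (f : ℍ → ℂ) (q : SL(2, ℤ) ⧸ Γ) :
    tr k (c • f) q = c • tr k f q :=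
  SL_smul_slash _ _ _ _

theorem tr_sum {ι : Type*} (k : ℤ) (s : Finset ι) (f : ι → ℍ → ℂ) (q : SL(2, ℤ) ⧸ Γ) :
    tr k (∑ i ∈ s, f i) q = ∑ i ∈ s, tr k (f i) q :=
  SlashAction.sum_slash _ _

/-! ### Closure properties of modular forms -/

theorem isMF_mul {k k1 k2 : ℤ} (h : k = k1 + k2) {f1 f2 : ℍ → ℂ} (h1 : IsMF Γ k1 f1)
    (h2 : IsMF Γ k2 f2) : IsMF Γ k (f1 * f2) := by
  subst h
  refine ⟨h1.1.mul h2.1, fun γ hγ => ?_, fun γ => ?_⟩
  · rw [mul_slash_SL2, h1.2.1 γ hγ, h2.2.1 γ hγ]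
  · rw [mul_slash_SL2]
    exact (h1.2.2 γ).mul (h2.2.2 γ)

theorem isMF_of_top {k : ℤ} {u : ℍ → ℂ} (hu : IsMF ⊤ k u) : IsMF Γ k u :=
  ⟨hu.1, fun γ _ => hu.2.1 γ (Subgroup.mem_top _), hu.2.2⟩

theorem isMF_one : IsMF Γ 0 (1 : ℍ → ℂ) := by
  refine ⟨mdifferentiable_const, fun γ _ => is_invariant_one γ, fun γ => ?_⟩
  rw [is_invariant_one]
  exact Filter.const_boundedAtFilter _ (1 : ℂ)

/-! ### Value vectors -/

/-- `v` is the vector of values at `z0` of the translates of a modular form of weight `K`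
for `Γ`. -/
def IsVal (Γ : Subgroup SL(2, ℤ)) (z0 : ℍ) (K : ℤ) (v : SL(2, ℤ) ⧸ Γ → ℂ) : Prop :=
  ∃ F : ℍ → ℂ, IsMF Γ K F ∧ ∀ q, tr K F q z0 = v q

variable {z0 : ℍ}

theorem IsVal.of_isMF {K : ℤ} {f : ℍ → ℂ} (hf : IsMF Γ K f) :
    IsVal Γ z0 K (fun q => tr K f q z0) :=
  ⟨f, hf, fun _ => rfl⟩

theorem IsVal.mul {K K1 K2 : ℤ} (h : K = K1 + K2) {v1 v2 : SL(2, ℤ) ⧸ Γ → ℂ}
    (h1 : IsVal Γ z0 K1 v1) (h2 : IsVal Γ z0 K2 v2) : IsVal Γ z0 K (v1 * v2) := by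
  obtain ⟨F1, hF1, e1⟩ := h1
  obtain ⟨F2, hF2, e2⟩ := h2
  refine ⟨F1 * F2, isMF_mul h hF1 hF2, fun q => ?_⟩
  rw [tr_mul h, Pi.mul_apply, Pi.mul_apply, e1, e2]

theorem IsVal.add {K : ℤ} {v1 v2 : SL(2, ℤ) ⧸ Γ → ℂ}
    (h1 : IsVal Γ z0 K v1) (h2 : IsVal Γ z0 K v2) : IsVal Γ z0 K (v1 + v2) := by
  obtain ⟨F1, hF1, e1⟩ := h1
  obtain ⟨F2, hF2, e2⟩ := h2
  refine ⟨F1 + F2, hF1.add hF2, fun q => ?_⟩
  rw [tr_add, Pi.add_apply, Pi.add_apply, e1, e2]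

theorem IsVal.smul {K : ℤ} {v : SL(2, ℤ) ⧸ Γ → ℂ} (c : ℂ)
    (h : IsVal Γ z0 K v) : IsVal Γ z0 K (c • v) := by
  obtain ⟨F, hF, e⟩ := h
  refine ⟨c • F, hF.smul c, fun q => ?_⟩
  rw [tr_const_smul, Pi.smul_apply, Pi.smul_apply, e]

theorem IsVal.const {K : ℤ} {u : ℍ → ℂ} (hu : IsMF ⊤ K u) :
    IsVal Γ z0 K (fun _ => u z0) :=
  ⟨u, isMF_of_top hu, fun q => by rw [tr_top hu]⟩

theorem IsVal.one : IsVal Γ z0 0 (1 : SL(2, ℤ) ⧸ Γ → ℂ) :=
  ⟨1, isMF_one, fun q => by rw [tr_top isMF_one]; rfl⟩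

/-- Subtract a constant, using a level-one form of the same weight not vanishing at `z0`. -/
theorem IsVal.sub_const {K : ℤ} {u : ℍ → ℂ} (hu : IsMF ⊤ K u) (hne : u z0 ≠ 0)
    {v : SL(2, ℤ) ⧸ Γ → ℂ} (hv : IsVal Γ z0 K v) (c : ℂ) :
    IsVal Γ z0 K (fun q => v q - c) := by
  have h := hv.add ((IsVal.const (Γ := Γ) (z0 := z0) hu).smul (-c / u z0))
  have e : (fun q => v q - c) = v + (-c / u z0) • (fun _ => u z0) := by
    funext q
    simp only [Pi.add_apply, Pi.smul_apply, smul_eq_mul]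
    field_simp
    ring
  rw [e]
  exact h

/-- Behaviour of a value vector under an element of the stabiliser of `z0`. -/
theorem IsVal.apply_inv_smul {K : ℤ} {v : SL(2, ℤ) ⧸ Γ → ℂ} (h : IsVal Γ z0 K v)
    (g : SL(2, ℤ)) (hg : g • z0 = z0) (q : SL(2, ℤ) ⧸ Γ) :
    v (g⁻¹ • q) = v q * denom g z0 ^ (-K) := by
  obtain ⟨F, hF, e⟩ := h
  rw [← e, ← e, tr_inv_smul_apply hF.2.1, hg]

/-- If a value vector is supported at one coset, the indicator of that coset is a value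
vector. -/
theorem IsVal.single {K : ℤ} {W : SL(2, ℤ) ⧸ Γ → ℂ} (hW : IsVal Γ z0 K W)
    (q0 : SL(2, ℤ) ⧸ Γ) (h0 : ∀ q, q ≠ q0 → W q = 0) (hne : W q0 ≠ 0) :
    ∃ W' : SL(2, ℤ) ⧸ Γ → ℂ, IsVal Γ z0 K W' ∧ W' q0 = 1 ∧ ∀ q, q ≠ q0 → W' q = 0 := by
  refine ⟨(W q0)⁻¹ • W, hW.smul _, ?_, fun q hq => ?_⟩
  · simp [hne]
  · simp [h0 q hq]

/-- Products over a finite set of cosets. -/
theorem exists_isVal_prod (d : ℤ) (q0 : SL(2, ℤ) ⧸ Γ) (s : Finset (SL(2, ℤ) ⧸ Γ))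
    (h : ∀ q ∈ s, ∃ (K : ℤ) (w : SL(2, ℤ) ⧸ Γ → ℂ),
      IsVal Γ z0 K w ∧ d ∣ K ∧ w q = 0 ∧ w q0 ≠ 0) :
    ∃ (K : ℤ) (W : SL(2, ℤ) ⧸ Γ → ℂ),
      IsVal Γ z0 K W ∧ d ∣ K ∧ (∀ q ∈ s, W q = 0) ∧ W q0 ≠ 0 := by
  classical
  induction s using Finset.induction_on with
  | empty => exact ⟨0, 1, IsVal.one, dvd_zero d, by simp, by simp⟩
  | insert a s ha ih =>
    obtain ⟨K, W, hW, hd, h0, hne⟩ := ih (fun q hq => h q (Finset.mem_insert_of_mem hq))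
    obtain ⟨K', w, hw, hd', hw0, hwne⟩ := h a (Finset.mem_insert_self a s)
    refine ⟨K + K', W * w, hW.mul rfl hw, dvd_add hd hd', ?_, ?_⟩
    · intro q hq
      rcases Finset.mem_insert.mp hq with rfl | hq
      · simp [hw0]
      · simp [h0 q hq]
    · simpa using ⟨hne, hwne⟩

/-! ### The span of the value vectors -/

/-- The span of all value vectors at `z0`. -/
def valSpan (Γ : Subgroup SL(2, ℤ)) (z0 : ℍ) : Submodule ℂ (SL(2, ℤ) ⧸ Γ → ℂ) :=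
  Submodule.span ℂ {v | ∃ K, IsVal Γ z0 K v}

theorem IsVal.mem_valSpan {K : ℤ} {v : SL(2, ℤ) ⧸ Γ → ℂ} (h : IsVal Γ z0 K v) :
    v ∈ valSpan Γ z0 :=
  Submodule.subset_span ⟨K, h⟩

theorem valSpan_eq_top_of_delta [Finite (SL(2, ℤ) ⧸ Γ)]
    (h : ∀ q0 : SL(2, ℤ) ⧸ Γ, ∃ W ∈ valSpan Γ z0, W q0 = 1 ∧ ∀ q, q ≠ q0 → W q = 0) :
    valSpan Γ z0 = ⊤ := by
  classical
  have := Fintype.ofFinite (SL(2, ℤ) ⧸ Γ)
  choose W hW h1 h0 using h
  rw [eq_top_iff]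
  intro v _
  have e : v = ∑ q, v q • W q := by
    funext q'
    rw [Finset.sum_apply, Finset.sum_eq_single q']
    · simp [h1]
    · intro q _ hq
      simp [h0 q q' (Ne.symm hq)]
    · simp
  rw [e]
  exact Submodule.sum_mem _ fun q _ => Submodule.smul_mem _ _ (hW q)

/-- Equivariance: the statement at `z1` implies the statement at `γ • z1`. -/
theorem valSpan_smul_eq_top (γ : SL(2, ℤ)) (z1 : ℍ) (h : valSpan Γ z1 = ⊤) :
    valSpan Γ (γ • z1) = ⊤ := by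
  let L : (SL(2, ℤ) ⧸ Γ → ℂ) ≃ₗ[ℂ] (SL(2, ℤ) ⧸ Γ → ℂ) :=
    LinearEquiv.funCongrLeft ℂ ℂ (MulAction.toPerm (γ⁻¹ : SL(2, ℤ)))
  have hL : ∀ (v : SL(2, ℤ) ⧸ Γ → ℂ) (q : SL(2, ℤ) ⧸ Γ), L v q = v (γ⁻¹ • q) := fun v q => rfl
  have hmap : Submodule.map (L : (SL(2, ℤ) ⧸ Γ → ℂ) →ₗ[ℂ] (SL(2, ℤ) ⧸ Γ → ℂ)) (valSpan Γ z1) ≤
      valSpan Γ (γ • z1) := by
    unfold valSpan
    rw [Submodule.map_span, Submodule.span_le]
    rintro _ ⟨v, ⟨K, F, hF, hv⟩, rfl⟩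
    have e : L v = (denom γ z1 ^ (-K)) • (fun q => tr K F q (γ • z1)) := by
      funext q
      rw [hL, ← hv, tr_inv_smul_apply hF.2.1]
      simp [mul_comm]
    have hval : IsVal Γ (γ • z1) K (L v) := by
      rw [e]
      exact (IsVal.of_isMF hF).smul _
    exact Submodule.subset_span ⟨K, hval⟩
  rw [h, Submodule.map_top, LinearEquiv.range] at hmap
  exact eq_top_iff.mpr hmap

/-! ### Interpolation -/

section Main

variable {u4 u6 f4 f6 : ℍ → ℂ}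

/-- Generic points: neither `u4` nor `u6` vanishes. -/
theorem exists_delta_generic [Finite (SL(2, ℤ) ⧸ Γ)]
    (hu4 : IsMF ⊤ 4 u4) (hu6 : IsMF ⊤ 6 u6) (hf4 : IsMF Γ 4 f4) (hf6 : IsMF Γ 6 f6)
    (hsep : ∀ q q' : SL(2, ℤ) ⧸ Γ, tr 4 f4 q z0 = tr 4 f4 q' z0 →
      tr 6 f6 q z0 = tr 6 f6 q' z0 → q = q')
    (h4 : u4 z0 ≠ 0) (h6 : u6 z0 ≠ 0) (q0 : SL(2, ℤ) ⧸ Γ) :
    ∃ W ∈ valSpan Γ z0, W q0 = 1 ∧ ∀ q, q ≠ q0 → W q = 0 := by
  classical
  have := Fintype.ofFinite (SL(2, ℤ) ⧸ Γ)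
  obtain ⟨K, W, hW, -, h0, hne⟩ := exists_isVal_prod (z0 := z0) 1 q0 (Finset.univ.erase q0) (by
    intro q hq
    have hq : q ≠ q0 := Finset.ne_of_mem_erase hq
    by_cases h : tr 4 f4 q0 z0 = tr 4 f4 q z0
    · have h' : tr 6 f6 q0 z0 ≠ tr 6 f6 q z0 := fun h' => hq (hsep q0 q h h').symm
      exact ⟨6, _, (IsVal.of_isMF hf6).sub_const hu6 h6 (tr 6 f6 q z0), one_dvd _, sub_self _,
        sub_ne_zero.mpr h'⟩
    · exact ⟨4, _, (IsVal.of_isMF hf4).sub_const hu4 h4 (tr 4 f4 q z0), one_dvd _, sub_self _,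
        sub_ne_zero.mpr h⟩)
  obtain ⟨W', hW', h1, h0'⟩ := hW.single q0
    (fun q hq => h0 q (Finset.mem_erase.mpr ⟨hq, Finset.mem_univ _⟩)) hne
  exact ⟨W', hW'.mem_valSpan, h1, h0'⟩

theorem neg_one_smul_coset (hneg : -1 ∈ Γ) (q : SL(2, ℤ) ⧸ Γ) : (-1 : SL(2, ℤ)) • q = q := by
  induction q using QuotientGroup.induction_on with
  | H h =>
    rw [MulAction.Quotient.smul_mk, smul_eq_mul, show (-1 : SL(2, ℤ)) * h = h * -1 by simp,
      QuotientGroup.mk_mul_of_mem _ hneg]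

theorem S_mul_S : ModularGroup.S * ModularGroup.S = (-1 : SL(2, ℤ)) := by
  apply Subtype.ext
  simpa using ModularGroup.S_mul_S_eq

theorem S_inv_mul_S_inv : (ModularGroup.S)⁻¹ * (ModularGroup.S)⁻¹ = (-1 : SL(2, ℤ)) := by
  rw [← mul_inv_rev, S_mul_S]
  apply inv_eq_of_mul_eq_one_right
  simp

theorem ST_cube : (ModularGroup.S * ModularGroup.T) * (ModularGroup.S * ModularGroup.T) *
    (ModularGroup.S * ModularGroup.T) = (-1 : SL(2, ℤ)) := by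
  apply Subtype.ext
  simp only [Matrix.SpecialLinearGroup.coe_mul, ModularGroup.coe_S, ModularGroup.coe_T,
    Matrix.SpecialLinearGroup.coe_neg, Matrix.SpecialLinearGroup.coe_one]
  ext i j
  fin_cases i <;> fin_cases j <;> simp [Matrix.mul_apply, Fin.sum_univ_two]

theorem ST_inv_cube : (ModularGroup.S * ModularGroup.T)⁻¹ * (ModularGroup.S * ModularGroup.T)⁻¹ *
    (ModularGroup.S * ModularGroup.T)⁻¹ = (-1 : SL(2, ℤ)) := by
  rw [← mul_inv_rev, ← mul_inv_rev, ← mul_assoc, ST_cube]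
  apply inv_eq_of_mul_eq_one_right
  simp

theorem S_smul_I : ModularGroup.S • I = I := by
  rw [modular_S_smul]
  ext1
  simp [Complex.inv_I]

theorem rhoPt_sq : ((rhoPt : ℍ) : ℂ) ^ 2 + (rhoPt : ℂ) + 1 = 0 := by
  have h3 : Real.sqrt 3 * Real.sqrt 3 = 3 := Real.mul_self_sqrt (by norm_num)
  apply Complex.ext
  · simp [rhoPt, pow_two]
    nlinarith
  · simp [rhoPt, pow_two]
    nlinarith

theorem ST_smul_rhoPt : (ModularGroup.S * ModularGroup.T) • rhoPt = rhoPt := by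
  rw [mul_smul, modular_T_smul, modular_S_smul]
  ext1
  have h := rhoPt_sq
  rw [inv_eq_iff_eq_inv]
  apply eq_inv_of_mul_eq_one_left
  simp only [coe_vadd]
  push_cast
  linear_combination -h

/-- The point `I`: here `u6` vanishes and only weights `≡ 0 mod 4` can be normalised. -/
theorem exists_delta_I [Finite (SL(2, ℤ) ⧸ Γ)] (hneg : -1 ∈ Γ)
    (hu4 : IsMF ⊤ 4 u4) (hf4 : IsMF Γ 4 f4) (hf6 : IsMF Γ 6 f6)
    (hsep : ∀ q q' : SL(2, ℤ) ⧸ Γ, tr 4 f4 q I = tr 4 f4 q' I →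
      tr 6 f6 q I = tr 6 f6 q' I → q = q')
    (h4 : u4 I ≠ 0) (q0 : SL(2, ℤ) ⧸ Γ) :
    ∃ W ∈ valSpan Γ I, W q0 = 1 ∧ ∀ q, q ≠ q0 → W q = 0 := by
  classical
  have := Fintype.ofFinite (SL(2, ℤ) ⧸ Γ)
  set σ : SL(2, ℤ) ⧸ Γ → SL(2, ℤ) ⧸ Γ := fun q => (ModularGroup.S)⁻¹ • q with hσ
  have hσσ : ∀ q, σ (σ q) = q := by
    intro q
    simp only [hσ]
    rw [← mul_smul, S_inv_mul_S_inv, neg_one_smul_coset hneg]
  have rule : ∀ {K : ℤ} {v : SL(2, ℤ) ⧸ Γ → ℂ}, IsVal Γ I K v →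
      ∀ q, v (σ q) = v q * Complex.I ^ (-K) := by
    intro K v hv q
    have h := hv.apply_inv_smul ModularGroup.S S_smul_I q
    rwa [ModularGroup.denom_S, coe_I] at h
  have I4 : Complex.I ^ (-4 : ℤ) = 1 := by
    rw [zpow_neg, show (4 : ℤ) = ((4 : ℕ) : ℤ) by norm_num, zpow_natCast, Complex.I_pow_four,
      inv_one]
  have I6 : Complex.I ^ (-6 : ℤ) = -1 := by
    rw [zpow_neg, show (6 : ℤ) = ((6 : ℕ) : ℤ) by norm_num, zpow_natCast,
      show (6 : ℕ) = 4 + 2 by norm_num, pow_add, Complex.I_pow_four, Complex.I_sq, one_mul]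
    norm_num
  have r4 : ∀ q, tr 4 f4 (σ q) I = tr 4 f4 q I := by
    intro q
    have h := rule (IsVal.of_isMF hf4) q
    rw [I4, mul_one] at h
    exact h
  have r6 : ∀ q, tr 6 f6 (σ q) I = -tr 6 f6 q I := by
    intro q
    have h := rule (IsVal.of_isMF hf6) q
    rw [I6, mul_neg_one] at h
    exact h
  have rdiv : ∀ {K : ℤ} {v : SL(2, ℤ) ⧸ Γ → ℂ}, IsVal Γ I K v → (4 : ℤ) ∣ K →
      ∀ q, v (σ q) = v q := by
    intro K v hv hK q
    obtain ⟨m, rfl⟩ := hK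
    rw [rule hv q, show -(4 * m) = (-4 : ℤ) * m by ring, zpow_mul, I4, one_zpow, mul_one]
  have hu12 : IsMF ⊤ 12 (u4 * u4 * u4) :=
    isMF_mul (k1 := 8) (k2 := 4) (by norm_num)
      (isMF_mul (k1 := 4) (k2 := 4) (by norm_num) hu4 hu4) hu4
  have h12 : (u4 * u4 * u4) I ≠ 0 := by
    simp [h4]
  have hv12 : IsVal Γ I 12 (fun q => tr 6 f6 q I * tr 6 f6 q I) :=
    IsVal.mul (K1 := 6) (K2 := 6) (by norm_num) (IsVal.of_isMF hf6) (IsVal.of_isMF hf6)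
  obtain ⟨K, W, hW, hd, h0, hne⟩ := exists_isVal_prod (z0 := I) 4 q0
    (Finset.univ.filter fun q => q ≠ q0 ∧ q ≠ σ q0) (by
    intro q hq
    obtain ⟨hq0, hq1⟩ := (Finset.mem_filter.mp hq).2
    by_cases h : tr 4 f4 q0 I = tr 4 f4 q I
    · refine ⟨12, _, hv12.sub_const hu12 h12 (tr 6 f6 q I * tr 6 f6 q I), by norm_num,
        sub_self _, ?_⟩
      intro h'
      have hprod : (tr 6 f6 q0 I - tr 6 f6 q I) * (tr 6 f6 q0 I + tr 6 f6 q I) = 0 := by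
        linear_combination h'
      rcases mul_eq_zero.mp hprod with h1 | h1
      · exact hq0 (hsep q0 q h (sub_eq_zero.mp h1)).symm
      · apply hq1
        have e : q0 = σ q := hsep q0 (σ q) (by rw [r4, h])
          (by rw [r6]; exact eq_neg_of_add_eq_zero_left h1)
        rw [e, hσσ]
    · exact ⟨4, _, (IsVal.of_isMF hf4).sub_const hu4 h4 (tr 4 f4 q I), dvd_refl _, sub_self _,
        sub_ne_zero.mpr h⟩)
  have hWσ : W (σ q0) = W q0 := rdiv hW hd q0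
  have h0' : ∀ q, q ≠ q0 → q ≠ σ q0 → W q = 0 := fun q h1 h2 =>
    h0 q (Finset.mem_filter.mpr ⟨Finset.mem_univ _, h1, h2⟩)
  by_cases hfix : σ q0 = q0
  · obtain ⟨W', hW', h1, h0''⟩ := hW.single q0
      (fun q hq => h0' q hq (by rw [hfix]; exact hq)) hne
    exact ⟨W', hW'.mem_valSpan, h1, h0''⟩
  · have hb : tr 6 f6 q0 I ≠ 0 := by
      intro hb
      apply hfix
      exact (hsep q0 (σ q0) (by rw [r4]) (by rw [r6, hb, neg_zero])).symm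
    have hW' : IsVal Γ I (K + 6) (W * fun q => tr 6 f6 q I) := hW.mul rfl (IsVal.of_isMF hf6)
    refine ⟨(2 * W q0)⁻¹ • W + (2 * W q0 * tr 6 f6 q0 I)⁻¹ • (W * fun q => tr 6 f6 q I),
      Submodule.add_mem _ (Submodule.smul_mem _ _ hW.mem_valSpan)
        (Submodule.smul_mem _ _ hW'.mem_valSpan), ?_, ?_⟩
    · simp only [Pi.add_apply, Pi.smul_apply, Pi.mul_apply, smul_eq_mul]
      field_simp
      ring
    · intro q hq
      by_cases hq' : q = σ q0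
      · subst hq'
        simp only [Pi.add_apply, Pi.smul_apply, Pi.mul_apply, smul_eq_mul]
        rw [hWσ, r6]
        field_simp
        ring
      · simp [h0' q hq hq']

theorem denom_ST (z : ℍ) :
    denom ((ModularGroup.S * ModularGroup.T : SL(2, ℤ))) z = (z : ℂ) + 1 := by
  rw [ModularGroup.denom_apply]
  simp [ModularGroup.coe_S, ModularGroup.coe_T, Matrix.mul_apply, Fin.sum_univ_two]

/-- The point `rhoPt`: here `u4` vanishes and only weights `≡ 0 mod 6` can be normalised. -/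
theorem exists_delta_rho [Finite (SL(2, ℤ) ⧸ Γ)] (hneg : -1 ∈ Γ)
    (hu6 : IsMF ⊤ 6 u6) (hf4 : IsMF Γ 4 f4) (hf6 : IsMF Γ 6 f6)
    (hsep : ∀ q q' : SL(2, ℤ) ⧸ Γ, tr 4 f4 q rhoPt = tr 4 f4 q' rhoPt →
      tr 6 f6 q rhoPt = tr 6 f6 q' rhoPt → q = q')
    (h6 : u6 rhoPt ≠ 0) (q0 : SL(2, ℤ) ⧸ Γ) :
    ∃ W ∈ valSpan Γ rhoPt, W q0 = 1 ∧ ∀ q, q ≠ q0 → W q = 0 := by
  classical
  have := Fintype.ofFinite (SL(2, ℤ) ⧸ Γ)
  set τ : SL(2, ℤ) ⧸ Γ → SL(2, ℤ) ⧸ Γ :=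
    fun q => (ModularGroup.S * ModularGroup.T)⁻¹ • q with hτ
  have hτ3 : ∀ q, τ (τ (τ q)) = q := by
    intro q
    simp only [hτ]
    rw [← mul_smul, ← mul_smul, ST_inv_cube, neg_one_smul_coset hneg]
  set ζ : ℂ := (rhoPt : ℂ) + 1 with hζdef
  have hζ : ζ ^ 2 - ζ + 1 = 0 := by
    rw [hζdef]
    linear_combination rhoPt_sq
  have ζ6 : ζ ^ 6 = 1 := by
    linear_combination (ζ ^ 4 + ζ ^ 3 - ζ - 1) * hζ
  set ω : ℂ := ζ ^ 2 with hωdef
  have hω : ω ^ 2 + ω + 1 = 0 := by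
    rw [hωdef]
    linear_combination (ζ ^ 2 + ζ + 1) * hζ
  have ζn4 : ζ ^ (-4 : ℤ) = ω := by
    rw [zpow_neg, show (4 : ℤ) = ((4 : ℕ) : ℤ) by norm_num, zpow_natCast]
    apply inv_eq_of_mul_eq_one_right
    rw [hωdef]
    linear_combination ζ6
  have ζn6 : ζ ^ (-6 : ℤ) = 1 := by
    rw [zpow_neg, show (6 : ℤ) = ((6 : ℕ) : ℤ) by norm_num, zpow_natCast, ζ6, inv_one]
  have rule : ∀ {K : ℤ} {v : SL(2, ℤ) ⧸ Γ → ℂ}, IsVal Γ rhoPt K v →
      ∀ q, v (τ q) = v q * ζ ^ (-K) := by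
    intro K v hv q
    have h := hv.apply_inv_smul (ModularGroup.S * ModularGroup.T) ST_smul_rhoPt q
    rwa [denom_ST] at h
  have r4 : ∀ q, tr 4 f4 (τ q) rhoPt = tr 4 f4 q rhoPt * ω := by
    intro q
    have h := rule (IsVal.of_isMF hf4) q
    rw [ζn4] at h
    exact h
  have r6 : ∀ q, tr 6 f6 (τ q) rhoPt = tr 6 f6 q rhoPt := by
    intro q
    have h := rule (IsVal.of_isMF hf6) q
    rw [ζn6, mul_one] at h
    exact h
  have rdiv : ∀ {K : ℤ} {v : SL(2, ℤ) ⧸ Γ → ℂ}, IsVal Γ rhoPt K v → (6 : ℤ) ∣ K →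
      ∀ q, v (τ q) = v q := by
    intro K v hv hK q
    obtain ⟨m, rfl⟩ := hK
    rw [rule hv q, show -(6 * m) = (-6 : ℤ) * m by ring, zpow_mul, ζn6, one_zpow, mul_one]
  have hu12 : IsMF ⊤ 12 (u6 * u6) := isMF_mul (k1 := 6) (k2 := 6) (by norm_num) hu6 hu6
  have h12 : (u6 * u6) rhoPt ≠ 0 := by
    simp [h6]
  have hv12 : IsVal Γ rhoPt 12
      (fun q => tr 4 f4 q rhoPt * tr 4 f4 q rhoPt * tr 4 f4 q rhoPt) :=
    IsVal.mul (K1 := 8) (K2 := 4) (by norm_num)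
      (IsVal.mul (K1 := 4) (K2 := 4) (by norm_num) (IsVal.of_isMF hf4) (IsVal.of_isMF hf4))
      (IsVal.of_isMF hf4)
  obtain ⟨K, W, hW, hd, h0, hne⟩ := exists_isVal_prod (z0 := rhoPt) 6 q0
    (Finset.univ.filter fun q => q ≠ q0 ∧ q ≠ τ q0 ∧ q ≠ τ (τ q0)) (by
    intro q hq
    obtain ⟨hq0, hq1, hq2⟩ := (Finset.mem_filter.mp hq).2
    by_cases h : tr 6 f6 q0 rhoPt = tr 6 f6 q rhoPt
    · refine ⟨12, _, hv12.sub_const hu12 h12
        (tr 4 f4 q rhoPt * tr 4 f4 q rhoPt * tr 4 f4 q rhoPt), by norm_num, sub_self _, ?_⟩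
      intro h'
      have hprod : (tr 4 f4 q0 rhoPt - tr 4 f4 q rhoPt) *
          (tr 4 f4 q0 rhoPt - tr 4 f4 q rhoPt * ω) *
          (tr 4 f4 q0 rhoPt - tr 4 f4 q rhoPt * ω * ω) = 0 := by
        linear_combination h' + (-(tr 4 f4 q0 rhoPt) ^ 2 * tr 4 f4 q rhoPt
          + tr 4 f4 q0 rhoPt * (tr 4 f4 q rhoPt) ^ 2 * ω
          - (tr 4 f4 q rhoPt) ^ 3 * (ω - 1)) * hω
      rcases mul_eq_zero.mp hprod with h1 | h1
      · rcases mul_eq_zero.mp h1 with h2 | h2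
        · exact hq0 (hsep q0 q (sub_eq_zero.mp h2) h).symm
        · have e : q0 = τ q := hsep q0 (τ q) (by rw [r4]; exact sub_eq_zero.mp h2)
            (by rw [r6, h])
          exact hq2 (by rw [e, hτ3])
      · have e : q0 = τ (τ q) := hsep q0 (τ (τ q)) (by rw [r4, r4]; exact sub_eq_zero.mp h1)
          (by rw [r6, r6, h])
        exact hq1 (by rw [e, hτ3])
    · exact ⟨6, _, (IsVal.of_isMF hf6).sub_const hu6 h6 (tr 6 f6 q rhoPt), dvd_refl _,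
        sub_self _, sub_ne_zero.mpr h⟩)
  have hWτ : ∀ q, W (τ q) = W q := rdiv hW hd
  have h0' : ∀ q, q ≠ q0 → q ≠ τ q0 → q ≠ τ (τ q0) → W q = 0 := fun q h1 h2 h3 =>
    h0 q (Finset.mem_filter.mpr ⟨Finset.mem_univ _, h1, h2, h3⟩)
  by_cases hfix : τ q0 = q0
  · obtain ⟨W', hW', h1, h0''⟩ := hW.single q0
      (fun q hq => h0' q hq (by rw [hfix]; exact hq) (by rw [hfix, hfix]; exact hq)) hne
    exact ⟨W', hW'.mem_valSpan, h1, h0''⟩
  · have h02 : τ (τ q0) ≠ q0 := by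
      intro h
      apply hfix
      have h' := congrArg τ h
      rw [hτ3] at h'
      exact h'.symm
    have h21 : τ (τ q0) ≠ τ q0 := by
      intro h
      apply h02
      have h' := congrArg τ h
      rw [hτ3] at h'
      exact h'.symm
    have ha : tr 4 f4 q0 rhoPt ≠ 0 := by
      intro ha
      apply hfix
      exact (hsep q0 (τ q0) (by rw [r4, ha, zero_mul]) (by rw [r6])).symm
    have hW1 : IsVal Γ rhoPt (K + 4) (W * fun q => tr 4 f4 q rhoPt) :=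
      hW.mul rfl (IsVal.of_isMF hf4)
    have hW2 : IsVal Γ rhoPt (K + 4 + 4)
        (W * (fun q => tr 4 f4 q rhoPt) * fun q => tr 4 f4 q rhoPt) :=
      hW1.mul rfl (IsVal.of_isMF hf4)
    refine ⟨(3 * W q0)⁻¹ • W
        + (3 * W q0 * tr 4 f4 q0 rhoPt)⁻¹ • (W * fun q => tr 4 f4 q rhoPt)
        + (3 * W q0 * tr 4 f4 q0 rhoPt * tr 4 f4 q0 rhoPt)⁻¹ •
          (W * (fun q => tr 4 f4 q rhoPt) * fun q => tr 4 f4 q rhoPt),
      Submodule.add_mem _ (Submodule.add_mem _ (Submodule.smul_mem _ _ hW.mem_valSpan)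
        (Submodule.smul_mem _ _ hW1.mem_valSpan)) (Submodule.smul_mem _ _ hW2.mem_valSpan),
      ?_, ?_⟩
    · simp only [Pi.add_apply, Pi.smul_apply, Pi.mul_apply, smul_eq_mul]
      field_simp
      ring
    · intro q hq
      by_cases hq1 : q = τ q0
      · subst hq1
        simp only [Pi.add_apply, Pi.smul_apply, Pi.mul_apply, smul_eq_mul]
        rw [hWτ, r4]
        field_simp
        linear_combination hω
      · by_cases hq2 : q = τ (τ q0)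
        · subst hq2
          simp only [Pi.add_apply, Pi.smul_apply, Pi.mul_apply, smul_eq_mul]
          rw [hWτ, hWτ, r4, r4]
          field_simp
          linear_combination (ω ^ 2 - ω + 1) * hω
        · simp [h0' q hq hq1 hq2]

/-- Slash-invariance of a level-one form, evaluated. -/
theorem top_apply_smul {k : ℤ} {u : ℍ → ℂ} (hu : IsMF ⊤ k u) (γ : SL(2, ℤ)) (z : ℍ) :
    u (γ • z) = denom γ z ^ k * u z := by
  have h := congrFun (hu.2.1 γ (Subgroup.mem_top _)) z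
  rw [SL_slash_apply] at h
  have hd : denom γ z ≠ 0 := denom_ne_zero γ z
  rw [← h, zpow_neg, mul_comm (u (γ • z)), ← mul_assoc, mul_inv_cancel₀ (zpow_ne_zero _ hd),
    one_mul]

/-- **Main theorem.** At every point, the value vectors of modular forms for `Γ` span all
functions on the cosets. -/
theorem valSpan_eq_top [Γ.FiniteIndex] (hneg : -1 ∈ Γ)
    (hu4 : IsMF ⊤ 4 u4) (hu6 : IsMF ⊤ 6 u6) (hu : ∀ z, u4 z ≠ 0 ∨ u6 z ≠ 0)
    (hZ4 : ∀ z, u4 z = 0 → ∃ γ : SL(2, ℤ), γ • rhoPt = z)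
    (hZ6 : ∀ z, u6 z = 0 → ∃ γ : SL(2, ℤ), γ • I = z)
    (hf4 : IsMF Γ 4 f4) (hf6 : IsMF Γ 6 f6)
    (hsep : ∀ (z : ℍ) (q q' : SL(2, ℤ) ⧸ Γ), tr 4 f4 q z = tr 4 f4 q' z →
      tr 6 f6 q z = tr 6 f6 q' z → q = q')
    (z0 : ℍ) : valSpan Γ z0 = ⊤ := by
  have : Finite (SL(2, ℤ) ⧸ Γ) := Subgroup.finite_quotient_of_finiteIndex
  by_cases h6 : u6 z0 = 0
  · obtain ⟨γ, rfl⟩ := hZ6 z0 h6
    apply valSpan_smul_eq_top
    have h6I : u6 I = 0 := by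
      rw [top_apply_smul hu6] at h6
      exact (mul_eq_zero.mp h6).resolve_left (zpow_ne_zero _ (denom_ne_zero γ I))
    have h4I : u4 I ≠ 0 := (hu I).resolve_right (not_not.mpr h6I)
    exact valSpan_eq_top_of_delta (exists_delta_I hneg hu4 hf4 hf6 (hsep I) h4I)
  · by_cases h4 : u4 z0 = 0
    · obtain ⟨γ, rfl⟩ := hZ4 z0 h4
      apply valSpan_smul_eq_top
      have h4ρ : u4 rhoPt = 0 := by
        rw [top_apply_smul hu4] at h4
        exact (mul_eq_zero.mp h4).resolve_left (zpow_ne_zero _ (denom_ne_zero γ rhoPt))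
      have h6ρ : u6 rhoPt ≠ 0 := (hu rhoPt).resolve_left (not_not.mpr h4ρ)
      exact valSpan_eq_top_of_delta (exists_delta_rho hneg hu6 hf4 hf6 (hsep rhoPt) h6ρ)
    · exact valSpan_eq_top_of_delta (exists_delta_generic hu4 hu6 hf4 hf6 (hsep z0) h4 h6)

end Main

/-! ### Consequences for graded bases -/

/-- The rows of the matrix of conjugates of a weak graded basis span. -/
theorem span_rows_eq_top (W : WBasis Γ) (z0 : ℍ) (h : valSpan Γ z0 = ⊤) :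
    Submodule.span ℂ (Set.range fun i : W.ι =>
      (fun q : SL(2, ℤ) ⧸ Γ => tr (W.k i) (W.e i) q z0)) = ⊤ := by
  rw [eq_top_iff, ← h]
  unfold valSpan
  rw [Submodule.span_le]
  rintro v ⟨K, F, hF, hv⟩
  obtain ⟨r, hr, rfl⟩ := W.repr K F hF
  have e : v = ∑ i ∈ r.support,
      (r i z0) • (fun q : SL(2, ℤ) ⧸ Γ => tr (W.k i) (W.e i) q z0) := by
    funext q
    rw [← hv q, Finsupp.sum, tr_sum, Finset.sum_apply, Finset.sum_apply]
    refine Finset.sum_congr rfl fun i _ => ?_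
    rw [tr_mul (k1 := K - W.k i) (k2 := W.k i) (by ring), tr_top (hr i)]
    rfl
  rw [e]
  exact Submodule.sum_mem _ fun i _ => Submodule.smul_mem _ _ (Submodule.subset_span ⟨i, rfl⟩)

/-- The square matrix of conjugates of a graded basis is invertible wherever the value vectors
span. -/
theorem det_Asq_ne_zero_of_valSpan (B : GBasis Γ) (ε : B.ι ≃ SL(2, ℤ) ⧸ Γ) (z : ℍ)
    (h : valSpan Γ z = ⊤) : (B.Asq ε z).det ≠ 0 := by
  classical
  intro hdet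
  obtain ⟨c, hc, hMc⟩ := Matrix.exists_mulVec_eq_zero_iff.mpr hdet
  let φ : (SL(2, ℤ) ⧸ Γ → ℂ) →ₗ[ℂ] ℂ :=
    { toFun := fun v => ∑ j, v (ε j) * c j
      map_add' := by
        intro v w
        simp [add_mul, Finset.sum_add_distrib]
      map_smul' := by
        intro a v
        simp [Finset.mul_sum, mul_assoc] }
  have hφ : ∀ v, φ v = 0 := by
    intro v
    have hv : v ∈ Submodule.span ℂ (Set.range fun i : B.ι =>
        (fun q : SL(2, ℤ) ⧸ Γ => tr (B.k i) (B.e i) q z)) := by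
      have hs := span_rows_eq_top B.toWBasis z h
      have hs' : Submodule.span ℂ (Set.range fun i : B.ι =>
          (fun q : SL(2, ℤ) ⧸ Γ => tr (B.k i) (B.e i) q z)) = ⊤ := hs
      rw [hs']
      trivial
    refine Submodule.span_induction ?_ ?_ ?_ ?_ hv
    · rintro _ ⟨i, rfl⟩
      exact congrFun hMc i
    · exact map_zero φ
    · intro x y _ _ hx hy
      rw [map_add, hx, hy, add_zero]
    · intro a x _ hx
      rw [map_smul, hx, smul_zero]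
  apply hc
  funext j
  have hj := hφ (fun q => if q = ε j then 1 else 0)
  have hj' : φ (fun q => if q = ε j then 1 else 0) = c j := by
    show ∑ j', (if ε j' = ε j then (1 : ℂ) else 0) * c j' = c j
    rw [Finset.sum_eq_single j]
    · simp
    · intro j' _ hne
      simp [hne]
    · simp
  rw [hj'] at hj
  exact hj

/-- **Invertibility of the matrix of conjugates of a graded basis at every point.** -/
theorem det_Asq_ne_zero [Γ.FiniteIndex] (hneg : -1 ∈ Γ) {u4 u6 f4 f6 : ℍ → ℂ}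
    (hu4 : IsMF ⊤ 4 u4) (hu6 : IsMF ⊤ 6 u6) (hu : ∀ z, u4 z ≠ 0 ∨ u6 z ≠ 0)
    (hZ4 : ∀ z, u4 z = 0 → ∃ γ : SL(2, ℤ), γ • rhoPt = z)
    (hZ6 : ∀ z, u6 z = 0 → ∃ γ : SL(2, ℤ), γ • I = z)
    (hf4 : IsMF Γ 4 f4) (hf6 : IsMF Γ 6 f6)
    (hsep : ∀ (z : ℍ) (q q' : SL(2, ℤ) ⧸ Γ), tr 4 f4 q z = tr 4 f4 q' z →
      tr 6 f6 q z = tr 6 f6 q' z → q = q')
    (B : GBasis Γ) (ε : B.ι ≃ SL(2, ℤ) ⧸ Γ) (z : ℍ) : (B.Asq ε z).det ≠ 0 :=
  det_Asq_ne_zero_of_valSpan B ε z (valSpan_eq_top hneg hu4 hu6 hu hZ4 hZ6 hf4 hf6 hsep z)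

end

end Interp

end Fermat.Agent.S20
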