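import Mathlib

/-!
# A lattice is determined by `g₂` and `g₃`

For period pairs `L`, `L'` with the same invariants `g₂`, `g₃`, the lattices coincide.
The proof compares the two Weierstrass `℘`-functions near `0` using the differential equation
`℘'² = 4℘³ - g₂℘ - g₃`, then uses the identity theorem and compares poles.
-/

set_option autoImplicit false

open Filter Topology

namespace Fermat.Agent.S20

/-- For all `z`, `℘[L] z = ℘[L - 0] z + 1 / z ^ 2`. -/
theorem weierstrassP_eq_except_zero (L : PeriodPair) (z : ℂ) :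
    L.weierstrassP z = L.weierstrassPExcept 0 z + 1 / z ^ 2 := by
  have h := L.weierstrassPExcept_add (0 : L.lattice) z
  simp only [ZeroMemClass.coe_zero, sub_zero] at h
  rw [← h]
  simp

/-- For all `z`, `℘'[L] z = ℘'[L - 0] z - 2 / z ^ 3`. -/
theorem derivWeierstrassP_eq_except_zero (L : PeriodPair) (z : ℂ) :
    L.derivWeierstrassP z = L.derivWeierstrassPExcept 0 z - 2 / z ^ 3 := by
  have h := L.derivWeierstrassPExcept_sub (0 : L.lattice) z
  simp only [ZeroMemClass.coe_zero, sub_zero] at h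
  rw [← h]

/-- The algebraic identity obtained from the two differential equations. -/
theorem ode_diff_identity (L L' : PeriodPair) (h₂ : L.g₂ = L'.g₂) (h₃ : L.g₃ = L'.g₃)
    (z : ℂ) (hz0 : z ≠ 0) (hz : z ∉ L.lattice) (hz' : z ∉ L'.lattice) :
    z * (L.derivWeierstrassPExcept 0 z - L'.derivWeierstrassPExcept 0 z) *
        (z ^ 3 * (L.derivWeierstrassPExcept 0 z + L'.derivWeierstrassPExcept 0 z) - 4) =
      (L.weierstrassPExcept 0 z - L'.weierstrassPExcept 0 z) *
        (4 * ((z ^ 2 * L.weierstrassPExcept 0 z + 1) ^ 2 +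
            (z ^ 2 * L.weierstrassPExcept 0 z + 1) * (z ^ 2 * L'.weierstrassPExcept 0 z + 1) +
            (z ^ 2 * L'.weierstrassPExcept 0 z + 1) ^ 2) - L.g₂ * z ^ 4) := by
  have e1 := L.derivWeierstrassP_sq z hz
  have e2 := L'.derivWeierstrassP_sq z hz'
  rw [weierstrassP_eq_except_zero, derivWeierstrassP_eq_except_zero] at e1 e2
  rw [← h₂, ← h₃] at e2
  set P := L.weierstrassPExcept 0 z
  set P' := L'.weierstrassPExcept 0 z
  set Q := L.derivWeierstrassPExcept 0 z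
  set Q' := L'.derivWeierstrassPExcept 0 z
  have e1' : (z ^ 3 * Q - 2) ^ 2 =
      4 * (z ^ 2 * P + 1) ^ 3 - L.g₂ * z ^ 4 * (z ^ 2 * P + 1) - L.g₃ * z ^ 6 := by
    have : (z ^ 3 * Q - 2) ^ 2 = z ^ 6 * (Q - 2 / z ^ 3) ^ 2 := by field_simp
    rw [this, e1]
    field_simp
  have e2' : (z ^ 3 * Q' - 2) ^ 2 =
      4 * (z ^ 2 * P' + 1) ^ 3 - L.g₂ * z ^ 4 * (z ^ 2 * P' + 1) - L.g₃ * z ^ 6 := by
    have : (z ^ 3 * Q' - 2) ^ 2 = z ^ 6 * (Q' - 2 / z ^ 3) ^ 2 := by field_simp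
    rw [this, e2]
    field_simp
  have hz2 : z ^ 2 ≠ 0 := pow_ne_zero 2 hz0
  apply mul_left_cancel₀ hz2
  linear_combination e1' - e2'

/-- Near `0`, the regular parts of `℘[L]` and `℘[L']` agree when `g₂`, `g₃` agree. -/
theorem weierstrassPExcept_zero_eventuallyEq (L L' : PeriodPair)
    (h₂ : L.g₂ = L'.g₂) (h₃ : L.g₃ = L'.g₃) :
    ∀ᶠ z in 𝓝 (0 : ℂ), L.weierstrassPExcept 0 z = L'.weierstrassPExcept 0 z := by
  set f : ℂ → ℂ := fun z => L.weierstrassPExcept 0 z - L'.weierstrassPExcept 0 z with hf_def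
  have hP : AnalyticAt ℂ (L.weierstrassPExcept 0) 0 := L.analyticAt_weierstrassPExcept 0
  have hP' : AnalyticAt ℂ (L'.weierstrassPExcept 0) 0 := L'.analyticAt_weierstrassPExcept 0
  have hQ : AnalyticAt ℂ (L.derivWeierstrassPExcept 0) 0 := L.analyticAt_derivWeierstrassPExcept 0
  have hQ' : AnalyticAt ℂ (L'.derivWeierstrassPExcept 0) 0 :=
    L'.analyticAt_derivWeierstrassPExcept 0
  have hf : AnalyticAt ℂ f 0 := hP.sub hP'
  suffices h : ∀ᶠ z in 𝓝 (0 : ℂ), f z = 0 by
    filter_upwards [h] with z hz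
    exact sub_eq_zero.mp hz
  by_contra hcon
  obtain ⟨n, g, hg_an, hg_ne, hg_eq⟩ := hf.exists_eventuallyEq_pow_smul_nonzero_iff.mpr hcon
  -- neighbourhoods avoiding the lattices
  have hN : ((L.lattice : Set ℂ) \ {(0 : ℂ)})ᶜ ∈ 𝓝 (0 : ℂ) := L.compl_lattice_sdiff_singleton_mem_nhds 0
  have hN' : ((L'.lattice : Set ℂ) \ {(0 : ℂ)})ᶜ ∈ 𝓝 (0 : ℂ) :=
    L'.compl_lattice_sdiff_singleton_mem_nhds 0
  -- derivative of `f` near `0`
  have hderiv1 : ∀ᶠ z in 𝓝 (0 : ℂ),
      deriv f z = L.derivWeierstrassPExcept 0 z - L'.derivWeierstrassPExcept 0 z := by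
    filter_upwards [hP.eventually_analyticAt, hP'.eventually_analyticAt,
      eventually_mem_nhds_iff.mpr hN, eventually_mem_nhds_iff.mpr hN'] with z h1 h2 h3 h4
    have h3' : z ∈ ((L.lattice : Set ℂ) \ {(0 : ℂ)})ᶜ := mem_of_mem_nhds h3
    have h4' : z ∈ ((L'.lattice : Set ℂ) \ {(0 : ℂ)})ᶜ := mem_of_mem_nhds h4
    rw [hf_def, deriv_fun_sub h1.differentiableAt h2.differentiableAt,
      L.eqOn_deriv_weierstrassPExcept_derivWeierstrassPExcept 0 h3',
      L'.eqOn_deriv_weierstrassPExcept_derivWeierstrassPExcept 0 h4']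
  have hderiv2 : ∀ᶠ z in 𝓝 (0 : ℂ),
      deriv f z = n * z ^ (n - 1) * g z + z ^ n * deriv g z := by
    have hev : f =ᶠ[𝓝 (0 : ℂ)] fun z => z ^ n * g z := by
      filter_upwards [hg_eq] with z hz
      rw [hz, sub_zero, smul_eq_mul]
    filter_upwards [hev.eventuallyEq_nhds, hg_an.eventually_analyticAt] with z hz hgz
    rw [hz.deriv_eq]
    have hd : HasDerivAt (fun z => z ^ n * g z)
        ((n : ℂ) * z ^ (n - 1) * g z + z ^ n * deriv g z) z :=
      (hasDerivAt_pow n z).mul hgz.differentiableAt.hasDerivAt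
    exact hd.deriv
  -- the function `h` which vanishes on a punctured neighbourhood but not at `0`
  set a : ℂ → ℂ := fun z =>
    z ^ 3 * (L.derivWeierstrassPExcept 0 z + L'.derivWeierstrassPExcept 0 z) - 4 with ha_def
  set b : ℂ → ℂ := fun z =>
    4 * ((z ^ 2 * L.weierstrassPExcept 0 z + 1) ^ 2 +
      (z ^ 2 * L.weierstrassPExcept 0 z + 1) * (z ^ 2 * L'.weierstrassPExcept 0 z + 1) +
      (z ^ 2 * L'.weierstrassPExcept 0 z + 1) ^ 2) - L.g₂ * z ^ 4 with hb_def
  set h : ℂ → ℂ := fun z => ((n : ℂ) * g z + z * deriv g z) * a z - g z * b z with hh_def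
  have hcP : ContinuousAt (L.weierstrassPExcept 0) 0 := hP.continuousAt
  have hcP' : ContinuousAt (L'.weierstrassPExcept 0) 0 := hP'.continuousAt
  have hcQ : ContinuousAt (L.derivWeierstrassPExcept 0) 0 := hQ.continuousAt
  have hcQ' : ContinuousAt (L'.derivWeierstrassPExcept 0) 0 := hQ'.continuousAt
  have hcg : ContinuousAt g 0 := hg_an.continuousAt
  have hcdg : ContinuousAt (deriv g) 0 := hg_an.deriv.continuousAt
  have hca : ContinuousAt a 0 := by
    rw [ha_def]; fun_prop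
  have hcb : ContinuousAt b 0 := by
    rw [hb_def]; fun_prop
  have hch : ContinuousAt h 0 := by
    rw [hh_def]; fun_prop
  have hh0 : h 0 ≠ 0 := by
    have : h 0 = -(4 * (n : ℂ) + 12) * g 0 := by
      simp only [hh_def, ha_def, hb_def]
      ring
    rw [this]
    refine mul_ne_zero (neg_ne_zero.mpr ?_) hg_ne
    have h3 : (4 * (n : ℂ) + 12) = ((4 * n + 12 : ℕ) : ℂ) := by push_cast; ring
    rw [h3]
    exact_mod_cast (by omega : 4 * n + 12 ≠ 0)
  have hne : ∀ᶠ z in 𝓝[≠] (0 : ℂ), h z ≠ 0 :=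
    eventually_nhdsWithin_of_eventually_nhds (hch.eventually_ne hh0)
  have hzero : ∀ᶠ z in 𝓝[≠] (0 : ℂ), h z = 0 := by
    have hall : ∀ᶠ z in 𝓝 (0 : ℂ), z ≠ 0 → h z = 0 := by
      filter_upwards [hderiv1, hderiv2, hg_eq, hN, hN'] with z hd1 hd2 hfz hzL hzL' hz0
      have hzL1 : z ∉ L.lattice := fun hmem => hzL ⟨hmem, hz0⟩
      have hzL2 : z ∉ L'.lattice := fun hmem => hzL' ⟨hmem, hz0⟩
      have key := ode_diff_identity L L' h₂ h₃ z hz0 hzL1 hzL2
      have hfz' : L.weierstrassPExcept 0 z - L'.weierstrassPExcept 0 z = z ^ n * g z := by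
        have := hfz
        simp only [hf_def, sub_zero, smul_eq_mul] at this
        exact this
      have hdz : L.derivWeierstrassPExcept 0 z - L'.derivWeierstrassPExcept 0 z =
          n * z ^ (n - 1) * g z + z ^ n * deriv g z := by rw [← hd1, hd2]
      rw [hdz, hfz'] at key
      have hzn : z ^ n ≠ 0 := pow_ne_zero n hz0
      have hpow : z * ((n : ℂ) * z ^ (n - 1)) = (n : ℂ) * z ^ n := by
        rcases Nat.eq_zero_or_pos n with hn | hn
        · subst hn; simp
        · have : z ^ n = z ^ (n - 1) * z := by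
            rw [← pow_succ]; congr 1; omega
          rw [this]; ring
      apply mul_left_cancel₀ hzn
      simp only [hh_def, ha_def, hb_def, mul_zero]
      linear_combination key - g z *
        (z ^ 3 * (L.derivWeierstrassPExcept 0 z + L'.derivWeierstrassPExcept 0 z) - 4) * hpow
    filter_upwards [eventually_nhdsWithin_of_eventually_nhds hall, self_mem_nhdsWithin]
      with z hz1 hz2
    exact hz1 hz2
  obtain ⟨z, hz1, hz2⟩ := (hne.and hzero).exists
  exact hz1 hz2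

/-- With equal `g₂`, `g₃`, the two `℘`-functions agree away from both lattices. -/
theorem weierstrassP_eqOn_of_g₂_eq_of_g₃_eq (L L' : PeriodPair)
    (h₂ : L.g₂ = L'.g₂) (h₃ : L.g₃ = L'.g₃) :
    Set.EqOn L.weierstrassP L'.weierstrassP ((L.lattice : Set ℂ) ∪ (L'.lattice : Set ℂ))ᶜ := by
  set U : Set ℂ := ((L.lattice : Set ℂ) ∪ (L'.lattice : Set ℂ))ᶜ with hU
  have hUo : IsOpen U := (L.isClosed_lattice.union L'.isClosed_lattice).isOpen_compl
  have hcount : ((L.lattice : Set ℂ) ∪ (L'.lattice : Set ℂ)).Countable :=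
    Set.Countable.union (countable_of_Lindelof_of_discrete (X := L.lattice))
      (countable_of_Lindelof_of_discrete (X := L'.lattice))
  have hUc : IsPreconnected U :=
    (Set.Countable.isConnected_compl_of_one_lt_rank (by simp) hcount).isPreconnected
  have hA : AnalyticOnNhd ℂ L.weierstrassP U :=
    L.analyticOnNhd_weierstrassP.mono (Set.compl_subset_compl.mpr Set.subset_union_left)
  have hA' : AnalyticOnNhd ℂ L'.weierstrassP U :=
    L'.analyticOnNhd_weierstrassP.mono (Set.compl_subset_compl.mpr Set.subset_union_right)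
  have hloc := weierstrassPExcept_zero_eventuallyEq L L' h₂ h₃
  have hN : ((L.lattice : Set ℂ) \ {(0 : ℂ)})ᶜ ∈ 𝓝 (0 : ℂ) :=
    L.compl_lattice_sdiff_singleton_mem_nhds 0
  have hN' : ((L'.lattice : Set ℂ) \ {(0 : ℂ)})ᶜ ∈ 𝓝 (0 : ℂ) :=
    L'.compl_lattice_sdiff_singleton_mem_nhds 0
  have hex : ∀ᶠ z in 𝓝[≠] (0 : ℂ), z ∈ U ∧ L.weierstrassP =ᶠ[𝓝 z] L'.weierstrassP := by
    have hall : ∀ᶠ z in 𝓝 (0 : ℂ), z ≠ 0 →
        (z ∈ U ∧ L.weierstrassP =ᶠ[𝓝 z] L'.weierstrassP) := by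
      filter_upwards [hloc.eventually_nhds, hN, hN'] with z hz hzL hzL' hz0
      refine ⟨?_, ?_⟩
      · rintro (hmem | hmem)
        · exact hzL ⟨hmem, hz0⟩
        · exact hzL' ⟨hmem, hz0⟩
      · filter_upwards [hz] with w hw
        rw [weierstrassP_eq_except_zero, weierstrassP_eq_except_zero, hw]
    filter_upwards [eventually_nhdsWithin_of_eventually_nhds hall, self_mem_nhdsWithin]
      with z hz1 hz2
    exact hz1 hz2
  obtain ⟨z₀, hz₀U, hz₀⟩ := hex.exists
  exact hA.eqOn_of_preconnected_of_eventuallyEq hA' hUc hz₀U hz₀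

theorem lattice_le_of_g₂_eq_of_g₃_eq (L L' : PeriodPair)
    (h₂ : L.g₂ = L'.g₂) (h₃ : L.g₃ = L'.g₃) : L.lattice ≤ L'.lattice := by
  intro l hl
  by_contra hl'
  have hEq := weierstrassP_eqOn_of_g₂_eq_of_g₃_eq L L' h₂ h₃
  have h1 : meromorphicOrderAt L.weierstrassP l = -2 := L.order_weierstrassP l hl
  have hev : L.weierstrassP =ᶠ[𝓝[≠] l] L'.weierstrassP := by
    have hN : ((L.lattice : Set ℂ) \ {l})ᶜ ∈ 𝓝 l := L.compl_lattice_sdiff_singleton_mem_nhds l
    have hN' : ((L'.lattice : Set ℂ))ᶜ ∈ 𝓝 l := L'.isClosed_lattice.isOpen_compl.mem_nhds hl'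
    filter_upwards [mem_nhdsWithin_of_mem_nhds hN, mem_nhdsWithin_of_mem_nhds hN',
      self_mem_nhdsWithin] with z hz hz' hzl
    apply hEq
    rintro (hmem | hmem)
    · exact hz ⟨hmem, hzl⟩
    · exact hz' hmem
  have h2 : 0 ≤ meromorphicOrderAt L'.weierstrassP l :=
    (L'.analyticOnNhd_weierstrassP l hl').meromorphicOrderAt_nonneg
  rw [meromorphicOrderAt_congr hev] at h1
  rw [h1] at h2
  exact absurd h2 (by decide)

/-- **A lattice is determined by `g₂` and `g₃`.** -/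
theorem lattice_eq_of_g₂_eq_of_g₃_eq (L L' : PeriodPair)
    (h₂ : L.g₂ = L'.g₂) (h₃ : L.g₃ = L'.g₃) : L.lattice = L'.lattice :=
  le_antisymm (lattice_le_of_g₂_eq_of_g₃_eq L L' h₂ h₃)
    (lattice_le_of_g₂_eq_of_g₃_eq L' L h₂.symm h₃.symm)

end Fermat.Agent.S20
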