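import Fermat.Agent.S20.L1Basic
import Fermat.Prelude.Thm_ModularForm_sturm_bound_Gamma0
import Fermat.Prelude.Thm_CongruenceSubgroup_one_mem_strictPeriods_Gamma0

/-!
# S20 — level-one bridge and the Sturm dimension bound

* `MFsub ⊤ m = monoSpan E4f E6f m` (level-one forms are the span of the monomials
  `E₄ ^ a * E₆ ^ b`, function level);
* `finrank (MFsub (Gamma0 N) k) ≤ ⌊k μ / 12⌋ + 1` from the Prelude Sturm bound.

Everything lives in the sub-namespace `Fermat.Agent.S20.LevelOneBridge`.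
-/

set_option autoImplicit false

open UpperHalfPlane ModularForm Matrix.SpecialLinearGroup
open scoped MatrixGroups Manifold ModularForm Topology

namespace Fermat.Agent.S20.LevelOneBridge

noncomputable section

/-- Monomials in `E₄`, `E₆` are level-one forms. -/
theorem isMF_monomial (a b : ℕ) {m : ℤ} (h : (4 * a + 6 * b : ℤ) = m) :
    IsMF ⊤ m (E4f ^ a * E6f ^ b) :=
  monoSpan_le_MFsub m (Submodule.subset_span ⟨a, b, h, rfl⟩)

/-- **Level-one forms of weight `m` are exactly the span of the monomials `E₄^a E₆^b`,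
`4a + 6b = m`.** -/
theorem MFsub_top_eq_monoSpan (m : ℤ) : MFsub ⊤ m = monoSpan E4f E6f m :=
  le_antisymm (fun f hf => levelOne_mem_monoSpan m f hf) (monoSpan_le_MFsub m)

theorem mem_monoSpan_iff_isMF_top {m : ℤ} {f : ℍ → ℂ} :
    f ∈ monoSpan E4f E6f m ↔ IsMF ⊤ m f := by
  rw [← MFsub_top_eq_monoSpan]
  rfl

/-! ### The Sturm dimension bound -/

/-- The first `B + 1` `q`-expansion coefficients, as a linear map on `M_k(Γ₀(N))`. -/
def coeffMapGamma0 (N : ℕ) [NeZero N] (k : ℤ) (B : ℕ) :
    ModularForm ((CongruenceSubgroup.Gamma0 N).map (mapGL ℝ)) k →ₗ[ℂ] (Fin (B + 1) → ℂ) where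
  toFun f := fun n => (qExpansion 1 f).coeff (n : ℕ)
  map_add' f g := by
    funext n
    have h := ModularForm.qExpansion_add one_pos
      (CongruenceSubgroup.one_mem_strictPeriods_Gamma0 N) f g
    show (qExpansion 1 (⇑f + ⇑g)).coeff (n : ℕ) = _
    rw [h]
    simp
  map_smul' c f := by
    funext n
    have h := ModularForm.qExpansion_smul one_pos
      (CongruenceSubgroup.one_mem_strictPeriods_Gamma0 N) c f
    show (qExpansion 1 (c • ⇑f)).coeff (n : ℕ) = _
    rw [h]
    simp

theorem coeffMapGamma0_injective (N : ℕ) [NeZero N] (k : ℤ) :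
    Function.Injective
      (coeffMapGamma0 N k ((k * (CongruenceSubgroup.Gamma0 N).index).toNat / 12)) := by
  rw [← LinearMap.ker_eq_bot, LinearMap.ker_eq_bot']
  intro f hf
  apply ModularForm.sturm_bound_Gamma0 N
  intro n hn
  have := congrFun hf ⟨n, Nat.lt_succ_of_le hn⟩
  exact this

/-- `M_k(Γ₀(N))` is finite-dimensional (function level). -/
theorem finite_MFsub_Gamma0 (N : ℕ) [NeZero N] (k : ℤ) :
    Module.Finite ℂ (MFsub (CongruenceSubgroup.Gamma0 N) k) := by
  have h1 : Module.Finite ℂ (ModularForm ((CongruenceSubgroup.Gamma0 N).map (mapGL ℝ)) k) :=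
    Module.Finite.of_injective _ (coeffMapGamma0_injective N k)
  exact Module.Finite.equiv (mfEquiv (CongruenceSubgroup.Gamma0 N) k)

/-- **Sturm dimension bound**: `dim M_k(Γ₀(N)) ≤ ⌊k μ / 12⌋ + 1`, `μ = [SL₂(ℤ) : Γ₀(N)]`. -/
theorem finrank_MFsub_Gamma0_le (N : ℕ) [NeZero N] (k : ℤ) :
    Module.finrank ℂ (MFsub (CongruenceSubgroup.Gamma0 N) k) ≤
      (k * (CongruenceSubgroup.Gamma0 N).index).toNat / 12 + 1 := by
  rw [← finrank_modularForm_eq]
  have h := LinearMap.finrank_le_finrank_of_injective (coeffMapGamma0_injective N k)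
  simpa using h

end

end Fermat.Agent.S20.LevelOneBridge
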