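import Mathlib

/-!
# S20 — abstract matrix asymptotics at the cusp

If `A z = B z * diag(exp(2πi s_p z)) * F` with `B z → β` invertible, `F` invertible and
`0 ≤ s_p ≤ 1 - δ`, then `det(A z)^2 / exp(2πi (2 Σ s_p) z)` tends to a nonzero constant and
`exp(2πi z) * (A z)⁻¹` tends to `0` entrywise.
-/

set_option autoImplicit false

open UpperHalfPlane Filter
open scoped Topology Real

namespace Fermat.Agent.S20

noncomputable section

/-- `exp(2πi c z) → 0` at `i∞` for `c > 0`. -/
theorem matAsymp_tendsto_exp (c : ℝ) (hc : 0 < c) :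
    Tendsto (fun z : ℍ => Complex.exp (2 * π * Complex.I * c * z)) atImInfty (𝓝 0) := by
  rw [tendsto_zero_iff_norm_tendsto_zero]
  have h1 : ∀ z : ℍ, ‖Complex.exp (2 * π * Complex.I * c * z)‖
      = Real.exp (-(2 * π * c) * z.im) := by
    intro z
    rw [Complex.norm_exp]
    congr 1
    have : (2 * π * Complex.I * c * z : ℂ) = Complex.I * ((2 * π * c : ℝ) * z) := by
      push_cast; ring
    rw [this, Complex.I_mul_re, Complex.im_ofReal_mul, UpperHalfPlane.coe_im]
    ring
  simp_rw [h1]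
  refine Real.tendsto_exp_atBot.comp ?_
  have him : Tendsto (fun z : ℍ => z.im) atImInfty atTop := tendsto_comap
  exact him.const_mul_atTop_of_neg (by have := Real.pi_pos; nlinarith)

/-- Entrywise convergence of matrices is convergence in the product topology. -/
theorem matAsymp_tendsto_matrix {P : Type} (Bm : ℍ → Matrix P P ℂ) (β : Matrix P P ℂ)
    (hB : ∀ p p', Tendsto (fun z => Bm z p p') atImInfty (𝓝 (β p p'))) :
    Tendsto Bm atImInfty (𝓝 β) :=
  tendsto_pi_nhds.mpr fun p => tendsto_pi_nhds.mpr fun p' => hB p p'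

/-- **Matrix asymptotics at the cusp.** -/
theorem matrix_asymptotics {P : Type} [Fintype P] [DecidableEq P] (Bm : ℍ → Matrix P P ℂ)
    (β : Matrix P P ℂ)
    (hB : ∀ p p', Tendsto (fun z => Bm z p p') atImInfty (𝓝 (β p p'))) (hβ : β.det ≠ 0)
    (s : P → ℝ) (δ : ℝ) (hδ : 0 < δ)
    (hs0 : ∀ p, 0 ≤ s p) (hs1 : ∀ p, s p ≤ 1 - δ) (F : Matrix P P ℂ) (hF : F.det ≠ 0)
    (A : ℍ → Matrix P P ℂ)
    (hA : ∀ z : ℍ, A z = Bm z *
      Matrix.diagonal (fun p => Complex.exp (2 * π * Complex.I * s p * z)) * F) :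
    (∃ c : ℂ, c ≠ 0 ∧ Tendsto (fun z : ℍ => (A z).det ^ 2 /
      Complex.exp (2 * π * Complex.I * (2 * ∑ p, s p) * z)) atImInfty (𝓝 c)) ∧
    ∀ p p', Tendsto (fun z : ℍ => Complex.exp (2 * π * Complex.I * z) * (A z)⁻¹ p p')
      atImInfty (𝓝 0) := by
  have _hs0 := hs0
  have hBm : Tendsto Bm atImInfty (𝓝 β) := matAsymp_tendsto_matrix Bm β hB
  have hdet : Tendsto (fun z => (Bm z).det) atImInfty (𝓝 β.det) :=
    (continuous_id.matrix_det.tendsto β).comp hBm
  constructor
  · refine ⟨β.det ^ 2 * F.det ^ 2, mul_ne_zero (pow_ne_zero _ hβ) (pow_ne_zero _ hF), ?_⟩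
    have hlim : Tendsto (fun z => (Bm z).det ^ 2 * F.det ^ 2) atImInfty
        (𝓝 (β.det ^ 2 * F.det ^ 2)) := (hdet.pow 2).mul_const _
    refine hlim.congr fun z => ?_
    have hprod : (∏ p, Complex.exp (2 * π * Complex.I * s p * z)) ^ 2
        = Complex.exp (2 * π * Complex.I * (2 * ∑ p, s p) * z) := by
      rw [← Complex.exp_sum, ← Complex.exp_nat_mul]
      congr 1
      push_cast
      rw [Finset.mul_sum, Finset.mul_sum, Finset.mul_sum, Finset.sum_mul]
      refine Finset.sum_congr rfl fun p _ => ?_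
      ring
    rw [hA z, Matrix.det_mul, Matrix.det_mul, Matrix.det_diagonal, mul_pow, mul_pow, hprod,
      eq_div_iff (Complex.exp_ne_zero _)]
    ring
  · intro p p'
    -- the inverse of `A z`
    have hinvA : ∀ z : ℍ, (A z)⁻¹ = F⁻¹ *
        (Matrix.diagonal (fun a => Complex.exp (-(2 * π * Complex.I * s a * z))) * (Bm z)⁻¹) := by
      intro z
      have hdiag : (Matrix.diagonal (fun a => Complex.exp (2 * π * Complex.I * s a * z)))⁻¹
          = Matrix.diagonal (fun a => Complex.exp (-(2 * π * Complex.I * s a * z))) := by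
        apply Matrix.inv_eq_left_inv
        rw [Matrix.diagonal_mul_diagonal, ← Matrix.diagonal_one]
        congr 1
        funext a
        rw [← Complex.exp_add, neg_add_cancel, Complex.exp_zero]
      rw [hA z, Matrix.mul_inv_rev, Matrix.mul_inv_rev, hdiag]
    have hinvB : Tendsto (fun z => (Bm z)⁻¹) atImInfty (𝓝 β⁻¹) := by
      have hc : ContinuousAt Ring.inverse β.det := by
        have := NormedRing.inverse_continuousAt (Units.mk0 β.det hβ)
        simpa using this
      exact (continuousAt_matrix_inv β hc).tendsto.comp hBm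
    have hentry : ∀ a : P, Tendsto (fun z => (Bm z)⁻¹ a p') atImInfty (𝓝 (β⁻¹ a p')) :=
      fun a => tendsto_pi_nhds.mp (tendsto_pi_nhds.mp hinvB a) p'
    have hterm : ∀ a : P, Tendsto (fun z : ℍ => F⁻¹ p a *
        (Complex.exp (2 * π * Complex.I * ((1 - s a : ℝ) : ℂ) * z) * (Bm z)⁻¹ a p'))
        atImInfty (𝓝 (F⁻¹ p a * (0 * β⁻¹ a p'))) := by
      intro a
      have hpos : 0 < 1 - s a := by linarith [hs1 a]
      exact ((matAsymp_tendsto_exp (1 - s a) hpos).mul (hentry a)).const_mul _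
    have hsum : Tendsto (fun z : ℍ => ∑ a, F⁻¹ p a *
        (Complex.exp (2 * π * Complex.I * ((1 - s a : ℝ) : ℂ) * z) * (Bm z)⁻¹ a p'))
        atImInfty (𝓝 (∑ a, F⁻¹ p a * (0 * β⁻¹ a p'))) :=
      tendsto_finsetSum _ fun a _ => hterm a
    have hzero : (∑ a, F⁻¹ p a * (0 * β⁻¹ a p')) = 0 := by simp
    rw [hzero] at hsum
    refine hsum.congr fun z => ?_
    rw [hinvA z, Matrix.mul_apply, Finset.mul_sum]
    refine Finset.sum_congr rfl fun a _ => ?_
    rw [Matrix.diagonal_mul]
    have hexp : Complex.exp (2 * π * Complex.I * ((1 - s a : ℝ) : ℂ) * z)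
        = Complex.exp (2 * π * Complex.I * z) *
          Complex.exp (-(2 * π * Complex.I * s a * z)) := by
      rw [← Complex.exp_add]
      congr 1
      push_cast
      ring
    rw [hexp]
    ring

end

end Fermat.Agent.S20
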