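import Fermat.Agent.S20.L1Basic
import Fermat.Agent.S20.RowsIndep

/-!
# S20 — transformation laws of the conjugate matrix

For a graded basis `B` of `⨁ M_k(Γ)` over level one and `ε : B.ι ≃ SL(2, ℤ) ⧸ Γ`, the square
matrix `B.Asq ε z` satisfies `Asq (γ • z) = diag(denom γ z ^ k_i) * Asq z * P_γ` with `P_γ` a
permutation matrix. We record this law, the induced laws for `det ^ 2` and for the inverse
matrix, and the holomorphy of determinants and inverses of holomorphic matrix functions.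
-/

set_option autoImplicit false

open UpperHalfPlane ModularForm Matrix.SpecialLinearGroup Filter
open scoped MatrixGroups Manifold ModularForm Topology

namespace Fermat.Agent.S20

noncomputable section

variable {Γ : Subgroup SL(2, ℤ)}

namespace MatLaw

/-- Finite sums of holomorphic functions on `ℍ` are holomorphic (pointwise form). -/
theorem mdiff_finset_sum {ι : Type*} (s : Finset ι) (f : ι → ℍ → ℂ)
    (hf : ∀ i ∈ s, MDifferentiable 𝓘(ℂ) 𝓘(ℂ) (f i)) :
    MDifferentiable 𝓘(ℂ) 𝓘(ℂ) (fun z => ∑ i ∈ s, f i z) := by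
  classical
  induction s using Finset.induction_on with
  | empty => simpa using (mdifferentiable_const : MDifferentiable 𝓘(ℂ) 𝓘(ℂ) (fun _ : ℍ => (0 : ℂ)))
  | insert a s ha ih =>
    have h1 := (hf a (Finset.mem_insert_self a s)).add
      (ih (fun i hi => hf i (Finset.mem_insert_of_mem hi)))
    have h2 : (fun z => ∑ i ∈ insert a s, f i z) = f a + fun z => ∑ i ∈ s, f i z := by
      funext z
      simp [Finset.sum_insert ha]
    rw [h2]
    exact h1

/-- Finite products of holomorphic functions on `ℍ` are holomorphic (pointwise form). -/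
theorem mdiff_finset_prod {ι : Type*} (s : Finset ι) (f : ι → ℍ → ℂ)
    (hf : ∀ i ∈ s, MDifferentiable 𝓘(ℂ) 𝓘(ℂ) (f i)) :
    MDifferentiable 𝓘(ℂ) 𝓘(ℂ) (fun z => ∏ i ∈ s, f i z) := by
  classical
  induction s using Finset.induction_on with
  | empty => simpa using (mdifferentiable_const : MDifferentiable 𝓘(ℂ) 𝓘(ℂ) (fun _ : ℍ => (1 : ℂ)))
  | insert a s ha ih =>
    have h1 := (hf a (Finset.mem_insert_self a s)).mul
      (ih (fun i hi => hf i (Finset.mem_insert_of_mem hi)))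
    have h2 : (fun z => ∏ i ∈ insert a s, f i z) = f a * fun z => ∏ i ∈ s, f i z := by
      funext z
      simp [Finset.prod_insert ha]
    rw [h2]
    exact h1

end MatLaw

/-- The determinant of a matrix of holomorphic functions on `ℍ` is holomorphic. -/
theorem mdiff_det {n : Type} [Fintype n] [DecidableEq n] (M : ℍ → Matrix n n ℂ)
    (hM : ∀ i j, MDifferentiable 𝓘(ℂ) 𝓘(ℂ) (fun z => M z i j)) :
    MDifferentiable 𝓘(ℂ) 𝓘(ℂ) (fun z => (M z).det) := by
  have h : (fun z => (M z).det) = fun z => ∑ σ : Equiv.Perm n,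
      (((Equiv.Perm.sign σ : ℤˣ) : ℤ) : ℂ) * ∏ i, M z (σ i) i := by
    funext z
    rw [Matrix.det_apply']
  rw [h]
  refine MatLaw.mdiff_finset_sum _ _ (fun σ _ => ?_)
  have h1 : MDifferentiable 𝓘(ℂ) 𝓘(ℂ) (fun _ : ℍ => ((((Equiv.Perm.sign σ : ℤˣ) : ℤ) : ℂ))) :=
    mdifferentiable_const
  exact h1.mul (MatLaw.mdiff_finset_prod _ _ (fun i _ => hM (σ i) i))

/-- The entries of the inverse of an everywhere invertible matrix of holomorphic functions on
`ℍ` are holomorphic. -/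
theorem mdiff_inv {n : Type} [Fintype n] [DecidableEq n] (M : ℍ → Matrix n n ℂ)
    (hM : ∀ i j, MDifferentiable 𝓘(ℂ) 𝓘(ℂ) (fun z => M z i j)) (hdet : ∀ z, (M z).det ≠ 0)
    (i j : n) : MDifferentiable 𝓘(ℂ) 𝓘(ℂ) (fun z => (M z)⁻¹ i j) := by
  have hadj : MDifferentiable 𝓘(ℂ) 𝓘(ℂ)
      (fun z => ((M z).updateRow j (Pi.single i 1)).det) := by
    apply mdiff_det
    intro a b
    by_cases ha : a = j
    · subst ha
      have : (fun z => (M z).updateRow a (Pi.single i 1) a b) =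
          fun _ : ℍ => (Pi.single i (1 : ℂ) : n → ℂ) b := by
        funext z
        simp [Matrix.updateRow_self]
      rw [this]
      exact mdifferentiable_const
    · have : (fun z => (M z).updateRow j (Pi.single i 1) a b) = fun z => M z a b := by
        funext z
        simp [Matrix.updateRow_ne ha]
      rw [this]
      exact hM a b
  have h : (fun z => (M z)⁻¹ i j) =
      (fun z => ((M z).updateRow j (Pi.single i 1)).det) / (fun z => (M z).det) := by
    funext z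
    rw [Pi.div_apply, Matrix.inv_def, Matrix.smul_apply, Matrix.adjugate_apply,
      Ring.inverse_eq_inv', smul_eq_mul, div_eq_inv_mul]
  rw [h]
  exact hadj.div (mdiff_det M hM) hdet

/-- Transformation law of the conjugate matrix. -/
theorem GBasis.A_smul (B : GBasis Γ) (γ : SL(2, ℤ)) (z : ℍ) (i : B.ι) (q : SL(2, ℤ) ⧸ Γ) :
    B.A (γ • z) i q = denom γ z ^ (B.k i : ℤ) * B.A z i (γ⁻¹ • q) := by
  have h := congrFun (tr_slash (B.isMF i).2.1 q γ) z
  rw [SL_slash_apply] at h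
  have hd : denom γ z ≠ 0 := denom_ne_zero γ z
  show tr (B.k i) (B.e i) q (γ • z) =
    denom γ z ^ (B.k i : ℤ) * tr (B.k i) (B.e i) (γ⁻¹ • q) z
  rw [← h, mul_comm, mul_assoc, ← zpow_add₀ hd]
  simp

/-- Transformation law of the square conjugate matrix. -/
theorem GBasis.Asq_smul (B : GBasis Γ) (ε : B.ι ≃ SL(2, ℤ) ⧸ Γ) (γ : SL(2, ℤ)) (z : ℍ)
    (i j : B.ι) :
    B.Asq ε (γ • z) i j = denom γ z ^ (B.k i : ℤ) * B.Asq ε z i (ε.symm (γ⁻¹ • ε j)) := by
  have h := B.A_smul γ z i (ε j)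
  show B.A (γ • z) i (ε j) = denom γ z ^ (B.k i : ℤ) * B.A z i (ε (ε.symm (γ⁻¹ • ε j)))
  rw [Equiv.apply_symm_apply]
  exact h

namespace MatLaw

/-- The permutation of the index set induced by `γ⁻¹` acting on the cosets. -/
def tau (B : GBasis Γ) (ε : B.ι ≃ SL(2, ℤ) ⧸ Γ) (γ : SL(2, ℤ)) : Equiv.Perm B.ι :=
  ε.trans ((MulAction.toPerm γ⁻¹).trans ε.symm)

theorem tau_apply (B : GBasis Γ) (ε : B.ι ≃ SL(2, ℤ) ⧸ Γ) (γ : SL(2, ℤ)) (j : B.ι) :
    tau B ε γ j = ε.symm (γ⁻¹ • ε j) := rfl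

/-- Matrix form of the transformation law. -/
theorem Asq_smul_eq (B : GBasis Γ) (ε : B.ι ≃ SL(2, ℤ) ⧸ Γ) (γ : SL(2, ℤ)) (z : ℍ) :
    B.Asq ε (γ • z) = Matrix.diagonal (fun i => denom γ z ^ (B.k i : ℤ)) *
      (B.Asq ε z).submatrix id (tau B ε γ) := by
  ext i j
  rw [Matrix.diagonal_mul, Matrix.submatrix_apply, B.Asq_smul ε γ z i j, tau_apply]
  rfl

end MatLaw

/-- Transformation law of the square of the determinant of the conjugate matrix. -/
theorem GBasis.det_Asq_sq_smul (B : GBasis Γ) (ε : B.ι ≃ SL(2, ℤ) ⧸ Γ) (γ : SL(2, ℤ))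
    (z : ℍ) :
    (B.Asq ε (γ • z)).det ^ 2 =
      denom γ z ^ (2 * ∑ i, (B.k i : ℤ)) * (B.Asq ε z).det ^ 2 := by
  rw [MatLaw.Asq_smul_eq, Matrix.det_mul, Matrix.det_diagonal, Matrix.det_permute']
  have hs : ((((Equiv.Perm.sign (MatLaw.tau B ε γ) : ℤˣ) : ℤ) : ℂ)) ^ 2 = 1 := by
    rcases Int.units_eq_one_or (Equiv.Perm.sign (MatLaw.tau B ε γ)) with h | h <;> rw [h] <;> simp
  have hp : ∏ i, denom γ z ^ (B.k i : ℤ) = denom γ z ^ (∑ i, (B.k i : ℤ)) := by
    simp only [zpow_natCast]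
    rw [Finset.prod_pow_eq_pow_sum, ← Nat.cast_sum, zpow_natCast]
  rw [hp, mul_pow, mul_pow, hs, one_mul, ← zpow_natCast (denom γ z ^ _) 2, ← zpow_mul]
  congr 2
  push_cast
  ring

/-- Transformation law of the inverse of the square conjugate matrix. -/
theorem GBasis.inv_Asq_smul (B : GBasis Γ) (ε : B.ι ≃ SL(2, ℤ) ⧸ Γ) (γ : SL(2, ℤ)) (z : ℍ)
    (hdet : (B.Asq ε z).det ≠ 0) (j' j : B.ι) :
    (B.Asq ε (γ • z))⁻¹ j' j =
      denom γ z ^ (-(B.k j : ℤ)) * (B.Asq ε z)⁻¹ (ε.symm (γ⁻¹ • ε j')) j := by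
  have hd : denom γ z ≠ 0 := denom_ne_zero γ z
  have hinv : B.Asq ε (γ • z) *
      (((B.Asq ε z)⁻¹).submatrix (MatLaw.tau B ε γ) id *
        Matrix.diagonal (fun i => denom γ z ^ (-(B.k i : ℤ)))) = 1 := by
    rw [MatLaw.Asq_smul_eq, Matrix.mul_assoc, ← Matrix.mul_assoc
      ((B.Asq ε z).submatrix id (MatLaw.tau B ε γ)), Matrix.submatrix_mul_equiv,
      Matrix.mul_nonsing_inv _ (isUnit_iff_ne_zero.mpr hdet), Matrix.submatrix_id_id,
      Matrix.one_mul, Matrix.diagonal_mul_diagonal]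
    rw [← Matrix.diagonal_one]
    congr 1
    funext i
    rw [← zpow_add₀ hd]
    simp
  rw [Matrix.inv_eq_right_inv hinv, Matrix.mul_diagonal, Matrix.submatrix_apply,
    MatLaw.tau_apply, mul_comm]
  rfl

/-- The entries of the square conjugate matrix are holomorphic. -/
theorem GBasis.mdiff_Asq (B : GBasis Γ) (ε : B.ι ≃ SL(2, ℤ) ⧸ Γ) (i j : B.ι) :
    MDifferentiable 𝓘(ℂ) 𝓘(ℂ) (fun z => B.Asq ε z i j) :=
  (B.isMF i).tr_mdiff (ε j)

/-- The entries of the square conjugate matrix are bounded at `i∞`. -/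
theorem GBasis.bdd_Asq (B : GBasis Γ) (ε : B.ι ≃ SL(2, ℤ) ⧸ Γ) (i j : B.ι) :
    IsBoundedAtImInfty (fun z => B.Asq ε z i j) :=
  (B.isMF i).tr_bdd (ε j)

/-- If the rows of the conjugate matrix are linearly independent at `z`, the square conjugate
matrix is invertible at `z`. -/
theorem GBasis.det_Asq_ne_zero_of_rows (B : GBasis Γ) (ε : B.ι ≃ SL(2, ℤ) ⧸ Γ) (z : ℍ)
    (hli : LinearIndependent ℂ (fun i => B.A z i)) : (B.Asq ε z).det ≠ 0 := by
  have hinj : Function.Injective (LinearMap.funLeft ℂ ℂ (ε : B.ι → SL(2, ℤ) ⧸ Γ)) :=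
    LinearMap.funLeft_injective_of_surjective ℂ ℂ _ ε.surjective
  have hli2 : LinearIndependent ℂ (fun i => LinearMap.funLeft ℂ ℂ (ε : B.ι → SL(2, ℤ) ⧸ Γ)
      (B.A z i)) := hli.map' _ (LinearMap.ker_eq_bot.mpr hinj)
  have hrow : LinearIndependent ℂ (B.Asq ε z).row := hli2
  rw [Matrix.linearIndependent_rows_iff_isUnit, Matrix.isUnit_iff_isUnit_det] at hrow
  exact hrow.ne_zero

/-- The square conjugate matrix of a graded basis is invertible at every point. -/
theorem GBasis.det_Asq_ne_zero [Γ.FiniteIndex] (hneg : (-1 : SL(2, ℤ)) ∈ Γ) (B : GBasis Γ)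
    (ε : B.ι ≃ SL(2, ℤ) ⧸ Γ) (z : ℍ) : (B.Asq ε z).det ≠ 0 :=
  B.det_Asq_ne_zero_of_rows ε z (B.toWBasis.rows_linearIndependent hneg z)

/-- The index set of a graded basis is in bijection with the set of cosets. -/
theorem GBasis.nonempty_equiv [Γ.FiniteIndex] (B : GBasis Γ) :
    Nonempty (B.ι ≃ SL(2, ℤ) ⧸ Γ) := by
  rw [← Finite.card_eq, Nat.card_eq_fintype_card, B.card_eq]
  rfl

end

end Fermat.Agent.S20
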