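import Fermat.Agent.S20.RankCore
import Fermat.Agent.S20.Freeness
import Fermat.Agent.S20.RowsIndep

/-!
# S20 — existence of a graded basis with exactly `[SL(2,ℤ) : Γ]` elements
-/

set_option autoImplicit false

open UpperHalfPlane ModularForm Matrix.SpecialLinearGroup
open scoped MatrixGroups Manifold ModularForm Topology

namespace Fermat.Agent.S20

/-- A graded basis of `⨁ₖ M_k(Γ)` over the level-one forms with exactly `Γ.index` elements
exists as soon as `-1 ∈ Γ` and `Γ` is the exact stabiliser of some modular form. -/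
theorem exists_gbasis (Γ : Subgroup SL(2, ℤ)) [Γ.FiniteIndex] (hneg : (-1 : SL(2, ℤ)) ∈ Γ)
    (hprim : ∃ (k : ℤ) (f : ℍ → ℂ), IsMF Γ k f ∧ ∀ γ : SL(2, ℤ), f ∣[k] γ = f → γ ∈ Γ) :
    Nonempty (GBasis Γ) := by
  obtain ⟨B⟩ := exists_wbasis Γ
  exact exists_gbasis_of_wbasis Γ B (fun z => B.rows_linearIndependent hneg z) hprim

end Fermat.Agent.S20
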