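import Fermat.Agent.S20.RowsSpan

/-!
# S20 — the rank of the graded module of modular forms, via Cramer's rule

Let `B` be a weak graded basis of `⨁ₖ M_k(Γ)` over the level-one forms, and assume that the rows
of its conjugate matrix span `ℂ^X` (`X = SL(2, ℤ) ⧸ Γ`) at one point (this follows from
`HSep Γ`).  Then `B.ι ≃ X`: choose `|X|` rows `s x` which are independent at that point; if there
were a further index `i₀`, Cramer's rule gives `D * e_{i₀} = ∑ₓ Cₓ * e_{s x}` where `D` and the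
`Cₓ` are determinants of square matrices of translates.  Such determinants transform under
`SL(2, ℤ)` by a power of the automorphy factor times the sign of the permutation of the cosets,
so `D * D` and `D * Cₓ` are level-one modular forms and uniqueness of coefficients forces
`D * D = 0`, a contradiction.
-/

set_option autoImplicit false

open UpperHalfPlane ModularForm Matrix.SpecialLinearGroup Filter
open scoped MatrixGroups Manifold ModularForm Topology

namespace Fermat.Agent.S20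

noncomputable section

namespace RankSep

/-- Holomorphic functions on `ℍ` which are bounded at `i∞` form a subalgebra. -/
def holoBdd : Subalgebra ℂ (ℍ → ℂ) where
  carrier := {f | MDifferentiable 𝓘(ℂ) 𝓘(ℂ) f ∧ IsBoundedAtImInfty f}
  mul_mem' := fun {_ _} hf hg => ⟨hf.1.mul hg.1, hf.2.mul hg.2⟩
  add_mem' := fun {_ _} hf hg => ⟨hf.1.add hg.1, hf.2.add hg.2⟩
  algebraMap_mem' := fun c => ⟨mdifferentiable_const, Filter.const_boundedAtFilter _ c⟩

theorem mem_holoBdd {f : ℍ → ℂ} :
    f ∈ holoBdd ↔ MDifferentiable 𝓘(ℂ) 𝓘(ℂ) f ∧ IsBoundedAtImInfty f := Iff.rfl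

/-- The determinant of a matrix with entries in a subalgebra lies in the subalgebra. -/
theorem det_mem_subalgebra {n R : Type*} [Fintype n] [DecidableEq n] [CommRing R] [Algebra ℂ R]
    (A : Subalgebra ℂ R) (M : Matrix n n R) (hM : ∀ i j, M i j ∈ A) : M.det ∈ A := by
  rw [Matrix.det_apply']
  exact A.sum_mem fun σ _ => A.mul_mem (A.intCast_mem _) (A.prod_mem fun i _ => hM _ _)

theorem prod_zpow_eq_zpow_sum {ι : Type*} (s : Finset ι) (a : ℂ) (ha : a ≠ 0) (f : ι → ℤ) :
    ∏ i ∈ s, a ^ f i = a ^ ∑ i ∈ s, f i := by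
  classical
  induction s using Finset.induction_on with
  | empty => simp
  | insert i s hi ih => rw [Finset.prod_insert hi, Finset.sum_insert hi, zpow_add₀ ha, ih]

variable {Γ : Subgroup SL(2, ℤ)}

/-- The determinant of the square matrix of translates of a family of functions indexed by the
cosets (as a function on `ℍ`). -/
def detTr [Fintype (SL(2, ℤ) ⧸ Γ)] [DecidableEq (SL(2, ℤ) ⧸ Γ)] (w : (SL(2, ℤ) ⧸ Γ) → ℤ)
    (f : (SL(2, ℤ) ⧸ Γ) → ℍ → ℂ) : ℍ → ℂ :=
  (Matrix.of fun x q : SL(2, ℤ) ⧸ Γ => tr (w x) (f x) q).det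

theorem detTr_apply [Fintype (SL(2, ℤ) ⧸ Γ)] [DecidableEq (SL(2, ℤ) ⧸ Γ)]
    (w : (SL(2, ℤ) ⧸ Γ) → ℤ) (f : (SL(2, ℤ) ⧸ Γ) → ℍ → ℂ) (z : ℍ) :
    detTr w f z = (Matrix.of fun x q : SL(2, ℤ) ⧸ Γ => tr (w x) (f x) q z).det := by
  have h := RingHom.map_det (Pi.evalRingHom (fun _ : ℍ => ℂ) z)
    (Matrix.of fun x q : SL(2, ℤ) ⧸ Γ => tr (w x) (f x) q)
  exact h

theorem detTr_mem [Fintype (SL(2, ℤ) ⧸ Γ)] [DecidableEq (SL(2, ℤ) ⧸ Γ)]
    (w : (SL(2, ℤ) ⧸ Γ) → ℤ) (f : (SL(2, ℤ) ⧸ Γ) → ℍ → ℂ) (hf : ∀ x, IsMF Γ (w x) (f x)) :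
    detTr w f ∈ holoBdd :=
  det_mem_subalgebra holoBdd _ fun x q => ⟨(hf x).tr_mdiff q, (hf x).tr_bdd q⟩

/-- Transformation of the determinant of translates under `SL(2, ℤ)`. -/
theorem detTr_smul [Fintype (SL(2, ℤ) ⧸ Γ)] [DecidableEq (SL(2, ℤ) ⧸ Γ)]
    (w : (SL(2, ℤ) ⧸ Γ) → ℤ) (f : (SL(2, ℤ) ⧸ Γ) → ℍ → ℂ)
    (hf : ∀ x, ∀ γ ∈ Γ, f x ∣[w x] γ = f x) (γ : SL(2, ℤ)) (z : ℍ) :
    detTr w f (γ • z) = denom γ z ^ (∑ x, w x) *
      (((Equiv.Perm.sign (MulAction.toPerm γ⁻¹ : Equiv.Perm (SL(2, ℤ) ⧸ Γ)) : ℤˣ) : ℤ) : ℂ) *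
        detTr w f z := by
  rw [detTr_apply, detTr_apply]
  have hd : denom γ z ≠ 0 := denom_ne_zero γ z
  have hentry : ∀ x q : SL(2, ℤ) ⧸ Γ, tr (w x) (f x) q (γ • z) =
      denom γ z ^ (w x) * tr (w x) (f x) (γ⁻¹ • q) z := by
    intro x q
    have h1 := congrFun (tr_slash (hf x) q γ) z
    rw [SL_slash_apply] at h1
    rw [← h1, mul_comm, mul_assoc, ← zpow_add₀ hd]
    simp
  have hM : (Matrix.of fun x q : SL(2, ℤ) ⧸ Γ => tr (w x) (f x) q (γ • z)) =
      Matrix.of (fun x q => denom γ z ^ (w x) *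
        ((Matrix.of fun x q : SL(2, ℤ) ⧸ Γ => tr (w x) (f x) q z).submatrix id
          (MulAction.toPerm γ⁻¹ : Equiv.Perm (SL(2, ℤ) ⧸ Γ))) x q) := by
    ext x q
    exact hentry x q
  rw [hM, Matrix.det_mul_column, Matrix.det_permute', prod_zpow_eq_zpow_sum _ _ hd]
  ring

/-- The product of two determinants of translates is a level-one modular form. -/
theorem isMF_detTr_mul [Fintype (SL(2, ℤ) ⧸ Γ)] [DecidableEq (SL(2, ℤ) ⧸ Γ)]
    (w w' : (SL(2, ℤ) ⧸ Γ) → ℤ) (f f' : (SL(2, ℤ) ⧸ Γ) → ℍ → ℂ)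
    (hf : ∀ x, IsMF Γ (w x) (f x)) (hf' : ∀ x, IsMF Γ (w' x) (f' x)) :
    IsMF ⊤ (∑ x, w x + ∑ x, w' x) (detTr w f * detTr w' f') := by
  have hinv : ∀ γ : SL(2, ℤ),
      (detTr w f * detTr w' f') ∣[∑ x, w x + ∑ x, w' x] γ = detTr w f * detTr w' f' := by
    intro γ
    funext z
    have hd : denom γ z ≠ 0 := denom_ne_zero γ z
    rw [SL_slash_apply, Pi.mul_apply, Pi.mul_apply, detTr_smul w f (fun x => (hf x).2.1) γ z,
      detTr_smul w' f' (fun x => (hf' x).2.1) γ z, zpow_neg, zpow_add₀ hd]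
    have hs : ((((Equiv.Perm.sign (MulAction.toPerm γ⁻¹ : Equiv.Perm (SL(2, ℤ) ⧸ Γ)) : ℤˣ) : ℤ) : ℂ))
        * (((Equiv.Perm.sign (MulAction.toPerm γ⁻¹ : Equiv.Perm (SL(2, ℤ) ⧸ Γ)) : ℤˣ) : ℤ) : ℂ)
        = 1 := by
      rw [← Int.cast_mul, ← Units.val_mul, Int.units_mul_self]
      simp
    have h1 : denom γ z ^ (∑ x, w x) ≠ 0 := zpow_ne_zero _ hd
    have h2 : denom γ z ^ (∑ x, w' x) ≠ 0 := zpow_ne_zero _ hd
    field_simp
    linear_combination (detTr w f z * detTr w' f' z) * hs
  have hmem := holoBdd.mul_mem (detTr_mem w f hf) (detTr_mem w' f' hf')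
  refine ⟨hmem.1, fun γ _ => hinv γ, fun γ => ?_⟩
  rw [hinv γ]
  exact hmem.2

/-- **Cramer argument**: if the rows of the conjugate matrix of a weak graded basis span `ℂ^X`
at one point, the index type of the basis is in bijection with the set of cosets. -/
theorem nonempty_equiv_of_span {Γ : Subgroup SL(2, ℤ)} [Γ.FiniteIndex] (B : WBasis Γ) (z₀ : ℍ)
    (hspan : Submodule.span ℂ
      (Set.range fun i : B.ι => fun q : SL(2, ℤ) ⧸ Γ => tr (B.k i) (B.e i) q z₀) = ⊤) :
    Nonempty ((SL(2, ℤ) ⧸ Γ) ≃ B.ι) := by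
  classical
  let _ : Fintype (SL(2, ℤ) ⧸ Γ) := Fintype.ofFinite _
  set v : B.ι → (SL(2, ℤ) ⧸ Γ) → ℂ := fun i q => tr (B.k i) (B.e i) q z₀ with hv
  obtain ⟨κ, a, ha_inj, ha_span, ha_li⟩ := exists_linearIndependent' ℂ v
  have hbasis : Module.Basis κ ℂ ((SL(2, ℤ) ⧸ Γ) → ℂ) :=
    Module.Basis.mk ha_li (by rw [ha_span, hspan])
  let ε : (SL(2, ℤ) ⧸ Γ) ≃ κ := (Pi.basisFun ℂ (SL(2, ℤ) ⧸ Γ)).indexEquiv hbasis
  set s : (SL(2, ℤ) ⧸ Γ) → B.ι := a ∘ ε with hs
  have hs_inj : Function.Injective s := ha_inj.comp ε.injective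
  have hli : LinearIndependent ℂ (fun x => v (s x)) := ha_li.comp ε ε.injective
  have hdet : (Matrix.of fun x q => v (s x) q).det ≠ 0 := by
    have h1 : IsUnit (Matrix.of fun x q => v (s x) q) :=
      Matrix.linearIndependent_rows_iff_isUnit.mp hli
    exact ((Matrix.isUnit_iff_isUnit_det _).mp h1).ne_zero
  have hs_surj : Function.Surjective s := by
    by_contra hns
    obtain ⟨i₀, hi₀⟩ : ∃ i₀, ∀ x, s x ≠ i₀ := by
      simpa [Function.Surjective] using hns
    set w : (SL(2, ℤ) ⧸ Γ) → ℤ := fun x => (B.k (s x) : ℤ) with hw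
    set f : (SL(2, ℤ) ⧸ Γ) → ℍ → ℂ := fun x => B.e (s x) with hf_def
    have hf : ∀ x, IsMF Γ (w x) (f x) := fun x => B.isMF (s x)
    set D : ℍ → ℂ := detTr w f with hD
    have hD0 : D z₀ ≠ 0 := by
      rw [hD, detTr_apply]
      exact hdet
    set w' : (SL(2, ℤ) ⧸ Γ) → (SL(2, ℤ) ⧸ Γ) → ℤ :=
      fun x => Function.update w x (B.k i₀ : ℤ) with hw'
    set f' : (SL(2, ℤ) ⧸ Γ) → (SL(2, ℤ) ⧸ Γ) → ℍ → ℂ :=
      fun x => Function.update f x (B.e i₀) with hf'_def
    have hf' : ∀ x y, IsMF Γ (w' x y) (f' x y) := by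
      intro x y
      by_cases h : y = x
      · subst h
        simp only [hw', hf'_def, Function.update_self]
        exact B.isMF i₀
      · simp only [hw', hf'_def, Function.update_of_ne h]
        exact B.isMF (s y)
    set C : (SL(2, ℤ) ⧸ Γ) → ℍ → ℂ := fun x => detTr (w' x) (f' x) with hC
    -- Cramer's rule at the trivial coset
    have hcramer : ∀ z, ∑ x, C x z * B.e (s x) z = D z * B.e i₀ z := by
      intro z
      set Mz : Matrix (SL(2, ℤ) ⧸ Γ) (SL(2, ℤ) ⧸ Γ) ℂ :=
        Matrix.of fun x q => tr (w x) (f x) q z with hMz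
      set az : (SL(2, ℤ) ⧸ Γ) → ℂ := fun q => tr (B.k i₀) (B.e i₀) q z with haz
      have h1 := congrFun (Matrix.mulVec_cramer Mz.transpose az)
        (((1 : SL(2, ℤ)) : SL(2, ℤ) ⧸ Γ))
      have hupd : ∀ x, (Mz.updateRow x az).det = C x z := by
        intro x
        show (Mz.updateRow x az).det = detTr (w' x) (f' x) z
        rw [detTr_apply]
        congr 1
        ext y q
        rw [Matrix.updateRow_apply]
        by_cases h : y = x
        · subst h
          simp [hw', hf'_def, haz]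
        · simp [hw', hf'_def, hMz, h]
      have hone : ∀ x, Mz x (((1 : SL(2, ℤ)) : SL(2, ℤ) ⧸ Γ)) = B.e (s x) z := by
        intro x
        simp only [hMz, Matrix.of_apply]
        rw [tr_one (hf x).2.1]
      have hone' : az (((1 : SL(2, ℤ)) : SL(2, ℤ) ⧸ Γ)) = B.e i₀ z := by
        simp only [haz]
        rw [tr_one (B.isMF i₀).2.1]
      rw [Matrix.det_transpose] at h1
      simp only [Matrix.mulVec, dotProduct, Matrix.transpose_apply, Matrix.cramer_transpose_apply,
        Pi.smul_apply, smul_eq_mul] at h1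
      rw [hone'] at h1
      have hDz : D z = Mz.det := by rw [hD, detTr_apply]
      rw [hDz, ← h1]
      refine Finset.sum_congr rfl fun x _ => ?_
      rw [hone x, hupd x]
      ring
    -- the relation with level-one coefficients
    set K : ℤ := ∑ x, w x + ∑ x, w x + B.k i₀ with hK
    set r : B.ι →₀ (ℍ → ℂ) :=
      Finsupp.single i₀ (-(D * D)) + ∑ x, Finsupp.single (s x) (D * C x) with hr
    have hsumw' : ∀ x, ∑ y, w' x y = ∑ y, w y - w x + B.k i₀ := by
      intro x
      simp only [hw']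
      rw [Finset.sum_update_of_mem (Finset.mem_univ x), ← Finset.sum_erase_add _ _ (Finset.mem_univ x)]
      have : (Finset.univ \ {x} : Finset (SL(2, ℤ) ⧸ Γ)) = Finset.univ.erase x := by
        ext y; simp
      rw [this]
      ring
    have hDD : IsMF ⊤ (K - B.k i₀) (-(D * D)) := by
      have h1 := isMF_detTr_mul w w f f hf hf
      have h2 : K - B.k i₀ = ∑ x, w x + ∑ x, w x := by rw [hK]; ring
      rw [h2]
      have h3 := h1.smul (-1)
      simpa using h3
    have hDC : ∀ x, IsMF ⊤ (K - B.k (s x)) (D * C x) := by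
      intro x
      have h1 := isMF_detTr_mul w (w' x) f (f' x) hf (hf' x)
      have h2 : K - B.k (s x) = ∑ y, w y + ∑ y, w' x y := by
        rw [hK, hsumw' x]
        ring
      rw [h2]
      exact h1
    have hrMF : ∀ i, IsMF ⊤ (K - B.k i) (r i) := by
      intro i
      have hmem : r i ∈ MFsub ⊤ (K - B.k i) := by
        rw [hr, Finsupp.add_apply, Finsupp.finsetSum_apply]
        refine Submodule.add_mem _ ?_ (Submodule.sum_mem _ fun x _ => ?_)
        · rw [Finsupp.single_apply]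
          split_ifs with h
          · subst h
            exact hDD
          · exact Submodule.zero_mem _
        · rw [Finsupp.single_apply]
          split_ifs with h
          · subst h
            exact hDC x
          · exact Submodule.zero_mem _
      exact hmem
    have hrsum : r.sum (fun i a => a * B.e i) = 0 := by
      have h2 : ∀ x, (Finsupp.single (s x) (D * C x)).sum (fun i a => a * B.e i) =
          D * C x * B.e (s x) := fun x => Finsupp.sum_single_index (zero_mul _)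
      rw [hr, Finsupp.sum_add_index' (fun i => zero_mul _) (fun i a b => add_mul _ _ _),
        ← Finsupp.sum_finsetSum_index (fun i => zero_mul _) (fun i a b => add_mul _ _ _),
        Finsupp.sum_single_index (zero_mul _), Finset.sum_congr rfl fun x _ => h2 x]
      funext z
      simp only [Pi.add_apply, Pi.mul_apply, Pi.neg_apply, Finset.sum_apply, Pi.zero_apply]
      have hc := hcramer z
      have h3 : ∑ x, D z * C x z * B.e (s x) z = D z * ∑ x, C x z * B.e (s x) z := by
        rw [Finset.mul_sum]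
        exact Finset.sum_congr rfl fun x _ => by ring
      rw [h3, hc]
      ring
    have hr0 := B.uniq K r hrMF hrsum
    have hri : r i₀ = -(D * D) := by
      rw [hr, Finsupp.add_apply, Finsupp.finsetSum_apply, Finsupp.single_eq_same]
      have : ∑ x, (Finsupp.single (s x) (D * C x)) i₀ = 0 :=
        Finset.sum_eq_zero fun x _ => Finsupp.single_eq_of_ne (hi₀ x).symm
      rw [this, add_zero]
    rw [hr0] at hri
    have hzero : D z₀ * D z₀ = 0 := by
      have := congrFun hri z₀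
      simp only [Finsupp.coe_zero, Pi.zero_apply, Pi.neg_apply, Pi.mul_apply] at this
      linear_combination this
    exact hD0 (mul_self_eq_zero.mp hzero)
  exact ⟨Equiv.ofBijective s ⟨hs_inj, hs_surj⟩⟩

end RankSep

/-- **Rank of the graded module of modular forms** (separation version): a weak graded basis
is finite with exactly `Γ.index` elements. -/
theorem exists_gbasis_of_hSep (Γ : Subgroup SL(2, ℤ)) [Γ.FiniteIndex] (hsep : HSep Γ)
    (B : WBasis Γ) : Nonempty (GBasis Γ) := by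
  classical
  obtain ⟨ε⟩ := RankSep.nonempty_equiv_of_span B UpperHalfPlane.I
    (B.rows_span hsep UpperHalfPlane.I)
  let _ : Fintype (SL(2, ℤ) ⧸ Γ) := Fintype.ofFinite _
  let instι : Fintype B.ι := Fintype.ofEquiv _ ε
  refine ⟨{ ι := B.ι, fin := instι, dec := Classical.decEq _, k := B.k, e := B.e,
            isMF := B.isMF, card_eq := ?_, repr := ?_, uniq := ?_ }⟩
  · rw [Subgroup.index, Nat.card_eq_fintype_card]
    exact (Fintype.card_congr ε).symm
  · intro K f hf
    obtain ⟨r, hr, hfr⟩ := B.repr K f hf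
    refine ⟨fun i => r i, hr, ?_⟩
    rw [hfr, Finsupp.sum_fintype _ _ (fun i => by simp)]
  · intro K r hr h
    have h' : (Finsupp.equivFunOnFinite.symm r).sum (fun i a => a * B.e i) = 0 := by
      rw [Finsupp.sum_fintype _ _ (fun i => by simp)]
      simpa using h
    have := B.uniq K (Finsupp.equivFunOnFinite.symm r) (fun i => by simpa using hr i) h'
    intro i
    have hi := DFunLike.congr_fun this i
    simpa using hi

/-- **Rows of the conjugate matrix of a graded basis are linearly independent at every point**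
(separation version). -/
theorem GBasis.rows_linearIndependent_of_hSep {Γ : Subgroup SL(2, ℤ)} [Γ.FiniteIndex]
    (hsep : HSep Γ) (B : GBasis Γ) (z : ℍ) : LinearIndependent ℂ (fun i => B.A z i) := by
  classical
  let _ : Fintype (SL(2, ℤ) ⧸ Γ) := Fintype.ofFinite _
  have hspan := B.toWBasis.rows_span hsep z
  refine linearIndependent_of_top_le_span_of_card_eq_finrank ?_ ?_
  · rw [← hspan]
    exact le_of_eq rfl
  · rw [Module.finrank_fintype_fun_eq_card, B.card_eq, Subgroup.index, Nat.card_eq_fintype_card]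

end

end Fermat.Agent.S20
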