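import Fermat.Agent.S20.JInj
import Fermat.Agent.S20.Translates
import Fermat.Agent.S23.Theta
import Fermat.Prelude.Def_ModularForm_HeckeOperator

/-!
# S20 — pointwise separation of the cosets of `Γ₀(N)` by modular forms

For every point `z ∈ ℍ` and every two distinct cosets `q ≠ q'` of `Γ₀(N)` in `SL(2, ℤ)` there is
a modular form `f` for `Γ₀(N)` whose translates at `q` and `q'` take different values at `z`.
The forms used are `θ_k = E_k ∣[k] diag(N, 1)` for `k = 4, 6`: the value of the translate of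
`θ_k` along `γ = [a b; c d]` at `z` is, up to a nonzero constant, the lattice function `G_k` of
the lattice `ℤ N (a z + b) + ℤ (c z + d)`, and a lattice is determined by `G₄` and `G₆`.
-/

set_option autoImplicit false

open UpperHalfPlane ModularForm Matrix.SpecialLinearGroup Filter
open scoped MatrixGroups Manifold ModularForm Topology

namespace Fermat.Agent.S20

noncomputable section

/-- Pointwise separation of the cosets of `Γ` by modular forms of level `Γ`. -/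
def HSep (Γ : Subgroup SL(2, ℤ)) : Prop :=
  ∀ (z : ℍ) (q q' : SL(2, ℤ) ⧸ Γ), q ≠ q' →
    ∃ (k : ℤ) (f : ℍ → ℂ), IsMF Γ k f ∧ tr k f q z ≠ tr k f q' z

namespace SepTheta

/-- The level-`N` form `F ∣[k] diag(N,1)` attached to a level-one form `F`. -/
def thetaOf (N : ℕ) [NeZero N] {k : ℤ} (F : ModularForm 𝒮ℒ k) :
    ModularForm (CongruenceSubgroup.Gamma0 N) k where
  toFun := (F : ℍ → ℂ) ∣[k] heckeDiagMatrix N
  slash_action_eq' γ hγ :=
    (ModularForm.translate F (heckeDiagMatrix N)).slash_action_eq' γ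
      (Fermat.Agent.S23.Theta.gamma0_le_conj N hγ)
  holo' := (ModularForm.translate F (heckeDiagMatrix N)).holo'
  bdd_at_cusps' hc :=
    (ModularForm.translate F (heckeDiagMatrix N)).bdd_at_cusps'
      (hc.mono (Fermat.Agent.S23.Theta.gamma0_le_conj N))

theorem isMF_slash_diag (N : ℕ) [NeZero N] {k : ℤ} (F : ModularForm 𝒮ℒ k) :
    IsMF (CongruenceSubgroup.Gamma0 N) k ((F : ℍ → ℂ) ∣[k] heckeDiagMatrix N) :=
  isMF_coe_modularForm (CongruenceSubgroup.Gamma0 N) k (thetaOf N F)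

/-- The period pair `(N (a z + b), c z + d)` attached to `γ = [a b; c d]` and `z`. -/
def pp (N : ℕ) (γ : SL(2, ℤ)) (z : ℍ) : PeriodPair :=
  JInj.ppOf (denom γ z) (denom_ne_zero γ z) (heckeDiagMatrix N • (γ • z))

theorem pp_ω₂ (N : ℕ) (γ : SL(2, ℤ)) (z : ℍ) :
    (pp N γ z).ω₂ = (γ 1 0 : ℂ) * z + γ 1 1 := by
  simp [pp, denom]

theorem pp_ω₁ (N : ℕ) [NeZero N] (γ : SL(2, ℤ)) (z : ℍ) :
    (pp N γ z).ω₁ = N * ((γ 0 0 : ℂ) * z + γ 0 1) := by
  have hd : (γ 1 0 : ℂ) * z + γ 1 1 ≠ 0 := by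
    have := denom_ne_zero γ z
    simpa [denom] using this
  have h1 : (pp N γ z).ω₁ = denom γ z * ((heckeDiagMatrix N • (γ • z) : ℍ) : ℂ) := rfl
  rw [h1, coe_heckeDiagMatrix_smul (NeZero.ne N), UpperHalfPlane.specialLinearGroup_apply]
  simp only [denom]
  simp
  field_simp

/-- The value at `z` of the translate of `E_n ∣ diag(N,1)` along `γ`, as a lattice function. -/
theorem slash_slash_apply (N : ℕ) [NeZero N] {n : ℕ} (hn : 3 ≤ n) (γ : SL(2, ℤ)) (z : ℍ) :
    (((E hn : ℍ → ℂ) ∣[(n : ℤ)] heckeDiagMatrix N) ∣[(n : ℤ)] γ) z * (2 * riemannZeta n) =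
      (N : ℂ) ^ ((n : ℤ) - 1) * (pp N γ z).G n := by
  rw [SL_slash_apply, slash_heckeDiagMatrix_apply _ (NeZero.ne N), pp, JInj.G_ppOf _ _ _ hn,
    zpow_neg, zpow_natCast]
  ring

/-- Equal values of the translates of `E_n ∣ diag(N,1)` give equal lattice functions. -/
theorem G_eq_of_slash_eq (N : ℕ) [NeZero N] {n : ℕ} (hn : 3 ≤ n) (γ γ' : SL(2, ℤ)) (z : ℍ)
    (h : (((E hn : ℍ → ℂ) ∣[(n : ℤ)] heckeDiagMatrix N) ∣[(n : ℤ)] γ) z =
      (((E hn : ℍ → ℂ) ∣[(n : ℤ)] heckeDiagMatrix N) ∣[(n : ℤ)] γ') z) :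
    (pp N γ z).G n = (pp N γ' z).G n := by
  have h1 := slash_slash_apply N hn γ z
  have h2 := slash_slash_apply N hn γ' z
  rw [h, h2] at h1
  have hN : (N : ℂ) ^ ((n : ℤ) - 1) ≠ 0 := zpow_ne_zero _ (by exact_mod_cast NeZero.ne N)
  exact (mul_left_cancel₀ hN h1).symm

/-- If the lattice of `γ'` is contained in the lattice of `γ` then `γ' γ⁻¹ ∈ Γ₀(N)`. -/
theorem mem_Gamma0_of_lattice_le (N : ℕ) [NeZero N] (γ γ' : SL(2, ℤ)) (z : ℍ)
    (h : (pp N γ' z).lattice ≤ (pp N γ z).lattice) :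
    γ' * γ⁻¹ ∈ CongruenceSubgroup.Gamma0 N := by
  have hmem : (pp N γ' z).ω₂ ∈ (pp N γ z).lattice := h (pp N γ' z).ω₂_mem_lattice
  obtain ⟨m, n, hmn⟩ := PeriodPair.mem_lattice.mp hmem
  rw [pp_ω₁, pp_ω₂, pp_ω₂] at hmn
  have hz : (0 : ℝ) < z.im := z.im_pos
  -- compare imaginary and real parts
  have him := congrArg Complex.im hmn
  have hre := congrArg Complex.re hmn
  simp only [Complex.add_im, Complex.mul_im, Complex.intCast_re, Complex.intCast_im,
    Complex.natCast_re, Complex.natCast_im, Complex.add_re, Complex.mul_re, zero_mul, add_zero,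
    sub_zero, UpperHalfPlane.coe_im, UpperHalfPlane.coe_re] at him hre
  have hc : (γ' 1 0 : ℝ) = m * (N * γ 0 0) + n * γ 1 0 := by
    have : ((m : ℝ) * (N * γ 0 0) + n * γ 1 0 - γ' 1 0) * z.im = 0 := by linear_combination him
    rcases mul_eq_zero.mp this with h0 | h0
    · linarith
    · exact absurd h0 hz.ne'
  have hd : (γ' 1 1 : ℝ) = m * (N * γ 0 1) + n * γ 1 1 := by
    have : ((m : ℝ) * (N * γ 0 0) + n * γ 1 0 - γ' 1 0) * z.re = 0 := by rw [hc]; ring
    linear_combination this - hre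
  have hc' : γ' 1 0 = m * (N * γ 0 0) + n * γ 1 0 := by exact_mod_cast hc
  have hd' : γ' 1 1 = m * (N * γ 0 1) + n * γ 1 1 := by exact_mod_cast hd
  have hdet : γ 0 0 * γ 1 1 - γ 0 1 * γ 1 0 = 1 := by
    have := γ.det_coe
    rw [Matrix.det_fin_two] at this
    exact this
  rw [CongruenceSubgroup.Gamma0_mem]
  have hentry : (γ' * γ⁻¹) 1 0 = (N : ℤ) * m := by
    rw [Matrix.SpecialLinearGroup.coe_mul, Matrix.mul_apply, Fin.sum_univ_two,
      Matrix.SpecialLinearGroup.coe_inv, Matrix.adjugate_fin_two]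
    simp only [Matrix.of_apply, Matrix.cons_val_zero, Matrix.cons_val_one]
    rw [hc', hd']
    linear_combination (N : ℤ) * m * hdet
  rw [hentry]
  simp

end SepTheta

/-- **Pointwise separation for `Γ₀(N)`**: distinct cosets are separated at every point by one of
`E₄ ∣ diag(N,1)`, `E₆ ∣ diag(N,1)`. -/
theorem hSep_Gamma0 (N : ℕ) [NeZero N] : HSep (CongruenceSubgroup.Gamma0 N) := by
  intro z q q' hne
  by_contra hall
  push Not at hall
  have h4 := hall 4 _ (SepTheta.isMF_slash_diag N E₄)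
  have h6 := hall 6 _ (SepTheta.isMF_slash_diag N E₆)
  have hG4 := SepTheta.G_eq_of_slash_eq N (by norm_num : 3 ≤ 4) (q.out)⁻¹ (q'.out)⁻¹ z h4
  have hG6 := SepTheta.G_eq_of_slash_eq N (by norm_num : 3 ≤ 6) (q.out)⁻¹ (q'.out)⁻¹ z h6
  have hlat := JInj.lattice_eq_of_g_eq (SepTheta.pp N (q'.out)⁻¹ z) (SepTheta.pp N (q.out)⁻¹ z)
    (by rw [PeriodPair.g₂, PeriodPair.g₂, hG4]) (by rw [PeriodPair.g₃, PeriodPair.g₃, hG6])
  have hmem := SepTheta.mem_Gamma0_of_lattice_le N (q.out)⁻¹ (q'.out)⁻¹ z hlat.le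
  rw [inv_inv] at hmem
  have h5 : ((q'.out : SL(2, ℤ)) : SL(2, ℤ) ⧸ CongruenceSubgroup.Gamma0 N) = (q.out : SL(2, ℤ)) :=
    QuotientGroup.eq.mpr hmem
  rw [QuotientGroup.out_eq', QuotientGroup.out_eq'] at h5
  exact hne h5.symm

end

end Fermat.Agent.S20
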