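import Fermat.Agent.S20.SepAlg
import Fermat.Agent.S20.SepTheta
import Fermat.Agent.S20.L1Basic
import Fermat.Agent.S20.RankCore

/-!
# S20 — the rows of the conjugate matrix span `ℂ^X` at every point

Fix `z ∈ ℍ`.  The value vectors `q ↦ tr k f q z` of all modular forms `f` of level `Γ` (all
weights `k`) form a multiplicatively closed set containing `1`; if they separate the cosets
(`HSep Γ`) their span is everything.  Every value vector is a linear combination of the rows of
the conjugate matrix of a (weak) graded basis, so these rows span `ℂ^X`.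
-/

set_option autoImplicit false

open UpperHalfPlane ModularForm Matrix.SpecialLinearGroup Filter
open scoped MatrixGroups Manifold ModularForm Topology

namespace Fermat.Agent.S20

noncomputable section

/-- The constant function `1` is a modular form of weight `0`. -/
theorem isMF_one_fun (Γ : Subgroup SL(2, ℤ)) : IsMF Γ 0 (1 : ℍ → ℂ) := by
  refine ⟨mdifferentiable_const, fun γ _ => is_invariant_one γ, fun γ => ?_⟩
  rw [is_invariant_one γ]
  exact Filter.const_boundedAtFilter _ (1 : ℂ)

/-- The set of value vectors at `z` of all modular forms of level `Γ`. -/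
def valueSet (Γ : Subgroup SL(2, ℤ)) (z : ℍ) : Set ((SL(2, ℤ) ⧸ Γ) → ℂ) :=
  {v | ∃ (k : ℤ) (f : ℍ → ℂ), IsMF Γ k f ∧ v = fun q => tr k f q z}

/-- If the cosets are separated pointwise, the value vectors at any point span everything. -/
theorem span_valueSet_eq_top {Γ : Subgroup SL(2, ℤ)} [Γ.FiniteIndex] (hsep : HSep Γ) (z : ℍ) :
    Submodule.span ℂ (valueSet Γ z) = ⊤ := by
  apply span_eq_top_of_separates
  · refine ⟨0, 1, isMF_one_fun Γ, ?_⟩
    funext q
    rw [tr_one_fun]
    rfl
  · rintro a ⟨k, f, hf, rfl⟩ b ⟨l, g, hg, rfl⟩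
    refine ⟨k + l, f * g, hf.mul hg, ?_⟩
    funext q
    rw [tr_mul]
    rfl
  · intro q q' hne
    obtain ⟨k, f, hf, hne'⟩ := hsep z q q' hne
    exact ⟨_, ⟨k, f, hf, rfl⟩, hne'⟩

/-- **The rows of the conjugate matrix of a weak graded basis span `ℂ^X` at every point.** -/
theorem WBasis.rows_span {Γ : Subgroup SL(2, ℤ)} [Γ.FiniteIndex] (hsep : HSep Γ) (B : WBasis Γ)
    (z : ℍ) :
    Submodule.span ℂ
      (Set.range fun i : B.ι => fun q : SL(2, ℤ) ⧸ Γ => tr (B.k i) (B.e i) q z) = ⊤ := by
  rw [eq_top_iff, ← span_valueSet_eq_top hsep z, Submodule.span_le]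
  rintro v ⟨K, f, hf, rfl⟩
  obtain ⟨r, hr, hfr⟩ := B.repr K f hf
  have h1 : ∀ q : SL(2, ℤ) ⧸ Γ,
      tr K f q = ∑ i ∈ r.support, r i * tr (B.k i) (B.e i) q := by
    intro q
    rw [hfr, Finsupp.sum, Rank.tr_sum]
    exact Finset.sum_congr rfl fun i _ => Rank.tr_levelOne_mul (hr i) _ q
  have h2 : (fun q : SL(2, ℤ) ⧸ Γ => tr K f q z) =
      ∑ i ∈ r.support, r i z • fun q : SL(2, ℤ) ⧸ Γ => tr (B.k i) (B.e i) q z := by
    funext q
    rw [h1 q]
    simp [Finset.sum_apply]
  rw [h2]
  exact Submodule.sum_mem _ fun i _ =>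
    Submodule.smul_mem _ _ (Submodule.subset_span ⟨i, rfl⟩)

end

end Fermat.Agent.S20
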