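import Mathlib

/-!
# S20 — subalgebras of `X → ℂ` separating points

A unital subalgebra of `X → ℂ` (`X` finite) which separates the points of `X` is everything;
consequently the linear span of a multiplicatively closed set of functions containing `1` and
separating points is everything.
-/

set_option autoImplicit false

namespace Fermat.Agent.S20

/-- A unital subalgebra of `X → ℂ` (`X` finite) separating points is everything. -/
theorem subalgebra_eq_top_of_separates {X : Type*} [Finite X] (A : Subalgebra ℂ (X → ℂ))
    (h : ∀ x y : X, x ≠ y → ∃ a ∈ A, a x ≠ a y) : A = ⊤ := by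
  classical
  cases nonempty_fintype X
  have h' : ∀ x y : X, ∃ a ∈ A, x ≠ y → a x ≠ a y := by
    intro x y
    by_cases hxy : x = y
    · exact ⟨1, A.one_mem, fun hne => absurd hxy hne⟩
    · obtain ⟨a, ha, hne⟩ := h x y hxy
      exact ⟨a, ha, fun _ => hne⟩
  choose a ha hne using h'
  -- normalised separating functions
  let b : X → X → (X → ℂ) := fun x y =>
    (a x y x - a x y y)⁻¹ • (a x y - algebraMap ℂ (X → ℂ) (a x y y))
  have hb : ∀ x y, b x y ∈ A := fun x y =>
    A.smul_mem (A.sub_mem (ha x y) (A.algebraMap_mem _)) _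
  have hbx : ∀ x y, x ≠ y → b x y x = 1 := by
    intro x y hxy
    have : a x y x - a x y y ≠ 0 := sub_ne_zero.mpr (hne x y hxy)
    simp only [b, Pi.smul_apply, Pi.sub_apply, Pi.algebraMap_apply, Algebra.algebraMap_self,
      RingHom.id_apply, smul_eq_mul]
    exact inv_mul_cancel₀ this
  have hby : ∀ x y, b x y y = 0 := by
    intro x y
    simp [b]
  have hind : ∀ x : X, Pi.single x (1 : ℂ) ∈ A := by
    intro x
    have hprod : Pi.single x (1 : ℂ) = ∏ y ∈ Finset.univ.erase x, b x y := by
      funext z
      rw [Finset.prod_apply]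
      by_cases hz : z = x
      · subst hz
        rw [Pi.single_eq_same]
        symm
        apply Finset.prod_eq_one
        intro y hy
        exact hbx z y (Finset.ne_of_mem_erase hy).symm
      · rw [Pi.single_eq_of_ne hz]
        symm
        apply Finset.prod_eq_zero (i := z)
        · exact Finset.mem_erase.mpr ⟨hz, Finset.mem_univ _⟩
        · exact hby x z
    rw [hprod]
    exact A.prod_mem fun y _ => hb x y
  rw [eq_top_iff]
  intro f _
  have hf : f = ∑ x, f x • Pi.single x (1 : ℂ) := by
    funext z
    simp [Finset.sum_apply, Pi.single_apply]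
  rw [hf]
  exact A.sum_mem fun x _ => A.smul_mem (hind x) _

/-- The span of a multiplicatively closed set of functions on a finite type, containing `1`
and separating points, is everything. -/
theorem span_eq_top_of_separates {X : Type*} [Finite X] (S : Set (X → ℂ))
    (h1 : (1 : X → ℂ) ∈ S) (hmul : ∀ a ∈ S, ∀ b ∈ S, a * b ∈ S)
    (hsep : ∀ x y : X, x ≠ y → ∃ a ∈ S, a x ≠ a y) : Submodule.span ℂ S = ⊤ := by
  let M : Submonoid (X → ℂ) :=
    { carrier := S
      mul_mem' := fun {a b} ha hb => hmul a ha b hb
      one_mem' := h1 }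
  have hM : Submonoid.closure S = M := by
    have : (M : Set (X → ℂ)) = S := rfl
    rw [← this, Submonoid.closure_eq]
  have hA : Algebra.adjoin ℂ S = ⊤ :=
    subalgebra_eq_top_of_separates _ fun x y hxy => by
      obtain ⟨a, ha, hne⟩ := hsep x y hxy
      exact ⟨a, Algebra.subset_adjoin ha, hne⟩
  have h2 := Algebra.adjoin_eq_span ℂ S
  rw [hA, hM] at h2
  have h3 : Submodule.span ℂ S = Submodule.span ℂ (M : Set (X → ℂ)) := rfl
  rw [h3, ← h2]
  simp

end Fermat.Agent.S20
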