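import Fermat.Agent.S20.SumWeightsCore
import Fermat.Agent.S20.Cycles

/-!
# S20 — the sum of the weights of a graded basis

`∑ kᵢ + 6 · cusps = 6 · index`, given that `det(Asq)² / Δ^(index − cusps)` has a nonzero limit
at `i∞` and that `Asq` is everywhere invertible.
-/

set_option autoImplicit false

open UpperHalfPlane ModularForm Matrix.SpecialLinearGroup Filter
open scoped MatrixGroups Manifold ModularForm Topology

namespace Fermat.Agent.S20

noncomputable section

variable {Γ : Subgroup SL(2, ℤ)}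

/-- The weights of a graded basis add up to `6 (index − cusps)`. -/
theorem SumWeights.sum_weights_of [Γ.FiniteIndex] (B : GBasis Γ) (ε : B.ι ≃ SL(2, ℤ) ⧸ Γ)
    (hdet : ∀ z, (B.Asq ε z).det ≠ 0)
    (hasymp : ∃ c : ℂ, c ≠ 0 ∧
      Tendsto (fun z => (B.Asq ε z).det ^ 2 / Δf z ^ (Γ.index - cuspsNum Γ)) atImInfty (𝓝 c)) :
    ∑ i, B.k i + 6 * cuspsNum Γ = 6 * Γ.index :=
  SumWeights.sum_weights_of_det B ε hdet hasymp (cuspsNum_le_index Γ)

end

end Fermat.Agent.S20
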