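import Fermat.Agent.S20.MatLaw

/-!
# S20 — the sum of the weights of a graded basis (core, asymptotics as a hypothesis)

`∑ kᵢ = 6 (index − cusps)`: the function `det(Asq)² / Δ^(index − cusps)` is a level-one modular
form of weight `2 ∑ kᵢ − 12 (index − cusps)` without zeros whose inverse is also a modular form,
so its weight is `0`.
-/

set_option autoImplicit false

open UpperHalfPlane ModularForm Matrix.SpecialLinearGroup Filter
open scoped MatrixGroups Manifold ModularForm Topology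

namespace Fermat.Agent.S20

noncomputable section

variable {Γ : Subgroup SL(2, ℤ)}

namespace SumWeights

/-- Transformation law of `Δ` in multiplicative form. -/
theorem Δf_smul (γ : SL(2, ℤ)) (z : ℍ) : Δf (γ • z) = denom γ z ^ (12 : ℤ) * Δf z := by
  have h := congrFun (Δf_slash γ) z
  rw [SL_slash_apply] at h
  have hd : denom γ z ≠ 0 := denom_ne_zero γ z
  rw [← h, mul_comm, mul_assoc, ← zpow_add₀ hd]
  simp

/-- A nowhere vanishing level-one "unit" has weight zero: if `W` and `1 / W` are both modular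
forms of level one (of weights `w` and `-w`), and `W` does not vanish somewhere, then `w = 0`. -/
theorem weight_eq_zero_of_unit {w : ℤ} {W V : ℍ → ℂ} (hW : IsMF ⊤ w W) (hV : IsMF ⊤ (-w) V)
    (z0 : ℍ) (hW0 : W z0 ≠ 0) (hV0 : V z0 ≠ 0) : w = 0 := by
  rcases lt_trichotomy w 0 with h | h | h
  · exact absurd (congrFun (hW.eq_zero_of_neg h) z0) hW0
  · exact h
  · exact absurd (congrFun (hV.eq_zero_of_neg (neg_lt_zero.mpr h)) z0) hV0

/-- The weights of a graded basis add up to `6 (index − cusps)`, given the asymptotics of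
`det(Asq)²` at `i∞` and `cusps ≤ index`. -/
theorem sum_weights_of_det [Γ.FiniteIndex] (B : GBasis Γ)
    (ε : B.ι ≃ SL(2, ℤ) ⧸ Γ) (hdet : ∀ z, (B.Asq ε z).det ≠ 0)
    (hasymp : ∃ c : ℂ, c ≠ 0 ∧
      Tendsto (fun z => (B.Asq ε z).det ^ 2 / Δf z ^ (Γ.index - cuspsNum Γ)) atImInfty (𝓝 c))
    (hle : cuspsNum Γ ≤ Γ.index) :
    ∑ i, B.k i + 6 * cuspsNum Γ = 6 * Γ.index := by
  obtain ⟨c, hc, hlim⟩ := hasymp
  set m : ℕ := Γ.index - cuspsNum Γ with hm
  set S : ℤ := ∑ i, (B.k i : ℤ) with hS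
  set w : ℤ := 2 * S - 12 * m with hw
  set D : ℍ → ℂ := fun z => (B.Asq ε z).det ^ 2 with hD
  have hDne : ∀ z, D z ≠ 0 := fun z => pow_ne_zero 2 (hdet z)
  have hDmd : MDifferentiable 𝓘(ℂ) 𝓘(ℂ) D :=
    (mdiff_det (B.Asq ε) (fun i j => B.mdiff_Asq ε i j)).pow 2
  have hΔmd : MDifferentiable 𝓘(ℂ) 𝓘(ℂ) (fun z => Δf z ^ m) := Δf_mdiff.pow m
  have hΔne : ∀ z, Δf z ^ m ≠ 0 := fun z => pow_ne_zero m (Δf_ne_zero z)
  have hDlaw : ∀ (γ : SL(2, ℤ)) (z : ℍ), D (γ • z) = denom γ z ^ (2 * S) * D z :=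
    fun γ z => B.det_Asq_sq_smul ε γ z
  have hpow : ∀ (γ : SL(2, ℤ)) (z : ℍ),
      denom γ z ^ (2 * S) = denom γ z ^ w * (denom γ z ^ (12 : ℤ)) ^ m := by
    intro γ z
    have hd : denom γ z ≠ 0 := denom_ne_zero γ z
    rw [← zpow_natCast (denom γ z ^ (12 : ℤ)) m, ← zpow_mul, ← zpow_add₀ hd]
    congr 1
    rw [hw]
    ring
  -- the form `W = D / Δ ^ m`
  have hWinv : ∀ γ : SL(2, ℤ), (fun z => D z / Δf z ^ m) ∣[w] γ = fun z => D z / Δf z ^ m := by
    intro γ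
    funext z
    have hd : denom γ z ≠ 0 := denom_ne_zero γ z
    have hdw : denom γ z ^ w ≠ 0 := zpow_ne_zero _ hd
    have hd12 : denom γ z ^ (12 : ℤ) ≠ 0 := zpow_ne_zero _ hd
    have hΔz : Δf z ≠ 0 := Δf_ne_zero z
    rw [SL_slash_apply, hDlaw, Δf_smul, hpow, zpow_neg, mul_pow]
    field_simp
  have hW : IsMF ⊤ w (fun z => D z / Δf z ^ m) := by
    refine ⟨hDmd.div hΔmd hΔne, fun γ _ => hWinv γ, fun γ => ?_⟩
    rw [hWinv γ]
    exact hlim.isBigO_one ℝ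
  -- the form `V = Δ ^ m / D`
  have hVinv : ∀ γ : SL(2, ℤ), (fun z => Δf z ^ m / D z) ∣[-w] γ = fun z => Δf z ^ m / D z := by
    intro γ
    funext z
    have hd : denom γ z ≠ 0 := denom_ne_zero γ z
    have hdw : denom γ z ^ w ≠ 0 := zpow_ne_zero _ hd
    have hd12 : denom γ z ^ (12 : ℤ) ≠ 0 := zpow_ne_zero _ hd
    have hΔz : Δf z ≠ 0 := Δf_ne_zero z
    have hDz : D z ≠ 0 := hDne z
    rw [SL_slash_apply, hDlaw, Δf_smul, hpow, neg_neg, mul_pow]
    field_simp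
  have hVlim : Tendsto (fun z => Δf z ^ m / D z) atImInfty (𝓝 c⁻¹) := by
    have := hlim.inv₀ hc
    refine this.congr (fun z => ?_)
    rw [inv_div]
  have hV : IsMF ⊤ (-w) (fun z => Δf z ^ m / D z) := by
    refine ⟨hΔmd.div hDmd hDne, fun γ _ => hVinv γ, fun γ => ?_⟩
    rw [hVinv γ]
    exact hVlim.isBigO_one ℝ
  have hw0 : w = 0 := weight_eq_zero_of_unit hW hV UpperHalfPlane.I
    (div_ne_zero (hDne _) (hΔne _)) (div_ne_zero (hΔne _) (hDne _))
  have hS' : S = ((∑ i, B.k i : ℕ) : ℤ) := by rw [hS]; push_cast; rfl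
  rw [hw, hS'] at hw0
  omega

/-- The weights of a graded basis add up to `6 (index − cusps)`, given the asymptotics of
`det(Asq)²` at `i∞` and `cusps ≤ index` (version with `-1 ∈ Γ`). -/
theorem sum_weights_of_asymp [Γ.FiniteIndex] (hneg : (-1 : SL(2, ℤ)) ∈ Γ) (B : GBasis Γ)
    (ε : B.ι ≃ SL(2, ℤ) ⧸ Γ)
    (hasymp : ∃ c : ℂ, c ≠ 0 ∧
      Tendsto (fun z => (B.Asq ε z).det ^ 2 / Δf z ^ (Γ.index - cuspsNum Γ)) atImInfty (𝓝 c))
    (hle : cuspsNum Γ ≤ Γ.index) :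
    ∑ i, B.k i + 6 * cuspsNum Γ = 6 * Γ.index :=
  sum_weights_of_det B ε (fun z => B.det_Asq_ne_zero hneg ε z) hasymp hle

end SumWeights

end

end Fermat.Agent.S20
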